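/-
S30 / Program E, brick (B3) = DESCENT `ℂ → ℚ̄` BY A CANONICAL REPRESENTATIVE (helper253).

Abstract form, no modular input.  `K` algebraically closed of characteristic `0`, `k ⊆ K`,
`jj ∈ K((q))` of negative `q`-order with `Aut(K/k)`-fixed coefficients (think `jj = j(q)`),
`Fld ⊆ K((q))` a field containing `K(jj)`, stable under the coefficientwise action of `Aut(K/k)`,
every element of which has degree `≤ d` over `K(jj)` (think `Fld = ℂ(j(q^e) : e ∣ N)`, `d = ψ(N)`).
`H` a finite set of nonzero series with `h ^ m ∈ Fld` (think: one `m`-th root `h_c` of a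
representative `f_c` of each Kummer class `c`), such that `Aut(K/k)` permutes the lines `Fld * h`.

Main results
* `exists_mul_algebraic`   : every line `Fld * h` contains a nonzero series `g * h` (`g ∈ Fld`)
                             all of whose coefficients are algebraic over `k`;
* `exists_mul_algebraic'`  : the same with the degree hypothesis given by polynomials in `K[X][Y]`;
* `exists_mul_eq_coeffMap` : for `k = ℚ`: `g * h = coeffMap j y` with `y ∈ L((q))`, for any
                             algebraically closed `L` of characteristic `0` and `j : L →+* K`;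
* `exists_coeffMap_eq_of_isAlgebraic` : a series with algebraic coefficients comes from `L((q))`.

Proof.  `V(h, r) := {x ∈ Fld * h : x integral over K[jj], x * jj⁻¹ ^ r integral over the ring
O_∞ of elements of K(jj) that are power series in q}` is a `K`-subspace of `K((q))`, nonzero for
`r` large (`exists_ne_zero_mem_descentSpace`), on which `q`-orders are bounded above
(`order_le_of_mem_descentSpace`; minimal polynomial of `x ^ m` over `K(jj)`, both rings being
integrally closed with fraction field `K(jj)`).  The element of maximal order with leading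
coefficient `1` is unique (`eq_of_max_order`), hence is sent by every `σ ∈ Aut(K/k)` to the
corresponding element for the line `σ(Fld * h)`; so each of its coefficients has a finite orbit
and is algebraic (`Lib.FiniteOrbitAlg`).
-/
import Mathlib
import Fermat.Prelude.Def_ModularCurve_LaurentCoeff
import Fermat.Agent.Lib.FiniteOrbitAlg

set_option autoImplicit false

namespace Fermat.Agent.S30.Descent

open Polynomial ModularCurve

noncomputable section

variable {K : Type*} [Field K]

/-- the `q`-adic additive valuation on Laurent series -/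
abbrev vq : AddValuation (LaurentSeries K) (WithTop ℤ) := HahnSeries.addVal ℤ K

theorem vq_eq_top {x : LaurentSeries K} : vq x = ⊤ ↔ x = 0 := by
  rw [HahnSeries.addVal_apply]; exact HahnSeries.orderTop_eq_top

theorem vq_of_ne {x : LaurentSeries K} (hx : x ≠ 0) : vq x = (x.order : WithTop ℤ) :=
  HahnSeries.addVal_apply_of_ne hx

theorem le_vq_iff {x : LaurentSeries K} {a : ℤ} :
    (a : WithTop ℤ) ≤ vq x ↔ ∀ k < a, x.coeff k = 0 := by
  rw [HahnSeries.addVal_apply]
  constructor
  · intro h k hk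
    exact HahnSeries.coeff_eq_zero_of_lt_orderTop (lt_of_lt_of_le (WithTop.coe_lt_coe.mpr hk) h)
  · intro h
    by_contra hlt
    rw [not_le] at hlt
    have hx : x ≠ 0 := by
      rintro rfl
      simp at hlt
    rw [← HahnSeries.order_eq_orderTop_of_ne_zero hx, WithTop.coe_lt_coe] at hlt
    exact (HahnSeries.coeff_order_eq_zero.not.mpr hx) (h _ hlt)

theorem vq_coeffMap (σ : K →+* K) (x : LaurentSeries K) : vq (coeffMap σ x) = vq x := by
  apply le_antisymm
  · by_cases hx : x = 0
    · subst hx; simp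
    · rw [vq_of_ne hx]
      have : (coeffMap σ x).coeff x.order ≠ 0 := by
        rw [coeffMap_coeff]
        intro h
        exact (HahnSeries.coeff_order_eq_zero.not.mpr hx) (σ.injective (by rw [h, map_zero]))
      exact HahnSeries.addVal_le_of_coeff_ne_zero this
  · by_cases hx : coeffMap σ x = 0
    · rw [hx]; simp
    · rw [vq_of_ne hx]
      have : x.coeff (coeffMap σ x).order ≠ 0 := by
        intro h
        apply HahnSeries.coeff_order_eq_zero.not.mpr hx
        rw [coeffMap_coeff, h, map_zero]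
      exact HahnSeries.addVal_le_of_coeff_ne_zero this

theorem order_coeffMap (σ : K →+* K) (x : LaurentSeries K) : (coeffMap σ x).order = x.order := by
  by_cases hx : x = 0
  · subst hx; simp
  · have hx' : coeffMap σ x ≠ 0 := by
      intro h
      have := vq_coeffMap σ x
      rw [h, AddValuation.map_zero] at this
      exact hx (vq_eq_top.mp this.symm)
    have := vq_coeffMap σ x
    rw [vq_of_ne hx, vq_of_ne hx'] at this
    exact_mod_cast this

/-! ### Canonical element of maximal order -/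

theorem order_smul {c : K} (hc : c ≠ 0) (x : LaurentSeries K) : (c • x).order = x.order := by
  by_cases hx : x = 0
  · subst hx; simp
  · have hcx : c • x ≠ 0 := smul_ne_zero hc hx
    apply le_antisymm
    · apply HahnSeries.order_le_of_coeff_ne_zero
      rw [HahnSeries.coeff_smul]
      exact smul_ne_zero hc (HahnSeries.coeff_order_eq_zero.not.mpr hx)
    · apply HahnSeries.order_le_of_coeff_ne_zero
      have h := HahnSeries.coeff_order_eq_zero.not.mpr hcx
      rw [HahnSeries.coeff_smul] at h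
      intro h0
      exact h (by rw [h0, smul_zero])

/-- In a nonzero subspace whose nonzero elements have `q`-order bounded above there is an element
of maximal order with leading coefficient `1`. -/
theorem exists_max_order (V : Submodule K (LaurentSeries K)) (hV : ∃ x ∈ V, x ≠ 0) (B : ℤ)
    (hB : ∀ x ∈ V, x ≠ 0 → x.order ≤ B) :
    ∃ x ∈ V, x ≠ 0 ∧ x.coeff x.order = 1 ∧ ∀ y ∈ V, y ≠ 0 → y.order ≤ x.order := by
  classical
  obtain ⟨x0, hx0V, hx0⟩ := hV
  have hex : ∃ n : ℤ, ∃ x ∈ V, x ≠ 0 ∧ x.order = n := ⟨x0.order, x0, hx0V, hx0, rfl⟩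
  have hbd : ∀ n : ℤ, (∃ x ∈ V, x ≠ 0 ∧ x.order = n) → n ≤ B := by
    rintro n ⟨x, hxV, hx, rfl⟩
    exact hB x hxV hx
  obtain ⟨M, ⟨x, hxV, hx, hxM⟩, hmax⟩ := Int.exists_greatest_of_bdd ⟨B, hbd⟩ hex
  have hc : x.coeff x.order ≠ 0 := HahnSeries.coeff_order_eq_zero.not.mpr hx
  refine ⟨(x.coeff x.order)⁻¹ • x, V.smul_mem _ hxV, smul_ne_zero (inv_ne_zero hc) hx, ?_, ?_⟩
  · rw [order_smul (inv_ne_zero hc), HahnSeries.coeff_smul, smul_eq_mul, inv_mul_cancel₀ hc]
  · intro y hyV hy
    rw [order_smul (inv_ne_zero hc), hxM]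
    exact hmax _ ⟨y, hyV, hy, rfl⟩

/-- The element of maximal order with leading coefficient `1` is unique. -/
theorem eq_of_max_order (V : Submodule K (LaurentSeries K)) {x y : LaurentSeries K}
    (hx : x ∈ V) (hy : y ∈ V)
    (hx1 : x.coeff x.order = 1) (hy1 : y.coeff y.order = 1) (hxy : x.order = y.order)
    (hmax : ∀ z ∈ V, z ≠ 0 → z.order ≤ x.order) : x = y := by
  by_contra hne
  have hz : x - y ≠ 0 := sub_ne_zero.mpr hne
  have hzV : x - y ∈ V := V.sub_mem hx hy
  have hle := hmax _ hzV hz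
  have hc := HahnSeries.coeff_order_eq_zero.not.mpr hz
  apply hc
  rw [HahnSeries.coeff_sub]
  rcases lt_or_eq_of_le hle with hlt | heq
  · rw [HahnSeries.coeff_eq_zero_of_lt_order hlt,
      HahnSeries.coeff_eq_zero_of_lt_order (hxy ▸ hlt), sub_zero]
  · rw [heq, hx1]
    conv_lhs => rw [hxy, hy1]
    exact sub_self _

/-! ### The rings `K[jj]`, `K(jj)` and the ring at infinity -/

/-- power-series-like: all coefficients of negative index vanish -/
def IsPS (z : LaurentSeries K) : Prop := ∀ n : ℤ, n < 0 → z.coeff n = 0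

theorem isPS_iff_val (z : LaurentSeries K) : IsPS z ↔ Valued.v z ≤ 1 := by
  have h := LaurentSeries.valuation_le_iff_coeff_lt_eq_zero K (D := 0) (f := z)
  rw [neg_zero, WithZero.exp_zero] at h
  exact h.symm

theorem IsPS.order_nonneg {z : LaurentSeries K} (hz : IsPS z) : 0 ≤ z.order := by
  by_cases h0 : z = 0
  · subst h0; simp
  · by_contra hlt
    rw [not_le] at hlt
    exact (HahnSeries.coeff_order_eq_zero.not.mpr h0) (hz _ hlt)

theorem isPS_of_order_nonneg {z : LaurentSeries K} (hz : 0 ≤ z.order) : IsPS z :=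
  fun _ hn => HahnSeries.coeff_eq_zero_of_lt_order (lt_of_lt_of_le hn hz)

theorem isPS_coeffMap (σ : K →+* K) {z : LaurentSeries K} (hz : IsPS z) : IsPS (coeffMap σ z) :=
  fun n hn => by rw [coeffMap_coeff, hz n hn, map_zero]

theorem isPS_algebraMap (c : K) : IsPS (algebraMap K (LaurentSeries K) c) := by
  intro n hn
  rw [algebraMap_laurentSeries_eq_single, HahnSeries.coeff_single_of_ne (ne_of_lt hn)]

variable (jj : LaurentSeries K)

/-- `K[jj]` -/
abbrev ringA : Subalgebra K (LaurentSeries K) := Algebra.adjoin K {jj}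

/-- `K(jj)` -/
abbrev fieldE : IntermediateField K (LaurentSeries K) := IntermediateField.adjoin K {jj}

/-- the elements of `K(jj)` that are power series in `q` -/
def ringO : Subalgebra K (LaurentSeries K) where
  carrier := {z | z ∈ fieldE jj ∧ Valued.v z ≤ 1}
  mul_mem' := fun {a b} ha hb => ⟨mul_mem ha.1 hb.1, by
    rw [map_mul]; exact mul_le_one' ha.2 hb.2⟩
  add_mem' := fun {a b} ha hb => ⟨add_mem ha.1 hb.1, Valued.v.map_add_le ha.2 hb.2⟩
  algebraMap_mem' := fun c => ⟨(fieldE jj).algebraMap_mem c, (isPS_iff_val _).mp (isPS_algebraMap c)⟩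

variable {jj}

theorem mem_ringO_iff {z : LaurentSeries K} : z ∈ ringO jj ↔ z ∈ fieldE jj ∧ IsPS z := by
  rw [isPS_iff_val]; rfl

theorem ringO_le : ringO jj ≤ (fieldE jj).toSubalgebra := fun _ hz => hz.1

theorem ringA_le : ringA jj ≤ (fieldE jj).toSubalgebra :=
  IntermediateField.algebra_adjoin_le_adjoin K {jj}

theorem jj_mem_fieldE : jj ∈ fieldE jj := IntermediateField.subset_adjoin K {jj} rfl

/-- integrality is preserved by a ring endomorphism stabilising the base subalgebra -/
theorem isIntegral_of_stable (T : Subalgebra K (LaurentSeries K))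
    (f : LaurentSeries K →+* LaurentSeries K) (hf : ∀ z ∈ T, f z ∈ T) {x : LaurentSeries K}
    (hx : IsIntegral T x) : IsIntegral T (f x) :=
  IsIntegral.map_of_comp_eq (f.restrict T T hf) f (RingHom.ext fun _ => rfl) hx

/-- a monic polynomial with coefficients in `T` witnesses integrality over `T` -/
theorem isIntegral_of_monic_coeff_mem (T : Subalgebra K (LaurentSeries K)) {x : LaurentSeries K}
    (P : (LaurentSeries K)[X]) (hP : P.Monic) (hc : ∀ i, P.coeff i ∈ T) (hx : P.eval x = 0) :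
    IsIntegral T x := by
  have hl : P ∈ Polynomial.lifts (algebraMap T (LaurentSeries K)) := by
    rw [Polynomial.lifts_iff_coeff_lifts]
    intro n
    exact ⟨⟨P.coeff n, hc n⟩, rfl⟩
  obtain ⟨q, hq, -, hqm⟩ := Polynomial.lifts_and_natDegree_eq_and_monic hl hP
  refine ⟨q, hqm, ?_⟩
  rw [← Polynomial.eval_map, hq]
  exact hx

section Stable

variable (σ : K →+* K) (hσ : coeffMap σ jj = jj)
include hσ

theorem coeffMap_mem_ringA {z : LaurentSeries K} (hz : z ∈ ringA jj) :
    coeffMap σ z ∈ ringA jj := by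
  induction hz using Algebra.adjoin_induction with
  | mem x hx =>
    rw [Set.mem_singleton_iff] at hx
    rw [hx, hσ]
    exact Algebra.subset_adjoin rfl
  | algebraMap c =>
    rw [coeffMap_algebraMap]
    exact Subalgebra.algebraMap_mem _ _
  | add x y _ _ hx hy => rw [map_add]; exact add_mem hx hy
  | mul x y _ _ hx hy => rw [map_mul]; exact mul_mem hx hy

theorem coeffMap_mem_fieldE {z : LaurentSeries K} (hz : z ∈ fieldE jj) :
    coeffMap σ z ∈ fieldE jj := by
  induction hz using IntermediateField.adjoin_induction with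
  | mem x hx =>
    rw [Set.mem_singleton_iff] at hx
    rw [hx, hσ]
    exact jj_mem_fieldE
  | algebraMap c =>
    rw [coeffMap_algebraMap]
    exact (fieldE jj).algebraMap_mem _
  | add x y _ _ hx hy => rw [map_add]; exact add_mem hx hy
  | inv x _ hx => rw [map_inv₀]; exact inv_mem hx
  | mul x y _ _ hx hy => rw [map_mul]; exact mul_mem hx hy

theorem coeffMap_mem_ringO {z : LaurentSeries K} (hz : z ∈ ringO jj) :
    coeffMap σ z ∈ ringO jj := by
  rw [mem_ringO_iff] at hz ⊢
  exact ⟨coeffMap_mem_fieldE σ hσ hz.1, isPS_coeffMap σ hz.2⟩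

end Stable

/-! ### The descent space -/

theorem smul_eq_algebraMap_mul (c : K) (x : LaurentSeries K) :
    c • x = algebraMap K (LaurentSeries K) c * x := by
  rw [algebraMap_laurentSeries_eq_single, HahnSeries.single_zero_mul_eq_smul]

theorem isIntegral_of_mem (T : Subalgebra K (LaurentSeries K)) {z : LaurentSeries K}
    (hz : z ∈ T) : IsIntegral T z :=
  isIntegral_algebraMap (R := T) (A := LaurentSeries K) (x := ⟨z, hz⟩)

variable (jj) in
/-- `V(h, r)`: the elements `g * h` (`g ∈ Fld`) that are integral over `K[jj]` and such that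
`x * jj⁻¹ ^ r` is integral over the ring at infinity. -/
def descentSpace (Fld : IntermediateField K (LaurentSeries K)) (h : LaurentSeries K) (r : ℕ) :
    Submodule K (LaurentSeries K) where
  carrier := {x | (∃ g ∈ Fld, x = g * h) ∧ IsIntegral (ringA jj) x ∧
    IsIntegral (ringO jj) (x * jj⁻¹ ^ r)}
  add_mem' := by
    rintro x y ⟨⟨g₁, hg₁, rfl⟩, hx1, hx2⟩ ⟨⟨g₂, hg₂, rfl⟩, hy1, hy2⟩
    refine ⟨⟨g₁ + g₂, add_mem hg₁ hg₂, by ring⟩, hx1.add hy1, ?_⟩
    rw [add_mul]
    exact hx2.add hy2
  zero_mem' := ⟨⟨0, zero_mem _, by simp⟩, isIntegral_zero, by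
    rw [zero_mul]; exact isIntegral_zero⟩
  smul_mem' := by
    rintro c x ⟨⟨g, hg, rfl⟩, hx1, hx2⟩
    have hcA : IsIntegral (ringA jj) (algebraMap K (LaurentSeries K) c) :=
      isIntegral_of_mem _ (Subalgebra.algebraMap_mem _ c)
    have hcO : IsIntegral (ringO jj) (algebraMap K (LaurentSeries K) c) :=
      isIntegral_of_mem _ (Subalgebra.algebraMap_mem _ c)
    show c • (g * h) ∈ _
    rw [smul_eq_algebraMap_mul]
    refine ⟨⟨algebraMap K (LaurentSeries K) c * g, mul_mem (IntermediateField.algebraMap_mem _ c) hg,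
      by ring⟩, hcA.mul hx1, ?_⟩
    rw [mul_assoc]
    exact hcO.mul hx2

theorem mem_descentSpace {Fld : IntermediateField K (LaurentSeries K)} {h : LaurentSeries K}
    {r : ℕ} {x : LaurentSeries K} :
    x ∈ descentSpace jj Fld h r ↔ (∃ g ∈ Fld, x = g * h) ∧ IsIntegral (ringA jj) x ∧
      IsIntegral (ringO jj) (x * jj⁻¹ ^ r) := Iff.rfl

/-- A coefficient automorphism fixing `jj` and stabilising `Fld` maps `V(h, r)` into `V(h', r)`
as soon as it maps the line `Fld * h` into `Fld * h'`. -/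
theorem coeffMap_mem_descentSpace (σ : K →+* K) (hσ : coeffMap σ jj = jj)
    {Fld : IntermediateField K (LaurentSeries K)} (hσF : ∀ w ∈ Fld, coeffMap σ w ∈ Fld)
    {h h' g0 : LaurentSeries K} (hg0 : g0 ∈ Fld) (hh : coeffMap σ h = g0 * h') (r : ℕ)
    {x : LaurentSeries K} (hx : x ∈ descentSpace jj Fld h r) :
    coeffMap σ x ∈ descentSpace jj Fld h' r := by
  obtain ⟨⟨g, hg, rfl⟩, hx1, hx2⟩ := hx
  refine ⟨⟨coeffMap σ g * g0, mul_mem (hσF g hg) hg0, by rw [map_mul, hh]; ring⟩, ?_, ?_⟩
  · exact isIntegral_of_stable _ (coeffMap σ) (fun z hz => coeffMap_mem_ringA σ hσ hz) hx1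
  · have := isIntegral_of_stable _ (coeffMap σ) (fun z hz => coeffMap_mem_ringO σ hσ hz) hx2
    rwa [map_mul, map_pow, map_inv₀, hσ] at this

/-! ### Non-emptiness and monotonicity -/

theorem ne_zero_of_order_neg (hord : jj.order < 0) : jj ≠ 0 := by
  rintro rfl
  simp at hord

theorem order_inv (hord : jj.order < 0) : (jj⁻¹).order = -jj.order := by
  have h0 := ne_zero_of_order_neg hord
  have h := HahnSeries.order_mul h0 (inv_ne_zero h0)
  rw [mul_inv_cancel₀ h0, HahnSeries.order_one] at h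
  linarith

theorem inv_mem_ringO (hord : jj.order < 0) : jj⁻¹ ∈ ringO jj := by
  rw [mem_ringO_iff]
  refine ⟨inv_mem jj_mem_fieldE, isPS_of_order_nonneg ?_⟩
  rw [order_inv hord]
  linarith

theorem descentSpace_mono (hord : jj.order < 0) {Fld : IntermediateField K (LaurentSeries K)}
    {h : LaurentSeries K} {r r' : ℕ} (hrr : r ≤ r') :
    descentSpace jj Fld h r ≤ descentSpace jj Fld h r' := by
  rintro x ⟨hx0, hx1, hx2⟩
  refine ⟨hx0, hx1, ?_⟩
  obtain ⟨k, rfl⟩ := Nat.exists_eq_add_of_le hrr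
  rw [pow_add, ← mul_assoc]
  exact hx2.mul (isIntegral_of_mem _ (pow_mem (inv_mem_ringO hord) k))

theorem aeval_mul_inv_pow_mem (hord : jj.order < 0) (q : K[X]) {r : ℕ} (hq : q.natDegree ≤ r) :
    aeval jj q * jj⁻¹ ^ r ∈ ringO jj := by
  have h0 := ne_zero_of_order_neg hord
  rw [Polynomial.aeval_eq_sum_range' (Nat.lt_succ_of_le hq), Finset.sum_mul]
  refine Subalgebra.sum_mem _ fun i hi => ?_
  have hi' : i ≤ r := Nat.lt_succ_iff.mp (Finset.mem_range.mp hi)
  have hpow : jj ^ i * jj⁻¹ ^ r = jj⁻¹ ^ (r - i) := by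
    obtain ⟨k, rfl⟩ := Nat.exists_eq_add_of_le hi'
    rw [Nat.add_sub_cancel_left, pow_add, ← mul_assoc, ← mul_pow, mul_inv_cancel₀ h0, one_pow,
      one_mul]
  rw [Algebra.smul_def, mul_assoc, hpow]
  exact mul_mem (Subalgebra.algebraMap_mem _ _) (pow_mem (inv_mem_ringO hord) _)

theorem exists_isIntegral_ringO (hord : jj.order < 0) {x : LaurentSeries K}
    (hx : IsIntegral (ringA jj) x) : ∃ r : ℕ, IsIntegral (ringO jj) (x * jj⁻¹ ^ r) := by
  classical
  obtain ⟨p, hp, hpx⟩ := hx
  have hq : ∀ i : ℕ, ∃ q : K[X], aeval jj q = ((p.coeff i : ringA jj) : LaurentSeries K) := by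
    intro i
    have h : ((p.coeff i : ringA jj) : LaurentSeries K) ∈ Algebra.adjoin K {jj} := (p.coeff i).2
    rw [Algebra.adjoin_singleton_eq_range_aeval] at h
    exact h
  choose q hq using hq
  set n := p.natDegree with hn
  set r := (Finset.range (n + 1)).sup (fun i => (q i).natDegree) with hr
  set P : (LaurentSeries K)[X] := p.map (algebraMap (ringA jj) (LaurentSeries K)) with hPdef
  have hPm : P.Monic := hp.map _
  have hPn : P.natDegree = n := hp.natDegree_map _
  have hPx : P.eval x = 0 := by rw [hPdef, Polynomial.eval_map]; exact hpx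
  set s : LaurentSeries K := jj⁻¹ ^ r with hs
  have hsO : s ∈ ringO jj := pow_mem (inv_mem_ringO hord) r
  refine ⟨r, ?_⟩
  rw [mul_comm]
  refine isIntegral_of_monic_coeff_mem (ringO jj) (P.scaleRoots s)
    ((Polynomial.monic_scaleRoots_iff s).mpr hPm) ?_ ?_
  · intro i
    rw [Polynomial.coeff_scaleRoots, hPn]
    rcases lt_trichotomy i n with hlt | heq | hgt
    · have hc : P.coeff i = aeval jj (q i) := by
        rw [hPdef, Polynomial.coeff_map, hq]; rfl
      have hdeg : (q i).natDegree ≤ r :=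
        Finset.le_sup (f := fun i => (q i).natDegree)
          (Finset.mem_range.mpr (Nat.lt_succ_of_lt hlt))
      obtain ⟨k, hk⟩ : ∃ k, n - i = k + 1 := ⟨n - i - 1, by omega⟩
      rw [hk, pow_succ', ← mul_assoc, hc]
      exact mul_mem (aeval_mul_inv_pow_mem hord (q i) hdeg) (pow_mem hsO k)
    · rw [heq, ← hPn, hPm.coeff_natDegree, Nat.sub_self, pow_zero, one_mul]
      exact one_mem _
    · rw [Polynomial.coeff_eq_zero_of_natDegree_lt (by rw [hPn]; exact hgt), zero_mul]
      exact zero_mem _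
  · rw [Polynomial.scaleRoots_eval_mul, hPx, mul_zero]

open scoped IntermediateField.algebraAdjoinAdjoin in
theorem exists_ne_zero_mem_descentSpace (hord : jj.order < 0)
    {Fld : IntermediateField K (LaurentSeries K)} (hjF : jj ∈ Fld) {h : LaurentSeries K}
    (h0 : h ≠ 0) (halg : IsAlgebraic (fieldE jj) h) :
    ∃ r : ℕ, ∃ x ∈ descentSpace jj Fld h r, x ≠ 0 := by
  have hA : IsAlgebraic (ringA jj) h :=
    (IsFractionRing.isAlgebraic_iff (ringA jj) (fieldE jj) (LaurentSeries K)).mpr halg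
  obtain ⟨y, hy0, hy⟩ := hA.exists_integral_multiple
  have hy' : IsIntegral (ringA jj) ((y : LaurentSeries K) * h) := hy
  obtain ⟨r, hr⟩ := exists_isIntegral_ringO hord hy'
  have hle : ringA jj ≤ Fld.toSubalgebra :=
    Algebra.adjoin_le (Set.singleton_subset_iff.mpr hjF)
  refine ⟨r, (y : LaurentSeries K) * h, ⟨⟨y, hle y.2, rfl⟩, hy', hr⟩, mul_ne_zero ?_ h0⟩
  exact fun hy => hy0 (Subtype.ext hy)

/-! ### `jj` is transcendental; nonzero elements of `K[jj]` have order `≤ 0` -/

theorem order_algebraMap {c : K} (hc : c ≠ 0) :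
    (algebraMap K (LaurentSeries K) c).order = 0 := by
  rw [algebraMap_laurentSeries_eq_single, HahnSeries.order_single hc]

theorem orderTop_aeval (hord : jj.order < 0) (p : K[X]) (hp : p ≠ 0) :
    (aeval jj p).orderTop = ((p.natDegree * jj.order : ℤ) : WithTop ℤ) := by
  have h0 := ne_zero_of_order_neg hord
  induction' hn : p.natDegree using Nat.strong_induction_on with n ih generalizing p
  have hlc : p.leadingCoeff ≠ 0 := Polynomial.leadingCoeff_ne_zero.mpr hp
  set y : LaurentSeries K := algebraMap K (LaurentSeries K) p.leadingCoeff * jj ^ n with hy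
  have hy0 : y ≠ 0 := mul_ne_zero (by
    rw [algebraMap_laurentSeries_eq_single]; exact HahnSeries.single_ne_zero hlc) (pow_ne_zero _ h0)
  have hyord : y.orderTop = ((n * jj.order : ℤ) : WithTop ℤ) := by
    rw [← HahnSeries.order_eq_orderTop_of_ne_zero hy0, hy,
      HahnSeries.order_mul (by
        rw [algebraMap_laurentSeries_eq_single]; exact HahnSeries.single_ne_zero hlc)
        (pow_ne_zero _ h0), order_algebraMap hlc, HahnSeries.order_pow, zero_add, nsmul_eq_mul]
  have hdec : aeval jj p = aeval jj p.eraseLead + y := by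
    conv_lhs => rw [← p.eraseLead_add_C_mul_X_pow]
    rw [map_add, map_mul, aeval_C, map_pow, aeval_X, hn]
  rw [hdec]
  by_cases hzero : p.eraseLead = 0
  · rw [hzero, map_zero, zero_add, hyord]
  · have hlt : p.eraseLead.natDegree < p.natDegree :=
      (p.eraseLead_natDegree_lt_or_eraseLead_eq_zero).resolve_right hzero
    have := ih p.eraseLead.natDegree (hn ▸ hlt) p.eraseLead hzero rfl
    rw [HahnSeries.orderTop_add_eq_right, hyord]
    rw [this, hyord, WithTop.coe_lt_coe]
    have hlt' : (p.eraseLead.natDegree : ℤ) < n := by exact_mod_cast (hn ▸ hlt)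
    nlinarith

theorem aeval_ne_zero (hord : jj.order < 0) (p : K[X]) (hp : p ≠ 0) : aeval jj p ≠ 0 := by
  intro h
  have := orderTop_aeval hord p hp
  rw [h, HahnSeries.orderTop_zero] at this
  exact WithTop.top_ne_coe this

theorem transcendental_jj (hord : jj.order < 0) : Transcendental K jj := by
  rw [transcendental_iff]
  intro p hp
  by_contra h
  exact aeval_ne_zero hord p h hp

theorem order_nonpos_of_mem_ringA (hord : jj.order < 0) {a : LaurentSeries K}
    (ha : a ∈ ringA jj) (ha0 : a ≠ 0) : a.order ≤ 0 := by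
  have ha' : a ∈ Algebra.adjoin K {jj} := ha
  rw [Algebra.adjoin_singleton_eq_range_aeval] at ha'
  obtain ⟨p, rfl⟩ := ha'
  have hp : p ≠ 0 := by
    rintro rfl
    simp at ha0
  have h := orderTop_aeval hord p hp
  have h2 : (aeval jj p).orderTop = (((aeval jj p).order : ℤ) : WithTop ℤ) :=
    (HahnSeries.order_eq_orderTop_of_ne_zero ha0).symm
  have h3 : (aeval jj p).order = p.natDegree * jj.order := by
    rw [h2] at h
    exact_mod_cast h
  have : (0 : ℤ) ≤ p.natDegree := Int.natCast_nonneg _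
  change ((aeval jj) p).order ≤ 0
  rw [h3]
  nlinarith

theorem isIntegrallyClosed_ringA (hord : jj.order < 0) : IsIntegrallyClosed (ringA jj) :=
  IsIntegrallyClosed.of_equiv
    (Polynomial.algEquivOfTranscendental K jj (transcendental_jj hord)).toRingEquiv

/-! ### The order bound -/

/-- the subring of power series -/
abbrev psRing : Subring (LaurentSeries K) :=
  (Valued.v : Valuation (LaurentSeries K) (WithZero (Multiplicative ℤ))).integer

theorem mem_psRing_iff {z : LaurentSeries K} : z ∈ (psRing : Subring (LaurentSeries K)) ↔ IsPS z :=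
  (isPS_iff_val z).symm

/-- an element integral over the ring at infinity is a power series -/
theorem isPS_of_isIntegral_ringO {y : LaurentSeries K} (hy : IsIntegral (ringO jj) y) :
    IsPS y := by
  rw [← mem_psRing_iff]
  have h : IsIntegral (psRing : Subring (LaurentSeries K)) y :=
    IsIntegral.map_of_comp_eq
      ((RingHom.id (LaurentSeries K)).restrict (ringO jj) (psRing : Subring (LaurentSeries K))
        (fun x hx => hx.2))
      (RingHom.id _) (RingHom.ext fun _ => rfl) hy
  exact (Valuation.integer.integers _).mem_of_integral h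

/-- minimal polynomial of a scalar multiple -/
theorem minpoly_smul {E L : Type*} [Field E] [Field L] [Algebra E L] {w : L}
    (hw : IsIntegral E w) {s : E} (hs : s ≠ 0) :
    minpoly E (algebraMap E L s * w) = (minpoly E w).scaleRoots s := by
  have hw' : IsIntegral E (algebraMap E L s * w) := isIntegral_algebraMap.mul hw
  have h1 : minpoly E (algebraMap E L s * w) ∣ (minpoly E w).scaleRoots s :=
    minpoly.dvd _ _ (Polynomial.scaleRoots_aeval_eq_zero (minpoly.aeval E w))
  have h2 : minpoly E w ∣ (minpoly E (algebraMap E L s * w)).scaleRoots s⁻¹ := by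
    apply minpoly.dvd
    have := Polynomial.scaleRoots_aeval_eq_zero (r := s⁻¹)
      (minpoly.aeval E (algebraMap E L s * w))
    rwa [← mul_assoc, ← map_mul, inv_mul_cancel₀ hs, map_one, one_mul] at this
  have hm1 : ((minpoly E w).scaleRoots s).Monic :=
    (Polynomial.monic_scaleRoots_iff s).mpr (minpoly.monic hw)
  have hm2 : ((minpoly E (algebraMap E L s * w)).scaleRoots s⁻¹).Monic :=
    (Polynomial.monic_scaleRoots_iff s⁻¹).mpr (minpoly.monic hw')
  have hd2 := Polynomial.natDegree_le_of_dvd h2 hm2.ne_zero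
  rw [Polynomial.natDegree_scaleRoots] at hd2
  exact (Polynomial.eq_of_monic_of_dvd_of_natDegree_le (minpoly.monic hw') hm1 h1
    (by rw [Polynomial.natDegree_scaleRoots]; exact hd2)).symm

open scoped IntermediateField.algebraAdjoinAdjoin in
/-- **Order bound.**  A nonzero `w`, integral over `K[jj]`, with `w * jj⁻¹ ^ R` integral over the
ring at infinity and of degree `≤ d` over `K(jj)`, has `q`-order at most `d * R * (-ord jj)`. -/
theorem order_le_of_integral (hord : jj.order < 0) {w : LaurentSeries K} (hw0 : w ≠ 0)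
    (hwA : IsIntegral (ringA jj) w) (R : ℕ) (hwO : IsIntegral (ringO jj) (w * jj⁻¹ ^ R))
    (d : ℕ) (hd : ∃ P : (fieldE jj)[X], P ≠ 0 ∧ P.natDegree ≤ d ∧ aeval w P = 0) :
    w.order ≤ d * (R * (-jj.order)) := by
  classical
  have hj0 := ne_zero_of_order_neg hord
  have := isIntegrallyClosed_ringA hord
  let algOE : Algebra (ringO jj) (fieldE jj) :=
    (Subalgebra.inclusion (ringO_le (jj := jj))).toAlgebra
  have towerO : IsScalarTower (ringO jj) (fieldE jj) (LaurentSeries K) :=
    Subalgebra.inclusion.isScalarTower_right (ringO_le (jj := jj)) _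
  have hv : (Valuation.comap (algebraMap (fieldE jj) (LaurentSeries K))
      (Valued.v : Valuation (LaurentSeries K) (WithZero (Multiplicative ℤ)))).Integers
      (ringO jj) :=
    { hom_inj := fun a b hab => Subtype.ext (congrArg (fun z : fieldE jj => (z : LaurentSeries K)) hab)
      map_le_one := fun x => x.2.2
      exists_of_le_one := fun r hr => ⟨⟨r, r.2, hr⟩, rfl⟩ }
  have := hv.isFractionRing
  have := hv.isIntegrallyClosed
  have hwE : IsIntegral (fieldE jj) w := hwA.tower_top
  set μ := minpoly (fieldE jj) w with hμ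
  have hμA : μ = (minpoly (ringA jj) w).map (algebraMap (ringA jj) (fieldE jj)) :=
    minpoly.isIntegrallyClosed_eq_field_fractions' (fieldE jj) hwA
  obtain ⟨P, hP0, hPd, hPw⟩ := hd
  have hn_le : μ.natDegree ≤ d :=
    (Polynomial.natDegree_le_of_dvd (minpoly.dvd _ _ hPw) hP0).trans hPd
  have hn_pos : 0 < μ.natDegree := minpoly.natDegree_pos hwE
  set sE : fieldE jj := (⟨jj, jj_mem_fieldE⟩ : fieldE jj)⁻¹ ^ R with hsE
  have hsE0 : sE ≠ 0 :=
    pow_ne_zero _ (inv_ne_zero (fun h => hj0 (congrArg (fun z : fieldE jj => (z : LaurentSeries K)) h)))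
  have hsval : algebraMap (fieldE jj) (LaurentSeries K) sE = jj⁻¹ ^ R := by
    rw [hsE, map_pow, map_inv₀]; rfl
  have hw' : algebraMap (fieldE jj) (LaurentSeries K) sE * w = w * jj⁻¹ ^ R := by
    rw [hsval, mul_comm]
  set μ' := minpoly (fieldE jj) (w * jj⁻¹ ^ R) with hμ'
  have hrel : μ' = μ.scaleRoots sE := by
    rw [hμ', ← hw']; exact minpoly_smul hwE hsE0
  have hμ'O : μ' = (minpoly (ringO jj) (w * jj⁻¹ ^ R)).map (algebraMap (ringO jj) (fieldE jj)) :=
    minpoly.isIntegrallyClosed_eq_field_fractions' (fieldE jj) hwO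
  set c0 : fieldE jj := μ.coeff 0 with hc0
  have hc0ne : c0 ≠ 0 := minpoly.coeff_zero_ne_zero hwE hw0
  have hc0A : (c0 : LaurentSeries K) ∈ ringA jj := by
    rw [hc0, hμA, Polynomial.coeff_map]
    exact ((minpoly (ringA jj) w).coeff 0).2
  have hc0ne' : (c0 : LaurentSeries K) ≠ 0 := fun h => hc0ne (Subtype.ext h)
  have hc0ord : (c0 : LaurentSeries K).order ≤ 0 := order_nonpos_of_mem_ringA hord hc0A hc0ne'
  have hcoeffPS : ∀ i, IsPS ((μ'.coeff i : fieldE jj) : LaurentSeries K) := by
    intro i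
    rw [hμ'O, Polynomial.coeff_map]
    exact (mem_ringO_iff.mp ((minpoly (ringO jj) (w * jj⁻¹ ^ R)).coeff i).2).2
  have hw'PS : IsPS (w * jj⁻¹ ^ R) := isPS_of_isIntegral_ringO hwO
  set u : LaurentSeries K := aeval (w * jj⁻¹ ^ R) μ'.divX with hu
  have huPS : IsPS u := by
    rw [← mem_psRing_iff, hu, Polynomial.aeval_eq_sum_range]
    refine Subring.sum_mem _ fun i _ => ?_
    rw [Algebra.smul_def, Polynomial.coeff_divX]
    exact mul_mem (mem_psRing_iff.mpr (hcoeffPS (i + 1))) (pow_mem (mem_psRing_iff.mpr hw'PS) i)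
  have hrel2 : u * (w * jj⁻¹ ^ R) + (c0 : LaurentSeries K) * (jj⁻¹ ^ R) ^ μ.natDegree = 0 := by
    have h := minpoly.aeval (fieldE jj) (w * jj⁻¹ ^ R)
    rw [← hμ'] at h
    have hc : μ'.coeff 0 = c0 * sE ^ μ.natDegree := by
      rw [hrel, Polynomial.coeff_scaleRoots, Nat.sub_zero]
    rw [← μ'.divX_mul_X_add, map_add, map_mul, aeval_X, aeval_C, hc, map_mul, map_pow, hsval] at h
    exact h
  -- orders
  set S : LaurentSeries K := jj⁻¹ ^ R with hS
  clear_value S
  have hS0 : S ≠ 0 := by rw [hS]; exact pow_ne_zero _ (inv_ne_zero hj0)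
  have hSord : S.order = R * (-jj.order) := by
    rw [hS, HahnSeries.order_pow, order_inv hord, nsmul_eq_mul]
  have hW0 : w * S ≠ 0 := mul_ne_zero hw0 hS0
  have hcS0 : (c0 : LaurentSeries K) * S ^ μ.natDegree ≠ 0 :=
    mul_ne_zero hc0ne' (pow_ne_zero _ hS0)
  have hu0 : u ≠ 0 := by
    rintro h
    rw [h, zero_mul, zero_add] at hrel2
    exact hcS0 hrel2
  have huord : 0 ≤ u.order := huPS.order_nonneg
  have heq : u * (w * S) = -((c0 : LaurentSeries K) * S ^ μ.natDegree) :=
    eq_neg_of_add_eq_zero_left hrel2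
  have h1 : (u * (w * S)).order = u.order + (w.order + S.order) := by
    rw [HahnSeries.order_mul hu0 hW0, HahnSeries.order_mul hw0 hS0]
  have h2 : (-((c0 : LaurentSeries K) * S ^ μ.natDegree)).order
      = (c0 : LaurentSeries K).order + μ.natDegree * S.order := by
    rw [HahnSeries.order_neg, HahnSeries.order_mul hc0ne' (pow_ne_zero _ hS0),
      HahnSeries.order_pow, nsmul_eq_mul]
  rw [heq, h2] at h1
  have hSnn : 0 ≤ S.order := by
    rw [hSord]; exact mul_nonneg (Int.natCast_nonneg _) (by linarith)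
  have hn1 : (1 : ℤ) ≤ μ.natDegree := by exact_mod_cast hn_pos
  have hnd : (μ.natDegree : ℤ) ≤ d := by exact_mod_cast hn_le
  rw [← hSord]
  nlinarith

/-! ### The descent theorem -/

theorem order_le_of_mem_descentSpace (hord : jj.order < 0)
    {Fld : IntermediateField K (LaurentSeries K)} {h : LaurentSeries K} {m : ℕ} (hm : 0 < m)
    (hpow : h ^ m ∈ Fld) (d : ℕ)
    (hd : ∀ w ∈ Fld, ∃ P : (fieldE jj)[X], P ≠ 0 ∧ P.natDegree ≤ d ∧ aeval w P = 0)
    (r : ℕ) {x : LaurentSeries K} (hx : x ∈ descentSpace jj Fld h r) (hx0 : x ≠ 0) :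
    x.order ≤ d * (r * (-jj.order)) := by
  obtain ⟨⟨g, hg, rfl⟩, hx1, hx2⟩ := hx
  have hwF : (g * h) ^ m ∈ Fld := by
    rw [mul_pow]; exact mul_mem (pow_mem hg m) hpow
  have hw0 : (g * h) ^ m ≠ 0 := pow_ne_zero _ hx0
  have hwO : IsIntegral (ringO jj) ((g * h) ^ m * jj⁻¹ ^ (r * m)) := by
    rw [pow_mul, ← mul_pow]; exact hx2.pow m
  have hb := order_le_of_integral hord hw0 (hx1.pow m) (r * m) hwO d (hd _ hwF)
  rw [HahnSeries.order_pow, nsmul_eq_mul] at hb
  have hm' : (0 : ℤ) < m := by exact_mod_cast hm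
  push_cast at hb
  have h2 : (m : ℤ) * (g * h).order ≤ m * (d * (r * (-jj.order))) := by
    calc (m : ℤ) * (g * h).order ≤ d * (r * m * (-jj.order)) := hb
      _ = m * (d * (r * (-jj.order))) := by ring
  exact le_of_mul_le_mul_left h2 hm'

theorem coeffMap_symm_coeffMap {k : Type*} [Field k] [Algebra k K] (σ : K ≃ₐ[k] K)
    (x : LaurentSeries K) :
    coeffMap (σ.symm : K →+* K) (coeffMap (σ : K →+* K) x) = x := by
  rw [coeffMap_coeffMap,
    coeffMap_congr (g := RingHom.id K) (RingHom.ext fun a => σ.symm_apply_apply a), coeffMap_id]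

/-- **Descent by a canonical representative.**

`K` algebraically closed of characteristic `0`, `k` a subfield; `jj` a Laurent series of negative
order whose coefficients are fixed by `Aut(K/k)`; `Fld ⊆ K((q))` a field containing `K(jj)`, stable
under the coefficientwise action of `Aut(K/k)`, all of whose elements have degree `≤ d` over
`K(jj)`.  Let `H` be a finite set of nonzero series with `h ^ m ∈ Fld`, such that `Aut(K/k)`
permutes the lines `Fld * h` (`h ∈ H`).  Then every line `Fld * h` contains a nonzero series with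
coefficients algebraic over `k`. -/
theorem exists_mul_algebraic {k : Type*} [Field k] [Algebra k K] [IsAlgClosed K] [CharZero K]
    (jj : LaurentSeries K) (hord : jj.order < 0)
    (hjj : ∀ σ : K ≃ₐ[k] K, coeffMap (σ : K →+* K) jj = jj)
    (Fld : IntermediateField K (LaurentSeries K)) (hjF : jj ∈ Fld)
    (hσF : ∀ σ : K ≃ₐ[k] K, ∀ w ∈ Fld, coeffMap (σ : K →+* K) w ∈ Fld)
    (d : ℕ) (hd : ∀ w ∈ Fld, ∃ P : (fieldE jj)[X], P ≠ 0 ∧ P.natDegree ≤ d ∧ aeval w P = 0)
    (m : ℕ) (hm : 0 < m)
    (H : Set (LaurentSeries K)) (hH : H.Finite) (h0 : ∀ h ∈ H, h ≠ 0)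
    (hpow : ∀ h ∈ H, h ^ m ∈ Fld)
    (hperm : ∀ σ : K ≃ₐ[k] K, ∀ h ∈ H, ∃ h' ∈ H, ∃ g ∈ Fld, g ≠ 0 ∧
      coeffMap (σ : K →+* K) h = g * h') :
    ∀ h ∈ H, ∃ g ∈ Fld, g ≠ 0 ∧ ∀ n : ℤ, IsAlgebraic k ((g * h).coeff n) := by
  classical
  have halg : ∀ h ∈ H, IsAlgebraic (fieldE jj) h := by
    intro h hh
    obtain ⟨P, hP0, -, hPw⟩ := hd _ (hpow h hh)
    exact IsAlgebraic.of_pow hm ⟨P, hP0, hPw⟩
  have hex : ∀ h ∈ H, ∃ r : ℕ, ∃ x ∈ descentSpace jj Fld h r, x ≠ 0 := fun h hh =>
    exists_ne_zero_mem_descentSpace hord hjF (h0 h hh) (halg h hh)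
  obtain ⟨r, hr⟩ : ∃ r : ℕ, ∀ h ∈ H, ∃ x ∈ descentSpace jj Fld h r, x ≠ 0 := by
    choose! rf hrf using hex
    refine ⟨hH.toFinset.sup rf, fun h hh => ?_⟩
    obtain ⟨x, hx, hx0⟩ := hrf h hh
    exact ⟨x, descentSpace_mono hord (Finset.le_sup (f := rf) ((Set.Finite.mem_toFinset hH).mpr hh)) hx,
      hx0⟩
  have hcan : ∀ h ∈ H, ∃ x ∈ descentSpace jj Fld h r, x ≠ 0 ∧ x.coeff x.order = 1 ∧
      ∀ y ∈ descentSpace jj Fld h r, y ≠ 0 → y.order ≤ x.order := fun h hh =>
    exists_max_order _ (hr h hh) (d * (r * (-jj.order))) (fun x hx hx0 =>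
      order_le_of_mem_descentSpace hord hm (hpow h hh) d hd r hx hx0)
  choose! xc hxc using hcan
  have hequiv : ∀ σ : K ≃ₐ[k] K, ∀ h ∈ H, ∃ h' ∈ H,
      coeffMap (σ : K →+* K) (xc h) = xc h' := by
    intro σ h hh
    obtain ⟨h', hh', g, hg, hg0, hσh⟩ := hperm σ h hh
    refine ⟨h', hh', ?_⟩
    obtain ⟨hx, hx0, hx1, hxmax⟩ := hxc h hh
    obtain ⟨hy, hy0, hy1, hymax⟩ := hxc h' hh'
    have hσx : coeffMap (σ : K →+* K) (xc h) ∈ descentSpace jj Fld h' r :=
      coeffMap_mem_descentSpace (σ : K →+* K) (hjj σ) (hσF σ) hg hσh r hx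
    have hg0' : coeffMap (σ.symm : K →+* K) g ≠ 0 :=
      (map_ne_zero_iff _ (coeffMap (σ.symm : K →+* K)).injective).mpr hg0
    have hσ' : coeffMap (σ.symm : K →+* K) h' = (coeffMap (σ.symm : K →+* K) g)⁻¹ * h := by
      have h1 := congrArg (coeffMap (σ.symm : K →+* K)) hσh
      rw [coeffMap_symm_coeffMap, map_mul] at h1
      rw [h1, ← mul_assoc, inv_mul_cancel₀ hg0', one_mul]
    have hσy : coeffMap (σ.symm : K →+* K) (xc h') ∈ descentSpace jj Fld h r :=
      coeffMap_mem_descentSpace (σ.symm : K →+* K) (hjj σ.symm) (hσF σ.symm)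
        (inv_mem (hσF σ.symm g hg)) hσ' r hy
    have ho1 : (coeffMap (σ : K →+* K) (xc h)).order = (xc h).order := order_coeffMap _ _
    have ho2 : (coeffMap (σ.symm : K →+* K) (xc h')).order = (xc h').order := order_coeffMap _ _
    have hσx0 : coeffMap (σ : K →+* K) (xc h) ≠ 0 :=
      (map_ne_zero_iff _ (coeffMap (σ : K →+* K)).injective).mpr hx0
    have hσy0 : coeffMap (σ.symm : K →+* K) (xc h') ≠ 0 :=
      (map_ne_zero_iff _ (coeffMap (σ.symm : K →+* K)).injective).mpr hy0
    have hle1 : (xc h).order ≤ (xc h').order := ho1 ▸ hymax _ hσx hσx0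
    have hle2 : (xc h').order ≤ (xc h).order := ho2 ▸ hxmax _ hσy hσy0
    refine eq_of_max_order (descentSpace jj Fld h' r) hσx hy ?_ hy1 ?_ ?_
    · rw [ho1, coeffMap_coeff, hx1, map_one]
    · rw [ho1]; exact le_antisymm hle1 hle2
    · intro z hz hz0
      rw [ho1]
      exact (hymax z hz hz0).trans hle2
  intro h hh
  obtain ⟨hx, hx0, -, -⟩ := hxc h hh
  obtain ⟨⟨g, hg, hxg⟩, -, -⟩ := hx
  have hg0 : g ≠ 0 := by
    rintro rfl
    rw [zero_mul] at hxg
    exact hx0 hxg
  refine ⟨g, hg, hg0, fun n => ?_⟩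
  rw [← hxg]
  refine Fermat.Agent.Lib.FiniteOrbitAlg.isAlgebraic_of_orbit_subset_finite (k := k)
    ((xc h).coeff n) ((fun h' => (xc h').coeff n) '' H) (hH.image _) fun σ => ?_
  obtain ⟨h', hh', hσ⟩ := hequiv σ h hh
  refine ⟨h', hh', ?_⟩
  show (xc h').coeff n = σ ((xc h).coeff n)
  rw [← hσ, coeffMap_coeff]
  rfl

/-! ### Variants for consumers -/

/-- A nonzero relation `P(jj, w) = 0` with `P ∈ K[X][Y]` of `Y`-degree `≤ d` gives the relation
over `K(jj)` required by `exists_mul_algebraic`. -/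
theorem exists_relation_fieldE (hord : jj.order < 0) {w : LaurentSeries K} {d : ℕ}
    (P : K[X][X]) (hP0 : P ≠ 0) (hPd : P.natDegree ≤ d)
    (hPw : P.eval₂ ((aeval jj : K[X] →ₐ[K] LaurentSeries K) : K[X] →+* LaurentSeries K) w = 0) :
    ∃ Q : (fieldE jj)[X], Q ≠ 0 ∧ Q.natDegree ≤ d ∧ aeval w Q = 0 := by
  set φ : K[X] →ₐ[K] fieldE jj := aeval (⟨jj, jj_mem_fieldE⟩ : fieldE jj) with hφ
  have hcomp : ∀ p : K[X], ((φ p : fieldE jj) : LaurentSeries K) = aeval jj p := by
    intro p
    have h := Polynomial.aeval_algHom_apply (fieldE jj).val (⟨jj, jj_mem_fieldE⟩ : fieldE jj) p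
    exact h.symm
  have hinj : Function.Injective (φ : K[X] →+* fieldE jj) := by
    rw [injective_iff_map_eq_zero]
    intro p hp
    by_contra hp0
    apply aeval_ne_zero hord p hp0
    rw [← hcomp]
    exact congrArg (fun z : fieldE jj => (z : LaurentSeries K)) hp
  refine ⟨P.map (φ : K[X] →+* fieldE jj), (Polynomial.map_ne_zero_iff hinj).mpr hP0,
    (Polynomial.natDegree_map_le).trans hPd, ?_⟩
  rw [Polynomial.aeval_def, Polynomial.eval₂_map]
  have hc : (algebraMap (fieldE jj) (LaurentSeries K)).comp (φ : K[X] →+* fieldE jj)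
      = ((aeval jj : K[X] →ₐ[K] LaurentSeries K) : K[X] →+* LaurentSeries K) :=
    RingHom.ext fun p => hcomp p
  rw [hc]
  exact hPw

/-- `exists_mul_algebraic` with the degree hypothesis stated with polynomials in `K[X][Y]`. -/
theorem exists_mul_algebraic' {k : Type*} [Field k] [Algebra k K] [IsAlgClosed K] [CharZero K]
    (jj : LaurentSeries K) (hord : jj.order < 0)
    (hjj : ∀ σ : K ≃ₐ[k] K, coeffMap (σ : K →+* K) jj = jj)
    (Fld : IntermediateField K (LaurentSeries K)) (hjF : jj ∈ Fld)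
    (hσF : ∀ σ : K ≃ₐ[k] K, ∀ w ∈ Fld, coeffMap (σ : K →+* K) w ∈ Fld)
    (d : ℕ) (hd : ∀ w ∈ Fld, ∃ P : K[X][X], P ≠ 0 ∧ P.natDegree ≤ d ∧
      P.eval₂ ((aeval jj : K[X] →ₐ[K] LaurentSeries K) : K[X] →+* LaurentSeries K) w = 0)
    (m : ℕ) (hm : 0 < m)
    (H : Set (LaurentSeries K)) (hH : H.Finite) (h0 : ∀ h ∈ H, h ≠ 0)
    (hpow : ∀ h ∈ H, h ^ m ∈ Fld)
    (hperm : ∀ σ : K ≃ₐ[k] K, ∀ h ∈ H, ∃ h' ∈ H, ∃ g ∈ Fld, g ≠ 0 ∧
      coeffMap (σ : K →+* K) h = g * h') :
    ∀ h ∈ H, ∃ g ∈ Fld, g ≠ 0 ∧ ∀ n : ℤ, IsAlgebraic k ((g * h).coeff n) :=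
  exists_mul_algebraic jj hord hjj Fld hjF hσF d
    (fun w hw => by
      obtain ⟨P, hP0, hPd, hPw⟩ := hd w hw
      exact exists_relation_fieldE hord P hP0 hPd hPw)
    m hm H hH h0 hpow hperm

/-- A Laurent series over `K` whose coefficients are algebraic over `ℚ` comes from any
algebraically closed subfield `L` of characteristic `0` (e.g. `L = ℚ̄`, `K = ℂ`). -/
theorem exists_coeffMap_eq_of_isAlgebraic {L : Type*} [Field L] [CharZero L] [IsAlgClosed L]
    [CharZero K] (j : L →+* K) (x : LaurentSeries K) (hx : ∀ n : ℤ, IsAlgebraic ℚ (x.coeff n)) :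
    ∃ y : LaurentSeries L, coeffMap j y = x := by
  classical
  have hmem : ∀ n : ℤ, ∃ c : L, j c = x.coeff n := fun n =>
    Fermat.Agent.Lib.FiniteOrbitAlg.mem_range_of_isAlgebraic_rat j (hx n)
  choose c hc using hmem
  have hbdd : BddBelow (Function.support fun n : ℤ => if x.coeff n = 0 then 0 else c n) := by
    refine ⟨x.order, fun n hn => ?_⟩
    rw [Function.mem_support] at hn
    have hne : x.coeff n ≠ 0 := by
      intro h0
      exact hn (by simp [h0])
    exact HahnSeries.order_le_of_coeff_ne_zero hne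
  refine ⟨HahnSeries.ofSuppBddBelow _ hbdd, ?_⟩
  ext n
  rw [coeffMap_coeff]
  show j (if x.coeff n = 0 then 0 else c n) = x.coeff n
  split_ifs with h0
  · rw [map_zero, h0]
  · exact hc n

/-- **Descent, final form over `ℚ`.**  In the situation of `exists_mul_algebraic` with `k = ℚ`,
every line `Fld * h` contains a nonzero series coming from `L((q))`, `L` any algebraically closed
subfield of characteristic `0`. -/
theorem exists_mul_eq_coeffMap {L : Type*} [Field L] [CharZero L] [IsAlgClosed L]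
    [IsAlgClosed K] [CharZero K] (j : L →+* K)
    (jj : LaurentSeries K) (hord : jj.order < 0)
    (hjj : ∀ σ : K ≃ₐ[ℚ] K, coeffMap (σ : K →+* K) jj = jj)
    (Fld : IntermediateField K (LaurentSeries K)) (hjF : jj ∈ Fld)
    (hσF : ∀ σ : K ≃ₐ[ℚ] K, ∀ w ∈ Fld, coeffMap (σ : K →+* K) w ∈ Fld)
    (d : ℕ) (hd : ∀ w ∈ Fld, ∃ P : (fieldE jj)[X], P ≠ 0 ∧ P.natDegree ≤ d ∧ aeval w P = 0)
    (m : ℕ) (hm : 0 < m)
    (H : Set (LaurentSeries K)) (hH : H.Finite) (h0 : ∀ h ∈ H, h ≠ 0)
    (hpow : ∀ h ∈ H, h ^ m ∈ Fld)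
    (hperm : ∀ σ : K ≃ₐ[ℚ] K, ∀ h ∈ H, ∃ h' ∈ H, ∃ g ∈ Fld, g ≠ 0 ∧
      coeffMap (σ : K →+* K) h = g * h') :
    ∀ h ∈ H, ∃ g ∈ Fld, g ≠ 0 ∧ ∃ y : LaurentSeries L, coeffMap j y = g * h := by
  intro h hh
  obtain ⟨g, hg, hg0, halg⟩ :=
    exists_mul_algebraic (k := ℚ) jj hord hjj Fld hjF hσF d hd m hm H hH h0 hpow hperm h hh
  exact ⟨g, hg, hg0, exists_coeffMap_eq_of_isAlgebraic j (g * h) halg⟩

end

end Fermat.Agent.S30.Descent
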