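import Mathlib
import Fermat.Prelude.Def_ModularCurve_LaurentCoeff
import Fermat.Prelude.Def_EllipticCurve_FrobeniusTrace
import Fermat.Prelude.Def_FLTPrelim_Ramification

/-!
# S30, brick §3 / E9: the `q`-expansion congruences behind (unr) and (ES)

Formal operators on Laurent series (`expand`: `q ↦ q ^ ℓ`, `rescale`: `q ↦ z q`, `contract`,
the norm `normL` and the multiplicative Hecke operator `heckeMul`), the characteristic-`ℓ`
identity `expand ℓ (φ u) = u ^ ℓ`, and the congruences satisfied by Frobenius and inertia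
elements acting coefficientwise on Laurent series with coefficients in a valuation subring of
`AlgebraicClosure ℚ` lying over `ℓ`.
-/

set_option autoImplicit false

open HahnSeries ModularCurve

namespace Fermat.Agent.S30.Congr

section Ops

variable {R S : Type*} [CommRing R] [CommRing S]

/-- Multiplication by a positive natural number as an additive endomorphism of `ℤ`. -/
def mulHom (ℓ : ℕ) : ℤ →+ ℤ := AddMonoidHom.mulLeft (ℓ : ℤ)

theorem mulHom_apply (ℓ : ℕ) (n : ℤ) : mulHom ℓ n = (ℓ : ℤ) * n := rfl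

theorem mulHom_injective {ℓ : ℕ} (hℓ : 0 < ℓ) : Function.Injective (mulHom ℓ) := by
  intro a b h
  have hℓ' : (ℓ : ℤ) ≠ 0 := by exact_mod_cast hℓ.ne'
  exact mul_left_cancel₀ hℓ' h

theorem mulHom_le_iff {ℓ : ℕ} (hℓ : 0 < ℓ) (a b : ℤ) : mulHom ℓ a ≤ mulHom ℓ b ↔ a ≤ b := by
  have hℓ' : (0 : ℤ) < (ℓ : ℤ) := by exact_mod_cast hℓ
  exact mul_le_mul_iff_right₀ hℓ'

/-- The substitution `q ↦ q ^ ℓ` on Laurent series. -/
noncomputable def expand (ℓ : ℕ) (hℓ : 0 < ℓ) : LaurentSeries R →+* LaurentSeries R :=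
  HahnSeries.embDomainRingHom (mulHom ℓ) (mulHom_injective hℓ) (mulHom_le_iff hℓ)

theorem coeff_expand_mul (ℓ : ℕ) (hℓ : 0 < ℓ) (x : LaurentSeries R) (n : ℤ) :
    (expand ℓ hℓ x).coeff ((ℓ : ℤ) * n) = x.coeff n :=
  HahnSeries.embDomain_mk_coeff (f := mulHom ℓ) (mulHom_injective hℓ) (mulHom_le_iff hℓ)

theorem coeff_expand_of_not_dvd (ℓ : ℕ) (hℓ : 0 < ℓ) (x : LaurentSeries R) {n : ℤ}
    (hn : ¬ (ℓ : ℤ) ∣ n) : (expand ℓ hℓ x).coeff n = 0 := by
  refine HahnSeries.embDomain_notin_image_support ?_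
  rintro ⟨m, -, rfl⟩
  exact hn ⟨m, rfl⟩

theorem expand_injective (ℓ : ℕ) (hℓ : 0 < ℓ) :
    Function.Injective (expand ℓ hℓ : LaurentSeries R → LaurentSeries R) := by
  intro x y h
  ext n
  rw [← coeff_expand_mul ℓ hℓ x n, ← coeff_expand_mul ℓ hℓ y n, h]

theorem coeffMap_expand (φ : R →+* S) (ℓ : ℕ) (hℓ : 0 < ℓ) (x : LaurentSeries R) :
    coeffMap φ (expand ℓ hℓ x) = expand ℓ hℓ (coeffMap φ x) := by
  ext n
  by_cases hn : (ℓ : ℤ) ∣ n
  · obtain ⟨m, rfl⟩ := hn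
    rw [coeffMap_coeff, coeff_expand_mul, coeff_expand_mul, coeffMap_coeff]
  · rw [coeffMap_coeff, coeff_expand_of_not_dvd ℓ hℓ _ hn, coeff_expand_of_not_dvd ℓ hℓ _ hn,
      map_zero]

/-- Keep the coefficients of index divisible by `ℓ`: `∑ aₙ qⁿ ↦ ∑ a_{ℓ n} qⁿ`. -/
noncomputable def contract (ℓ : ℕ) (hℓ : 0 < ℓ) (x : LaurentSeries R) : LaurentSeries R :=
  HahnSeries.ofSuppBddBelow (fun n : ℤ => x.coeff ((ℓ : ℤ) * n)) (by
    refine ⟨min x.order 0, fun n hn => ?_⟩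
    by_contra hlt
    rw [not_le] at hlt
    apply hn
    have hℓ' : (1 : ℤ) ≤ (ℓ : ℤ) := by exact_mod_cast hℓ
    have hn0 : n < 0 := lt_of_lt_of_le hlt (min_le_right _ _)
    have h1 : (ℓ : ℤ) * n ≤ n := by nlinarith
    exact HahnSeries.coeff_eq_zero_of_lt_order
      (lt_of_le_of_lt h1 (lt_of_lt_of_le hlt (min_le_left _ _))))

@[simp]
theorem coeff_contract (ℓ : ℕ) (hℓ : 0 < ℓ) (x : LaurentSeries R) (n : ℤ) :
    (contract ℓ hℓ x).coeff n = x.coeff ((ℓ : ℤ) * n) := rfl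

theorem contract_expand (ℓ : ℕ) (hℓ : 0 < ℓ) (x : LaurentSeries R) :
    contract ℓ hℓ (expand ℓ hℓ x) = x := by
  ext n
  rw [coeff_contract, coeff_expand_mul]

theorem expand_contract (ℓ : ℕ) (hℓ : 0 < ℓ) (x : LaurentSeries R)
    (hx : ∀ n : ℤ, ¬ (ℓ : ℤ) ∣ n → x.coeff n = 0) :
    expand ℓ hℓ (contract ℓ hℓ x) = x := by
  ext n
  by_cases hn : (ℓ : ℤ) ∣ n
  · obtain ⟨m, rfl⟩ := hn
    rw [coeff_expand_mul, coeff_contract]
  · rw [coeff_expand_of_not_dvd ℓ hℓ _ hn, hx n hn]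

theorem coeffMap_contract (φ : R →+* S) (ℓ : ℕ) (hℓ : 0 < ℓ) (x : LaurentSeries R) :
    coeffMap φ (contract ℓ hℓ x) = contract ℓ hℓ (coeffMap φ x) := by
  ext n
  rw [coeffMap_coeff, coeff_contract, coeff_contract, coeffMap_coeff]

/-! ### Rescaling `q ↦ z q` -/

/-- Underlying function of `rescale`. -/
noncomputable def rescaleFun (z : Rˣ) (x : LaurentSeries R) : LaurentSeries R :=
  HahnSeries.ofSuppBddBelow (fun n : ℤ => ((z ^ n : Rˣ) : R) * x.coeff n) (by
    refine ⟨x.order, fun n hn => ?_⟩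
    by_contra hlt
    rw [not_le] at hlt
    apply hn
    show ((z ^ n : Rˣ) : R) * x.coeff n = 0
    rw [HahnSeries.coeff_eq_zero_of_lt_order hlt, mul_zero])

@[simp]
theorem coeff_rescaleFun (z : Rˣ) (x : LaurentSeries R) (n : ℤ) :
    (rescaleFun z x).coeff n = ((z ^ n : Rˣ) : R) * x.coeff n := rfl

theorem support_rescaleFun (z : Rˣ) (x : LaurentSeries R) :
    (rescaleFun z x).support = x.support := by
  ext n
  simp only [HahnSeries.mem_support, coeff_rescaleFun, ne_eq, Units.mul_right_eq_zero]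

theorem rescaleFun_mul (z : Rˣ) (x y : LaurentSeries R) :
    rescaleFun z (x * y) = rescaleFun z x * rescaleFun z y := by
  ext a
  rw [coeff_rescaleFun, HahnSeries.coeff_mul, HahnSeries.coeff_mul, Finset.mul_sum]
  have hset : Finset.antidiagonal (rescaleFun z x).isPWO_support
      (rescaleFun z y).isPWO_support a =
      Finset.antidiagonal x.isPWO_support y.isPWO_support a := by
    ext ij
    simp only [Finset.mem_antidiagonal, support_rescaleFun]
  rw [hset]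
  refine Finset.sum_congr rfl fun ij hij => ?_
  obtain ⟨-, -, hsum⟩ := Finset.mem_antidiagonal.1 hij
  rw [coeff_rescaleFun, coeff_rescaleFun, ← hsum, zpow_add, Units.val_mul]
  ring

/-- The substitution `q ↦ z q` on Laurent series, for a unit `z`. -/
noncomputable def rescale (z : Rˣ) : LaurentSeries R →+* LaurentSeries R where
  toFun := rescaleFun z
  map_one' := by
    ext n
    rw [coeff_rescaleFun, HahnSeries.coeff_one]
    split_ifs with h
    · subst h; simp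
    · simp
  map_mul' := rescaleFun_mul z
  map_zero' := by
    ext n
    rw [coeff_rescaleFun]
    simp
  map_add' x y := by
    ext n
    rw [coeff_rescaleFun, HahnSeries.coeff_add, HahnSeries.coeff_add, coeff_rescaleFun,
      coeff_rescaleFun, mul_add]

@[simp]
theorem coeff_rescale (z : Rˣ) (x : LaurentSeries R) (n : ℤ) :
    (rescale z x).coeff n = ((z ^ n : Rˣ) : R) * x.coeff n := rfl

@[simp]
theorem rescale_one (x : LaurentSeries R) : rescale (1 : Rˣ) x = x := by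
  ext n
  rw [coeff_rescale, one_zpow, Units.val_one, one_mul]

theorem rescale_mul_apply (z w : Rˣ) (x : LaurentSeries R) :
    rescale (z * w) x = rescale z (rescale w x) := by
  ext n
  rw [coeff_rescale, coeff_rescale, coeff_rescale, mul_zpow, Units.val_mul, mul_assoc]

theorem coeffMap_rescale (φ : R →+* S) (z : Rˣ) (x : LaurentSeries R) :
    coeffMap φ (rescale z x) = rescale (Units.map (φ : R →* S) z) (coeffMap φ x) := by
  ext n
  rw [coeffMap_coeff, coeff_rescale, coeff_rescale, coeffMap_coeff, map_mul, ← map_zpow,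
    Units.coe_map]
  rfl

/-! ### The norm and the multiplicative Hecke operator -/

/-- The product `∏_{i < ℓ} f (zⁱ q)`. -/
noncomputable def conjProd (ℓ : ℕ) (z : Rˣ) (f : LaurentSeries R) : LaurentSeries R :=
  ∏ i ∈ Finset.range ℓ, rescale (z ^ i) f

/-- The norm `q ↦ ∏_{i < ℓ} f (zⁱ q^{1/ℓ})` (for `z` a primitive `ℓ`-th root of unity). -/
noncomputable def normL (ℓ : ℕ) (hℓ : 0 < ℓ) (z : Rˣ) (f : LaurentSeries R) : LaurentSeries R :=
  contract ℓ hℓ (conjProd ℓ z f)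

/-- The multiplicative Hecke operator `T_ℓ f (q) = f (q ^ ℓ) · ∏_{i < ℓ} f (zⁱ q^{1/ℓ})`. -/
noncomputable def heckeMul (ℓ : ℕ) (hℓ : 0 < ℓ) (z : Rˣ) (f : LaurentSeries R) :
    LaurentSeries R :=
  expand ℓ hℓ f * normL ℓ hℓ z f

theorem conjProd_mul (ℓ : ℕ) (z : Rˣ) (f g : LaurentSeries R) :
    conjProd ℓ z (f * g) = conjProd ℓ z f * conjProd ℓ z g := by
  unfold conjProd
  rw [← Finset.prod_mul_distrib]
  exact Finset.prod_congr rfl fun i _ => map_mul _ _ _

theorem conjProd_one (ℓ : ℕ) (z : Rˣ) : conjProd ℓ z (1 : LaurentSeries R) = 1 := by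
  unfold conjProd
  exact Finset.prod_eq_one fun i _ => map_one _

theorem coeffMap_conjProd (φ : R →+* S) (ℓ : ℕ) (z : Rˣ) (f : LaurentSeries R) :
    coeffMap φ (conjProd ℓ z f) = conjProd ℓ (Units.map (φ : R →* S) z) (coeffMap φ f) := by
  unfold conjProd
  rw [map_prod]
  refine Finset.prod_congr rfl fun i _ => ?_
  rw [coeffMap_rescale, map_pow]

theorem coeffMap_normL (φ : R →+* S) (ℓ : ℕ) (hℓ : 0 < ℓ) (z : Rˣ) (f : LaurentSeries R) :
    coeffMap φ (normL ℓ hℓ z f) = normL ℓ hℓ (Units.map (φ : R →* S) z) (coeffMap φ f) := by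
  unfold normL
  rw [coeffMap_contract, coeffMap_conjProd]

theorem coeffMap_heckeMul (φ : R →+* S) (ℓ : ℕ) (hℓ : 0 < ℓ) (z : Rˣ) (f : LaurentSeries R) :
    coeffMap φ (heckeMul ℓ hℓ z f) =
      heckeMul ℓ hℓ (Units.map (φ : R →* S) z) (coeffMap φ f) := by
  unfold heckeMul
  rw [map_mul, coeffMap_expand, coeffMap_normL]

/-- The product `∏_{i < ℓ} f (zⁱ q)` is invariant under `q ↦ z q` when `z ^ ℓ = 1`. -/
theorem rescale_conjProd (ℓ : ℕ) (hℓ : 0 < ℓ) (z : Rˣ) (hz : z ^ ℓ = 1) (f : LaurentSeries R) :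
    rescale z (conjProd ℓ z f) = conjProd ℓ z f := by
  unfold conjProd
  rw [map_prod]
  obtain ⟨m, rfl⟩ : ∃ m, ℓ = m + 1 := ⟨ℓ - 1, by omega⟩
  have h1 : ∀ i : ℕ, rescale z (rescale (z ^ i) f) = rescale (z ^ (i + 1)) f := fun i => by
    rw [← rescale_mul_apply, ← pow_succ']
  simp_rw [h1]
  rw [Finset.prod_range_succ (fun i => rescale (z ^ (i + 1)) f) m, hz,
    Finset.prod_range_succ' (fun i => rescale (z ^ i) f) m, pow_zero]

/-- In a domain, with `z` a primitive `ℓ`-th root of unity, the product `∏_{i < ℓ} f (zⁱ q)`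
is a series in `q ^ ℓ`. -/
theorem expand_normL [IsDomain R] (ℓ : ℕ) (hℓ : 0 < ℓ) (z : Rˣ) (hz : IsPrimitiveRoot z ℓ)
    (f : LaurentSeries R) : expand ℓ hℓ (normL ℓ hℓ z f) = conjProd ℓ z f := by
  unfold normL
  refine expand_contract ℓ hℓ _ fun n hn => ?_
  have h := congrArg (fun x : LaurentSeries R => x.coeff n) (rescale_conjProd ℓ hℓ z hz.pow_eq_one f)
  simp only [coeff_rescale] at h
  have hne : ((z ^ n : Rˣ) : R) ≠ 1 := by
    intro h1
    have : z ^ n = 1 := Units.ext h1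
    exact hn ((hz.zpow_eq_one_iff_dvd n).1 this)
  have h2 : (((z ^ n : Rˣ) : R) - 1) * (conjProd ℓ z f).coeff n = 0 := by
    rw [sub_mul, one_mul, h, sub_self]
  rcases mul_eq_zero.1 h2 with h3 | h3
  · exact absurd (sub_eq_zero.1 h3) hne
  · exact h3

theorem normL_mul [IsDomain R] (ℓ : ℕ) (hℓ : 0 < ℓ) (z : Rˣ) (hz : IsPrimitiveRoot z ℓ)
    (f g : LaurentSeries R) : normL ℓ hℓ z (f * g) = normL ℓ hℓ z f * normL ℓ hℓ z g := by
  apply expand_injective ℓ hℓ
  rw [map_mul, expand_normL ℓ hℓ z hz, expand_normL ℓ hℓ z hz, expand_normL ℓ hℓ z hz,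
    conjProd_mul]

theorem normL_one (ℓ : ℕ) (hℓ : 0 < ℓ) (z : Rˣ) : normL ℓ hℓ z (1 : LaurentSeries R) = 1 := by
  unfold normL
  rw [conjProd_one]
  ext n
  rw [coeff_contract, HahnSeries.coeff_one, HahnSeries.coeff_one]
  have hℓ' : (ℓ : ℤ) ≠ 0 := by exact_mod_cast hℓ.ne'
  by_cases hn : n = 0
  · subst hn; simp
  · rw [if_neg hn, if_neg (mul_ne_zero hℓ' hn)]

/-- The multiplicative Hecke operator as a monoid homomorphism (over a domain). -/
noncomputable def heckeMulHom [IsDomain R] (ℓ : ℕ) (hℓ : 0 < ℓ) (z : Rˣ)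
    (hz : IsPrimitiveRoot z ℓ) : LaurentSeries R →* LaurentSeries R where
  toFun := heckeMul ℓ hℓ z
  map_one' := by
    unfold heckeMul
    rw [map_one, normL_one, mul_one]
  map_mul' f g := by
    unfold heckeMul
    rw [map_mul, normL_mul ℓ hℓ z hz]
    ring

@[simp]
theorem heckeMulHom_apply [IsDomain R] (ℓ : ℕ) (hℓ : 0 < ℓ) (z : Rˣ)
    (hz : IsPrimitiveRoot z ℓ) (f : LaurentSeries R) :
    heckeMulHom ℓ hℓ z hz f = heckeMul ℓ hℓ z f := rfl

theorem heckeMul_mul [IsDomain R] (ℓ : ℕ) (hℓ : 0 < ℓ) (z : Rˣ) (hz : IsPrimitiveRoot z ℓ)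
    (f g : LaurentSeries R) :
    heckeMul ℓ hℓ z (f * g) = heckeMul ℓ hℓ z f * heckeMul ℓ hℓ z g :=
  map_mul (heckeMulHom ℓ hℓ z hz) f g

/-! ### Characteristic `ℓ` -/

theorem expand_single (ℓ : ℕ) (hℓ : 0 < ℓ) (a : ℤ) (r : R) :
    expand ℓ hℓ (HahnSeries.single a r : LaurentSeries R) = HahnSeries.single ((ℓ : ℤ) * a) r :=
  HahnSeries.embDomain_single

theorem expand_ofPowerSeries (ℓ : ℕ) (hℓ : 0 < ℓ) (g : PowerSeries R) :
    expand ℓ hℓ (HahnSeries.ofPowerSeries ℤ R g) =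
      HahnSeries.ofPowerSeries ℤ R (PowerSeries.expand ℓ hℓ.ne' g) := by
  ext n
  by_cases hn : (ℓ : ℤ) ∣ n
  · obtain ⟨m, rfl⟩ := hn
    rw [coeff_expand_mul, PowerSeries.coeff_coe, PowerSeries.coeff_coe]
    have hℓ' : (0 : ℤ) < (ℓ : ℤ) := by exact_mod_cast hℓ
    by_cases hm : m < 0
    · rw [if_pos hm, if_pos (mul_neg_of_pos_of_neg hℓ' hm)]
    · rw [if_neg hm, if_neg (not_lt.2 (mul_nonneg hℓ'.le (not_lt.1 hm))), Int.natAbs_mul,
        Int.natAbs_natCast, PowerSeries.coeff_expand_mul]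
  · rw [coeff_expand_of_not_dvd ℓ hℓ _ hn, PowerSeries.coeff_coe]
    split_ifs with h
    · rfl
    · rw [PowerSeries.coeff_expand_of_not_dvd]
      intro hd
      exact hn (Int.natCast_dvd.2 hd)

theorem coeffMap_ofPowerSeries (φ : R →+* S) (g : PowerSeries R) :
    coeffMap φ (HahnSeries.ofPowerSeries ℤ R g) =
      HahnSeries.ofPowerSeries ℤ S (PowerSeries.map φ g) := by
  ext n
  rw [coeffMap_coeff, PowerSeries.coeff_coe, PowerSeries.coeff_coe]
  split_ifs with h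
  · exact map_zero φ
  · rw [PowerSeries.coeff_map]

/-- In characteristic `ℓ`: `(φ u)(q ^ ℓ) = u(q) ^ ℓ`, with `φ` the coefficientwise Frobenius. -/
theorem expand_coeffMap_frobenius (ℓ : ℕ) [Fact ℓ.Prime] [CharP R ℓ] (hℓ : 0 < ℓ)
    (x : LaurentSeries R) :
    expand ℓ hℓ (coeffMap (frobenius R ℓ) x) = x ^ ℓ := by
  have hx := x.single_order_mul_powerSeriesPart
  have key : PowerSeries.expand ℓ hℓ.ne' (PowerSeries.map (frobenius R ℓ) x.powerSeriesPart) =
      x.powerSeriesPart ^ ℓ := by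
    rw [← PowerSeries.map_expand]
    exact MvPowerSeries.map_frobenius_expand ℓ hℓ.ne'
  conv_lhs => rw [← hx]
  conv_rhs => rw [← hx]
  rw [map_mul, map_mul, coeffMap_single, expand_single, coeffMap_ofPowerSeries,
    expand_ofPowerSeries, key, mul_pow, HahnSeries.single_pow, map_pow, frobenius_def, one_pow,
    nsmul_eq_mul]

/-- In characteristic `ℓ`, the norm with `z = 1` is the coefficientwise Frobenius. -/
theorem normL_one_unit (ℓ : ℕ) [Fact ℓ.Prime] [CharP R ℓ] (hℓ : 0 < ℓ) (f : LaurentSeries R) :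
    normL ℓ hℓ (1 : Rˣ) f = coeffMap (frobenius R ℓ) f := by
  unfold normL conjProd
  simp only [one_pow, rescale_one, Finset.prod_const, Finset.card_range]
  rw [← expand_coeffMap_frobenius ℓ hℓ, contract_expand]

theorem heckeMul_one_unit (ℓ : ℕ) [Fact ℓ.Prime] [CharP R ℓ] (hℓ : 0 < ℓ)
    (f : LaurentSeries R) :
    heckeMul ℓ hℓ (1 : Rˣ) f = expand ℓ hℓ f * coeffMap (frobenius R ℓ) f := by
  unfold heckeMul
  rw [normL_one_unit]

end Ops

section Galois

local notation "Qb" => AlgebraicClosure ℚ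
local notation "Gq" => (AlgebraicClosure ℚ ≃ₐ[ℚ] AlgebraicClosure ℚ)

variable (A : ValuationSubring Qb)

/-- The restriction to `A` of an element of the decomposition group of `A`. -/
noncomputable def sA (s : A.decompositionSubgroup ℚ) : A →+* A :=
  MulSemiringAction.toRingHom (A.decompositionSubgroup ℚ) A s

theorem coe_sA (s : A.decompositionSubgroup ℚ) (a : A) :
    ((sA A s a : A) : Qb) = (s : Gq) (a : Qb) := rfl

/-- The coefficientwise action of the decomposition group on integral Laurent series. -/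
noncomputable def actA (s : A.decompositionSubgroup ℚ) : LaurentSeries A →+* LaurentSeries A :=
  coeffMap (sA A s)

/-- Integral Laurent series as Laurent series over `Qb`. -/
noncomputable def incl : LaurentSeries A →+* LaurentSeries Qb :=
  coeffMap A.subtype

/-- Coefficientwise reduction modulo the maximal ideal of `A`. -/
noncomputable def red : LaurentSeries A →+* LaurentSeries (IsLocalRing.ResidueField A) :=
  coeffMap (IsLocalRing.residue A)

@[simp]
theorem coeff_incl (u : LaurentSeries A) (n : ℤ) : (incl A u).coeff n = ((u.coeff n : A) : Qb) :=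
  rfl

@[simp]
theorem coeff_red (u : LaurentSeries A) (n : ℤ) :
    (red A u).coeff n = IsLocalRing.residue A (u.coeff n) := rfl

@[simp]
theorem coeff_actA (s : A.decompositionSubgroup ℚ) (u : LaurentSeries A) (n : ℤ) :
    (actA A s u).coeff n = sA A s (u.coeff n) := rfl

theorem incl_injective : Function.Injective (incl A) := by
  intro u v h
  ext n
  exact congrArg (fun x : LaurentSeries Qb => x.coeff n) h

theorem incl_actA (s : A.decompositionSubgroup ℚ) (u : LaurentSeries A) :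
    incl A (actA A s u) = coeffMap (((s : Gq) : Qb ≃ₐ[ℚ] Qb) : Qb →+* Qb) (incl A u) := by
  ext n
  rfl

/-- A series over `Qb` with all coefficients in `A` comes from an integral series. -/
theorem exists_incl_eq (f : LaurentSeries Qb) (hf : ∀ n, f.coeff n ∈ A) :
    ∃ u : LaurentSeries A, incl A u = f := by
  refine ⟨HahnSeries.ofSuppBddBelow (fun n => (⟨f.coeff n, hf n⟩ : A)) ?_, ?_⟩
  · refine ⟨f.order, fun n hn => ?_⟩
    by_contra hlt
    rw [not_le] at hlt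
    apply hn
    exact Subtype.ext (HahnSeries.coeff_eq_zero_of_lt_order hlt)
  · ext n
    rfl

/-! ### Roots of unity -/

theorem mem_of_pow_eq_one {ζ : Qb} {n : ℕ} (hn : 0 < n) (h : ζ ^ n = 1) : ζ ∈ A := by
  rcases A.mem_or_inv_mem ζ with h1 | h1
  · exact h1
  · have hζ0 : ζ ≠ 0 := by
      rintro rfl
      rw [zero_pow hn.ne'] at h
      exact zero_ne_one h
    have h2 : ζ = (ζ⁻¹) ^ (n - 1) := by
      have h3 : ζ * ζ ^ (n - 1) = 1 := by
        rw [← pow_succ', Nat.sub_add_cancel hn, h]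
      rw [inv_pow]
      exact eq_inv_of_mul_eq_one_left h3
    rw [h2]
    exact pow_mem h1 _

/-- A root of unity of `Qb` as a unit of `A`. -/
noncomputable def unitA {ζ : Qb} {n : ℕ} (hn : 0 < n) (h : ζ ^ n = 1) : Aˣ where
  val := ⟨ζ, mem_of_pow_eq_one A hn h⟩
  inv := ⟨ζ ^ (n - 1), pow_mem (mem_of_pow_eq_one A hn h) _⟩
  val_inv := Subtype.ext (by
    show ζ * ζ ^ (n - 1) = 1
    rw [← pow_succ', Nat.sub_add_cancel hn, h])
  inv_val := Subtype.ext (by
    show ζ ^ (n - 1) * ζ = 1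
    rw [← pow_succ, Nat.sub_add_cancel hn, h])

@[simp]
theorem coe_unitA {ζ : Qb} {n : ℕ} (hn : 0 < n) (h : ζ ^ n = 1) :
    (((unitA A hn h : Aˣ) : A) : Qb) = ζ := rfl

theorem map_subtype_unitA {ζ : Qb} {n : ℕ} (hn : 0 < n) (h : ζ ^ n = 1) (z : Qbˣ)
    (hz : (z : Qb) = ζ) :
    Units.map ((A.subtype : A →+* Qb) : A →* Qb) (unitA A hn h) = z :=
  Units.ext (by rw [hz]; rfl)

/-! ### The residue field has characteristic `ℓ` -/

theorem charP_residue {ℓ : ℕ} [Fact ℓ.Prime] (hA : A.LiesOverPrime ℓ) :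
    CharP (IsLocalRing.ResidueField A) ℓ := by
  refine (CharP.charP_iff_prime_eq_zero (Fact.out : ℓ.Prime)).2 ?_
  obtain ⟨hmem, hmax⟩ := (A.mem_nonunits_iff_exists_mem_maximalIdeal).1 hA
  have h1 : (⟨(ℓ : Qb), hmem⟩ : A) = ((ℓ : ℕ) : A) := Subtype.ext (by simp)
  rw [h1] at hmax
  have h2 := (IsLocalRing.residue_eq_zero_iff ((ℓ : ℕ) : A)).2 hmax
  rwa [map_natCast] at h2

theorem map_residue_unitA {ℓ : ℕ} [Fact ℓ.Prime] (hA : A.LiesOverPrime ℓ) {ζ : Qb} (hℓ : 0 < ℓ)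
    (h : ζ ^ ℓ = 1) :
    Units.map ((IsLocalRing.residue A : A →+* IsLocalRing.ResidueField A) :
      A →* IsLocalRing.ResidueField A) (unitA A hℓ h) = 1 := by
  have := charP_residue A hA
  apply Units.ext
  rw [Units.coe_map, Units.val_one]
  set x : IsLocalRing.ResidueField A := IsLocalRing.residue A ((unitA A hℓ h : Aˣ) : A) with hx
  have hxℓ : x ^ ℓ = 1 := by
    rw [hx, ← map_pow]
    have : ((unitA A hℓ h : Aˣ) : A) ^ ℓ = 1 := Subtype.ext (by
      show ζ ^ ℓ = 1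
      exact h)
    rw [this, map_one]
  have h0 : (x - 1) ^ ℓ = 0 := by
    rw [sub_pow_char, hxℓ, one_pow, sub_self]
  exact sub_eq_zero.1 (pow_eq_zero_iff (Fact.out : ℓ.Prime).ne_zero |>.1 h0)

/-! ### Frobenius and inertia -/

theorem residue_sA_frob {ℓ : ℕ} {σ : Gq} (hσ : A.IsFrobeniusAt σ ℓ) (a : A) :
    IsLocalRing.residue A (sA A ⟨σ, hσ.mem_decompositionSubgroup⟩ a) =
      IsLocalRing.residue A a ^ ℓ := by
  have h := hσ.smul_residue_eq (IsLocalRing.residue A a)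
  rw [← IsLocalRing.ResidueField.residue_smul] at h
  exact h

theorem residue_sA_inertia (τ : A.decompositionSubgroup ℚ) (hτ : τ ∈ A.inertiaSubgroup ℚ)
    (a : A) : IsLocalRing.residue A (sA A τ a) = IsLocalRing.residue A a := by
  have h1 : MulSemiringAction.toRingAut (A.decompositionSubgroup ℚ)
      (IsLocalRing.ResidueField A) τ = 1 := hτ
  have h2 := congrArg (fun e : RingAut (IsLocalRing.ResidueField A) =>
    e (IsLocalRing.residue A a)) h1
  have h3 : τ • IsLocalRing.residue A a = IsLocalRing.residue A a := h2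
  rw [← IsLocalRing.ResidueField.residue_smul] at h3
  exact h3

/-- Inertia acts trivially on reductions. -/
theorem red_actA_inertia (τ : A.decompositionSubgroup ℚ) (hτ : τ ∈ A.inertiaSubgroup ℚ)
    (u : LaurentSeries A) : red A (actA A τ u) = red A u := by
  ext n
  rw [coeff_red, coeff_actA, residue_sA_inertia A τ hτ, coeff_red]

/-- Version for the Prelude's `inertiaSubgroupIn`. -/
theorem exists_red_actA_inertia {τ : Gq} (hτ : τ ∈ A.inertiaSubgroupIn ℚ) :
    ∃ h : τ ∈ A.decompositionSubgroup ℚ, ∀ u : LaurentSeries A,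
      red A (actA A ⟨τ, h⟩ u) = red A u := by
  obtain ⟨τ', hτ', rfl⟩ := hτ
  exact ⟨τ'.2, fun u => red_actA_inertia A ⟨τ'.1, τ'.2⟩ hτ' u⟩

/-- A Frobenius element acts on reductions as the coefficientwise Frobenius. -/
theorem red_actA_frob {ℓ : ℕ} [Fact ℓ.Prime] [CharP (IsLocalRing.ResidueField A) ℓ] {σ : Gq}
    (hσ : A.IsFrobeniusAt σ ℓ) (u : LaurentSeries A) :
    red A (actA A ⟨σ, hσ.mem_decompositionSubgroup⟩ u) =
      coeffMap (frobenius (IsLocalRing.ResidueField A) ℓ) (red A u) := by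
  ext n
  rw [coeff_red, coeff_actA, residue_sA_frob A hσ, coeffMap_coeff, coeff_red, frobenius_def]

/-- `σ(u)(q ^ ℓ) ≡ u(q) ^ ℓ` modulo the maximal ideal. -/
theorem expand_red_actA_frob {ℓ : ℕ} [Fact ℓ.Prime] (hℓ : 0 < ℓ) (hA : A.LiesOverPrime ℓ)
    {σ : Gq} (hσ : A.IsFrobeniusAt σ ℓ) (u : LaurentSeries A) :
    expand ℓ hℓ (red A (actA A ⟨σ, hσ.mem_decompositionSubgroup⟩ u)) = red A u ^ ℓ := by
  have := charP_residue A hA
  rw [red_actA_frob A hσ, expand_coeffMap_frobenius]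

/-- `∏_{i < ℓ} u(ζⁱ q^{1/ℓ}) ≡ σ(u)(q)` modulo the maximal ideal. -/
theorem red_normL {ℓ : ℕ} [Fact ℓ.Prime] (hℓ : 0 < ℓ) (hA : A.LiesOverPrime ℓ) {ζ : Qb}
    (hζ : ζ ^ ℓ = 1) {σ : Gq} (hσ : A.IsFrobeniusAt σ ℓ) (u : LaurentSeries A) :
    red A (normL ℓ hℓ (unitA A hℓ hζ) u) =
      red A (actA A ⟨σ, hσ.mem_decompositionSubgroup⟩ u) := by
  have := charP_residue A hA
  rw [red, coeffMap_normL, map_residue_unitA A hA hℓ hζ, normL_one_unit]
  exact (red_actA_frob A hσ u).symm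

/-- **Kronecker congruence for the multiplicative Hecke operator**:
`T_ℓ(σ u) ≡ u ^ ℓ · σ²(u)` modulo the maximal ideal of `A`, for `σ` a Frobenius at `A`. -/
theorem red_heckeMul_frob {ℓ : ℕ} [Fact ℓ.Prime] (hℓ : 0 < ℓ) (hA : A.LiesOverPrime ℓ) {ζ : Qb}
    (hζ : ζ ^ ℓ = 1) {σ : Gq} (hσ : A.IsFrobeniusAt σ ℓ) (u : LaurentSeries A) :
    red A (heckeMul ℓ hℓ (unitA A hℓ hζ)
        (actA A ⟨σ, hσ.mem_decompositionSubgroup⟩ u)) =
      red A u ^ ℓ * red A (actA A ⟨σ, hσ.mem_decompositionSubgroup⟩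
        (actA A ⟨σ, hσ.mem_decompositionSubgroup⟩ u)) := by
  unfold heckeMul
  rw [map_mul, red_normL A hℓ hA hζ hσ]
  congr 1
  rw [red, coeffMap_expand]
  exact expand_red_actA_frob A hℓ hA hσ u

/-! ### Consumers: the fraction forms used for (unr) and (ES) -/

theorem coeffMap_injective {R S : Type*} [CommRing R] [CommRing S] (φ : R →+* S)
    (hφ : Function.Injective φ) : Function.Injective (coeffMap φ) := by
  intro x y h
  ext n
  apply hφ
  have := congrArg (fun t : LaurentSeries S => t.coeff n) h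
  simpa using this

theorem red_actA_ne_zero {ℓ : ℕ} [Fact ℓ.Prime] (hA : A.LiesOverPrime ℓ) {σ : Gq}
    (hσ : A.IsFrobeniusAt σ ℓ) {u : LaurentSeries A} (hu : red A u ≠ 0) :
    red A (actA A ⟨σ, hσ.mem_decompositionSubgroup⟩ u) ≠ 0 := by
  have := charP_residue A hA
  rw [red_actA_frob A hσ]
  intro h
  apply hu
  apply coeffMap_injective _ (frobenius_inj (IsLocalRing.ResidueField A) ℓ)
  rw [h, map_zero]

/-- Numerator of `σ²(f) · f ^ ℓ / T_ℓ(σ f)` for `f = P / Q`. -/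
noncomputable def esNum {ℓ : ℕ} (hℓ : 0 < ℓ) {ζ : Qb} (hζ : ζ ^ ℓ = 1)
    (s : A.decompositionSubgroup ℚ) (P Q : LaurentSeries A) : LaurentSeries A :=
  actA A s (actA A s P) * P ^ ℓ * heckeMul ℓ hℓ (unitA A hℓ hζ) (actA A s Q)

/-- Denominator of `σ²(f) · f ^ ℓ / T_ℓ(σ f)` for `f = P / Q`. -/
noncomputable def esDen {ℓ : ℕ} (hℓ : 0 < ℓ) {ζ : Qb} (hζ : ζ ^ ℓ = 1)
    (s : A.decompositionSubgroup ℚ) (P Q : LaurentSeries A) : LaurentSeries A :=
  esNum A hℓ hζ s Q P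

/-- The numerator and the denominator of `σ²(f) · f ^ ℓ / T_ℓ(σ f)` have the same reduction. -/
theorem red_esNum {ℓ : ℕ} [Fact ℓ.Prime] (hℓ : 0 < ℓ) (hA : A.LiesOverPrime ℓ) {ζ : Qb}
    (hζ : ζ ^ ℓ = 1) {σ : Gq} (hσ : A.IsFrobeniusAt σ ℓ) (P Q : LaurentSeries A) :
    red A (esNum A hℓ hζ ⟨σ, hσ.mem_decompositionSubgroup⟩ P Q) =
      red A (esDen A hℓ hζ ⟨σ, hσ.mem_decompositionSubgroup⟩ P Q) := by
  unfold esDen esNum
  rw [map_mul, map_mul, map_mul, map_mul, map_pow, map_pow, red_heckeMul_frob A hℓ hA hζ hσ,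
    red_heckeMul_frob A hℓ hA hζ hσ]
  ring

theorem red_esNum_ne_zero {ℓ : ℕ} [Fact ℓ.Prime] (hℓ : 0 < ℓ) (hA : A.LiesOverPrime ℓ) {ζ : Qb}
    (hζ : ζ ^ ℓ = 1) {σ : Gq} (hσ : A.IsFrobeniusAt σ ℓ) {P Q : LaurentSeries A}
    (hP : red A P ≠ 0) (hQ : red A Q ≠ 0) :
    red A (esNum A hℓ hζ ⟨σ, hσ.mem_decompositionSubgroup⟩ P Q) ≠ 0 := by
  unfold esNum
  rw [map_mul, map_mul, map_pow, red_heckeMul_frob A hℓ hA hζ hσ]
  have h1 := red_actA_ne_zero A hA hσ (red_actA_ne_zero A hA hσ hP)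
  have h2 := red_actA_ne_zero A hA hσ (red_actA_ne_zero A hA hσ hQ)
  exact mul_ne_zero (mul_ne_zero h1 (pow_ne_zero _ hP)) (mul_ne_zero (pow_ne_zero _ hQ) h2)

theorem incl_heckeMul {ℓ : ℕ} (hℓ : 0 < ℓ) (z : Qbˣ) (hz : (z : Qb) ^ ℓ = 1)
    (u : LaurentSeries A) :
    incl A (heckeMul ℓ hℓ (unitA A hℓ hz) u) = heckeMul ℓ hℓ z (incl A u) := by
  rw [incl, coeffMap_heckeMul, map_subtype_unitA A hℓ hz z rfl]

/-- **(ES), cross-multiplied fraction form.**  If `f = P / Q` with `P, Q` integral, then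
`σ²(f) · f ^ ℓ / T_ℓ(σ f) = Num / Den` with `Num, Den` integral with the same reduction. -/
theorem es_cross {ℓ : ℕ} (hℓ : 0 < ℓ) (z : Qbˣ) (hz : IsPrimitiveRoot z ℓ)
    (hz1 : (z : Qb) ^ ℓ = 1) (σ : A.decompositionSubgroup ℚ)
    (f : LaurentSeries Qb) (P Q : LaurentSeries A) (hf : f * incl A Q = incl A P) :
    coeffMap (((σ : Gq) : Qb ≃ₐ[ℚ] Qb) : Qb →+* Qb)
        (coeffMap (((σ : Gq) : Qb ≃ₐ[ℚ] Qb) : Qb →+* Qb) f) * f ^ ℓ *
        incl A (esDen A hℓ hz1 σ P Q) =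
      heckeMul ℓ hℓ z (coeffMap (((σ : Gq) : Qb ≃ₐ[ℚ] Qb) : Qb →+* Qb) f) *
        incl A (esNum A hℓ hz1 σ P Q) := by
  set F : LaurentSeries Qb →+* LaurentSeries Qb :=
    coeffMap (((σ : Gq) : Qb ≃ₐ[ℚ] Qb) : Qb →+* Qb) with hF
  have hFf : F f * F (incl A Q) = F (incl A P) := by rw [← map_mul, hf]
  have hFFf : F (F f) * F (F (incl A Q)) = F (F (incl A P)) := by rw [← map_mul, hFf]
  have hT : heckeMul ℓ hℓ z (F f) * heckeMul ℓ hℓ z (F (incl A Q)) =
      heckeMul ℓ hℓ z (F (incl A P)) := by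
    rw [← heckeMul_mul ℓ hℓ z hz, hFf]
  have hpow : f ^ ℓ * incl A Q ^ ℓ = incl A P ^ ℓ := by rw [← mul_pow, hf]
  unfold esDen esNum
  simp only [map_mul, map_pow, incl_heckeMul A hℓ z hz1, incl_actA, ← hF]
  calc F (F f) * f ^ ℓ * (F (F (incl A Q)) * incl A Q ^ ℓ * heckeMul ℓ hℓ z (F (incl A P)))
      = (F (F f) * F (F (incl A Q))) * (f ^ ℓ * incl A Q ^ ℓ) *
          heckeMul ℓ hℓ z (F (incl A P)) := by ring
    _ = F (F (incl A P)) * incl A P ^ ℓ *
          (heckeMul ℓ hℓ z (F f) * heckeMul ℓ hℓ z (F (incl A Q))) := by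
        rw [hFFf, hpow, hT]
    _ = heckeMul ℓ hℓ z (F f) *
          (F (F (incl A P)) * incl A P ^ ℓ * heckeMul ℓ hℓ z (F (incl A Q))) := by ring

/-- **(unr), cross-multiplied fraction form.**  If `f = P / Q` with `P, Q` integral and `τ` is in
the decomposition group, then `τ(f) / f = (τP · Q) / (τQ · P)`; for `τ` in the inertia group the
numerator and the denominator have the same reduction (`red_unr`). -/
theorem unr_cross (τ : A.decompositionSubgroup ℚ) (f : LaurentSeries Qb)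
    (P Q : LaurentSeries A) (hf : f * incl A Q = incl A P) :
    coeffMap (((τ : Gq) : Qb ≃ₐ[ℚ] Qb) : Qb →+* Qb) f * incl A (actA A τ Q * P) =
      f * incl A (actA A τ P * Q) := by
  set F : LaurentSeries Qb →+* LaurentSeries Qb :=
    coeffMap (((τ : Gq) : Qb ≃ₐ[ℚ] Qb) : Qb →+* Qb) with hF
  have hFf : F f * F (incl A Q) = F (incl A P) := by rw [← map_mul, hf]
  simp only [map_mul, incl_actA, ← hF]
  calc F f * (F (incl A Q) * incl A P) = (F f * F (incl A Q)) * incl A P := by ring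
    _ = F (incl A P) * (f * incl A Q) := by rw [hFf, hf]
    _ = f * (F (incl A P) * incl A Q) := by ring

theorem red_unr (τ : A.decompositionSubgroup ℚ) (hτ : τ ∈ A.inertiaSubgroup ℚ)
    (P Q : LaurentSeries A) :
    red A (actA A τ P * Q) = red A (actA A τ Q * P) := by
  rw [map_mul, map_mul, red_actA_inertia A τ hτ, red_actA_inertia A τ hτ, mul_comm]

theorem red_unr_ne_zero (τ : A.decompositionSubgroup ℚ) (hτ : τ ∈ A.inertiaSubgroup ℚ)
    {P Q : LaurentSeries A} (hP : red A P ≠ 0) (hQ : red A Q ≠ 0) :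
    red A (actA A τ P * Q) ≠ 0 := by
  rw [map_mul, red_actA_inertia A τ hτ]
  exact mul_ne_zero hP hQ

end Galois

end Fermat.Agent.S30.Congr
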