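import Mathlib
import Fermat.Prelude.Def_ModularCurve_LaurentCoeff

set_option autoImplicit false
set_option linter.unusedSectionVars false

/-!
# S30: the Gauss ring inside `E((q))` over an arbitrary discrete valuation ring `O`

`V = { ι a / ι b : a, b ∈ O((q)), b ≢ 0 mod 𝔪 }` with its reduction map to `k((q))`
(`k` the residue field of `O`), the kernel property, units, the valuation-ring property and
integral closedness inside the fraction field of `O((q))`.
(Generalisation of `Fermat.Agent.S28.GaussRing`, which is the case `O = ℤ_(ℓ)`.)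
-/

open ModularCurve

noncomputable section

namespace Fermat.Agent.S30.GaussDVR

variable (O E : Type*) [CommRing O] [IsDomain O] [IsDiscreteValuationRing O] [Field E]
  [Algebra O E] [FaithfulSMul O E]

/-- `ι : O((q)) → E((q))`. -/
abbrev iota : LaurentSeries O →+* LaurentSeries E :=
  coeffMap (algebraMap O E)

/-- `ρ : O((q)) → k((q))`. -/
abbrev rho : LaurentSeries O →+* LaurentSeries (IsLocalRing.ResidueField O) :=
  coeffMap (IsLocalRing.residue O)

theorem iota_injective : Function.Injective (iota O E) := by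
  intro a b h
  ext k
  have h1 := congrArg (fun x => x.coeff k) h
  simp only [coeffMap_coeff] at h1
  exact FaithfulSMul.algebraMap_injective O E h1

theorem iota_ne_zero {b : LaurentSeries O} (hb : b ≠ 0) : iota O E b ≠ 0 := by
  intro h
  exact hb (iota_injective O E (by rw [h, map_zero]))

theorem coeff_C_mul {R : Type*} [CommRing R] (r : R) (x : LaurentSeries R) (k : ℤ) :
    (HahnSeries.C r * x).coeff k = r * x.coeff k := by
  rw [HahnSeries.C_mul_eq_smul, HahnSeries.coeff_smul, smul_eq_mul]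

theorem iota_C (r : O) : iota O E (HahnSeries.C r) = HahnSeries.C (algebraMap O E r) := by
  rw [HahnSeries.C_apply, HahnSeries.C_apply, coeffMap_single]

theorem rho_C (r : O) :
    rho O (HahnSeries.C r) = HahnSeries.C (IsLocalRing.residue O r) := by
  rw [HahnSeries.C_apply, HahnSeries.C_apply, coeffMap_single]

theorem ne_zero_of_rho_ne_zero {b : LaurentSeries O} (hb : rho O b ≠ 0) : b ≠ 0 := by
  rintro rfl
  exact hb (map_zero _)

/-! ### The uniformiser -/

section Unif

variable {O}

open Classical in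
/-- Division by `ϖ` on `O` (junk value `0` when not divisible). -/
def divUnif (ϖ : O) : ZeroHom O O where
  toFun x := if h : ϖ ∣ x ∧ x ≠ 0 then Classical.choose h.1 else 0
  map_zero' := by
    rw [dif_neg]
    exact fun h => h.2 rfl

theorem unif_mul_divUnif (ϖ : O) {x : O} (hx : ϖ ∣ x) : ϖ * divUnif ϖ x = x := by
  classical
  by_cases h0 : x = 0
  · subst h0
    rw [map_zero, mul_zero]
  · have h : ϖ ∣ x ∧ x ≠ 0 := ⟨hx, h0⟩
    show ϖ * (if h : ϖ ∣ x ∧ x ≠ 0 then Classical.choose h.1 else 0) = x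
    rw [dif_pos h]
    exact (Classical.choose_spec h.1).symm

variable (ϖ : O) (hϖ : Irreducible ϖ)

include hϖ

theorem residue_unif : IsLocalRing.residue O ϖ = 0 := by
  rw [IsLocalRing.residue_eq_zero_iff]
  exact hϖ.not_isUnit

theorem rho_C_unif : rho O (HahnSeries.C ϖ) = 0 := by
  rw [rho_C, residue_unif ϖ hϖ, map_zero]

theorem dvd_of_residue_eq_zero {x : O} (hx : IsLocalRing.residue O x = 0) : ϖ ∣ x := by
  rw [IsLocalRing.residue_eq_zero_iff, hϖ.maximalIdeal_eq, Ideal.mem_span_singleton] at hx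
  exact hx

/-- A series that vanishes mod `𝔪` is divisible by the uniformiser. -/
theorem exists_eq_unif_mul_of_rho_eq_zero (a : LaurentSeries O) (h : rho O a = 0) :
    ∃ a₁ : LaurentSeries O, a = HahnSeries.C ϖ * a₁ := by
  refine ⟨a.map (divUnif ϖ), ?_⟩
  ext k
  rw [coeff_C_mul, HahnSeries.map_coeff]
  have hk : IsLocalRing.residue O (a.coeff k) = 0 := by
    have := congrArg (fun x => x.coeff k) h
    simpa using this
  exact (unif_mul_divUnif ϖ (dvd_of_residue_eq_zero ϖ hϖ hk)).symm

/-- Every nonzero integral Laurent series is `ϖ^k` times one that is nonzero mod `𝔪`. -/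
theorem exists_pow_mul (b : LaurentSeries O) (hb : b ≠ 0) :
    ∃ (k : ℕ) (b' : LaurentSeries O), b = HahnSeries.C ϖ ^ k * b' ∧ rho O b' ≠ 0 := by
  obtain ⟨m, hm⟩ : ∃ m, b.coeff m ≠ 0 := by
    by_contra hcon
    push Not at hcon
    exact hb (HahnSeries.ext (funext hcon))
  suffices H : ∀ (n : ℕ) (b : LaurentSeries O), ¬ ϖ ^ (n + 1) ∣ b.coeff m →
      ∃ (k : ℕ) (b' : LaurentSeries O), b = HahnSeries.C ϖ ^ k * b' ∧ rho O b' ≠ 0 by
    have hfin : FiniteMultiplicity ϖ (b.coeff m) :=
      FiniteMultiplicity.of_not_isUnit hϖ.not_isUnit hm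
    obtain ⟨n, hn⟩ := hfin
    exact H n b hn
  intro n
  induction n with
  | zero =>
    intro b hv
    by_cases hr : rho O b = 0
    · obtain ⟨b₁, rfl⟩ := exists_eq_unif_mul_of_rho_eq_zero ϖ hϖ b hr
      rw [coeff_C_mul] at hv
      exact absurd (by rw [zero_add, pow_one]; exact dvd_mul_right _ _) hv
    · exact ⟨0, b, by simp, hr⟩
  | succ n ih =>
    intro b hv
    by_cases hr : rho O b = 0
    · obtain ⟨b₁, rfl⟩ := exists_eq_unif_mul_of_rho_eq_zero ϖ hϖ b hr
      rw [coeff_C_mul] at hv
      have h1 : ¬ ϖ ^ (n + 1) ∣ b₁.coeff m := by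
        intro hd
        apply hv
        rw [pow_succ']
        exact mul_dvd_mul_left ϖ hd
      obtain ⟨k, b', hb', hρ⟩ := ih b₁ h1
      exact ⟨k + 1, b', by rw [hb', pow_succ']; ring, hρ⟩
    · exact ⟨0, b, by simp, hr⟩

end Unif

/-! ### The fraction field of `O((q))` and the Gauss ring -/

/-- The fraction field of `ι(O((q)))` inside `E((q))`. -/
def fracField : Subfield (LaurentSeries E) where
  carrier := {x | ∃ a b : LaurentSeries O, b ≠ 0 ∧ x * iota O E b = iota O E a}
  mul_mem' := by
    rintro x y ⟨a, b, hb, h⟩ ⟨a', b', hb', h'⟩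
    refine ⟨a * a', b * b', mul_ne_zero hb hb', ?_⟩
    rw [map_mul, map_mul, ← h, ← h']; ring
  one_mem' := ⟨1, 1, one_ne_zero, by simp⟩
  add_mem' := by
    rintro x y ⟨a, b, hb, h⟩ ⟨a', b', hb', h'⟩
    refine ⟨a * b' + a' * b, b * b', mul_ne_zero hb hb', ?_⟩
    rw [map_add, map_mul, map_mul, map_mul, ← h, ← h']; ring
  zero_mem' := ⟨0, 1, one_ne_zero, by simp⟩
  neg_mem' := by
    rintro x ⟨a, b, hb, h⟩
    exact ⟨-a, b, hb, by rw [map_neg, ← h]; ring⟩
  inv_mem' := by
    rintro x ⟨a, b, hb, h⟩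
    by_cases hx : x = 0
    · subst hx
      exact ⟨0, 1, one_ne_zero, by simp⟩
    · have ha : a ≠ 0 := by
        rintro rfl
        rw [map_zero] at h
        exact (mul_ne_zero hx (iota_ne_zero O E hb)) h
      refine ⟨b, a, ha, ?_⟩
      rw [← h]
      field_simp

theorem mem_fracField {x : LaurentSeries E} :
    x ∈ fracField O E ↔
      ∃ a b : LaurentSeries O, b ≠ 0 ∧ x * iota O E b = iota O E a := Iff.rfl

theorem closure_range_iota_le : Subfield.closure (Set.range (iota O E)) ≤ fracField O E := by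
  rw [Subfield.closure_le]
  rintro _ ⟨a, rfl⟩
  exact ⟨a, 1, one_ne_zero, by simp⟩

/-- The Gauss ring: fractions of integral Laurent series whose denominator is nonzero
mod `𝔪`. -/
def V : Subring (LaurentSeries E) where
  carrier := {x | ∃ a b : LaurentSeries O, rho O b ≠ 0 ∧ x * iota O E b = iota O E a}
  mul_mem' := by
    rintro x y ⟨a, b, hb, h⟩ ⟨a', b', hb', h'⟩
    refine ⟨a * a', b * b', by rw [map_mul]; exact mul_ne_zero hb hb', ?_⟩
    rw [map_mul, map_mul, ← h, ← h']; ring
  one_mem' := ⟨1, 1, by rw [map_one]; exact one_ne_zero, by simp⟩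
  add_mem' := by
    rintro x y ⟨a, b, hb, h⟩ ⟨a', b', hb', h'⟩
    refine ⟨a * b' + a' * b, b * b', by rw [map_mul]; exact mul_ne_zero hb hb', ?_⟩
    rw [map_add, map_mul, map_mul, map_mul, ← h, ← h']; ring
  zero_mem' := ⟨0, 1, by rw [map_one]; exact one_ne_zero, by simp⟩
  neg_mem' := by
    rintro x ⟨a, b, hb, h⟩
    exact ⟨-a, b, hb, by rw [map_neg, ← h]; ring⟩

theorem mem_V {x : LaurentSeries E} :
    x ∈ V O E ↔
      ∃ a b : LaurentSeries O, rho O b ≠ 0 ∧ x * iota O E b = iota O E a := Iff.rfl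

theorem V_le_fracField {x : LaurentSeries E} (hx : x ∈ V O E) : x ∈ fracField O E := by
  obtain ⟨a, b, hb, h⟩ := hx
  exact ⟨a, b, ne_zero_of_rho_ne_zero O hb, h⟩

/-- The reduction map as a function. -/
def redFun (x : V O E) : LaurentSeries (IsLocalRing.ResidueField O) :=
  rho O (Classical.choose x.2) / rho O (Classical.choose (Classical.choose_spec x.2))

theorem redFun_eq (x : V O E) (a b : LaurentSeries O) (hb : rho O b ≠ 0)
    (h : (x : LaurentSeries E) * iota O E b = iota O E a) :
    redFun O E x = rho O a / rho O b := by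
  obtain ⟨hb₀, h₀⟩ := Classical.choose_spec (Classical.choose_spec x.2)
  set a₀ := Classical.choose x.2
  set b₀ := Classical.choose (Classical.choose_spec x.2)
  have key : a₀ * b = a * b₀ := by
    apply iota_injective O E
    rw [map_mul, map_mul, ← h₀, ← h]; ring
  have key' : rho O a₀ * rho O b = rho O a * rho O b₀ := by
    rw [← map_mul, ← map_mul, key]
  show rho O a₀ / rho O b₀ = rho O a / rho O b
  rw [div_eq_div_iff hb₀ hb]
  exact key'

/-- The reduction map `V → k((q))`. -/
def red : V O E →+* LaurentSeries (IsLocalRing.ResidueField O) where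
  toFun := redFun O E
  map_one' := by
    rw [redFun_eq O E 1 1 1 (by rw [map_one]; exact one_ne_zero) (by simp), map_one, div_one]
  map_zero' := by
    rw [redFun_eq O E 0 0 1 (by rw [map_one]; exact one_ne_zero) (by simp), map_zero, zero_div]
  map_mul' := by
    intro x y
    obtain ⟨a, b, hb, h⟩ := (mem_V O E).mp x.2
    obtain ⟨a', b', hb', h'⟩ := (mem_V O E).mp y.2
    rw [redFun_eq O E x a b hb h, redFun_eq O E y a' b' hb' h',
      redFun_eq O E (x * y) (a * a') (b * b')
        (by rw [map_mul]; exact mul_ne_zero hb hb')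
        (by
          rw [Subring.coe_mul, map_mul, map_mul, ← h, ← h']; ring),
      map_mul, map_mul]
    field_simp
  map_add' := by
    intro x y
    obtain ⟨a, b, hb, h⟩ := (mem_V O E).mp x.2
    obtain ⟨a', b', hb', h'⟩ := (mem_V O E).mp y.2
    rw [redFun_eq O E x a b hb h, redFun_eq O E y a' b' hb' h',
      redFun_eq O E (x + y) (a * b' + a' * b) (b * b')
        (by rw [map_mul]; exact mul_ne_zero hb hb')
        (by
          rw [Subring.coe_add, map_add, map_mul, map_mul, map_mul, ← h, ← h']; ring),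
      map_add, map_mul, map_mul, map_mul]
    field_simp

theorem red_eq (x : V O E) (a b : LaurentSeries O) (hb : rho O b ≠ 0)
    (h : (x : LaurentSeries E) * iota O E b = iota O E a) :
    red O E x = rho O a / rho O b :=
  redFun_eq O E x a b hb h

/-- Multiplicative form of `red_eq` (no division). -/
theorem red_mul_rho (x : V O E) (a b : LaurentSeries O)
    (h : (x : LaurentSeries E) * iota O E b = iota O E a) :
    red O E x * rho O b = rho O a := by
  obtain ⟨a', b', hb', h'⟩ := (mem_V O E).mp x.2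
  rw [red_eq O E x a' b' hb' h', div_mul_eq_mul_div, div_eq_iff hb', ← map_mul, ← map_mul]
  congr 1
  apply iota_injective O E
  rw [map_mul, map_mul, ← h, ← h']; ring

/-- Integral series lie in the Gauss ring. -/
theorem mem_of_int (a : LaurentSeries O) : iota O E a ∈ V O E :=
  ⟨a, 1, by rw [map_one]; exact one_ne_zero, by simp⟩

/-- On integral series the reduction is coefficientwise. -/
theorem red_of_int (a : LaurentSeries O) :
    red O E ⟨iota O E a, mem_of_int O E a⟩ = rho O a := by
  rw [red_eq O E _ a 1 (by rw [map_one]; exact one_ne_zero) (by simp), map_one, div_one]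

/-- `O((q)) → V`. -/
def ofInt : LaurentSeries O →+* V O E :=
  (iota O E).codRestrict (V O E) (mem_of_int O E)

@[simp] theorem coe_ofInt (a : LaurentSeries O) :
    ((ofInt O E a : V O E) : LaurentSeries E) = iota O E a := rfl

@[simp] theorem red_ofInt (a : LaurentSeries O) : red O E (ofInt O E a) = rho O a :=
  red_of_int O E a

/-- Fractions with denominator nonzero mod `𝔪` lie in `V`. -/
theorem div_mem (a b : LaurentSeries O) (hb : rho O b ≠ 0) :
    iota O E a / iota O E b ∈ V O E :=
  ⟨a, b, hb, div_mul_cancel₀ _ (iota_ne_zero O E (ne_zero_of_rho_ne_zero O hb))⟩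

theorem red_div (a b : LaurentSeries O) (hb : rho O b ≠ 0) :
    red O E ⟨iota O E a / iota O E b, div_mem O E a b hb⟩ = rho O a / rho O b :=
  red_eq O E _ a b hb (div_mul_cancel₀ _ (iota_ne_zero O E (ne_zero_of_rho_ne_zero O hb)))

/-- Elements with nonzero reduction are units of `V`. -/
theorem inv_mem (x : V O E) (hx : red O E x ≠ 0) : (x : LaurentSeries E)⁻¹ ∈ V O E := by
  obtain ⟨a, b, hb, h⟩ := (mem_V O E).mp x.2
  rw [red_eq O E x a b hb h] at hx
  have ha : rho O a ≠ 0 := fun h0 => hx (by rw [h0, zero_div])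
  have ha0 : iota O E a ≠ 0 := iota_ne_zero O E (ne_zero_of_rho_ne_zero O ha)
  have hb0 : iota O E b ≠ 0 := iota_ne_zero O E (ne_zero_of_rho_ne_zero O hb)
  have hx0 : (x : LaurentSeries E) ≠ 0 := by
    intro h0
    rw [h0, zero_mul] at h
    exact ha0 h.symm
  refine ⟨b, a, ha, ?_⟩
  rw [← h]
  field_simp

section Unif2

variable {O} (ϖ : O) (hϖ : Irreducible ϖ)

/-- The uniformiser as an element of `V`. -/
def unif : V O E := ofInt O E (HahnSeries.C ϖ)

theorem coe_unif : ((unif E ϖ : V O E) : LaurentSeries E) = HahnSeries.C (algebraMap O E ϖ) := by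
  show iota O E (HahnSeries.C ϖ) = _
  rw [iota_C]

include hϖ

theorem red_unif : red O E (unif E ϖ) = 0 := by
  show red O E (ofInt O E (HahnSeries.C ϖ)) = 0
  rw [red_ofInt, rho_C_unif ϖ hϖ]

theorem coe_unif_ne_zero : ((unif E ϖ : V O E) : LaurentSeries E) ≠ 0 := by
  rw [coe_unif]
  exact HahnSeries.C_ne_zero
    (fun h => hϖ.ne_zero (FaithfulSMul.algebraMap_injective O E (by rw [h, map_zero])))

theorem unif_ne_zero : (unif E ϖ : V O E) ≠ 0 := by
  intro h
  exact coe_unif_ne_zero E ϖ hϖ (by rw [h]; rfl)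

/-- The kernel of the reduction is `ϖ V`. -/
theorem ker (x : V O E) (hx : red O E x = 0) : ∃ y : V O E, x = unif E ϖ * y := by
  obtain ⟨a, b, hb, h⟩ := (mem_V O E).mp x.2
  rw [red_eq O E x a b hb h, div_eq_zero_iff] at hx
  have ha : rho O a = 0 := hx.resolve_right hb
  obtain ⟨a₁, rfl⟩ := exists_eq_unif_mul_of_rho_eq_zero ϖ hϖ a ha
  have hb0 : iota O E b ≠ 0 := iota_ne_zero O E (ne_zero_of_rho_ne_zero O hb)
  refine ⟨⟨iota O E a₁ / iota O E b, div_mem O E a₁ b hb⟩, Subtype.ext ?_⟩
  rw [map_mul, iota_C] at h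
  show (x : LaurentSeries E) = (unif E ϖ : V O E) * (iota O E a₁ / iota O E b)
  rw [coe_unif, ← mul_div_assoc, eq_div_iff hb0, h]

/-- The kernel of the reduction is `ϖ V` (coerced form). -/
theorem ker' (x : V O E) (hx : red O E x = 0) :
    ∃ y : V O E, (x : LaurentSeries E) = HahnSeries.C (algebraMap O E ϖ) * (y : LaurentSeries E) := by
  obtain ⟨y, rfl⟩ := ker E ϖ hϖ x hx
  exact ⟨y, by rw [Subring.coe_mul, coe_unif]⟩

/-- Every nonzero element of the fraction field is `ϖ^i / ϖ^k` times a unit of `V`. -/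
theorem exists_unit_pow (x : LaurentSeries E) (hx : x ∈ fracField O E) (hx0 : x ≠ 0) :
    ∃ (i k : ℕ) (y : V O E), red O E y ≠ 0 ∧
      x * ((unif E ϖ : V O E) : LaurentSeries E) ^ k =
        ((unif E ϖ : V O E) : LaurentSeries E) ^ i * (y : LaurentSeries E) := by
  obtain ⟨a, b, hb, h⟩ := hx
  have ha : a ≠ 0 := by
    rintro rfl
    rw [map_zero] at h
    exact (mul_ne_zero hx0 (iota_ne_zero O E hb)) h
  obtain ⟨i, a', rfl, ha'⟩ := exists_pow_mul ϖ hϖ a ha
  obtain ⟨k, b', rfl, hb'⟩ := exists_pow_mul ϖ hϖ b hb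
  have hb0 : iota O E b' ≠ 0 := iota_ne_zero O E (ne_zero_of_rho_ne_zero O hb')
  refine ⟨i, k, ⟨iota O E a' / iota O E b', div_mem O E a' b' hb'⟩, ?_, ?_⟩
  · rw [red_div O E a' b' hb']
    exact div_ne_zero ha' hb'
  · rw [map_mul, map_mul, map_pow, map_pow, iota_C] at h
    rw [coe_unif]
    show x * HahnSeries.C (algebraMap O E ϖ) ^ k =
      HahnSeries.C (algebraMap O E ϖ) ^ i * (iota O E a' / iota O E b')
    rw [← mul_div_assoc, eq_div_iff hb0, ← h]; ring

/-- `V` is a valuation ring of the fraction field of `O((q))`. -/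
theorem mem_or_inv_mem (x : LaurentSeries E) (hx : x ∈ fracField O E) :
    x ∈ V O E ∨ x⁻¹ ∈ V O E := by
  by_cases hx0 : x = 0
  · left; rw [hx0]; exact zero_mem _
  obtain ⟨i, k, y, hy, h⟩ := exists_unit_pow E ϖ hϖ x hx hx0
  have hu : ((unif E ϖ : V O E) : LaurentSeries E) ≠ 0 := coe_unif_ne_zero E ϖ hϖ
  rcases le_total k i with hki | hik
  · left
    have hx' : x = ((unif E ϖ : V O E) : LaurentSeries E) ^ (i - k) * (y : LaurentSeries E) := by
      apply mul_right_cancel₀ (pow_ne_zero k hu)
      rw [h, mul_right_comm, ← pow_add, Nat.sub_add_cancel hki]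
    rw [hx']
    exact mul_mem (pow_mem (unif E ϖ).2 _) y.2
  · right
    obtain ⟨e, rfl⟩ := Nat.exists_eq_add_of_le hik
    have hxy : x * ((unif E ϖ : V O E) : LaurentSeries E) ^ e = (y : LaurentSeries E) := by
      apply mul_left_cancel₀ (pow_ne_zero i hu)
      rw [← h, pow_add]; ring
    have hx' : x⁻¹ = ((unif E ϖ : V O E) : LaurentSeries E) ^ e * (y : LaurentSeries E)⁻¹ := by
      rw [← hxy, mul_inv, mul_comm x⁻¹, ← mul_assoc, mul_inv_cancel₀ (pow_ne_zero e hu), one_mul]
    rw [hx']
    exact mul_mem (pow_mem (unif E ϖ).2 _) (inv_mem O E y hy)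

/-- `ϖ`-adic separatedness of `V`: a nonzero element is not divisible by all powers of `ϖ`. -/
theorem exists_not_pow_dvd (v : V O E) (hv : v ≠ 0) : ∃ n : ℕ, ¬ unif E ϖ ^ n ∣ v := by
  have hv0 : (v : LaurentSeries E) ≠ 0 := fun h => hv (Subtype.ext h)
  obtain ⟨i, k, y, hy, h⟩ := exists_unit_pow E ϖ hϖ v (V_le_fracField O E v.2) hv0
  have hu : ((unif E ϖ : V O E) : LaurentSeries E) ≠ 0 := coe_unif_ne_zero E ϖ hϖ
  refine ⟨i + 1, ?_⟩
  rintro ⟨w, rfl⟩
  apply hy
  -- `ϖ^(i+1) w ϖ^k = ϖ^i y`, so `y = ϖ^(k+1) w`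
  have hyw : y = unif E ϖ ^ (k + 1) * w := by
    apply Subtype.ext
    apply mul_left_cancel₀ (pow_ne_zero i hu)
    rw [← h]
    push_cast
    ring
  rw [hyw, map_mul, map_pow, red_unif E ϖ hϖ, zero_pow (Nat.succ_ne_zero k), zero_mul]

/-- A root in `V` of a monic polynomial over `V` scaled by an element of zero reduction has
zero reduction. -/
theorem red_eq_zero_of_scaleRoots (p : Polynomial (V O E)) (hp : p.Monic) (s w : V O E)
    (hs : red O E s = 0) (hw : (p.scaleRoots s).eval w = 0) (hd : p.natDegree ≠ 0) :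
    red O E w = 0 := by
  have h1 : (p.scaleRoots s).eval₂ (red O E) (red O E w) = 0 := by
    rw [Polynomial.eval₂_at_apply, hw, map_zero]
  rw [Polynomial.eval₂_eq_sum_range, Polynomial.natDegree_scaleRoots,
    Finset.sum_range_succ] at h1
  have h2 : ∑ i ∈ Finset.range p.natDegree,
      red O E ((p.scaleRoots s).coeff i) * red O E w ^ i = 0 := by
    refine Finset.sum_eq_zero fun i hi => ?_
    have hi' : i < p.natDegree := Finset.mem_range.mp hi
    rw [Polynomial.coeff_scaleRoots, map_mul, map_pow, hs,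
      zero_pow (by omega : p.natDegree - i ≠ 0), mul_zero, zero_mul]
  rw [h2, zero_add, Polynomial.coeff_scaleRoots_natDegree, hp.leadingCoeff, map_one,
    one_mul] at h1
  exact pow_eq_zero_iff hd |>.mp h1

/-- `V` is integrally closed in the fraction field of `ι(O((q)))`. -/
theorem closed_of_mem_fracField (x : LaurentSeries E) (hx : x ∈ fracField O E)
    (hint : (V O E).subtype.IsIntegralElem x) : x ∈ V O E := by
  by_cases hx0 : x = 0
  · rw [hx0]; exact zero_mem _
  obtain ⟨i, k, y, hy, h⟩ := exists_unit_pow E ϖ hϖ x hx hx0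
  have hu : ((unif E ϖ : V O E) : LaurentSeries E) ≠ 0 := coe_unif_ne_zero E ϖ hϖ
  rcases le_or_gt k i with hki | hik
  · have hx' : x = ((unif E ϖ : V O E) : LaurentSeries E) ^ (i - k) * (y : LaurentSeries E) := by
      apply mul_right_cancel₀ (pow_ne_zero k hu)
      rw [h, mul_right_comm, ← pow_add, Nat.sub_add_cancel hki]
    rw [hx']
    exact mul_mem (pow_mem (unif E ϖ).2 _) y.2
  · exfalso
    obtain ⟨p, hmonic, hroot⟩ := hint
    set e := k - i with he
    have he0 : e ≠ 0 := by omega
    have hwx : (y : LaurentSeries E) = ((unif E ϖ : V O E) : LaurentSeries E) ^ e * x := by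
      apply mul_left_cancel₀ (pow_ne_zero i hu)
      rw [← h, ← mul_assoc, ← pow_add, show i + e = k by omega]; ring
    by_cases hd : p.natDegree = 0
    · have hp1 : p = 1 := Polynomial.eq_one_of_monic_natDegree_zero hmonic hd
      rw [hp1, Polynomial.eval₂_one] at hroot
      exact one_ne_zero hroot
    set s : V O E := unif E ϖ ^ e with hs
    have hsred : red O E s = 0 := by
      rw [hs, map_pow, red_unif E ϖ hϖ, zero_pow he0]
    have hscoe : (V O E).subtype s = ((unif E ϖ : V O E) : LaurentSeries E) ^ e := by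
      rw [hs, map_pow]; rfl
    have h1 : (p.scaleRoots s).eval₂ (V O E).subtype ((V O E).subtype s * x) = 0 :=
      Polynomial.scaleRoots_eval₂_eq_zero _ hroot
    rw [hscoe, ← hwx] at h1
    have h2 : (p.scaleRoots s).eval₂ (V O E).subtype ((V O E).subtype y) = 0 := h1
    rw [Polynomial.eval₂_at_apply] at h2
    have h3 : (p.scaleRoots s).eval y = 0 := Subtype.ext h2
    exact hy (red_eq_zero_of_scaleRoots E ϖ hϖ p hmonic s _ hsred h3 hd)

/-- `V` is integrally closed in the subfield generated by `ι(O((q)))`. -/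
theorem closed (x : LaurentSeries E) (hx : x ∈ Subfield.closure (Set.range (iota O E)))
    (hint : (V O E).subtype.IsIntegralElem x) : x ∈ V O E :=
  closed_of_mem_fracField E ϖ hϖ x (closure_range_iota_le O E hx) hint

/-- Integral-closedness in the form used for integral closures of subrings: an element of
the fraction field that is integral over a ring mapping into `V` lies in `V`. -/
theorem mem_of_isIntegralElem {B : Type*} [CommRing B] (φ : B →+* LaurentSeries E)
    (hφ : ∀ b : B, φ b ∈ V O E) (x : LaurentSeries E) (hx : x ∈ fracField O E)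
    (hint : φ.IsIntegralElem x) : x ∈ V O E := by
  refine closed_of_mem_fracField E ϖ hϖ x hx ?_
  obtain ⟨p, hp, hroot⟩ := hint
  refine ⟨p.map (φ.codRestrict (V O E) hφ), hp.map _, ?_⟩
  rw [Polynomial.eval₂_map]
  exact hroot

end Unif2

end Fermat.Agent.S30.GaussDVR
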