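import Mathlib
import Fermat.Prelude.Def_ModularCurve_LaurentCoeff
import Fermat.Prelude.Def_FLTPrelim_Ramification
import Fermat.Prelude.Def_ModularCurve_X0ModL
import Fermat.Prelude.Thm_ModularCurve_coeffMap_qExpand
import Fermat.Agent.Lib.ValFrac
import Fermat.Agent.S30.GaussDVR

set_option autoImplicit false
set_option linter.unusedSectionVars false

/-!
# S30: descent of q-expansion congruences from a valuation subring of `ℚ̄` to a number field

`A` a valuation subring of `ℚ̄` over a prime `ℓ`, `E ⊂ ℚ̄` a number field, `O_E = A ∩ E`.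
* `O_E` is a discrete valuation ring.
* every element of `laurentBaseChange ℚ̄ F₀` comes from `laurentBaseChange E F₀` for all
  sufficiently large number fields `E`;
* a fraction `g = Num / Den` of `A`-integral series with the same nonzero reduction, lying in
  `laurentBaseChange ℚ̄ F₀`, lies in the Gauss ring of `O_E` with reduction `1`.
-/

open ModularCurve NumberField

noncomputable section

namespace Fermat.Agent.S30.GaussDescent

local notation "Qb" => AlgebraicClosure ℚ

variable (A : ValuationSubring Qb) (E : IntermediateField ℚ Qb)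

/-- `O_E = A ∩ E`, as a valuation subring of `E`. -/
abbrev OE : ValuationSubring E := A.comap (algebraMap E Qb)

theorem mem_OE (x : E) : x ∈ OE A E ↔ (x : Qb) ∈ A := Iff.rfl

/-- The inclusion `O_E → A`. -/
def toA : OE A E →+* A where
  toFun x := ⟨((x : E) : Qb), x.2⟩
  map_one' := rfl
  map_mul' _ _ := rfl
  map_zero' := rfl
  map_add' _ _ := rfl

theorem coe_toA (x : OE A E) : ((toA A E x : A) : Qb) = ((x : E) : Qb) := rfl

theorem toA_injective : Function.Injective (toA A E) := by
  intro x y h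
  apply Subtype.ext
  apply Subtype.ext
  exact congrArg (fun z : A => (z : Qb)) h

/-- `O_E → A` is a local homomorphism. -/
theorem isUnit_of_isUnit_toA (x : OE A E) (h : IsUnit (toA A E x)) : IsUnit x := by
  by_cases hx0 : x = 0
  · subst hx0
    rw [map_zero] at h
    exact absurd h not_isUnit_zero
  obtain ⟨u, hu⟩ := h
  have hinv : (((x : E) : Qb))⁻¹ ∈ A := by
    have h1 : ((u⁻¹ : Aˣ) : A) * toA A E x = 1 := by rw [← hu]; exact u.inv_mul
    have h2 : (((u⁻¹ : Aˣ) : A) : Qb) * ((x : E) : Qb) = 1 :=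
      congrArg (fun z : A => (z : Qb)) h1
    rw [← eq_inv_of_mul_eq_one_left h2]
    exact ((u⁻¹ : Aˣ) : A).2
  have hxE : ((x : E))⁻¹ ∈ OE A E := by
    rw [mem_OE]
    simpa using hinv
  have hx0' : (x : E) ≠ 0 := fun h0 => hx0 (Subtype.ext h0)
  exact IsUnit.of_mul_eq_one (⟨((x : E))⁻¹, hxE⟩ : OE A E)
    (Subtype.ext (mul_inv_cancel₀ hx0'))

theorem residue_toA_eq_zero (x : OE A E) (h : IsLocalRing.residue A (toA A E x) = 0) :
    IsLocalRing.residue (OE A E) x = 0 := by
  rw [IsLocalRing.residue_eq_zero_iff] at h ⊢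
  exact fun hu => h (hu.map (toA A E))

instance faithfulSMul_OE : FaithfulSMul (OE A E) E :=
  (faithfulSMul_iff_algebraMap_injective _ _).mpr Subtype.val_injective

/-! ### `O_E` is a discrete valuation ring -/

theorem natCast_mem_nonunits_OE {ℓ : ℕ} (hA : A.LiesOverPrime ℓ) :
    ((ℓ : ℕ) : E) ∈ (OE A E).nonunits := by
  have hA' : ((ℓ : ℕ) : Qb) ∈ A.nonunits := hA
  rw [ValuationSubring.mem_nonunits_iff_exists_mem_maximalIdeal] at hA' ⊢
  obtain ⟨h1, h2⟩ := hA'
  have hmem : ((ℓ : ℕ) : E) ∈ OE A E := by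
    rw [mem_OE]
    exact_mod_cast h1
  refine ⟨hmem, ?_⟩
  rw [IsLocalRing.mem_maximalIdeal, mem_nonunits_iff] at h2 ⊢
  intro hu
  apply h2
  have := hu.map (toA A E)
  convert this using 1
  apply Subtype.ext
  simp [coe_toA]

theorem mem_of_isIntegral_int' {L : Type*} [Field L] (B : ValuationSubring L) {a : L}
    (ha : IsIntegral ℤ a) : a ∈ B := by
  have h : IsIntegral B a := ha.tower_top
  obtain ⟨y, rfl⟩ := IsIntegrallyClosedIn.isIntegral_iff.mp h
  exact y.2

/-- The ring of integers of `E` inside `O_E`. -/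
def ofInt [NumberField E] : 𝓞 E →+* OE A E where
  toFun y := ⟨(y : E), mem_of_isIntegral_int' (OE A E) (NumberField.RingOfIntegers.isIntegral_coe y)⟩
  map_one' := rfl
  map_mul' _ _ := rfl
  map_zero' := rfl
  map_add' _ _ := rfl

theorem coe_ofInt [NumberField E] (y : 𝓞 E) : ((ofInt A E y : OE A E) : E) = (y : E) := rfl

theorem ofInt_injective [NumberField E] : Function.Injective (ofInt A E) := by
  intro x y h
  exact NumberField.RingOfIntegers.ext (congrArg (fun z : OE A E => (z : E)) h)

/-- The prime of `𝓞 E` below `A`. -/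
def primeOE [NumberField E] : Ideal (𝓞 E) :=
  (IsLocalRing.maximalIdeal (OE A E)).comap (ofInt A E)

theorem mem_primeOE [NumberField E] (y : 𝓞 E) : y ∈ primeOE A E ↔ ¬ IsUnit (ofInt A E y) := by
  rw [primeOE, Ideal.mem_comap, IsLocalRing.mem_maximalIdeal, mem_nonunits_iff]

instance primeOE_isPrime [NumberField E] : (primeOE A E).IsPrime :=
  Ideal.comap_isPrime (ofInt A E) _

/-- `O_E = A ∩ E` is a discrete valuation ring, for a number field `E ⊂ ℚ̄` and a valuation
subring `A` of `ℚ̄` over a prime number. -/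
theorem isDiscreteValuationRing_OE [FiniteDimensional ℚ E] {ℓ : ℕ} (hℓ : ℓ.Prime)
    (hA : A.LiesOverPrime ℓ) : IsDiscreteValuationRing (OE A E) := by
  have hNF : NumberField E := { to_charZero := inferInstance, to_finiteDimensional := inferInstance }
  let _ : Algebra (𝓞 E) (OE A E) := (ofInt A E).toAlgebra
  have hℓE : ((ℓ : ℕ) : E) ∈ (OE A E).nonunits := natCast_mem_nonunits_OE A E hA
  have hPne : primeOE A E ≠ ⊥ := by
    intro hbot
    have hmem : ((ℓ : ℕ) : 𝓞 E) ∈ primeOE A E := by
      rw [mem_primeOE]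
      rw [ValuationSubring.mem_nonunits_iff_exists_mem_maximalIdeal] at hℓE
      obtain ⟨h1, h2⟩ := hℓE
      rw [IsLocalRing.mem_maximalIdeal, mem_nonunits_iff] at h2
      convert h2 using 2
      exact Subtype.ext (by simp)
    rw [hbot, Ideal.mem_bot] at hmem
    exact hℓ.ne_zero (by exact_mod_cast hmem)
  have hloc : IsLocalization.AtPrime (OE A E) (primeOE A E) := by
    refine ⟨fun y => ?_, fun z => ?_, fun {x y} h => ?_⟩
    · -- elements outside the prime are units
      have hy : (y : 𝓞 E) ∉ primeOE A E := y.2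
      rw [mem_primeOE, not_not] at hy
      exact hy
    · -- every element is a fraction
      have hzalg : IsAlgebraic ℤ (z : E) :=
        (IsFractionRing.isAlgebraic_iff ℤ ℚ E).mpr (Algebra.IsAlgebraic.isAlgebraic (z : E))
      obtain ⟨s, hs, hzs, hvs⟩ :=
        Fermat.Agent.Lib.ValFrac.exists_integral_fraction (OE A E) ℓ hℓ hℓE (z : E) z.2 hzalg
      obtain ⟨s', hs'⟩ : ∃ s' : 𝓞 E, (s' : E) = s := ⟨⟨s, hs⟩, rfl⟩
      obtain ⟨a', ha'⟩ : ∃ a' : 𝓞 E, (a' : E) = (z : E) * s := ⟨⟨_, hzs⟩, rfl⟩
      have hsunit : IsUnit (ofInt A E s') := by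
        rw [ValuationSubring.valuation_eq_one_iff, coe_ofInt, hs']
        exact hvs
      have hsP : s' ∉ primeOE A E := by
        rw [mem_primeOE, not_not]
        exact hsunit
      refine ⟨(a', ⟨s', hsP⟩), ?_⟩
      apply Subtype.ext
      show (z : E) * ((ofInt A E s' : OE A E) : E) = ((ofInt A E a' : OE A E) : E)
      rw [coe_ofInt, coe_ofInt, hs', ha']
    · exact ⟨1, by rw [ofInt_injective A E h]⟩
  exact IsLocalization.AtPrime.isDiscreteValuationRing_of_dedekind_domain (𝓞 E) hPne (OE A E)

/-! ### Ascent and descent of elements of `laurentBaseChange` -/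

section BaseChange

variable (F₀ : IntermediateField ℚ (LaurentSeries ℚ))

/-- Extension of coefficients `E((q)) → ℚ̄((q))`. -/
abbrev up : LaurentSeries E →+* LaurentSeries Qb := coeffMap (algebraMap E Qb)

theorem up_injective : Function.Injective (up E) := by
  intro a b h
  ext k
  have h1 := congrArg (fun x => x.coeff k) h
  simp only [coeffMap_coeff] at h1
  exact h1

theorem isAlgebraic_rat_Qb : Algebra.IsAlgebraic ℚ Qb := by
  have h : (DivisionRing.toRatAlgebra : Algebra ℚ (AlgebraicClosure ℚ)) =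
      AlgebraicClosure.instAlgebra ℚ := Subsingleton.elim _ _
  rw [h]; infer_instance

theorem up_coeffEmb (z : LaurentSeries ℚ) : up E (coeffEmb E z) = coeffEmb Qb z := by
  show coeffMap (algebraMap E Qb) (coeffMap (algebraMap ℚ E) z) = coeffMap (algebraMap ℚ Qb) z
  rw [coeffMap_coeffMap]
  exact coeffMap_congr (Subsingleton.elim _ _) z

theorem up_algebraMap (c : E) :
    up E (algebraMap E (LaurentSeries E) c) = algebraMap Qb (LaurentSeries Qb) (c : Qb) := by
  rw [algebraMap_laurentSeries_eq_single, algebraMap_laurentSeries_eq_single, coeffMap_single]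
  rfl

/-- **Ascent (D3)**: extension of coefficients maps `laurentBaseChange E F₀` into
`laurentBaseChange ℚ̄ F₀`. -/
theorem up_mem {y : LaurentSeries E} (hy : y ∈ laurentBaseChange E F₀) :
    up E y ∈ laurentBaseChange Qb F₀ := by
  rw [mem_laurentBaseChange_iff] at hy
  induction hy using Subfield.closure_induction with
  | mem y hy =>
      rcases hy with ⟨a, rfl⟩ | ⟨z, hz, rfl⟩
      · rw [up_algebraMap]
        exact (laurentBaseChange Qb F₀).algebraMap_mem _
      · rw [up_coeffEmb]
        exact coeffEmb_mem_laurentBaseChange Qb hz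
  | one => simp
  | add x y _ _ hx hy => simpa using add_mem hx hy
  | neg x _ hx => simpa using neg_mem hx
  | inv x _ hx => simpa using inv_mem hx
  | mul x y _ _ hx hy => simpa using mul_mem hx hy

/-- **Descent of elements (D1)**: every element of `laurentBaseChange ℚ̄ F₀` comes from
`laurentBaseChange E F₀` for every sufficiently large number field `E ⊂ ℚ̄`. -/
theorem exists_descent {x : LaurentSeries Qb} (hx : x ∈ laurentBaseChange Qb F₀) :
    ∃ E₀ : IntermediateField ℚ Qb, FiniteDimensional ℚ E₀ ∧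
      ∀ E : IntermediateField ℚ Qb, E₀ ≤ E →
        ∃ y : LaurentSeries E, y ∈ laurentBaseChange E F₀ ∧ up E y = x := by
  rw [mem_laurentBaseChange_iff] at hx
  induction hx using Subfield.closure_induction with
  | mem y hy =>
      rcases hy with ⟨a, rfl⟩ | ⟨z, hz, rfl⟩
      · refine ⟨IntermediateField.adjoin ℚ {a},
          IntermediateField.adjoin.finiteDimensional
            (isAlgebraic_rat_Qb.isAlgebraic a).isIntegral, fun E hE => ?_⟩
        have ha : a ∈ E := hE (IntermediateField.mem_adjoin_simple_self ℚ a)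
        refine ⟨algebraMap E (LaurentSeries E) ⟨a, ha⟩,
          (laurentBaseChange E F₀).algebraMap_mem _, ?_⟩
        rw [up_algebraMap]
      · refine ⟨⊥, inferInstance, fun E _ => ?_⟩
        exact ⟨coeffEmb E z, coeffEmb_mem_laurentBaseChange E hz, up_coeffEmb E z⟩
  | one =>
      exact ⟨⊥, inferInstance, fun E _ => ⟨1, one_mem _, map_one _⟩⟩
  | add x y _ _ hx hy =>
      obtain ⟨E₁, hE₁, h₁⟩ := hx
      obtain ⟨E₂, hE₂, h₂⟩ := hy
      refine ⟨E₁ ⊔ E₂, IntermediateField.finiteDimensional_sup E₁ E₂, fun E hE => ?_⟩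
      obtain ⟨y₁, hy₁, rfl⟩ := h₁ E (le_trans le_sup_left hE)
      obtain ⟨y₂, hy₂, rfl⟩ := h₂ E (le_trans le_sup_right hE)
      exact ⟨y₁ + y₂, add_mem hy₁ hy₂, map_add _ _ _⟩
  | neg x _ hx =>
      obtain ⟨E₁, hE₁, h₁⟩ := hx
      refine ⟨E₁, hE₁, fun E hE => ?_⟩
      obtain ⟨y₁, hy₁, rfl⟩ := h₁ E hE
      exact ⟨-y₁, neg_mem hy₁, map_neg _ _⟩
  | inv x _ hx =>
      obtain ⟨E₁, hE₁, h₁⟩ := hx
      refine ⟨E₁, hE₁, fun E hE => ?_⟩
      obtain ⟨y₁, hy₁, rfl⟩ := h₁ E hE
      exact ⟨y₁⁻¹, inv_mem hy₁, map_inv₀ _ _⟩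
  | mul x y _ _ hx hy =>
      obtain ⟨E₁, hE₁, h₁⟩ := hx
      obtain ⟨E₂, hE₂, h₂⟩ := hy
      refine ⟨E₁ ⊔ E₂, IntermediateField.finiteDimensional_sup E₁ E₂, fun E hE => ?_⟩
      obtain ⟨y₁, hy₁, rfl⟩ := h₁ E (le_trans le_sup_left hE)
      obtain ⟨y₂, hy₂, rfl⟩ := h₂ E (le_trans le_sup_right hE)
      exact ⟨y₁ * y₂, mul_mem hy₁ hy₂, map_mul _ _ _⟩

end BaseChange

/-! ### Fractions of integral series -/

section IntFrac

/-- `z ∈ ℚ((q))` is a fraction of two series with integer coefficients. -/
def IntFrac (z : LaurentSeries ℚ) : Prop :=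
  ∃ a b : LaurentSeries ℤ, b ≠ 0 ∧
    z * coeffMap (Int.castRingHom ℚ) b = coeffMap (Int.castRingHom ℚ) a

theorem coeffMap_intCast_injective (R : Type*) [CommRing R] [CharZero R] :
    Function.Injective (coeffMap (Int.castRingHom R)) := by
  intro a b h
  ext k
  have h1 := congrArg (fun x => x.coeff k) h
  simp only [coeffMap_coeff] at h1
  exact Int.cast_injective h1

/-- The subfield of `ℚ((q))` of fractions of series with integer coefficients. -/
def intFracField : Subfield (LaurentSeries ℚ) where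
  carrier := {z | IntFrac z}
  mul_mem' := by
    rintro x y ⟨a, b, hb, h⟩ ⟨a', b', hb', h'⟩
    refine ⟨a * a', b * b', mul_ne_zero hb hb', ?_⟩
    rw [map_mul, map_mul, ← h, ← h']; ring
  one_mem' := ⟨1, 1, one_ne_zero, by simp⟩
  add_mem' := by
    rintro x y ⟨a, b, hb, h⟩ ⟨a', b', hb', h'⟩
    refine ⟨a * b' + a' * b, b * b', mul_ne_zero hb hb', ?_⟩
    rw [map_add, map_mul, map_mul, map_mul, ← h, ← h']; ring
  zero_mem' := ⟨0, 1, one_ne_zero, by simp⟩
  neg_mem' := by
    rintro x ⟨a, b, hb, h⟩
    exact ⟨-a, b, hb, by rw [map_neg, ← h]; ring⟩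
  inv_mem' := by
    rintro x ⟨a, b, hb, h⟩
    by_cases hx : x = 0
    · subst hx
      exact ⟨0, 1, one_ne_zero, by simp⟩
    · have hb0 : coeffMap (Int.castRingHom ℚ) b ≠ 0 := fun h0 =>
        hb (coeffMap_intCast_injective ℚ (by rw [h0, map_zero]))
      have ha : a ≠ 0 := by
        rintro rfl
        rw [map_zero] at h
        exact (mul_ne_zero hx hb0) h
      refine ⟨b, a, ha, ?_⟩
      rw [← h]
      field_simp

theorem mem_intFracField {z : LaurentSeries ℚ} : z ∈ intFracField ↔ IntFrac z := Iff.rfl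

theorem intFrac_of_int (a : LaurentSeries ℤ) : IntFrac (coeffMap (Int.castRingHom ℚ) a) :=
  ⟨a, 1, one_ne_zero, by simp⟩

theorem intFrac_algebraMap (r : ℚ) : IntFrac (algebraMap ℚ (LaurentSeries ℚ) r) := by
  refine ⟨HahnSeries.C r.num, HahnSeries.C (r.den : ℤ), ?_, ?_⟩
  · exact HahnSeries.C_ne_zero (by exact_mod_cast r.den_ne_zero)
  · rw [algebraMap_laurentSeries_eq_single, HahnSeries.C_apply, HahnSeries.C_apply,
      coeffMap_single, coeffMap_single, HahnSeries.single_mul_single, zero_add]
    congr 1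
    simp only [eq_intCast, Int.cast_natCast]
    exact Rat.mul_den_eq_num r

/-- An intermediate field generated by series with integer coefficients consists of fractions
of such series. -/
theorem intFrac_of_mem_adjoin (S : Set (LaurentSeries ℚ))
    (hS : ∀ z ∈ S, ∃ a : LaurentSeries ℤ, coeffMap (Int.castRingHom ℚ) a = z)
    {z : LaurentSeries ℚ} (hz : z ∈ IntermediateField.adjoin ℚ S) : IntFrac z := by
  have hle : (IntermediateField.adjoin ℚ S).toSubfield ≤ intFracField := by
    show Subfield.closure (Set.range (algebraMap ℚ (LaurentSeries ℚ)) ∪ S) ≤ intFracField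
    rw [Subfield.closure_le]
    rintro x (⟨r, rfl⟩ | hx)
    · exact intFrac_algebraMap r
    · obtain ⟨a, rfl⟩ := hS x hx
      exact intFrac_of_int a
  exact hle hz

end IntFrac

/-! ### `laurentBaseChange E F₀` lies in the fraction field of `O_E((q))` -/

section Frac

variable (F₀ : IntermediateField ℚ (LaurentSeries ℚ))
variable [IsDiscreteValuationRing (OE A E)]

theorem algebraMap_mem_fracField (c : E) :
    algebraMap E (LaurentSeries E) c ∈ GaussDVR.fracField (OE A E) E := by
  rw [algebraMap_laurentSeries_eq_single]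
  rcases (OE A E).mem_or_inv_mem c with hc | hc
  · refine ⟨HahnSeries.C ⟨c, hc⟩, 1, one_ne_zero, ?_⟩
    rw [map_one, mul_one, GaussDVR.iota_C, HahnSeries.C_apply]
    rfl
  · by_cases hc0 : c = 0
    · subst hc0
      rw [HahnSeries.single_eq_zero]
      exact zero_mem _
    · refine ⟨1, HahnSeries.C ⟨c⁻¹, hc⟩, ?_, ?_⟩
      · exact HahnSeries.C_ne_zero (fun h => inv_ne_zero hc0 (congrArg Subtype.val h))
      · rw [map_one, GaussDVR.iota_C, HahnSeries.C_apply]
        show HahnSeries.single 0 c * HahnSeries.single 0 (c⁻¹) = 1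
        rw [HahnSeries.single_mul_single, zero_add, mul_inv_cancel₀ hc0]
        rfl

theorem coeffEmb_mem_fracField {z : LaurentSeries ℚ} (hz : IntFrac z) :
    coeffEmb E z ∈ GaussDVR.fracField (OE A E) E := by
  obtain ⟨a, b, hb, h⟩ := hz
  have key : ∀ c : LaurentSeries ℤ,
      GaussDVR.iota (OE A E) E (coeffMap (Int.castRingHom (OE A E)) c) =
        coeffEmb E (coeffMap (Int.castRingHom ℚ) c) := by
    intro c
    show coeffMap (algebraMap (OE A E) E) (coeffMap (Int.castRingHom (OE A E)) c) =
      coeffMap (algebraMap ℚ E) (coeffMap (Int.castRingHom ℚ) c)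
    rw [coeffMap_coeffMap, coeffMap_coeffMap]
    exact coeffMap_congr (RingHom.ext_int _ _) c
  refine ⟨coeffMap (Int.castRingHom (OE A E)) a, coeffMap (Int.castRingHom (OE A E)) b, ?_, ?_⟩
  · intro h0
    apply hb
    apply coeffMap_intCast_injective ℚ
    have h1 := congrArg (GaussDVR.iota (OE A E) E) h0
    rw [key, map_zero] at h1
    have hinj : Function.Injective (coeffEmb E) := by
      intro x y hxy
      ext k
      have h2 := congrArg (fun w => w.coeff k) hxy
      simp only [coeffEmb_coeff] at h2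
      exact (algebraMap ℚ E).injective h2
    rw [map_zero]
    exact hinj (by rw [h1, map_zero])
  · rw [key, key, ← h, map_mul]

/-- If `F₀` consists of fractions of series with integer coefficients, then
`laurentBaseChange E F₀` lies in the fraction field of `O_E((q))`. -/
theorem mem_fracField_of_mem_laurentBaseChange (hF₀ : ∀ z ∈ F₀, IntFrac z)
    {y : LaurentSeries E} (hy : y ∈ laurentBaseChange E F₀) :
    y ∈ GaussDVR.fracField (OE A E) E := by
  rw [mem_laurentBaseChange_iff] at hy
  have hle : Subfield.closure (Set.range (algebraMap E (LaurentSeries E)) ∪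
      (⇑(coeffEmb E) '' (F₀ : Set (LaurentSeries ℚ)))) ≤ GaussDVR.fracField (OE A E) E := by
    rw [Subfield.closure_le]
    rintro x (⟨c, rfl⟩ | ⟨z, hz, rfl⟩)
    · exact algebraMap_mem_fracField A E c
    · exact coeffEmb_mem_fracField A E (hF₀ z hz)
  exact hle hy

end Frac

/-! ### The main descent statement -/

section Main

variable (F₀ : IntermediateField ℚ (LaurentSeries ℚ))
variable [IsDiscreteValuationRing (OE A E)]

theorem up_iota (c : LaurentSeries (OE A E)) :
    up E (GaussDVR.iota (OE A E) E c) = coeffMap A.subtype (coeffMap (toA A E) c) := by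
  show coeffMap (algebraMap E Qb) (coeffMap (algebraMap (OE A E) E) c) = _
  rw [coeffMap_coeffMap, coeffMap_coeffMap]
  exact coeffMap_congr (RingHom.ext fun _ => rfl) c

theorem coeffMap_subtype_injective : Function.Injective (coeffMap A.subtype) := by
  intro a b h
  ext k
  exact congrArg (fun x : LaurentSeries Qb => x.coeff k) h

/-- If `rho a ≠ 0` over `O_E`, then the image of `a` over `A` has nonzero reduction. -/
theorem red_toA_ne_zero {a : LaurentSeries (OE A E)} (ha : GaussDVR.rho (OE A E) a ≠ 0) :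
    coeffMap (IsLocalRing.residue A) (coeffMap (toA A E) a) ≠ 0 := by
  intro h0
  apply ha
  ext k
  have h1 := congrArg (fun x => x.coeff k) h0
  simp only [coeffMap_coeff, HahnSeries.coeff_zero] at h1
  rw [coeffMap_coeff, HahnSeries.coeff_zero]
  exact residue_toA_eq_zero A E _ h1

/-- **Descent of a congruence.**  Let `gE ∈ laurentBaseChange E F₀` (with `F₀` made of fractions
of integral series) and suppose that over `A` its image is a fraction `Num / Den` of
`A`-integral series with the same nonzero reduction.  Then `gE` lies in the Gauss ring of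
`O_E = A ∩ E` and its reduction is `1`. -/
theorem gauss_of_cross (hF₀ : ∀ z ∈ F₀, IntFrac z)
    (gE : LaurentSeries E) (hgE : gE ∈ laurentBaseChange E F₀)
    (Num Den : LaurentSeries A)
    (hcross : up E gE * coeffMap A.subtype Den = coeffMap A.subtype Num)
    (hred : coeffMap (IsLocalRing.residue A) Num = coeffMap (IsLocalRing.residue A) Den)
    (hne : coeffMap (IsLocalRing.residue A) Den ≠ 0) :
    ∃ h : gE ∈ GaussDVR.V (OE A E) E, GaussDVR.red (OE A E) E ⟨gE, h⟩ = 1 := by
  obtain ⟨ϖ, hϖ⟩ := IsDiscreteValuationRing.exists_irreducible (OE A E)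
  by_cases hx0 : gE - 1 = 0
  · have hg1 : gE = 1 := sub_eq_zero.mp hx0
    subst hg1
    exact ⟨one_mem _, map_one _⟩
  have hxfrac : gE - 1 ∈ GaussDVR.fracField (OE A E) E :=
    sub_mem (mem_fracField_of_mem_laurentBaseChange A E F₀ hF₀ hgE) (one_mem _)
  obtain ⟨i, k, y, hy, h⟩ := GaussDVR.exists_unit_pow E ϖ hϖ (gE - 1) hxfrac hx0
  have hu : ((GaussDVR.unif E ϖ : GaussDVR.V (OE A E) E) : LaurentSeries E) ≠ 0 :=
    GaussDVR.coe_unif_ne_zero E ϖ hϖ
  rcases lt_or_ge k i with hki | hik
  · -- `gE - 1 = ϖ^(i-k) y` with `i - k ≥ 1`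
    obtain ⟨e, he⟩ := Nat.exists_eq_add_of_lt hki
    have hx' : gE - 1 =
        ((GaussDVR.unif E ϖ ^ (e + 1) * y : GaussDVR.V (OE A E) E) : LaurentSeries E) := by
      apply mul_right_cancel₀ (pow_ne_zero k hu)
      rw [h, he]
      push_cast
      ring
    have hgE' : gE =
        ((1 + GaussDVR.unif E ϖ ^ (e + 1) * y : GaussDVR.V (OE A E) E) : LaurentSeries E) := by
      rw [Subring.coe_add, ← hx']
      simp
    refine ⟨hgE' ▸ (1 + GaussDVR.unif E ϖ ^ (e + 1) * y).2, ?_⟩
    have hsub : (⟨gE, hgE' ▸ (1 + GaussDVR.unif E ϖ ^ (e + 1) * y).2⟩ : GaussDVR.V (OE A E) E) =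
        1 + GaussDVR.unif E ϖ ^ (e + 1) * y := Subtype.ext hgE'
    rw [hsub, map_add, map_one, map_mul, map_pow, GaussDVR.red_unif E ϖ hϖ,
      zero_pow (Nat.succ_ne_zero e), zero_mul, add_zero]
  · -- impossible: the reduction of `y` would vanish
    exfalso
    obtain ⟨e, he⟩ := Nat.exists_eq_add_of_le hik
    have hyx : (y : LaurentSeries E) =
        (gE - 1) * ((GaussDVR.unif E ϖ : GaussDVR.V (OE A E) E) : LaurentSeries E) ^ e := by
      apply mul_left_cancel₀ (pow_ne_zero i hu)
      rw [← h, he, pow_add]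
      ring
    obtain ⟨a, b, hb, hab⟩ := (GaussDVR.mem_V (OE A E) E).mp y.2
    have hya : GaussDVR.rho (OE A E) a ≠ 0 := by
      intro ha0
      apply hy
      rw [GaussDVR.red_eq (OE A E) E y a b hb hab, ha0, zero_div]
    -- transport to `A((q))`
    set aA : LaurentSeries A := coeffMap (toA A E) a with haA
    set bA : LaurentSeries A := coeffMap (toA A E) b with hbA
    set uA : LaurentSeries A := coeffMap (toA A E) (HahnSeries.C ϖ) with huA
    have h1 : up E (y : LaurentSeries E) * coeffMap A.subtype bA = coeffMap A.subtype aA := by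
      rw [haA, hbA, ← up_iota, ← up_iota, ← map_mul, hab]
    have h2 : up E ((GaussDVR.unif E ϖ : GaussDVR.V (OE A E) E) : LaurentSeries E) =
        coeffMap A.subtype uA := by
      rw [huA, ← up_iota]
      rfl
    have h3 : (up E gE - 1) * coeffMap A.subtype Den = coeffMap A.subtype (Num - Den) := by
      rw [map_sub, ← hcross]; ring
    have h4 : coeffMap A.subtype ((Num - Den) * uA ^ e * bA) = coeffMap A.subtype (aA * Den) := by
      rw [map_mul, map_mul, map_pow, map_mul, ← h1, ← h3, ← h2, hyx, map_mul, map_sub, map_one,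
        map_pow]
      ring
    have h5 : (Num - Den) * uA ^ e * bA = aA * Den := coeffMap_subtype_injective A h4
    have h6 := congrArg (coeffMap (IsLocalRing.residue A)) h5
    rw [map_mul, map_mul, map_sub, hred, sub_self, zero_mul, zero_mul, map_mul] at h6
    rcases mul_eq_zero.mp h6.symm with h7 | h7
    · exact red_toA_ne_zero A E hya h7
    · exact hne h7

/-- **(D1), packaged.**  `A` a valuation subring of `ℚ̄`, `g ∈ laurentBaseChange ℚ̄ F₀` a fraction
`Num / Den` of `A`-integral series with the same nonzero reduction.  Then for every sufficiently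
large number field `E ⊂ ℚ̄` (with `O_E = A ∩ E` a discrete valuation ring), `g` comes from an
element `gE` of `laurentBaseChange E F₀` lying in the Gauss ring of `O_E` with reduction `1`. -/
theorem exists_gauss (hF₀ : ∀ z ∈ F₀, IntFrac z)
    (g : LaurentSeries Qb) (hg : g ∈ laurentBaseChange Qb F₀) (Num Den : LaurentSeries A)
    (hcross : g * coeffMap A.subtype Den = coeffMap A.subtype Num)
    (hred : coeffMap (IsLocalRing.residue A) Num = coeffMap (IsLocalRing.residue A) Den)
    (hne : coeffMap (IsLocalRing.residue A) Den ≠ 0) :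
    ∃ E₀ : IntermediateField ℚ Qb, FiniteDimensional ℚ E₀ ∧
      ∀ E : IntermediateField ℚ Qb, E₀ ≤ E → ∀ _ : IsDiscreteValuationRing (OE A E),
        ∃ gE : LaurentSeries E, gE ∈ laurentBaseChange E F₀ ∧ up E gE = g ∧
          ∃ h : gE ∈ GaussDVR.V (OE A E) E, GaussDVR.red (OE A E) E ⟨gE, h⟩ = 1 := by
  obtain ⟨E₀, hE₀, hdesc⟩ := exists_descent F₀ hg
  refine ⟨E₀, hE₀, fun E hE hdvr => ?_⟩
  obtain ⟨gE, hgE, rfl⟩ := hdesc E hE
  exact ⟨gE, hgE, rfl, gauss_of_cross A E F₀ hF₀ gE hgE Num Den hcross hred hne⟩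

end Main

/-! ### The modular function fields consist of fractions of integral series -/

section Modular

theorem exists_int_qExpand_jq (d : ℕ) [NeZero d] :
    ∃ a : LaurentSeries ℤ, coeffMap (Int.castRingHom ℚ) a = qExpand ℚ d jq := by
  refine ⟨qExpand ℤ d (jqModC ℤ), ?_⟩
  rw [ModularCurve.coeffMap_qExpand, coeffMap_jqModC, jqModC_rat]

/-- Every element of the full modular function field of level `N` is a fraction of series with
integer coefficients (the hypothesis `hF₀` of `gauss_of_cross` / `exists_gauss`). -/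
theorem intFrac_of_mem_full (N : ℕ) [NeZero N] :
    ∀ z ∈ modularFunctionFieldFull N, IntFrac z := by
  intro z hz
  refine intFrac_of_mem_adjoin (divisorExpansions N) ?_ hz
  rintro x ⟨d, hd, _, rfl⟩
  exact exists_int_qExpand_jq d

end Modular

end Fermat.Agent.S30.GaussDescent
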