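/-
The hypotheses of the Prelude Hecke correspondence hold for the modular function fields over `ℚ̄`:
`ModularCurve.HeckeInputsAlong (AlgebraicClosure ℚ) N ℓ` for all `N`, `ℓ`.
Hence `ModularCurve.heckeOperatorAlong` on `JZero N` is the genuine Hecke correspondence
(not the junk value `0`).
-/
import Mathlib
import Fermat.Prelude.Def_ModularCurve_HeckeOperatorTotal
import Fermat.Agent.Lib.FFNorm.Along
import Fermat.Agent.S24.DegreeGen
import Fermat.Agent.S24.Degree.Final

set_option autoImplicit false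

namespace Fermat.Agent.S30.HeckeInputs

open ModularCurve AlgebraicCurve

/-- `trdeg_ℚ̄ F_N = 1` (from S24). -/
theorem trdeg_bar (N : ℕ) [NeZero N] :
    Algebra.trdeg (AlgebraicClosure ℚ) ↥(modularFunctionFieldBar N) = 1 :=
  Fermat.Agent.S24.DegreeWire.trdeg_FN N

theorem hasPrincipalDivisors_bar (N : ℕ) [NeZero N] :
    HasPrincipalDivisors (AlgebraicClosure ℚ) ↥(modularFunctionFieldBar N) :=
  Fermat.Agent.Lib.FFNorm.hasPrincipalDivisors (trdeg_bar N)

variable (N ℓ : ℕ) [NeZero N] [NeZero ℓ]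

theorem heckeAlphaBarIntegral : HeckeAlphaBarIntegral (AlgebraicClosure ℚ) N ℓ :=
  Fermat.Agent.Lib.FFNorm.isIntegral_toRingHom _ (trdeg_bar N) (trdeg_bar (N * ℓ))

theorem heckeBetaBarIntegral : HeckeBetaBarIntegral (AlgebraicClosure ℚ) N ℓ :=
  Fermat.Agent.Lib.FFNorm.isIntegral_toRingHom _ (trdeg_bar N) (trdeg_bar (N * ℓ))

theorem finiteAlong_alpha : FiniteAlong (AlgebraicClosure ℚ) (heckeAlphaBar (AlgebraicClosure ℚ) N ℓ) :=
  Fermat.Agent.Lib.FFNorm.finiteAlong _ (trdeg_bar N) (trdeg_bar (N * ℓ))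

theorem finiteAlong_beta : FiniteAlong (AlgebraicClosure ℚ) (heckeBetaBar (AlgebraicClosure ℚ) N ℓ) :=
  Fermat.Agent.Lib.FFNorm.finiteAlong _ (trdeg_bar N) (trdeg_bar (N * ℓ))

/-- **The Hecke correspondence inputs hold** for every level `N` and every `ℓ`. -/
theorem heckeInputsAlong : HeckeInputsAlong (AlgebraicClosure ℚ) N ℓ :=
  haveI := hasPrincipalDivisors_bar (N * ℓ)
  heckeInputsAlong_intro (heckeAlphaBarIntegral N ℓ) (heckeBetaBarIntegral N ℓ)
    (Fermat.Agent.Lib.FFNorm.fundamentalIdentityAlong _ _ (trdeg_bar N) (trdeg_bar (N * ℓ)))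
    (finiteAlong_alpha N ℓ)
    (Fermat.Agent.Lib.FFNorm.normFormulaAlong _ _ (trdeg_bar N) (trdeg_bar (N * ℓ)))

/-- The total Hecke operator of the Prelude is the genuine correspondence. -/
theorem heckeOperatorAlong_eq_heckePic0Bar :
    haveI := hasPrincipalDivisors_bar (N * ℓ)
    heckeOperatorAlong (AlgebraicClosure ℚ) N ℓ =
      heckePic0Bar (heckeAlphaBarIntegral N ℓ) (heckeBetaBarIntegral N ℓ)
        (Fermat.Agent.Lib.FFNorm.fundamentalIdentityAlong _ _ (trdeg_bar N) (trdeg_bar (N * ℓ)))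
        (finiteAlong_alpha N ℓ)
        (Fermat.Agent.Lib.FFNorm.normFormulaAlong _ _ (trdeg_bar N) (trdeg_bar (N * ℓ))) :=
  haveI := hasPrincipalDivisors_bar (N * ℓ)
  heckeOperatorAlong_eq _ _ _ _ _

end Fermat.Agent.S30.HeckeInputs
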