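import Mathlib
import Fermat.Agent.S24.Theta
import Fermat.Agent.S24.QB.Conv
import Fermat.Agent.S22.HeckePerm
import Fermat.Agent.S30.Congr

/-!
# S30, bridge brick "q-formula of the Hecke norm": the analytic avatar

If `φ` has the `q`-expansion `A`, then `τ ↦ ∏_{y ∈ ℙ¹(𝔽_ℓ)} φ (tRep ℓ y • τ)`
(`= φ(ℓτ) · ∏_{i<ℓ} φ((τ+i)/ℓ)`) has the `q`-expansion `Congr.heckeMul ℓ _ z A`
(`= A(q^ℓ) · ∏_{i<ℓ} A(zⁱ q^{1/ℓ})`), for any primitive `ℓ`-th root of unity `z`.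
-/

set_option autoImplicit false

open UpperHalfPlane ModularCurve ModularForm HahnSeries
open scoped MatrixGroups

noncomputable section

namespace Fermat.Agent.S30.HeckeAvatar

open Fermat.Agent.S24 Fermat.Agent.S24.Theta Fermat.Agent.S24.QB Fermat.Agent.S24.Puiseux
open Fermat.Agent.S24.StabAbs
open Fermat.Agent.S30 Fermat.Agent.S22.HeckePerm

local notation "𝕢" => Function.Periodic.qParam

/-! ### Formal comparisons -/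

section Formal

variable {R : Type*} [CommRing R]

theorem expand_eq_qExpand (ℓ : ℕ) [NeZero ℓ] (hℓ : 0 < ℓ) (x : LaurentSeries R) :
    Congr.expand ℓ hℓ x = qExpand R ℓ x := by
  ext n
  by_cases hn : (ℓ : ℤ) ∣ n
  · obtain ⟨m, rfl⟩ := hn
    rw [Congr.coeff_expand_mul, qExpand_coeff_mul]
  · rw [Congr.coeff_expand_of_not_dvd ℓ hℓ _ hn, qExpand_coeff_of_not_dvd _ _ hn]

theorem rescale_eq_scale {L : Type*} [Field L] (z : Lˣ) (x : LaurentSeries L) :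
    Congr.rescale z x = Puiseux.scale z x := by
  ext n
  rw [Congr.coeff_rescale, Puiseux.scale_coeff]

/-- `conjProd` as a product over the image of `i ↦ z ^ i`. -/
theorem conjProd_eq_prod_image [IsDomain R] [DecidableEq Rˣ] (ℓ : ℕ) (z : Rˣ)
    (hz : IsPrimitiveRoot z ℓ) (f : LaurentSeries R) :
    Congr.conjProd ℓ z f = ∏ u ∈ (Finset.range ℓ).image (fun i : ℕ => z ^ i), Congr.rescale u f := by
  unfold Congr.conjProd
  rw [Finset.prod_image]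
  intro i hi j hj hij
  exact hz.pow_inj (Finset.mem_range.mp hi) (Finset.mem_range.mp hj) hij

theorem image_pow_eq [IsDomain R] [DecidableEq Rˣ] (ℓ : ℕ) (hℓ : 0 < ℓ) (z w : Rˣ)
    (hz : IsPrimitiveRoot z ℓ) (hw : IsPrimitiveRoot w ℓ) :
    (Finset.range ℓ).image (fun i : ℕ => z ^ i) ⊆ (Finset.range ℓ).image (fun i : ℕ => w ^ i) := by
  haveI : NeZero ℓ := ⟨hℓ.ne'⟩
  intro u hu
  obtain ⟨i, -, rfl⟩ := Finset.mem_image.mp hu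
  have hw' : IsPrimitiveRoot (w : R) ℓ := IsPrimitiveRoot.coe_units_iff.mpr hw
  have h1 : ((z ^ i : Rˣ) : R) ^ ℓ = 1 := by
    rw [← Units.val_pow_eq_pow_val, ← pow_mul, mul_comm, pow_mul, hz.pow_eq_one, one_pow,
      Units.val_one]
  obtain ⟨k, hk, hkeq⟩ := hw'.eq_pow_of_pow_eq_one h1
  refine Finset.mem_image.mpr ⟨k, Finset.mem_range.mpr hk, ?_⟩
  apply Units.ext
  rw [Units.val_pow_eq_pow_val, hkeq]

/-- `conjProd` does not depend on the primitive root. -/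
theorem conjProd_eq_of_isPrimitiveRoot [IsDomain R] (ℓ : ℕ) (hℓ : 0 < ℓ) (z w : Rˣ)
    (hz : IsPrimitiveRoot z ℓ) (hw : IsPrimitiveRoot w ℓ) (f : LaurentSeries R) :
    Congr.conjProd ℓ z f = Congr.conjProd ℓ w f := by
  classical
  rw [conjProd_eq_prod_image ℓ z hz, conjProd_eq_prod_image ℓ w hw,
    Finset.Subset.antisymm (image_pow_eq ℓ hℓ z w hz hw) (image_pow_eq ℓ hℓ w z hw hz)]

theorem normL_eq_of_isPrimitiveRoot [IsDomain R] (ℓ : ℕ) (hℓ : 0 < ℓ) (z w : Rˣ)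
    (hz : IsPrimitiveRoot z ℓ) (hw : IsPrimitiveRoot w ℓ) (f : LaurentSeries R) :
    Congr.normL ℓ hℓ z f = Congr.normL ℓ hℓ w f := by
  unfold Congr.normL
  rw [conjProd_eq_of_isPrimitiveRoot ℓ hℓ z w hz hw]

theorem heckeMul_eq_of_isPrimitiveRoot [IsDomain R] (ℓ : ℕ) (hℓ : 0 < ℓ) (z w : Rˣ)
    (hz : IsPrimitiveRoot z ℓ) (hw : IsPrimitiveRoot w ℓ) (f : LaurentSeries R) :
    Congr.heckeMul ℓ hℓ z f = Congr.heckeMul ℓ hℓ w f := by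
  unfold Congr.heckeMul
  rw [normL_eq_of_isPrimitiveRoot ℓ hℓ z w hz hw]

end Formal

/-! ### Analytic part -/

section Analytic

variable {K : Type*} [Field K] {ι : K →+* ℂ}

/-- A function with a `q`-expansion is `1`-periodic. -/
theorem hasQ_periodic {A : LaurentSeries K} {φ : ℍ → ℂ} (h : HasQ ι A φ) (τ : ℍ) :
    φ ((1 : ℝ) +ᵥ τ) = φ τ := by
  have h1 := h ((1 : ℝ) +ᵥ τ)
  have hq : 𝕢 1 (((1 : ℝ) +ᵥ τ : ℍ) : ℂ) = 𝕢 1 (τ : ℂ) := by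
    rw [UpperHalfPlane.coe_vadd]
    simp only [Function.Periodic.qParam, Complex.ofReal_one, div_one]
    rw [show 2 * (Real.pi : ℂ) * Complex.I * (1 + (τ : ℂ))
        = 2 * (Real.pi : ℂ) * Complex.I * (τ : ℂ) + 2 * (Real.pi : ℂ) * Complex.I by ring]
    exact Complex.exp_periodic _
  rw [hq] at h1
  exact h1.unique (h τ)

/-- the function `τ ↦ φ(ℓ τ)` has the expansion `A(q^ℓ)` -/
theorem hasQ_expand (ℓ : ℕ) [NeZero ℓ] (hℓ : 0 < ℓ) {A : LaurentSeries K} {φ : ℍ → ℂ}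
    (h : HasQ ι A φ) : HasQ ι (Congr.expand ℓ hℓ A) (fun τ => φ (scaleH ℓ τ)) := by
  intro τ
  have h1 := h (scaleH ℓ τ)
  rw [qParam_scaleH] at h1
  rw [expand_eq_qExpand]
  exact (Puiseux.hasSum_qExpand_iff ι ℓ A (𝕢 1 τ) _).mpr h1

/-- level-`ℓ` expansion of `τ ↦ φ((τ+b)/ℓ)` -/
theorem hasQExpK_moeb (ℓ : ℕ) [NeZero ℓ] (ζ : Kˣ)
    (hζ : ι (ζ : K) = Complex.exp (2 * Real.pi * Complex.I / ℓ)) (b : ℤ)
    {A : LaurentSeries K} {φ : ℍ → ℂ} (h : HasQ ι A φ) :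
    HasQExpK ι ℓ (Puiseux.scale (ζ ^ b) A)
      (fun τ => φ (moebPt 1 ℓ b one_pos (Nat.pos_of_ne_zero (NeZero.ne ℓ)) τ)) := by
  have hℓ : 0 < ℓ := Nat.pos_of_ne_zero (NeZero.ne ℓ)
  have hdiv : ℓ / ℓ = 1 := Nat.div_self hℓ
  haveI : NeZero (1 * (ℓ / ℓ)) := ⟨by rw [hdiv]; norm_num⟩
  have h1 := HasQExpK.moeb (NeZero.ne ℓ) ζ hζ 1 ℓ b dvd_rfl one_pos hℓ (hasQ_iff_hasQExpK.mp h)
  have e1 : qExpand K (1 * (ℓ / ℓ)) (Puiseux.scale (ζ ^ (((ℓ / ℓ : ℕ) : ℤ) * b)) A)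
      = Puiseux.scale (ζ ^ b) A := by
    rw [qExpand_congr (show 1 * (ℓ / ℓ) = 1 by rw [hdiv]), qExpand_one_apply, hdiv]
    simp
  rw [e1] at h1
  exact h1

/-- level-`ℓ` expansion of `τ ↦ ∏_{i<n} φ((τ+i)/ℓ)` -/
theorem hasQExpK_prod (ℓ : ℕ) [NeZero ℓ] (ζ : Kˣ)
    (hζ : ι (ζ : K) = Complex.exp (2 * Real.pi * Complex.I / ℓ))
    {A : LaurentSeries K} {φ : ℍ → ℂ} (h : HasQ ι A φ) (n : ℕ) :
    HasQExpK ι ℓ (∏ i ∈ Finset.range n, Puiseux.scale (ζ ^ i) A)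
      (fun τ => ∏ i ∈ Finset.range n,
        φ (moebPt 1 ℓ (i : ℤ) one_pos (Nat.pos_of_ne_zero (NeZero.ne ℓ)) τ)) := by
  induction n with
  | zero =>
    simp only [Finset.range_zero, Finset.prod_empty]
    exact hasQExpK_one ι ℓ
  | succ n ih =>
    have h1 := ih.mul (hasQExpK_moeb ℓ ζ hζ (n : ℤ) h)
    rw [zpow_natCast] at h1
    rw [Finset.prod_range_succ]
    refine h1.congr fun τ => ?_
    rw [Finset.prod_range_succ]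
    rfl

theorem prod_range_shift {M : Type*} [CommMonoid M] (f : ℕ → M) (n : ℕ) (hn : 0 < n)
    (h : f n = f 0) : ∏ i ∈ Finset.range n, f (i + 1) = ∏ i ∈ Finset.range n, f i := by
  obtain ⟨m, rfl⟩ : ∃ m, n = m + 1 := ⟨n - 1, by omega⟩
  rw [Finset.prod_range_succ (fun i => f (i + 1)) m, Finset.prod_range_succ' f m, h]

theorem moebPt_vadd (ℓ : ℕ) (hℓ : 0 < ℓ) (b : ℤ) (τ : ℍ) :
    moebPt 1 ℓ b one_pos hℓ ((1 : ℝ) +ᵥ τ) = moebPt 1 ℓ (b + 1) one_pos hℓ τ := by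
  apply UpperHalfPlane.ext
  rw [coe_moebPt, coe_moebPt, UpperHalfPlane.coe_vadd]
  push_cast
  ring

theorem moebPt_self (ℓ : ℕ) (hℓ : 0 < ℓ) (τ : ℍ) :
    moebPt 1 ℓ (ℓ : ℤ) one_pos hℓ τ = (1 : ℝ) +ᵥ moebPt 1 ℓ 0 one_pos hℓ τ := by
  apply UpperHalfPlane.ext
  rw [coe_moebPt, UpperHalfPlane.coe_vadd, coe_moebPt]
  have hℓ' : (ℓ : ℂ) ≠ 0 := by exact_mod_cast hℓ.ne'
  push_cast
  field_simp
  ring

/-- `τ ↦ ∏_{i<ℓ} φ((τ+i)/ℓ)` has the expansion `normL`. -/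
theorem hasQ_normL_aux (ℓ : ℕ) [NeZero ℓ] (hℓ : 0 < ℓ) (ζ : Kˣ)
    (hζ : ι (ζ : K) = Complex.exp (2 * Real.pi * Complex.I / ℓ))
    {A : LaurentSeries K} {φ : ℍ → ℂ} (h : HasQ ι A φ) :
    HasQ ι (Congr.normL ℓ hℓ ζ A)
      (fun τ => ∏ i ∈ Finset.range ℓ, φ (moebPt 1 ℓ (i : ℤ) one_pos hℓ τ)) := by
  have hprod := hasQExpK_prod ℓ ζ hζ h ℓ
  have hper : ∀ τ : ℍ,
      (fun τ => ∏ i ∈ Finset.range ℓ,
        φ (moebPt 1 ℓ (i : ℤ) one_pos (Nat.pos_of_ne_zero (NeZero.ne ℓ)) τ)) ((1 : ℝ) +ᵥ τ)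
      = (fun τ => ∏ i ∈ Finset.range ℓ,
        φ (moebPt 1 ℓ (i : ℤ) one_pos (Nat.pos_of_ne_zero (NeZero.ne ℓ)) τ)) τ := by
    intro τ
    show ∏ i ∈ Finset.range ℓ, φ (moebPt 1 ℓ (i : ℤ) one_pos hℓ ((1 : ℝ) +ᵥ τ))
      = ∏ i ∈ Finset.range ℓ, φ (moebPt 1 ℓ (i : ℤ) one_pos hℓ τ)
    have e : ∀ i : ℕ, φ (moebPt 1 ℓ (i : ℤ) one_pos hℓ ((1 : ℝ) +ᵥ τ))
        = (fun k : ℕ => φ (moebPt 1 ℓ (k : ℤ) one_pos hℓ τ)) (i + 1) := by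
      intro i
      rw [moebPt_vadd]
      push_cast
      rfl
    rw [Finset.prod_congr rfl (fun i _ => e i)]
    refine prod_range_shift (fun k : ℕ => φ (moebPt 1 ℓ (k : ℤ) one_pos hℓ τ)) ℓ hℓ ?_
    show φ (moebPt 1 ℓ (ℓ : ℤ) one_pos hℓ τ) = φ (moebPt 1 ℓ ((0 : ℕ) : ℤ) one_pos hℓ τ)
    rw [moebPt_self, hasQ_periodic h, Nat.cast_zero]
  obtain ⟨A', hA', hQ⟩ := hprod.exists_qExpand_of_periodic ζ hζ hper
  have hnorm : Congr.normL ℓ hℓ ζ A = A' := by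
    unfold Congr.normL Congr.conjProd
    rw [Finset.prod_congr rfl (fun i _ => rescale_eq_scale (ζ ^ i) A), hA',
      ← expand_eq_qExpand ℓ hℓ, Congr.contract_expand]
  rw [hnorm]
  exact hasQ_iff_hasQExpK.mpr hQ

theorem prod_range_eq_prod_zmod {M : Type*} [CommMonoid M] (p : ℕ) [NeZero p] (F : ℕ → M) :
    ∏ j ∈ Finset.range p, F j = ∏ x : ZMod p, F x.val := by
  refine Finset.prod_nbij' (fun j : ℕ ↦ (j : ZMod p)) (fun x : ZMod p ↦ x.val)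
    (fun _ _ ↦ Finset.mem_univ _)
    (fun x _ ↦ Finset.mem_range.mpr x.val_lt) (fun j hj ↦ ?_) (fun x _ ↦ ?_) (fun j hj ↦ ?_)
  · exact ZMod.val_cast_of_lt (Finset.mem_range.mp hj)
  · exact ZMod.natCast_zmod_val x
  · rw [ZMod.val_cast_of_lt (Finset.mem_range.mp hj)]

theorem tRep_infty_smul (ℓ : ℕ) [NeZero ℓ] (τ : ℍ) :
    tRep ℓ OnePoint.infty • τ = scaleH ℓ τ := by
  apply UpperHalfPlane.ext
  rw [tRep_infty, coe_heckeDiagMatrix_smul (NeZero.ne ℓ), coe_scaleH]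

theorem tRep_coe_smul (ℓ : ℕ) [NeZero ℓ] (hℓ : 0 < ℓ) (i : ZMod ℓ) (τ : ℍ) :
    tRep ℓ (i : OnePoint (ZMod ℓ)) • τ = moebPt 1 ℓ ((i.val : ℕ) : ℤ) one_pos hℓ τ := by
  apply UpperHalfPlane.ext
  rw [tRep_coe, coe_heckeMatrix_smul (NeZero.ne ℓ), coe_moebPt]
  push_cast
  ring

/-- **The avatar**: if `φ` has the `q`-expansion `A`, then
`τ ↦ ∏_{y ∈ ℙ¹(𝔽_ℓ)} φ (tRep ℓ y • τ)` has the `q`-expansion `heckeMul ℓ _ z A`. -/
theorem hasQ_heckeMul (ℓ : ℕ) [NeZero ℓ] (hℓ : 0 < ℓ) (z : Kˣ) (hz : IsPrimitiveRoot z ℓ)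
    {A : LaurentSeries K} {φ : ℍ → ℂ} (h : HasQ ι A φ) :
    HasQ ι (Congr.heckeMul ℓ hℓ z A) (fun τ => ∏ y : OnePoint (ZMod ℓ), φ (tRep ℓ y • τ)) := by
  -- a primitive root mapping to `exp(2πi/ℓ)`
  have hz' : IsPrimitiveRoot (ι (z : K)) ℓ :=
    (IsPrimitiveRoot.coe_units_iff.mpr hz).map_of_injective ι.injective
  have hexp : IsPrimitiveRoot (Complex.exp (2 * Real.pi * Complex.I / ℓ)) ℓ :=
    Complex.isPrimitiveRoot_exp ℓ (NeZero.ne ℓ)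
  obtain ⟨i, _, hpow⟩ := hz'.eq_pow_of_pow_eq_one hexp.pow_eq_one
  have hζ : ι ((z ^ i : Kˣ) : K) = Complex.exp (2 * Real.pi * Complex.I / ℓ) := by
    rw [Units.val_pow_eq_pow_val, map_pow, hpow]
  have hprim : IsPrimitiveRoot (z ^ i) ℓ := by
    rw [← IsPrimitiveRoot.coe_units_iff]
    exact IsPrimitiveRoot.of_map_of_injective (f := ι) (by rw [hζ]; exact hexp) ι.injective
  rw [heckeMul_eq_of_isPrimitiveRoot ℓ hℓ z (z ^ i) hz hprim]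
  have h1 := (hasQ_expand ℓ hℓ h).mul (hasQ_normL_aux ℓ hℓ (z ^ i) hζ h)
  have hfun : (fun τ : ℍ => ∏ y : OnePoint (ZMod ℓ), φ (tRep ℓ y • τ))
      = (fun τ => φ (scaleH ℓ τ)) *
        (fun τ => ∏ i ∈ Finset.range ℓ, φ (moebPt 1 ℓ (i : ℤ) one_pos hℓ τ)) := by
    funext τ
    rw [Pi.mul_apply, prod_range_eq_prod_zmod ℓ]
    refine (Fintype.prod_option (fun y : OnePoint (ZMod ℓ) => φ (tRep ℓ y • τ))).trans ?_
    congr 1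
    · exact congrArg φ (tRep_infty_smul ℓ τ)
    · refine Finset.prod_congr rfl fun x _ => ?_
      exact congrArg φ (tRep_coe_smul ℓ hℓ x τ)
  rw [hfun]
  exact h1

end Analytic

end Fermat.Agent.S30.HeckeAvatar

end
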