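import Mathlib
import Fermat.Agent.S24.DegreeAbs

/-!
# S30, bridge brick "q-formula of the Hecke norm": generic field theory

* `exists_eq_comp_of_card`: a finite injective family of embeddings of `F` agreeing on `K⟮J⟯`
  whose cardinality is the degree `[F : K⟮J⟯]` exhausts the embeddings into an algebraically
  closed field.
* `map_norm_eq_prod`: the norm is the product over an exhaustive family of embeddings.
-/

set_option autoImplicit false

namespace Fermat.Agent.S30.HeckeNormGen

open IntermediateField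

section Exhaust

variable {K F E Ω : Type*} [Field K] [Field F] [Field E] [Field Ω] [Algebra K F]

/-- A finite injective family of embeddings `μ x : F →+* E` agreeing on `K` and on `J`, of
cardinality at least `[F : K⟮J⟯]`, exhausts the embeddings of `F` into an algebraically closed
field `Ω ⊇ E` which agree with the family on `K` and `J`. -/
theorem exists_eq_comp_of_card [CharZero K] [IsAlgClosed Ω] (J : F) [Module.Finite K⟮J⟯ F]
    {X : Type*} [Finite X] (μ : X → (F →+* E)) (hinj : Function.Injective μ)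
    (hK : ∀ (x y : X) (c : K), μ x (algebraMap K F c) = μ y (algebraMap K F c))
    (hJ : ∀ x y : X, μ x J = μ y J)
    (hcard : Module.finrank K⟮J⟯ F ≤ Nat.card X)
    (j : E →+* Ω) (x₀ : X) (τ : F →+* Ω)
    (hτK : ∀ c : K, τ (algebraMap K F c) = j (μ x₀ (algebraMap K F c)))
    (hτJ : τ J = j (μ x₀ J)) : ∃ x, τ = j.comp (μ x) := by
  classical
  letI : Algebra K⟮J⟯ Ω := ((j.comp (μ x₀)).comp (algebraMap K⟮J⟯ F)).toAlgebra
  have halg : ∀ l : K⟮J⟯, algebraMap K⟮J⟯ Ω l = j (μ x₀ (l : F)) := fun l => rfl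
  let φ : X → (F →ₐ[K⟮J⟯] Ω) := fun x =>
    { toRingHom := j.comp (μ x)
      commutes' := fun l => by
        show j (μ x (l : F)) = algebraMap K⟮J⟯ Ω l
        rw [halg]
        exact congrArg j
          (Fermat.Agent.S24.DegreeAbs.agree_on_adjoin_simple J (μ x) (μ x₀) (hK x x₀) (hJ x x₀) l) }
  have hφ : Function.Injective φ := by
    intro x y hxy
    apply hinj
    ext a
    have h := congrArg (fun ψ : F →ₐ[K⟮J⟯] Ω => ψ a) hxy
    exact j.injective h
  have hcardA : Nat.card (F →ₐ[K⟮J⟯] Ω) ≤ Nat.card X := by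
    rw [Nat.card_eq_fintype_card, AlgHom.card K⟮J⟯ F Ω]
    exact hcard
  have hbij : Function.Bijective φ := hφ.bijective_of_nat_card_le hcardA
  let τ' : F →ₐ[K⟮J⟯] Ω :=
    { toRingHom := τ
      commutes' := fun l => by
        show τ (l : F) = algebraMap K⟮J⟯ Ω l
        rw [halg]
        exact Fermat.Agent.S24.DegreeAbs.agree_on_adjoin_simple J τ (j.comp (μ x₀)) hτK hτJ l }
  obtain ⟨x, hx⟩ := hbij.2 τ'
  refine ⟨x, ?_⟩
  ext a
  exact (congrArg (fun ψ : F →ₐ[K⟮J⟯] Ω => ψ a) hx).symm

end Exhaust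

section Norm

variable {F₁ F₂ E : Type*} [Field F₁] [Field F₂] [Field E] [Algebra F₁ F₂]

/-- The norm is the product over an exhaustive injective family of embeddings. -/
theorem map_norm_eq_prod [CharZero F₁] [FiniteDimensional F₁ F₂]
    {Q : Type*} [Fintype Q] (Θ : F₁ →+* E) (μ : Q → (F₂ →+* E)) (hinj : Function.Injective μ)
    (hμ : ∀ q a, μ q (algebraMap F₁ F₂ a) = Θ a)
    (hsurj : ∀ τ : F₂ →+* AlgebraicClosure E,
      (∀ a, τ (algebraMap F₁ F₂ a) = algebraMap E (AlgebraicClosure E) (Θ a)) →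
      ∃ q, τ = (algebraMap E (AlgebraicClosure E)).comp (μ q))
    (y : F₂) : Θ (Algebra.norm F₁ y) = ∏ q, μ q y := by
  classical
  letI : Algebra F₁ E := Θ.toAlgebra
  let Ω := AlgebraicClosure E
  have halg : ∀ r : F₁, algebraMap F₁ Ω r = algebraMap E Ω (Θ r) := fun r => by
    rw [IsScalarTower.algebraMap_apply F₁ E Ω, RingHom.algebraMap_toAlgebra]
  let ν : Q → (F₂ →ₐ[F₁] Ω) := fun q =>
    { toRingHom := (algebraMap E Ω).comp (μ q)
      commutes' := fun r => by
        show algebraMap E Ω (μ q (algebraMap F₁ F₂ r)) = algebraMap F₁ Ω r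
        rw [hμ, halg] }
  have hν : ∀ q (a : F₂), ν q a = algebraMap E Ω (μ q a) := fun q a => rfl
  have hνinj : Function.Injective ν := by
    intro x y hxy
    apply hinj
    ext a
    have := congrArg (fun σ : F₂ →ₐ[F₁] Ω => σ a) hxy
    simp only [hν] at this
    exact (algebraMap E Ω).injective this
  have hνsurj : Function.Surjective ν := by
    intro σ
    obtain ⟨q, hq⟩ := hsurj (σ : F₂ →+* Ω) (fun r => by
      rw [← halg]; exact σ.commutes r)
    refine ⟨q, ?_⟩
    ext a
    rw [hν]
    exact (congrArg (fun f : F₂ →+* Ω => f a) hq).symm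
  let eν : Q ≃ (F₂ →ₐ[F₁] Ω) := Equiv.ofBijective ν ⟨hνinj, hνsurj⟩
  apply (algebraMap E Ω).injective
  rw [← halg, Algebra.norm_eq_prod_embeddings F₁ Ω y, map_prod]
  exact (Fintype.prod_equiv eν (fun q => algebraMap E Ω (μ q y)) (fun σ => σ y)
    (fun q => rfl)).symm

end Norm

end Fermat.Agent.S30.HeckeNormGen
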