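import Mathlib
import Fermat.Prelude.Def_ModularCurve_HeckeOperator
import Fermat.Agent.S24.Degree.Main
import Fermat.Agent.S24.DegEmb
import Fermat.Agent.Lib.Gamma0Index
import Fermat.Agent.S30.HeckeNormGen
import Fermat.Agent.S30.HeckeAvatar

/-!
# S30, bridge brick: the explicit `q`-formula of the Hecke norm

For `ℓ` prime, `ℓ ∤ N`, and `f ∈ F_N = ℚ̄(j(q^d) : d ∣ N)`:

  `Norm_{F_{Nℓ} / α(F_N)} (β f) = f(q^ℓ) · ∏_{i<ℓ} f(zⁱ q^{1/ℓ}) = Congr.heckeMul ℓ _ z f`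

where `α`, `β : F_N → F_{Nℓ}` are the Prelude degeneracy maps (`heckeAlphaBar`: inclusion,
`heckeBetaBar`: `q ↦ q^ℓ`) and `z` is any primitive `ℓ`-th root of unity.

Proof: by the degree theorem of S24 the `ψ(Nℓ)` coset embeddings of `F_{Nℓ}` into
`Frac(HolH)` are all the embeddings over `ℚ̄(j)`; those extending the standard embedding of
`F_N` are indexed by `Γ₀(N)/Γ₀(Nℓ)`; on `β a` they are the translates `θ(a) ∘ tRep ℓ y`,
`y ∈ ℙ¹(𝔽_ℓ)` (coset permutation of S22), whose product has `q`-expansion `heckeMul`.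
-/

set_option autoImplicit false
set_option linter.dupNamespace false

open ModularCurve CongruenceSubgroup UpperHalfPlane IntermediateField HahnSeries
open scoped MatrixGroups

noncomputable section

namespace Fermat.Agent.S30.HeckeNormQ

open Fermat.Agent.S24.Modular Fermat.Agent.S24.Theta Fermat.Agent.S24.HolH
open Fermat.Agent.S24.Degree Fermat.Agent.S24.DegreeGen Fermat.Agent.S24.StabAbs
open Fermat.Agent.S22.HeckePerm Fermat.Agent.S30 Fermat.Agent.S30.HeckeAvatar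

variable (ι : Kbar →+* ℂ)

/-! ### Coset embeddings on `A0` -/

theorem cosetEmb_mk_coe (M : ℕ) (g : SL(2, ℤ)) (a : A0 M) :
    cosetEmb ι M (g : SL(2, ℤ) ⧸ Gamma0 M) (a : FN M)
      = algebraMap HolH (FractionRing HolH) (compSL g⁻¹ (theta ι M a)) := by
  rw [cosetEmb_coe, cosetHom_mk (theta ι M) (fun γ hγ x => compSL_theta_of_mem_Gamma0 hγ x)]

theorem cosetEmb_one_coe (M : ℕ) (a : A0 M) :
    cosetEmb ι M ((1 : SL(2, ℤ)) : SL(2, ℤ) ⧸ Gamma0 M) (a : FN M)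
      = algebraMap HolH (FractionRing HolH) (theta ι M a) := by
  rw [cosetEmb_mk_coe, inv_one, compSL_one]

/-! ### The degeneracy maps on `A0` -/

variable (N ℓ : ℕ) [NeZero N] [NeZero ℓ]

theorem gens_mono {N M : ℕ} (h : N ∣ M) : gens Kbar N ⊆ gens Kbar M := by
  rintro _ ⟨x, ⟨d, hd0, hdN, rfl⟩, rfl⟩
  exact ⟨_, ⟨d, hd0, hdN.trans h, rfl⟩, rfl⟩

/-- `α` maps `A0 N` into `A0 (N ℓ)`. -/
def alphaA0 (a : A0 N) : A0 (N * ℓ) :=
  ⟨heckeAlphaBar Kbar N ℓ (a : FN N), by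
    show ((heckeAlphaBar Kbar N ℓ (a : FN N) : FN (N * ℓ)) : LaurentSeries Kbar)
      ∈ Algebra.adjoin Kbar (gens Kbar (N * ℓ))
    rw [coe_heckeAlphaBar]
    exact Algebra.adjoin_mono (gens_mono (Dvd.intro ℓ rfl)) a.2⟩

@[simp] theorem coe_alphaA0 (a : A0 N) :
    ((alphaA0 N ℓ a : A0 (N * ℓ)) : FN (N * ℓ)) = heckeAlphaBar Kbar N ℓ (a : FN N) := rfl

theorem theta_alphaA0 (a : A0 N) : theta ι (N * ℓ) (alphaA0 N ℓ a) = theta ι N a := by
  apply theta_eq_of_hasQ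
  rw [coe_alphaA0, coe_heckeAlphaBar]
  exact hasQ_theta ι N a

theorem heckeBeta_gen (d : ℕ) [NeZero d] (hd : d ∣ N) :
    heckeBetaBar Kbar N ℓ ((gen N d hd : A0 N) : FN N)
      = ((gen (N * ℓ) (ℓ * d) (by rw [mul_comm]; exact Nat.mul_dvd_mul_right hd ℓ) : A0 (N * ℓ)) :
          FN (N * ℓ)) := by
  apply Subtype.ext
  show qExpand Kbar ℓ (coeffEmb Kbar (qExpand ℚ d jq)) = coeffEmb Kbar (qExpand ℚ (ℓ * d) jq)
  rw [Fermat.Agent.S24.Puiseux.coeffEmb_qExpand_jq, Fermat.Agent.S24.Puiseux.coeffEmb_qExpand_jq,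
    qExpand_qExpand]

theorem heckeBeta_mem_A0 (a : A0 N) : heckeBetaBar Kbar N ℓ (a : FN N) ∈ A0 (N * ℓ) := by
  refine A0_induction (p := fun a : A0 N => heckeBetaBar Kbar N ℓ (a : FN N) ∈ A0 (N * ℓ))
    ?_ ?_ ?_ ?_ a
  · intro d _ hd
    rw [heckeBeta_gen]
    exact Subtype.property _
  · intro c
    have h : ((algebraMap Kbar (A0 N) c : A0 N) : FN N) = algebraMap Kbar (FN N) c := rfl
    rw [h, AlgHom.commutes]
    exact Subalgebra.algebraMap_mem _ c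
  · intro x y hx hy
    have h : ((x + y : A0 N) : FN N) = (x : FN N) + (y : FN N) := rfl
    rw [h, map_add]
    exact add_mem hx hy
  · intro x y hx hy
    have h : ((x * y : A0 N) : FN N) = (x : FN N) * (y : FN N) := rfl
    rw [h, map_mul]
    exact mul_mem hx hy

/-- `β` maps `A0 N` into `A0 (N ℓ)`. -/
def betaA0 (a : A0 N) : A0 (N * ℓ) := ⟨heckeBetaBar Kbar N ℓ (a : FN N), heckeBeta_mem_A0 N ℓ a⟩

@[simp] theorem coe_betaA0 (a : A0 N) :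
    ((betaA0 N ℓ a : A0 (N * ℓ)) : FN (N * ℓ)) = heckeBetaBar Kbar N ℓ (a : FN N) := rfl

theorem theta_betaA0_apply (a : A0 N) (τ : ℍ) :
    (theta ι (N * ℓ) (betaA0 N ℓ a) : ℍ → ℂ) τ = (theta ι N a : ℍ → ℂ) (scaleH ℓ τ) := by
  have hℓ : 0 < ℓ := Nat.pos_of_ne_zero (NeZero.ne ℓ)
  have hQ : HasQ ι (((betaA0 N ℓ a : A0 (N * ℓ)) : FN (N * ℓ)) : LaurentSeries Kbar)
      (fun τ => (theta ι N a : ℍ → ℂ) (scaleH ℓ τ)) := by
    rw [coe_betaA0, coe_heckeBetaBar, ← expand_eq_qExpand ℓ hℓ]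
    exact hasQ_expand ℓ hℓ (hasQ_theta ι N a)
  exact congrFun ((hasQ_theta ι (N * ℓ) (betaA0 N ℓ a)).fun_unique hQ) τ

/-! ### Compatibility of the coset embeddings with `α` -/

theorem cosetEmb_alpha (g : SL(2, ℤ)) (f : FN N) :
    cosetEmb ι (N * ℓ) (g : SL(2, ℤ) ⧸ Gamma0 (N * ℓ)) (heckeAlphaBar Kbar N ℓ f)
      = cosetEmb ι N (g : SL(2, ℤ) ⧸ Gamma0 N) f := by
  have key : ((cosetEmb ι (N * ℓ) (g : SL(2, ℤ) ⧸ Gamma0 (N * ℓ))).comp
      (heckeAlphaBar Kbar N ℓ).toRingHom)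
      = cosetEmb ι N (g : SL(2, ℤ) ⧸ Gamma0 N) := by
    apply IsLocalization.ringHom_ext (nonZeroDivisors (A0 N))
    ext a
    show cosetEmb ι (N * ℓ) (g : SL(2, ℤ) ⧸ Gamma0 (N * ℓ)) (heckeAlphaBar Kbar N ℓ (a : FN N))
      = cosetEmb ι N (g : SL(2, ℤ) ⧸ Gamma0 N) (a : FN N)
    rw [← coe_alphaA0, cosetEmb_mk_coe, cosetEmb_mk_coe, theta_alphaA0]
  exact congrArg (fun ρ : FN N →+* FractionRing HolH => ρ f) key

/-! ### Translates: the coset permutation -/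

theorem sl_smul_eq (g : SL(2, ℤ)) (τ : ℍ) :
    g • τ = (Matrix.SpecialLinearGroup.mapGL ℝ g) • τ := rfl

/-- For `g ∈ Γ₀(N)` the function `τ ↦ θ(a)(ℓ (g τ))` is one of the translates
`θ(a) ∘ tRep ℓ y`, with `y` independent of `a`. -/
theorem exists_tRep (hℓ : ℓ.Prime) (hℓN : ¬ ℓ ∣ N) (g : SL(2, ℤ)) (hg : g ∈ Gamma0 N) :
    ∃ y : OnePoint (ZMod ℓ), ∀ (a : A0 N) (τ : ℍ),
      (theta ι N a : ℍ → ℂ) (scaleH ℓ (g • τ)) = (theta ι N a : ℍ → ℂ) (tRep ℓ y • τ) := by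
  obtain ⟨σ, g', hg', hmul⟩ := exists_perm_T hℓ hℓN g hg
  refine ⟨σ OnePoint.infty, fun a τ => ?_⟩
  rw [← tRep_infty_smul ℓ (g • τ), sl_smul_eq, ← mul_smul, hmul, mul_smul, ← sl_smul_eq]
  exact theta_smul_of_mem_Gamma0 (hg' _) a _

/-! ### Finiteness of `F_{Nℓ}` over `α(F_N)` -/

theorem alpha_jF : heckeAlphaBar Kbar N ℓ (jF N) = jF (N * ℓ) := by
  apply Subtype.ext
  rw [coe_heckeAlphaBar]
  rfl

theorem alpha_algebraMap (c : Kbar) :
    heckeAlphaBar Kbar N ℓ (algebraMap Kbar (FN N) c) = algebraMap Kbar (FN (N * ℓ)) c :=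
  (heckeAlphaBar Kbar N ℓ).commutes c

theorem finite_alpha : (heckeAlphaBar Kbar N ℓ).toRingHom.Finite := by
  haveI hfin : Module.Finite Kbar⟮jF (N * ℓ)⟯ (FN (N * ℓ)) := (finite_and_finrank_jF (N * ℓ)).1
  have hmap : (Kbar⟮jF N⟯).map (heckeAlphaBar Kbar N ℓ) = Kbar⟮jF (N * ℓ)⟯ := by
    rw [IntermediateField.adjoin_map, Set.image_singleton, alpha_jF]
  let e : Kbar⟮jF N⟯ ≃ₐ[Kbar] Kbar⟮jF (N * ℓ)⟯ :=
    (IntermediateField.equivMap Kbar⟮jF N⟯ (heckeAlphaBar Kbar N ℓ)).trans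
      (IntermediateField.equivOfEq hmap)
  have hcomp : (algebraMap Kbar⟮jF (N * ℓ)⟯ (FN (N * ℓ))).comp (e : Kbar⟮jF N⟯ →+* Kbar⟮jF (N * ℓ)⟯)
      = (heckeAlphaBar Kbar N ℓ).toRingHom.comp (algebraMap Kbar⟮jF N⟯ (FN N)) := by
    ext s
    rfl
  have h1 : ((algebraMap Kbar⟮jF (N * ℓ)⟯ (FN (N * ℓ))).comp
      (e : Kbar⟮jF N⟯ →+* Kbar⟮jF (N * ℓ)⟯)).Finite :=
    RingHom.Finite.comp (RingHom.finite_algebraMap.mpr hfin)
      (RingHom.Finite.of_surjective _ e.surjective)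
  rw [hcomp] at h1
  exact RingHom.Finite.of_comp_finite h1

/-! ### The family of embeddings indexed by `Γ₀(N) / Γ₀(Nℓ)` -/

/-- the index set `Γ₀(N) / Γ₀(Nℓ)` -/
abbrev RelQ : Type := (Gamma0 N) ⧸ (Gamma0 (N * ℓ)).subgroupOf (Gamma0 N)

/-- a representative in `Γ₀(N)` of a class of `Γ₀(N) / Γ₀(Nℓ)` -/
def rep (q : RelQ N ℓ) : SL(2, ℤ) := ((Quotient.out q : Gamma0 N) : SL(2, ℤ))

omit [NeZero N] [NeZero ℓ] in
theorem rep_mem (q : RelQ N ℓ) : rep N ℓ q ∈ Gamma0 N := (Quotient.out q).2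

/-- the embeddings of `F_{Nℓ}` indexed by `Γ₀(N) / Γ₀(Nℓ)` -/
def emb (q : RelQ N ℓ) : FN (N * ℓ) →+* FractionRing HolH :=
  cosetEmb ι (N * ℓ) ((rep N ℓ q : SL(2, ℤ)) : SL(2, ℤ) ⧸ Gamma0 (N * ℓ))

/-- the standard embedding of `F_N` -/
def emb0 : FN N →+* FractionRing HolH :=
  cosetEmb ι N ((1 : SL(2, ℤ)) : SL(2, ℤ) ⧸ Gamma0 N)

omit [NeZero N] in
theorem mk_eq_one_of_mem {g : SL(2, ℤ)} (hg : g ∈ Gamma0 N) :
    (g : SL(2, ℤ) ⧸ Gamma0 N) = ((1 : SL(2, ℤ)) : SL(2, ℤ) ⧸ Gamma0 N) := by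
  rw [QuotientGroup.eq]
  simpa using inv_mem hg

theorem emb_alpha (q : RelQ N ℓ) (f : FN N) :
    emb ι N ℓ q (heckeAlphaBar Kbar N ℓ f) = emb0 ι N f := by
  unfold emb emb0
  rw [cosetEmb_alpha, mk_eq_one_of_mem N (rep_mem N ℓ q)]

theorem emb_injective : Function.Injective (emb ι N ℓ) := by
  intro q q' h
  have h1 := cosetEmb_injective ι (N * ℓ) h
  rw [QuotientGroup.eq] at h1
  rw [← Quotient.out_eq' q, ← Quotient.out_eq' q']
  exact QuotientGroup.eq.mpr (Subgroup.mem_subgroupOf.mpr h1)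

/-- Every embedding of `F_{Nℓ}` into an algebraic closure of `Frac(HolH)` extending the standard
embedding of `F_N` is one of the `emb q`. -/
theorem exists_emb_eq (τ : FN (N * ℓ) →+* AlgebraicClosure (FractionRing HolH))
    (hτ : ∀ f : FN N, τ (heckeAlphaBar Kbar N ℓ f)
      = algebraMap (FractionRing HolH) (AlgebraicClosure (FractionRing HolH)) (emb0 ι N f)) :
    ∃ q : RelQ N ℓ,
      τ = (algebraMap (FractionRing HolH) (AlgebraicClosure (FractionRing HolH))).comp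
        (emb ι N ℓ q) := by
  classical
  haveI : Finite (SL(2, ℤ) ⧸ Gamma0 (N * ℓ)) :=
    Fermat.Agent.S24.GenusNat.finite_quotient (N * ℓ) (NeZero.ne _)
  obtain ⟨hfin, hrank⟩ := finite_and_finrank_jF (N * ℓ)
  haveI := hfin
  have hcard : Module.finrank Kbar⟮jF (N * ℓ)⟯ (FN (N * ℓ))
      ≤ Nat.card (SL(2, ℤ) ⧸ Gamma0 (N * ℓ)) := by
    rw [hrank, Fermat.Agent.S24.Comb.card_quotient_Gamma0]
  obtain ⟨x, hx⟩ := HeckeNormGen.exists_eq_comp_of_card (K := Kbar) (jF (N * ℓ))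
    (cosetEmb ι (N * ℓ)) (cosetEmb_injective ι (N * ℓ)) (cosetEmb_algebraMap ι (N * ℓ))
    (cosetEmb_jF ι (N * ℓ)) hcard
    (algebraMap (FractionRing HolH) (AlgebraicClosure (FractionRing HolH)))
    ((1 : SL(2, ℤ)) : SL(2, ℤ) ⧸ Gamma0 (N * ℓ)) τ
    (fun c => by
      rw [← alpha_algebraMap N ℓ c, hτ, cosetEmb_alpha]
      rfl)
    (by
      rw [← alpha_jF N ℓ, hτ, cosetEmb_alpha]
      rfl)
  obtain ⟨g, rfl⟩ := QuotientGroup.mk_surjective x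
  have hg : g ∈ Gamma0 N := by
    have h2 : cosetEmb ι N (g : SL(2, ℤ) ⧸ Gamma0 N)
        = cosetEmb ι N ((1 : SL(2, ℤ)) : SL(2, ℤ) ⧸ Gamma0 N) := by
      ext f
      apply (algebraMap (FractionRing HolH) (AlgebraicClosure (FractionRing HolH))).injective
      rw [← cosetEmb_alpha ι N ℓ g f]
      have h3 := congrArg (fun ρ : FN (N * ℓ) →+* AlgebraicClosure (FractionRing HolH) =>
        ρ (heckeAlphaBar Kbar N ℓ f)) hx
      simp only [RingHom.comp_apply] at h3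
      rw [← h3, hτ]
      rfl
    have h4 := cosetEmb_injective ι N h2
    rw [QuotientGroup.eq] at h4
    simpa using inv_mem h4
  refine ⟨QuotientGroup.mk ⟨g, hg⟩, ?_⟩
  rw [hx]
  congr 2
  rw [QuotientGroup.eq]
  have h5 : (QuotientGroup.mk (Quotient.out (QuotientGroup.mk ⟨g, hg⟩ : RelQ N ℓ)) : RelQ N ℓ)
      = QuotientGroup.mk ⟨g, hg⟩ := Quotient.out_eq' _
  rw [QuotientGroup.eq] at h5
  have h6 := Subgroup.mem_subgroupOf.mp h5
  have h7 := inv_mem h6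
  simpa [rep, mul_inv_rev] using h7

/-- **Norm = product of the embeddings.** -/
theorem emb0_norm [Fintype (RelQ N ℓ)] (y : FN (N * ℓ)) :
    letI := AlgebraicCurve.algebraAlong (heckeAlphaBar Kbar N ℓ)
    emb0 ι N (Algebra.norm (FN N) y) = ∏ q : RelQ N ℓ, emb ι N ℓ q y := by
  letI := AlgebraicCurve.algebraAlong (heckeAlphaBar Kbar N ℓ)
  haveI : Module.Finite (FN N) (FN (N * ℓ)) := finite_alpha N ℓ
  haveI : CharZero (FN N) := charZero_of_injective_algebraMap (algebraMap Kbar (FN N)).injective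
  exact HeckeNormGen.map_norm_eq_prod (emb0 ι N) (emb ι N ℓ) (emb_injective ι N ℓ)
    (fun q a => emb_alpha ι N ℓ q a) (fun τ hτ => exists_emb_eq ι N ℓ τ hτ) y

/-! ### The embeddings on `β a`: translates by `tRep ℓ y` -/

section Translates

variable (hℓ : ℓ.Prime) (hℓN : ¬ ℓ ∣ N)

/-- the point of `ℙ¹(𝔽_ℓ)` attached to a class of `Γ₀(N) / Γ₀(Nℓ)` -/
def yOf (q : RelQ N ℓ) : OnePoint (ZMod ℓ) :=
  (exists_tRep ι N ℓ hℓ hℓN (rep N ℓ q)⁻¹ (inv_mem (rep_mem N ℓ q))).choose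

theorem yOf_spec (q : RelQ N ℓ) (a : A0 N) (τ : ℍ) :
    (theta ι N a : ℍ → ℂ) (scaleH ℓ ((rep N ℓ q)⁻¹ • τ))
      = (theta ι N a : ℍ → ℂ) (tRep ℓ (yOf ι N ℓ hℓ hℓN q) • τ) :=
  (exists_tRep ι N ℓ hℓ hℓN (rep N ℓ q)⁻¹ (inv_mem (rep_mem N ℓ q))).choose_spec a τ

theorem emb_beta (q : RelQ N ℓ) (a : A0 N) :
    emb ι N ℓ q (heckeBetaBar Kbar N ℓ (a : FN N))
      = algebraMap HolH (FractionRing HolH)
          (compSL (rep N ℓ q)⁻¹ (theta ι (N * ℓ) (betaA0 N ℓ a))) := by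
  unfold emb
  rw [← coe_betaA0, cosetEmb_mk_coe]

theorem compSL_beta_apply (q : RelQ N ℓ) (a : A0 N) (τ : ℍ) :
    (compSL (rep N ℓ q)⁻¹ (theta ι (N * ℓ) (betaA0 N ℓ a)) : ℍ → ℂ) τ
      = (theta ι N a : ℍ → ℂ) (tRep ℓ (yOf ι N ℓ hℓ hℓN q) • τ) := by
  rw [compSL_apply, theta_betaA0_apply, yOf_spec]

theorem yOf_injective : Function.Injective (yOf ι N ℓ hℓ hℓN) := by
  intro q q' h
  apply emb_injective ι N ℓ
  apply Fermat.Agent.S24.DegEmb.ringHom_ext_of_adjoin_eq_top (adjoin_gensFN (N * ℓ))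
  · intro c
    rw [← alpha_algebraMap N ℓ c, emb_alpha, emb_alpha]
  · intro y hy
    obtain ⟨x, ⟨d, hd0, hdN, rfl⟩, hxy⟩ := hy
    by_cases hd : ℓ ∣ d
    · obtain ⟨d', rfl⟩ := hd
      have hd' : d' ∣ N := by
        rw [mul_comm N ℓ] at hdN
        exact Nat.dvd_of_mul_dvd_mul_left hℓ.pos hdN
      haveI : NeZero d' := ⟨by
        rintro rfl
        exact (NeZero.ne (ℓ * 0)) (mul_zero ℓ)⟩
      have hy' : y = heckeBetaBar Kbar N ℓ ((gen N d' hd' : A0 N) : FN N) := by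
        rw [heckeBeta_gen]
        apply Subtype.ext
        exact hxy.symm
      rw [hy', emb_beta, emb_beta]
      congr 1
      apply Subtype.ext
      funext τ
      rw [compSL_beta_apply ι N ℓ hℓ hℓN, compSL_beta_apply ι N ℓ hℓ hℓN, h]
    · have hd' : d ∣ N :=
        Nat.Coprime.dvd_of_dvd_mul_right
          ((Nat.Prime.coprime_iff_not_dvd hℓ).mpr hd).symm hdN
      have hy' : y = heckeAlphaBar Kbar N ℓ ((gen N d hd' : A0 N) : FN N) := by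
        apply Subtype.ext
        rw [coe_heckeAlphaBar]
        exact hxy.symm
      rw [hy', emb_alpha, emb_alpha]

include hℓ hℓN in
omit [NeZero ℓ] in
theorem card_relQ : Nat.card (RelQ N ℓ) = ℓ + 1 :=
  Fermat.Agent.Lib.Gamma0Count.relIndex_Gamma0_mul_prime_of_not_dvd N ℓ (NeZero.ne N) hℓ hℓN

theorem yOf_bijective : Function.Bijective (yOf ι N ℓ hℓ hℓN) := by
  refine (yOf_injective ι N ℓ hℓ hℓN).bijective_of_nat_card_le ?_
  rw [card_relQ N ℓ hℓ hℓN, Nat.card_eq_fintype_card]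
  have h : Fintype.card (OnePoint (ZMod ℓ)) = Fintype.card (Option (ZMod ℓ)) := rfl
  rw [h, Fintype.card_option, ZMod.card]

end Translates

/-! ### The main theorem -/

/-- **`q`-formula of the Hecke norm on `A0 N`.** -/
theorem coe_norm_beta_A0 (hℓ : ℓ.Prime) (hℓN : ¬ ℓ ∣ N) (z : Kbarˣ) (hz : IsPrimitiveRoot z ℓ)
    (a : A0 N) :
    letI := AlgebraicCurve.algebraAlong (heckeAlphaBar Kbar N ℓ)
    ((Algebra.norm (FN N) (heckeBetaBar Kbar N ℓ (a : FN N)) : FN N) : LaurentSeries Kbar)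
      = Congr.heckeMul ℓ hℓ.pos z ((a : FN N) : LaurentSeries Kbar) := by
  classical
  letI := AlgebraicCurve.algebraAlong (heckeAlphaBar Kbar N ℓ)
  haveI : Finite (RelQ N ℓ) :=
    Nat.finite_of_card_ne_zero (by rw [card_relQ N ℓ hℓ hℓN]; omega)
  letI : Fintype (RelQ N ℓ) := Fintype.ofFinite _
  set n : FN N := Algebra.norm (FN N) (heckeBetaBar Kbar N ℓ (a : FN N)) with hn
  have h1 : emb0 iotaBar N n
      = ∏ q : RelQ N ℓ, emb iotaBar N ℓ q (heckeBetaBar Kbar N ℓ (a : FN N)) :=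
    emb0_norm iotaBar N ℓ _
  let Ψ : HolH := ∏ q : RelQ N ℓ, compSL (rep N ℓ q)⁻¹ (theta iotaBar (N * ℓ) (betaA0 N ℓ a))
  have h2 : emb0 iotaBar N n = algebraMap HolH (FractionRing HolH) Ψ := by
    rw [h1, map_prod]
    exact Finset.prod_congr rfl (fun q _ => emb_beta iotaBar N ℓ q a)
  have hΨ : (Ψ : ℍ → ℂ) = fun τ => ∏ y : OnePoint (ZMod ℓ),
      (theta iotaBar N a : ℍ → ℂ) (tRep ℓ y • τ) := by
    funext τ
    have e1 : (Ψ : ℍ → ℂ) τ = ∏ q : RelQ N ℓ,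
        (compSL (rep N ℓ q)⁻¹ (theta iotaBar (N * ℓ) (betaA0 N ℓ a)) : ℍ → ℂ) τ := by
      show ((∏ q : RelQ N ℓ, compSL (rep N ℓ q)⁻¹ (theta iotaBar (N * ℓ) (betaA0 N ℓ a)) :
        HolH) : ℍ → ℂ) τ = _
      rw [SubmonoidClass.coe_finset_prod, Finset.prod_apply]
    rw [e1]
    simp_rw [compSL_beta_apply iotaBar N ℓ hℓ hℓN]
    exact Fintype.prod_bijective (yOf iotaBar N ℓ hℓ hℓN) (yOf_bijective iotaBar N ℓ hℓ hℓN) _ _
      (fun q => rfl)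
  obtain ⟨u, v, hv, huv⟩ := exists_mul_eq n
  have h3 : Ψ * theta iotaBar N v = theta iotaBar N u := by
    apply IsFractionRing.injective HolH (FractionRing HolH)
    rw [map_mul, ← h2, ← cosetEmb_one_coe, ← cosetEmb_one_coe]
    show emb0 iotaBar N n * emb0 iotaBar N (v : FN N) = emb0 iotaBar N (u : FN N)
    rw [← map_mul, huv]
  have hQ1 : HasQ iotaBar (Congr.heckeMul ℓ hℓ.pos z ((a : FN N) : LaurentSeries Kbar))
      (Ψ : ℍ → ℂ) := by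
    rw [hΨ]
    exact hasQ_heckeMul ℓ hℓ.pos z hz (hasQ_theta iotaBar N a)
  have hQ2 := hQ1.mul (hasQ_theta iotaBar N v)
  have hQ3 := hasQ_theta iotaBar N u
  have e : ((Ψ * theta iotaBar N v : HolH) : ℍ → ℂ)
      = (Ψ : ℍ → ℂ) * (theta iotaBar N v : ℍ → ℂ) := rfl
  rw [← e, h3] at hQ2
  have h4 := hQ2.unique hQ3
  have h5 : ((u : FN N) : LaurentSeries Kbar)
      = (n : LaurentSeries Kbar) * ((v : FN N) : LaurentSeries Kbar) := by
    rw [← huv]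
    rfl
  have hv' : ((v : FN N) : LaurentSeries Kbar) ≠ 0 := fun h0 => hv (Subtype.ext h0)
  exact (mul_right_cancel₀ hv' (h4.trans h5)).symm

/-- **`q`-formula of the Hecke norm**: for `ℓ` prime, `ℓ ∤ N`, `f ∈ F_N`,
`Norm_{F_{Nℓ}/α(F_N)} (β f) = f(q^ℓ) ∏_{i<ℓ} f(zⁱ q^{1/ℓ})`. -/
theorem coe_norm_heckeBeta (hℓ : ℓ.Prime) (hℓN : ¬ ℓ ∣ N) (z : Kbarˣ) (hz : IsPrimitiveRoot z ℓ)
    (f : FN N) :
    letI := AlgebraicCurve.algebraAlong (heckeAlphaBar Kbar N ℓ)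
    ((Algebra.norm (FN N) (heckeBetaBar Kbar N ℓ f) : FN N) : LaurentSeries Kbar)
      = Congr.heckeMul ℓ hℓ.pos z (f : LaurentSeries Kbar) := by
  letI := AlgebraicCurve.algebraAlong (heckeAlphaBar Kbar N ℓ)
  haveI : Module.Finite (FN N) (FN (N * ℓ)) := finite_alpha N ℓ
  obtain ⟨a, b, hb, hab⟩ := exists_mul_eq f
  have ha := coe_norm_beta_A0 N ℓ hℓ hℓN z hz a
  have hb' := coe_norm_beta_A0 N ℓ hℓ hℓN z hz b
  have hmul : Algebra.norm (FN N) (heckeBetaBar Kbar N ℓ f)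
      * Algebra.norm (FN N) (heckeBetaBar Kbar N ℓ (b : FN N))
      = Algebra.norm (FN N) (heckeBetaBar Kbar N ℓ (a : FN N)) := by
    rw [← map_mul, ← map_mul, hab]
  have hnb : Algebra.norm (FN N) (heckeBetaBar Kbar N ℓ (b : FN N)) ≠ 0 := by
    rw [Ne, Algebra.norm_eq_zero_iff]
    exact (map_ne_zero _).mpr hb
  have hnb' : Congr.heckeMul ℓ hℓ.pos z ((b : FN N) : LaurentSeries Kbar) ≠ 0 := by
    rw [← hb']
    exact fun h0 => hnb (Subtype.ext h0)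
  have hcoe : ((Algebra.norm (FN N) (heckeBetaBar Kbar N ℓ f) : FN N) : LaurentSeries Kbar)
      * Congr.heckeMul ℓ hℓ.pos z ((b : FN N) : LaurentSeries Kbar)
      = Congr.heckeMul ℓ hℓ.pos z ((a : FN N) : LaurentSeries Kbar) := by
    rw [← ha, ← hb', ← hmul]
    rfl
  have hT : Congr.heckeMul ℓ hℓ.pos z ((a : FN N) : LaurentSeries Kbar)
      = Congr.heckeMul ℓ hℓ.pos z (f : LaurentSeries Kbar)
        * Congr.heckeMul ℓ hℓ.pos z ((b : FN N) : LaurentSeries Kbar) := by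
    rw [← Congr.heckeMul_mul ℓ hℓ.pos z hz, ← hab]
    rfl
  exact mul_right_cancel₀ hnb' (hcoe.trans hT)

/-- `T_ℓ` preserves the function field `F_N` (second proof, via the norm). -/
theorem heckeMul_mem (hℓ : ℓ.Prime) (hℓN : ¬ ℓ ∣ N) (z : Kbarˣ) (hz : IsPrimitiveRoot z ℓ)
    (f : LaurentSeries Kbar) (hf : f ∈ modularFunctionFieldBar N) :
    Congr.heckeMul ℓ hℓ.pos z f ∈ modularFunctionFieldBar N := by
  letI := AlgebraicCurve.algebraAlong (heckeAlphaBar Kbar N ℓ)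
  have h := coe_norm_heckeBeta N ℓ hℓ hℓN z hz ⟨f, hf⟩
  rw [← h]
  exact Subtype.property _

end Fermat.Agent.S30.HeckeNormQ

end
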