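import Mathlib

/-!
# Abstract core of the "model theorem" (S30 route, section 4)

A two-chart Čech situation `C0 → C0inf ← Cinf` over a base ring `O` with a distinguished
element `π`.  If the global sections are `O` (hypothesis `H0`), the `π`-power torsion of the
Čech `H¹` is bounded (hypothesis `H1`) and `O` is "pure" in `C0`, then every idempotent of the
special fibre (a compatible pair of idempotents modulo `π`) is congruent to a constant:
the special fibre is connected.

Everything is pure commutative algebra (Newton lifting of idempotents `e ↦ 3e² - 2e³`).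
-/

set_option autoImplicit false

namespace Fermat.Agent.S30.CechIdem

section Newton

variable {R : Type*} [CommRing R]

/-- One Newton step for the equation `e² = e`. -/
def newton (e : R) : R := 3 * e ^ 2 - 2 * e ^ 3

theorem newton_sq_sub (e : R) :
    newton e ^ 2 - newton e = (e ^ 2 - e) ^ 2 * (4 * (e ^ 2 - e) - 3) := by
  unfold newton; ring

theorem newton_sub (e : R) : newton e - e = (e ^ 2 - e) * (1 - 2 * e) := by
  unfold newton; ring

theorem newton_sub_newton (x y : R) :
    newton x - newton y = (x - y) * (-6 * (x ^ 2 - x) + (x - y) * (-3 + 6 * x - 2 * (x - y))) := by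
  unfold newton; ring

theorem map_newton {S : Type*} [CommRing S] (f : R →+* S) (e : R) :
    f (newton e) = newton (f e) := by
  unfold newton; simp [map_sub, map_mul, map_pow, map_ofNat]

/-- Iterated Newton step: `iter e k` is idempotent modulo `p ^ (k+1)` if `e` is idempotent
modulo `p`. -/
def iter (e : R) : ℕ → R
  | 0 => e
  | k + 1 => newton (iter e k)

theorem iter_sq_sub (p e : R) (h : p ∣ e ^ 2 - e) (k : ℕ) :
    p ^ (k + 1) ∣ iter e k ^ 2 - iter e k := by
  induction k with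
  | zero => simpa [iter] using h
  | succ k ih =>
    have h2 : p ^ (k + 1 + 1) ∣ (iter e k ^ 2 - iter e k) ^ 2 := by
      have : p ^ (k + 1 + 1) ∣ (p ^ (k + 1)) ^ 2 := by
        rw [← pow_mul]; exact pow_dvd_pow p (by omega)
      exact this.trans (pow_dvd_pow_of_dvd ih 2)
    show p ^ (k + 1 + 1) ∣ newton (iter e k) ^ 2 - newton (iter e k)
    rw [newton_sq_sub]
    exact Dvd.dvd.mul_right h2 _

theorem iter_sub (p e : R) (h : p ∣ e ^ 2 - e) (k : ℕ) : p ∣ iter e k - e := by
  induction k with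
  | zero => simp [iter]
  | succ k ih =>
    have h1 : p ∣ iter e k ^ 2 - iter e k :=
      (dvd_pow_self p (Nat.succ_ne_zero k)).trans (iter_sq_sub p e h k)
    have h2 : iter e (k + 1) - e = (newton (iter e k) - iter e k) + (iter e k - e) := by
      simp [iter]
    rw [h2, newton_sub]
    exact dvd_add (Dvd.dvd.mul_right h1 _) ih

/-- Two Newton iterations that start congruent modulo `p` stay congruent modulo `p^(k+1)`. -/
theorem iter_sub_iter (p x y : R) (hx : p ∣ x ^ 2 - x) (hxy : p ∣ x - y) (k : ℕ) :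
    p ^ (k + 1) ∣ iter x k - iter y k := by
  induction k with
  | zero => simpa [iter] using hxy
  | succ k ih =>
    show p ^ (k + 1 + 1) ∣ newton (iter x k) - newton (iter y k)
    rw [newton_sub_newton]
    have h1 : p ∣ iter x k ^ 2 - iter x k :=
      (dvd_pow_self p (Nat.succ_ne_zero k)).trans (iter_sq_sub p x hx k)
    have h2 : p ∣ iter x k - iter y k := (dvd_pow_self p (Nat.succ_ne_zero k)).trans ih
    have h3 : p ∣ (-6 * (iter x k ^ 2 - iter x k) +
        (iter x k - iter y k) * (-3 + 6 * iter x k - 2 * (iter x k - iter y k))) :=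
      dvd_add (Dvd.dvd.mul_left h1 _) (Dvd.dvd.mul_right h2 _)
    rw [pow_succ]
    exact mul_dvd_mul ih h3

theorem map_iter {S : Type*} [CommRing S] (f : R →+* S) (e : R) (k : ℕ) :
    f (iter e k) = iter (f e) k := by
  induction k with
  | zero => rfl
  | succ k ih => simp [iter, map_newton, ih]

end Newton

section Core

variable {O C0 Cinf C0inf : Type*} [CommRing O] [CommRing C0] [CommRing Cinf] [CommRing C0inf]
  [Algebra O C0] [Algebra O Cinf] [Algebra O C0inf]

/-- Purity propagates to powers: if `π ∣ a` whenever `π ∣ a` in `C0`, and `C0` has no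
`π`-torsion, then `π ^ k ∣ a` whenever `π ^ k ∣ a` in `C0`. -/
theorem pure_pow (π : O)
    (htf : ∀ x : C0, algebraMap O C0 π * x = 0 → x = 0)
    (hpur : ∀ a : O, algebraMap O C0 π ∣ algebraMap O C0 a → π ∣ a) :
    ∀ (k : ℕ) (a : O), algebraMap O C0 π ^ k ∣ algebraMap O C0 a → π ^ k ∣ a := by
  intro k
  induction k with
  | zero => intro a _; simp
  | succ k ih =>
    intro a ha
    obtain ⟨w, hw⟩ := ha
    have h1 : algebraMap O C0 π ∣ algebraMap O C0 a := ⟨algebraMap O C0 π ^ k * w, by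
      rw [hw]; ring⟩
    obtain ⟨b, rfl⟩ := hpur a h1
    have h2 : algebraMap O C0 π * (algebraMap O C0 b - algebraMap O C0 π ^ k * w) = 0 := by
      have : algebraMap O C0 (π * b) = algebraMap O C0 π * algebraMap O C0 b := map_mul _ _ _
      rw [mul_sub, ← this, hw]; ring
    have h3 := htf _ h2
    have h4 : algebraMap O C0 π ^ k ∣ algebraMap O C0 b := ⟨w, by linear_combination h3⟩
    obtain ⟨d, rfl⟩ := ih b h4
    exact ⟨d, by ring⟩

theorem tf_pow (π : O) (htf : ∀ x : C0, algebraMap O C0 π * x = 0 → x = 0) :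
    ∀ (k : ℕ) (x : C0), algebraMap O C0 π ^ k * x = 0 → x = 0 := by
  intro k
  induction k with
  | zero => intro x hx; simpa using hx
  | succ k ih =>
    intro x hx
    apply ih
    apply htf
    rw [← hx]; ring

/-- **Lemma A.** A pair of sections agreeing modulo `π ^ m` on the overlap is congruent to a
constant modulo `π ^ (m - c)`, where `π ^ c` kills the `π`-power torsion of the Čech `H¹`. -/
theorem const_of_glue (π : O) (ι0 : C0 →ₐ[O] C0inf) (ιinf : Cinf →ₐ[O] C0inf)
    (htf0 : ∀ x : C0, algebraMap O C0 π * x = 0 → x = 0)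
    (htfinf : ∀ y : Cinf, algebraMap O Cinf π * y = 0 → y = 0)
    (hH0 : ∀ (x : C0) (y : Cinf), ι0 x = ιinf y →
      ∃ a : O, x = algebraMap O C0 a ∧ y = algebraMap O Cinf a)
    (hpur : ∀ a : O, algebraMap O C0 π ∣ algebraMap O C0 a → π ∣ a)
    (c : ℕ)
    (hH1 : ∀ (m : ℕ) (z : C0inf), (∃ x y, algebraMap O C0inf π ^ m * z = ι0 x - ιinf y) →
      ∃ x y, algebraMap O C0inf π ^ c * z = ι0 x - ιinf y)
    (k : ℕ) (x : C0) (y : Cinf)
    (hxy : algebraMap O C0inf π ^ (c + k) ∣ ι0 x - ιinf y) :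
    ∃ a : O, algebraMap O C0 π ^ k ∣ x - algebraMap O C0 a ∧
      algebraMap O Cinf π ^ k ∣ y - algebraMap O Cinf a := by
  obtain ⟨z, hz⟩ := hxy
  obtain ⟨x', y', hx'y'⟩ := hH1 (c + k) z ⟨x, y, hz.symm⟩
  have hι0 : ι0 (algebraMap O C0 π) = algebraMap O C0inf π := ι0.commutes π
  have hιinf : ιinf (algebraMap O Cinf π) = algebraMap O C0inf π := ιinf.commutes π
  have key : ι0 (algebraMap O C0 π ^ c * x - algebraMap O C0 π ^ (c + k) * x') =
      ιinf (algebraMap O Cinf π ^ c * y - algebraMap O Cinf π ^ (c + k) * y') := by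
    simp only [map_sub, map_mul, map_pow, hι0, hιinf]
    linear_combination (algebraMap O C0inf π ^ c) * hz +
      (algebraMap O C0inf π ^ (c + k)) * hx'y'
  obtain ⟨a, ha0, hainf⟩ := hH0 _ _ key
  have hdiv : algebraMap O C0 π ^ c ∣ algebraMap O C0 a :=
    ⟨x - algebraMap O C0 π ^ k * x', by rw [← ha0]; ring⟩
  obtain ⟨a', rfl⟩ := pure_pow π htf0 hpur c a hdiv
  refine ⟨a', ⟨x', ?_⟩, ⟨y', ?_⟩⟩
  · have h : algebraMap O C0 π ^ c *
        (x - algebraMap O C0 a' - algebraMap O C0 π ^ k * x') = 0 := by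
      have e1 : algebraMap O C0 (π ^ c * a') = algebraMap O C0 π ^ c * algebraMap O C0 a' := by
        rw [map_mul, map_pow]
      rw [e1] at ha0
      linear_combination ha0
    have := tf_pow π htf0 c _ h
    linear_combination this
  · have h : algebraMap O Cinf π ^ c *
        (y - algebraMap O Cinf a' - algebraMap O Cinf π ^ k * y') = 0 := by
      have e1 : algebraMap O Cinf (π ^ c * a') =
          algebraMap O Cinf π ^ c * algebraMap O Cinf a' := by
        rw [map_mul, map_pow]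
      rw [e1] at hainf
      linear_combination hainf
    have := tf_pow π htfinf c _ h
    linear_combination this

/-- **Connectedness of the special fibre.** A compatible pair of idempotents modulo `π` on the
two charts is congruent modulo `π` to a constant `a : O` which is itself idempotent modulo `π`. -/
theorem idem_const (π : O) (ι0 : C0 →ₐ[O] C0inf) (ιinf : Cinf →ₐ[O] C0inf)
    (htf0 : ∀ x : C0, algebraMap O C0 π * x = 0 → x = 0)
    (htfinf : ∀ y : Cinf, algebraMap O Cinf π * y = 0 → y = 0)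
    (hH0 : ∀ (x : C0) (y : Cinf), ι0 x = ιinf y →
      ∃ a : O, x = algebraMap O C0 a ∧ y = algebraMap O Cinf a)
    (hpur : ∀ a : O, algebraMap O C0 π ∣ algebraMap O C0 a → π ∣ a)
    (c : ℕ)
    (hH1 : ∀ (m : ℕ) (z : C0inf), (∃ x y, algebraMap O C0inf π ^ m * z = ι0 x - ιinf y) →
      ∃ x y, algebraMap O C0inf π ^ c * z = ι0 x - ιinf y)
    (e0 : C0) (einf : Cinf)
    (h0 : algebraMap O C0 π ∣ e0 ^ 2 - e0)
    (hinf : algebraMap O Cinf π ∣ einf ^ 2 - einf)
    (hglue : algebraMap O C0inf π ∣ ι0 e0 - ιinf einf) :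
    ∃ a : O, π ∣ a ^ 2 - a ∧ algebraMap O C0 π ∣ e0 - algebraMap O C0 a ∧
      algebraMap O Cinf π ∣ einf - algebraMap O Cinf a := by
  have hι0 : ι0 (algebraMap O C0 π) = algebraMap O C0inf π := ι0.commutes π
  -- Newton iterates on both charts
  set x := iter e0 c with hx
  set y := iter einf c with hy
  have hx2 : algebraMap O C0 π ^ (c + 1) ∣ x ^ 2 - x := iter_sq_sub _ e0 h0 c
  have hxe : algebraMap O C0 π ∣ x - e0 := iter_sub _ e0 h0 c
  have hye : algebraMap O Cinf π ∣ y - einf := iter_sub _ einf hinf c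
  have h0' : algebraMap O C0inf π ∣ (ι0 e0) ^ 2 - ι0 e0 := by
    obtain ⟨w, hw⟩ := h0
    exact ⟨ι0 w, by rw [← hι0, ← map_mul, ← hw]; simp⟩
  have hxy : algebraMap O C0inf π ^ (c + 1) ∣ ι0 x - ιinf y := by
    have h := iter_sub_iter (algebraMap O C0inf π) (ι0 e0) (ιinf einf) h0' hglue c
    have hmx : ι0 x = iter (ι0 e0) c := map_iter (ι0 : C0 →+* C0inf) e0 c
    have hmy : ιinf y = iter (ιinf einf) c := map_iter (ιinf : Cinf →+* C0inf) einf c
    rw [hmx, hmy]; exact h
  obtain ⟨a, ha0, hainf⟩ :=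
    const_of_glue π ι0 ιinf htf0 htfinf hH0 hpur c hH1 1 x y hxy
  rw [pow_one] at ha0 hainf
  refine ⟨a, ?_, ?_, ?_⟩
  · apply hpur
    -- `a² - a ≡ x² - x ≡ 0`
    obtain ⟨u, hu⟩ := ha0
    have hx2' : algebraMap O C0 π ∣ x ^ 2 - x :=
      (dvd_pow_self _ (Nat.succ_ne_zero c)).trans hx2
    obtain ⟨v, hv⟩ := hx2'
    refine ⟨v - u * (x + algebraMap O C0 a - 1), ?_⟩
    simp only [map_sub, map_pow]
    linear_combination hv - (x + algebraMap O C0 a - 1) * hu
  · obtain ⟨u, hu⟩ := ha0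
    obtain ⟨v, hv⟩ := hxe
    exact ⟨u - v, by linear_combination hu - hv⟩
  · obtain ⟨u, hu⟩ := hainf
    obtain ⟨v, hv⟩ := hye
    exact ⟨u - v, by linear_combination hu - hv⟩

/-- Version of `idem_const` for a prime `π`: the pair of idempotents is `≡ 0` or `≡ 1`. -/
theorem idem_trivial (π : O) (hπ : Prime π) (ι0 : C0 →ₐ[O] C0inf) (ιinf : Cinf →ₐ[O] C0inf)
    (htf0 : ∀ x : C0, algebraMap O C0 π * x = 0 → x = 0)
    (htfinf : ∀ y : Cinf, algebraMap O Cinf π * y = 0 → y = 0)
    (hH0 : ∀ (x : C0) (y : Cinf), ι0 x = ιinf y →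
      ∃ a : O, x = algebraMap O C0 a ∧ y = algebraMap O Cinf a)
    (hpur : ∀ a : O, algebraMap O C0 π ∣ algebraMap O C0 a → π ∣ a)
    (c : ℕ)
    (hH1 : ∀ (m : ℕ) (z : C0inf), (∃ x y, algebraMap O C0inf π ^ m * z = ι0 x - ιinf y) →
      ∃ x y, algebraMap O C0inf π ^ c * z = ι0 x - ιinf y)
    (e0 : C0) (einf : Cinf)
    (h0 : algebraMap O C0 π ∣ e0 ^ 2 - e0)
    (hinf : algebraMap O Cinf π ∣ einf ^ 2 - einf)
    (hglue : algebraMap O C0inf π ∣ ι0 e0 - ιinf einf) :
    (algebraMap O C0 π ∣ e0 ∧ algebraMap O Cinf π ∣ einf) ∨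
      (algebraMap O C0 π ∣ e0 - 1 ∧ algebraMap O Cinf π ∣ einf - 1) := by
  obtain ⟨a, ha, ha0, hainf⟩ :=
    idem_const π ι0 ιinf htf0 htfinf hH0 hpur c hH1 e0 einf h0 hinf hglue
  have ha' : π ∣ a * (a - 1) := by
    have : a * (a - 1) = a ^ 2 - a := by ring
    rw [this]; exact ha
  rcases hπ.dvd_or_dvd ha' with h | h
  · left
    obtain ⟨b, rfl⟩ := h
    obtain ⟨u, hu⟩ := ha0
    obtain ⟨v, hv⟩ := hainf
    refine ⟨⟨u + algebraMap O C0 b, ?_⟩, ⟨v + algebraMap O Cinf b, ?_⟩⟩
    · rw [map_mul] at hu; linear_combination hu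
    · rw [map_mul] at hv; linear_combination hv
  · right
    obtain ⟨b, hb⟩ := h
    have hb' : a = 1 + π * b := by linear_combination hb
    subst hb'
    obtain ⟨u, hu⟩ := ha0
    obtain ⟨v, hv⟩ := hainf
    refine ⟨⟨u + algebraMap O C0 b, ?_⟩, ⟨v + algebraMap O Cinf b, ?_⟩⟩
    · rw [map_add, map_mul, map_one] at hu; linear_combination hu
    · rw [map_add, map_mul, map_one] at hv; linear_combination hv

/-- **(B)** Bounded torsion of the Čech `H¹`: if `O` is Noetherian and `C0inf` is spanned over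
`O` by finitely many elements together with the images of the two charts, then the
`π`-power torsion of `C0inf / (C0 + Cinf)` is killed by a fixed power `π ^ c`. -/
theorem exists_bound_of_fg [IsNoetherianRing O] (π : O)
    (ι0 : C0 →ₐ[O] C0inf) (ιinf : Cinf →ₐ[O] C0inf) (S : Finset C0inf)
    (hS : Submodule.span O (S : Set C0inf) ⊔
      (LinearMap.range ι0.toLinearMap ⊔ LinearMap.range ιinf.toLinearMap) = ⊤) :
    ∃ c : ℕ, ∀ (m : ℕ) (z : C0inf),
      (∃ x y, algebraMap O C0inf π ^ m * z = ι0 x - ιinf y) →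
        ∃ x y, algebraMap O C0inf π ^ c * z = ι0 x - ιinf y := by
  classical
  set P : Submodule O C0inf :=
    LinearMap.range ι0.toLinearMap ⊔ LinearMap.range ιinf.toLinearMap with hP
  -- the quotient is finitely generated, hence Noetherian
  have hfin : Module.Finite O (C0inf ⧸ P) := by
    refine ⟨⟨S.image P.mkQ, ?_⟩⟩
    rw [Finset.coe_image, ← Submodule.map_span]
    have h1 : Submodule.map P.mkQ (Submodule.span O (S : Set C0inf) ⊔ P) = ⊤ := by
      rw [hS, Submodule.map_top, Submodule.range_mkQ]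
    rw [Submodule.map_sup, Submodule.mkQ_map_self, sup_bot_eq] at h1
    exact h1
  have hnoeth : IsNoetherian O (C0inf ⧸ P) := isNoetherian_of_isNoetherianRing_of_finite O _
  -- the chain of `π^m`-torsion submodules
  let f : ℕ →o Submodule O (C0inf ⧸ P) :=
    ⟨fun m => LinearMap.ker ((π ^ m) • (LinearMap.id : (C0inf ⧸ P) →ₗ[O] (C0inf ⧸ P))), by
      intro m n hmn w hw
      simp only [LinearMap.mem_ker, LinearMap.smul_apply, LinearMap.id_coe, id_eq] at hw ⊢
      obtain ⟨d, rfl⟩ := Nat.exists_eq_add_of_le hmn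
      rw [pow_add, mul_comm, mul_smul, hw, smul_zero]⟩
  obtain ⟨c, hc⟩ := monotone_stabilizes_iff_noetherian.mpr hnoeth f
  refine ⟨c, fun m z hz => ?_⟩
  have hmem : ∀ (k : ℕ) (w : C0inf),
      (∃ x y, algebraMap O C0inf π ^ k * w = ι0 x - ιinf y) ↔ P.mkQ w ∈ f k := by
    intro k w
    have e1 : algebraMap O C0inf π ^ k * w = (π ^ k) • w := by
      rw [Algebra.smul_def, map_pow]
    show _ ↔ P.mkQ w ∈ LinearMap.ker ((π ^ k) • (LinearMap.id : (C0inf ⧸ P) →ₗ[O] (C0inf ⧸ P)))
    simp only [LinearMap.mem_ker, LinearMap.smul_apply, LinearMap.id_coe, id_eq]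
    rw [← map_smul, Submodule.mkQ_apply, Submodule.Quotient.mk_eq_zero, e1, hP,
      Submodule.mem_sup]
    constructor
    · rintro ⟨x, y, h⟩
      exact ⟨ι0 x, ⟨x, rfl⟩, -ιinf y, ⟨-y, by simp⟩, by rw [h]; ring⟩
    · rintro ⟨u, ⟨x, rfl⟩, v, ⟨y, rfl⟩, h⟩
      exact ⟨x, -y, by rw [← h]; simp⟩
  have h1 : P.mkQ z ∈ f m := (hmem m z).mp hz
  have h2 : P.mkQ z ∈ f c := by
    rcases le_total m c with h | h
    · exact f.monotone h h1
    · rw [hc m h]; exact h1
  exact (hmem c z).mpr h2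

end Core

end Fermat.Agent.S30.CechIdem
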