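import Mathlib
import Fermat.Prelude.Def_ModularCurve_LaurentCoeff
import Fermat.Agent.S30.GaussDVR

set_option autoImplicit false
set_option linter.unusedSectionVars false

/-!
# S30: bridge between q-expansion congruences and "`π` is prime in the integral closure"

* `eval₂_C_eq_zero` : a Laurent series with a pole is transcendental over the coefficients.
* `dvd_of_red_eq_zero` : the q-expansion principle from primality of `ϖ` (incomparability).
* `exists_eq_add_mul` : an element `g = 1 + ϖ (…)` of the Gauss ring lying in `Frac C` can be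
  written `g b = b + ϖ a` with `a b : C`, `ϖ ∤ b` in `C`.
-/

open ModularCurve

noncomputable section

namespace Fermat.Agent.S30.GaussBridge

/-! ### (B1) transcendence of a series with a pole -/

/-- A Laurent series of negative order over a domain is transcendental over the
coefficients. -/
theorem eval₂_C_eq_zero {K : Type*} [CommRing K] [IsDomain K] (x : LaurentSeries K)
    (hx : x.order < 0) (P : Polynomial K)
    (h : P.eval₂ (HahnSeries.C : K →+* LaurentSeries K) x = 0) : P = 0 := by
  by_contra hP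
  have hx0 : x ≠ 0 := by
    rintro rfl
    simp at hx
  have hkey : (P.eval₂ (HahnSeries.C : K →+* LaurentSeries K) x).coeff (P.natDegree • x.order) =
      P.leadingCoeff * (x ^ P.natDegree).coeff (P.natDegree • x.order) := by
    rw [Polynomial.eval₂_eq_sum_range, HahnSeries.coeff_sum, Finset.sum_range_succ]
    have h0 : ∑ i ∈ Finset.range P.natDegree,
        ((HahnSeries.C : K →+* LaurentSeries K) (P.coeff i) * x ^ i).coeff
          (P.natDegree • x.order) = 0 := by
      refine Finset.sum_eq_zero fun i hi => ?_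
      have hi' : i < P.natDegree := Finset.mem_range.mp hi
      rw [GaussDVR.coeff_C_mul]
      have hlt : P.natDegree • x.order < (x ^ i).order := by
        rw [HahnSeries.order_pow, nsmul_eq_mul, nsmul_eq_mul]
        exact mul_lt_mul_of_neg_right (by exact_mod_cast hi') hx
      rw [HahnSeries.coeff_eq_zero_of_lt_order hlt, mul_zero]
    rw [h0, zero_add, GaussDVR.coeff_C_mul]
    rfl
  rw [h, HahnSeries.coeff_zero] at hkey
  have h1 : (x ^ P.natDegree).coeff (P.natDegree • x.order) ≠ 0 := by
    rw [← HahnSeries.order_pow]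
    exact fun h0 => pow_ne_zero _ hx0 (HahnSeries.coeff_order_eq_zero.mp h0)
  exact mul_ne_zero (Polynomial.leadingCoeff_ne_zero.mpr hP) h1 hkey.symm

/-- Polynomials in a series `u` whose reduction has a pole: if the reduction of `P(u)` vanishes
then `P` is divisible by the uniformiser. -/
theorem C_dvd_of_rho_eval₂_eq_zero {O : Type*} [CommRing O] [IsDomain O]
    [IsDiscreteValuationRing O] (ϖ : O) (hϖ : Irreducible ϖ) (u : LaurentSeries O)
    (hu : (GaussDVR.rho O u).order < 0) (P : Polynomial O)
    (h : GaussDVR.rho O (P.eval₂ (HahnSeries.C : O →+* LaurentSeries O) u) = 0) :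
    Polynomial.C ϖ ∣ P := by
  have h1 : (P.map (IsLocalRing.residue O)).eval₂
      (HahnSeries.C : IsLocalRing.ResidueField O →+* LaurentSeries (IsLocalRing.ResidueField O))
      (GaussDVR.rho O u) = 0 := by
    rw [Polynomial.eval₂_map, ← h, Polynomial.hom_eval₂]
    congr 1
    refine RingHom.ext fun r => ?_
    simp only [RingHom.comp_apply]
    exact (GaussDVR.rho_C O r).symm
  have h2 := eval₂_C_eq_zero (GaussDVR.rho O u) hu _ h1
  rw [Polynomial.C_dvd_iff_dvd_coeff]
  intro n
  have h3 : IsLocalRing.residue O (P.coeff n) = 0 := by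
    rw [← Polynomial.coeff_map, h2, Polynomial.coeff_zero]
  exact GaussDVR.dvd_of_residue_eq_zero ϖ hϖ h3

/-! ### (B2) the q-expansion principle from "`ϖ` is prime in `C`" -/

/-- **q-expansion principle from primality.**  `B → C` integral, `r : C → K` a ring hom to a
domain killing `ϖ`, with `ϖ` prime in `C`; if `r` restricted to `B` has kernel `ϖ B`, then
`r` has kernel `ϖ C`.  (The kernel of `r` and `ϖ C` are comparable primes over the same prime
of `B`.) -/
theorem dvd_of_red_eq_zero {B C K : Type*} [CommRing B] [CommRing C] [CommRing K] [IsDomain K]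
    [Algebra B C] [Algebra.IsIntegral B C] (r : C →+* K) (ϖ : B)
    (hprime : Prime (algebraMap B C ϖ)) (hϖ : r (algebraMap B C ϖ) = 0)
    (hB : ∀ b : B, r (algebraMap B C b) = 0 → ϖ ∣ b) (c : C) (hc : r c = 0) :
    algebraMap B C ϖ ∣ c := by
  set I : Ideal C := Ideal.span {algebraMap B C ϖ} with hIdef
  have hI : I.IsPrime := (Ideal.span_singleton_prime hprime.ne_zero).mpr hprime
  set J : Ideal C := RingHom.ker r with hJdef
  have hIJ : I ≤ J := by
    rw [hIdef, Ideal.span_le, Set.singleton_subset_iff]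
    exact hϖ
  by_contra hcon
  have hne : I ≠ J := by
    intro hEq
    apply hcon
    have hcJ : c ∈ J := hc
    rw [← hEq] at hcJ
    exact Ideal.mem_span_singleton.mp hcJ
  have hlt : I < J := lt_of_le_of_ne hIJ hne
  have h1 : I.comap (algebraMap B C) < J.comap (algebraMap B C) :=
    Ideal.IsIntegral.comap_lt_comap (R := B) hlt
  have h2 : J.comap (algebraMap B C) ≤ I.comap (algebraMap B C) := by
    intro b hb
    have hb' : r (algebraMap B C b) = 0 := hb
    obtain ⟨d, rfl⟩ := hB b hb'
    rw [Ideal.mem_comap, map_mul]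
    exact Ideal.mul_mem_right _ _ (Ideal.subset_span rfl)
  exact absurd h1 (not_lt_of_ge h2)

/-! ### (B3) the shape consumed by the Kummer step -/

/-- Abstract form.  `C` a domain with a prime `ϖ`, `i : C → V` injective, `red : V → K` with
kernel `ϖ V`, the q-expansion principle for `C`, and `ϖ`-adic separatedness of `C`.  If `g : V`
has reduction `1` and `g - 1 = c / d` with `c d : C`, then `g b = b + ϖ a` with `a b : C` and
`ϖ ∤ b`. -/
theorem exists_eq_add_mul {C V K : Type*} [CommRing C] [IsDomain C] [CommRing V] [IsDomain V]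
    [CommRing K] (i : C →+* V) (hinj : Function.Injective i) (red : V →+* K) (ϖ : C)
    (hϖ : Prime ϖ) (hred : red (i ϖ) = 0)
    (hker : ∀ v : V, red v = 0 → ∃ w : V, v = i ϖ * w)
    (hqep : ∀ c : C, red (i c) = 0 → ϖ ∣ c)
    (hsep : ∀ c : C, c ≠ 0 → ∃ n : ℕ, ¬ ϖ ^ n ∣ c)
    (g : V) (hg : red g = 1) (c d : C) (hd : d ≠ 0) (hgc : (g - 1) * i d = i c) :
    ∃ a b : C, ¬ ϖ ∣ b ∧ g * i b = i b + i ϖ * i a := by
  have hfin : ∀ c : C, c ≠ 0 → FiniteMultiplicity ϖ c := by
    intro c hc
    obtain ⟨n, hn⟩ := hsep c hc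
    cases n with
    | zero => exact absurd (by rw [pow_zero]; exact one_dvd _) hn
    | succ m => exact ⟨m, hn⟩
  have hiϖ : i ϖ ≠ 0 := fun h => hϖ.ne_zero (hinj (by rw [h, map_zero]))
  by_cases hc : c = 0
  · subst hc
    rw [map_zero] at hgc
    have hid : i d ≠ 0 := fun h => hd (hinj (by rw [h, map_zero]))
    have hg1 : g = 1 := by
      rcases mul_eq_zero.mp hgc with h | h
      · exact sub_eq_zero.mp h
      · exact absurd h hid
    refine ⟨0, 1, fun h => hϖ.not_isUnit (isUnit_of_dvd_one h), ?_⟩
    rw [hg1, map_one, map_zero, mul_zero, add_zero, one_mul]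
  obtain ⟨c', hc', hc'nd⟩ := (hfin c hc).exists_eq_pow_mul_and_not_dvd
  obtain ⟨d', hd', hd'nd⟩ := (hfin d hd).exists_eq_pow_mul_and_not_dvd
  set m := multiplicity ϖ c
  set n := multiplicity ϖ d
  have hg0 : red (g - 1) = 0 := by rw [map_sub, hg, map_one, sub_self]
  obtain ⟨w, hw⟩ := hker (g - 1) hg0
  rw [hc', hd', map_mul, map_mul, map_pow, map_pow] at hgc
  rcases le_or_gt m n with hmn | hnm
  · -- `c' = ϖ^(n - m + 1) w d'`, so its reduction vanishes: contradiction
    exfalso
    apply hc'nd
    apply hqep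
    obtain ⟨e, he⟩ := Nat.exists_eq_add_of_le hmn
    have h1 : i c' = i ϖ ^ (e + 1) * (w * i d') := by
      apply mul_left_cancel₀ (pow_ne_zero m hiϖ)
      rw [← hgc, hw, he]
      ring
    rw [h1, map_mul, map_pow, hred, zero_pow (Nat.succ_ne_zero e), zero_mul]
  · obtain ⟨e, he⟩ := Nat.exists_eq_add_of_lt hnm
    refine ⟨ϖ ^ e * c', d', hd'nd, ?_⟩
    have h1 : (g - 1) * i d' = i ϖ * (i ϖ ^ e * i c') := by
      apply mul_left_cancel₀ (pow_ne_zero n hiϖ)
      have : i ϖ ^ n * ((g - 1) * i d') = (g - 1) * (i ϖ ^ n * i d') := by ring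
      rw [this, hgc, he]
      ring
    rw [map_mul, map_pow, ← h1]
    ring

/-! ### The concrete statements for the Gauss ring of a discrete valuation ring -/

section Concrete

variable {O E : Type*} [CommRing O] [IsDomain O] [IsDiscreteValuationRing O] [Field E]
  [Algebra O E] [FaithfulSMul O E] (ϖ : O) (hϖ : Irreducible ϖ)

include hϖ

/-- **q-expansion principle** for a ring `C` of series, integral over `B`, in which the image of
the uniformiser is prime: an element of `C` whose reduction (in the Gauss ring) vanishes is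
divisible by the uniformiser in `C`. -/
theorem qExpansion_principle {B C : Type*} [CommRing B] [CommRing C] [Algebra B C]
    [Algebra.IsIntegral B C] (j : C →+* LaurentSeries E) (hV : ∀ c : C, j c ∈ GaussDVR.V O E)
    (ϖB : B) (hprime : Prime (algebraMap B C ϖB))
    (hjϖ : j (algebraMap B C ϖB) = HahnSeries.C (algebraMap O E ϖ))
    (hB : ∀ b : B, GaussDVR.red O E ⟨j (algebraMap B C b), hV _⟩ = 0 → ϖB ∣ b)
    (c : C) (hc : GaussDVR.red O E ⟨j c, hV c⟩ = 0) : algebraMap B C ϖB ∣ c := by
  refine dvd_of_red_eq_zero ((GaussDVR.red O E).comp (j.codRestrict (GaussDVR.V O E) hV)) ϖB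
    hprime ?_ hB c hc
  have h1 : (j.codRestrict (GaussDVR.V O E) hV) (algebraMap B C ϖB) = GaussDVR.unif E ϖ := by
    apply Subtype.ext
    rw [GaussDVR.coe_unif]
    exact hjϖ
  rw [RingHom.comp_apply, h1, GaussDVR.red_unif E ϖ hϖ]

/-- **The shape consumed by the Kummer step.**  `C` a domain of series (via an injective
`j : C → E((q))` with values in the Gauss ring), integral over `B`, with the image of the
uniformiser prime in `C` and the Gauss property on `B`.  If `g` lies in the Gauss ring with
reduction `1` and `g - 1 = c / d` with `c d : C`, then `g b = b + ϖ a` with `a b : C`,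
`ϖ ∤ b` in `C`. -/
theorem kummer_shape {B C : Type*} [CommRing B] [CommRing C] [IsDomain C] [Algebra B C]
    [Algebra.IsIntegral B C] (j : C →+* LaurentSeries E) (hj : Function.Injective j)
    (hV : ∀ c : C, j c ∈ GaussDVR.V O E)
    (ϖB : B) (hprime : Prime (algebraMap B C ϖB))
    (hjϖ : j (algebraMap B C ϖB) = HahnSeries.C (algebraMap O E ϖ))
    (hB : ∀ b : B, GaussDVR.red O E ⟨j (algebraMap B C b), hV _⟩ = 0 → ϖB ∣ b)
    (g : LaurentSeries E) (hg : g ∈ GaussDVR.V O E) (hg1 : GaussDVR.red O E ⟨g, hg⟩ = 1)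
    (c d : C) (hd : d ≠ 0) (hgc : (g - 1) * j d = j c) :
    ∃ a b : C, ¬ algebraMap B C ϖB ∣ b ∧
      g * j b = j b + HahnSeries.C (algebraMap O E ϖ) * j a := by
  set i : C →+* GaussDVR.V O E := j.codRestrict (GaussDVR.V O E) hV with hi
  have hiinj : Function.Injective i := by
    intro x y hxy
    exact hj (congrArg Subtype.val hxy)
  have h1 : i (algebraMap B C ϖB) = GaussDVR.unif E ϖ := by
    apply Subtype.ext
    rw [GaussDVR.coe_unif]
    exact hjϖ
  obtain ⟨a, b, hb, hab⟩ := exists_eq_add_mul i hiinj (GaussDVR.red O E) (algebraMap B C ϖB)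
    hprime (by rw [h1, GaussDVR.red_unif E ϖ hϖ])
    (fun v hv => by rw [h1]; exact GaussDVR.ker E ϖ hϖ v hv)
    (fun c hc => qExpansion_principle ϖ hϖ j hV ϖB hprime hjϖ hB c hc)
    (fun c hc => by
      have hic : i c ≠ 0 := fun h => hc (hiinj (by rw [h, map_zero]))
      obtain ⟨n, hn⟩ := GaussDVR.exists_not_pow_dvd E ϖ hϖ (i c) hic
      refine ⟨n, fun hdvd => hn ?_⟩
      rw [← h1, ← map_pow]
      exact map_dvd i hdvd)
    ⟨g, hg⟩ hg1 c d hd (Subtype.ext hgc)
  refine ⟨a, b, hb, ?_⟩
  have := congrArg Subtype.val hab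
  rw [h1] at this
  simpa [GaussDVR.coe_unif, hi] using this

/-- The Gauss property for `B = O[X]` acting through a series `u` whose reduction has a pole
(e.g. `u = j`): the hypothesis `hB` of `kummer_shape` / `qExpansion_principle`. -/
theorem gauss_property_poly (u : LaurentSeries O) (hu : (GaussDVR.rho O u).order < 0)
    (P : Polynomial O)
    (h : GaussDVR.red O E (GaussDVR.ofInt O E
      (P.eval₂ (HahnSeries.C : O →+* LaurentSeries O) u)) = 0) :
    Polynomial.C ϖ ∣ P := by
  rw [GaussDVR.red_ofInt] at h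
  exact C_dvd_of_rho_eval₂_eq_zero ϖ hϖ u hu P h

end Concrete

end Fermat.Agent.S30.GaussBridge
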