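import Mathlib
import Fermat.Prelude.Def_ModularCurve_LaurentCoeff
import Fermat.Agent.S30.GaussDVR
import Fermat.Agent.S30.GaussBridge

set_option autoImplicit false
set_option linter.unusedSectionVars false

/-!
# S30: from "`g` lies in the Gauss ring with reduction `1`" to `Model.GaussOne`

`L` a field over `E = Frac O` with an `E`-embedding `emb : L → E((q))` whose image lies in the
fraction field of `O((q))`; `u ∈ L` with `emb u` an integral series whose reduction has a pole;
`C` the integral closure of `O[u]` in `L`.  If `π` is prime in `C` (Model theorem (a) for `L`),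
then every `g ∈ L` with `emb g` in the Gauss ring `V` and reduction `1` satisfies
`Model.GaussOne π u g`, written out literally below (so that this file does not depend on the
skeleton file): `g * b = b + π * a` with `a, b` integral over `O[u]` and `π ∤ b`.
-/

open ModularCurve Polynomial

noncomputable section

namespace Fermat.Agent.S30.GaussOne

variable {O E : Type*} [CommRing O] [IsDomain O] [IsDiscreteValuationRing O] [Field E]
  [Algebra O E] [FaithfulSMul O E]
variable {L : Type*} [Field L] [Algebra E L] [Algebra O L] [IsScalarTower O E L]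

/-- `emb` on constants from `O`. -/
theorem emb_algebraMap (emb : L →ₐ[E] LaurentSeries E) (r : O) :
    emb (algebraMap O L r) = HahnSeries.C (algebraMap O E r) := by
  rw [IsScalarTower.algebraMap_apply O E L, AlgHom.commutes, algebraMap_laurentSeries_eq_single,
    HahnSeries.C_apply]

/-- `emb` on polynomials in `u` with coefficients in `O`. -/
theorem emb_aeval (emb : L →ₐ[E] LaurentSeries E) (u : L) (uO : LaurentSeries O)
    (hu : emb u = GaussDVR.iota O E uO) (P : O[X]) :
    emb (aeval u P) =
      GaussDVR.iota O E (P.eval₂ (HahnSeries.C : O →+* LaurentSeries O) uO) := by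
  rw [aeval_def, ← AlgHom.coe_toRingHom, hom_eval₂, hom_eval₂, AlgHom.coe_toRingHom, hu]
  congr 1
  refine RingHom.ext fun r => ?_
  simp only [RingHom.comp_apply, AlgHom.coe_toRingHom]
  rw [emb_algebraMap, GaussDVR.iota_C]

/-- **Adapter**: Gauss ring with reduction `1` + "`π` prime in the integral closure of `O[u]`"
⇒ the literal body of `Model.GaussOne π u g`. -/
theorem gaussOne_of_red_eq_one (emb : L →ₐ[E] LaurentSeries E)
    (hfrac : ∀ x : L, emb x ∈ GaussDVR.fracField O E)
    (π : O) (hπ : Irreducible π) (u : L) (uO : LaurentSeries O)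
    (hu : emb u = GaussDVR.iota O E uO) (hpole : (GaussDVR.rho O uO).order < 0)
    (halg : ∀ x : L, IsAlgebraic (Algebra.adjoin O {u}) x)
    (hprime : Prime (algebraMap (Algebra.adjoin O {u}) (integralClosure (Algebra.adjoin O {u}) L)
      (algebraMap O (Algebra.adjoin O {u}) π)))
    (g : L) (hgV : emb g ∈ GaussDVR.V O E) (hg1 : GaussDVR.red O E ⟨emb g, hgV⟩ = 1) :
    ∃ a b : L, IsIntegral (Algebra.adjoin O {u}) a ∧ IsIntegral (Algebra.adjoin O {u}) b ∧
      (∀ c : L, IsIntegral (Algebra.adjoin O {u}) c → b ≠ algebraMap O L π * c) ∧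
      g * b = b + algebraMap O L π * a := by
  set B : Subalgebra O L := Algebra.adjoin O {u} with hB
  set C : Subalgebra B L := integralClosure B L with hC
  have hembinj : Function.Injective emb := emb.toRingHom.injective
  -- the embedding of `C`
  set j : C →+* LaurentSeries E := emb.toRingHom.comp (algebraMap C L) with hj
  have hjinj : Function.Injective j := by
    intro x y hxy
    exact Subtype.ext (hembinj hxy)
  -- `B` maps into `V`
  have hBrange : ∀ b : B, ∃ P : O[X], (b : L) = aeval u P := by
    intro b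
    have hb : (b : L) ∈ Algebra.adjoin O {u} := b.2
    rw [Algebra.adjoin_singleton_eq_range_aeval] at hb
    obtain ⟨P, hP⟩ := hb
    exact ⟨P, hP.symm⟩
  set φ : B →+* LaurentSeries E := emb.toRingHom.comp (algebraMap B L) with hφ
  have hφV : ∀ b : B, φ b ∈ GaussDVR.V O E := by
    intro b
    obtain ⟨P, hP⟩ := hBrange b
    show emb (b : L) ∈ GaussDVR.V O E
    rw [hP, emb_aeval emb u uO hu]
    exact GaussDVR.mem_of_int O E _
  have hV : ∀ c : C, j c ∈ GaussDVR.V O E := by
    intro c
    refine GaussDVR.mem_of_isIntegralElem E π hπ φ hφV (j c) (hfrac _) ?_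
    obtain ⟨p, hp, hroot⟩ := c.2
    refine ⟨p, hp, ?_⟩
    have := congrArg emb hroot
    rw [map_zero, ← AlgHom.coe_toRingHom, hom_eval₂] at this
    exact this
  -- the uniformiser
  have hjϖ : j (algebraMap B C (algebraMap O B π)) = HahnSeries.C (algebraMap O E π) := by
    show emb (algebraMap O L π) = _
    exact emb_algebraMap emb π
  -- the Gauss property on `B`
  have hGauss : ∀ b : B, GaussDVR.red O E ⟨j (algebraMap B C b), hV _⟩ = 0 →
      algebraMap O B π ∣ b := by
    intro b hb
    obtain ⟨P, hP⟩ := hBrange b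
    have h1 : (⟨j (algebraMap B C b), hV _⟩ : GaussDVR.V O E) =
        GaussDVR.ofInt O E (P.eval₂ (HahnSeries.C : O →+* LaurentSeries O) uO) := by
      apply Subtype.ext
      show emb (b : L) = _
      rw [hP, emb_aeval emb u uO hu]
      rfl
    rw [h1, GaussDVR.red_ofInt] at hb
    obtain ⟨P', rfl⟩ := GaussBridge.C_dvd_of_rho_eval₂_eq_zero π hπ uO hpole P hb
    refine ⟨⟨aeval u P', ?_⟩, ?_⟩
    · rw [hB, Algebra.adjoin_singleton_eq_range_aeval]
      exact ⟨P', rfl⟩
    · apply Subtype.ext
      rw [hP, map_mul, aeval_C]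
      rfl
  -- `g - 1` is a fraction of elements of `C`
  obtain ⟨y, hy0, hyint⟩ := (halg (g - 1)).exists_integral_multiple
  set c : C := ⟨y • (g - 1), hyint⟩ with hc
  have hd0 : algebraMap B C y ≠ 0 := by
    intro h0
    apply hy0
    have h1 : ((algebraMap B C y : C) : L) = 0 := by rw [h0]; rfl
    exact Subtype.ext h1
  have hgc : (emb g - 1) * j (algebraMap B C y) = j c := by
    show (emb g - 1) * emb (y : L) = emb (y • (g - 1))
    rw [Algebra.smul_def, map_mul, map_sub, map_one, mul_comm]
    rfl
  obtain ⟨a, b, hb, hab⟩ := GaussBridge.kummer_shape π hπ j hjinj hV (algebraMap O B π) hprime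
    hjϖ hGauss (emb g) hgV hg1 c (algebraMap B C y) hd0 hgc
  refine ⟨(a : L), (b : L), a.2, b.2, ?_, ?_⟩
  · intro c' hc' hbc
    apply hb
    refine ⟨⟨c', hc'⟩, ?_⟩
    apply Subtype.ext
    rw [hbc]
    rfl
  · apply hembinj
    rw [map_mul, map_add, map_mul, emb_algebraMap]
    exact hab

/-! ### `L` is algebraic over `O[u]` -/

section Algebraic

variable [IsFractionRing O E]

/-- A polynomial in `u` over `E = Frac O` becomes a polynomial over `O` after multiplication by a
nonzero element of `O`. -/
theorem exists_mul_aeval_mem (u : L) (r : E[X]) :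
    ∃ d : O, d ≠ 0 ∧ algebraMap O L d * aeval u r ∈ Algebra.adjoin O {u} := by
  obtain ⟨b, hbM, hb⟩ := IsLocalization.integerNormalization_spec (nonZeroDivisors O) r
  refine ⟨b, nonZeroDivisors.ne_zero hbM, ?_⟩
  have h1 : algebraMap O L b * aeval u r = aeval u (b • r) := by
    rw [← algebraMap_smul E b r, map_smul, Algebra.smul_def,
      ← IsScalarTower.algebraMap_apply O E L]
  rw [h1, ← hb, aeval_map_algebraMap, Algebra.adjoin_singleton_eq_range_aeval]
  exact ⟨_, rfl⟩

/-- Every element of `E(u)` is a fraction of two elements of `O[u]`. -/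
theorem exists_fraction_of_mem_adjoin (u : L) {y : L}
    (hy : y ∈ IntermediateField.adjoin E {u}) :
    ∃ b₁ b₂ : Algebra.adjoin O {u}, b₂ ≠ 0 ∧ (b₂ : L) * y = (b₁ : L) := by
  obtain ⟨r, s, rfl⟩ := (IntermediateField.mem_adjoin_simple_iff E _).mp hy
  by_cases hs : aeval u s = 0
  · refine ⟨0, 1, one_ne_zero, ?_⟩
    rw [hs, div_zero, mul_zero]
    rfl
  obtain ⟨dr, hdr, hβr⟩ := exists_mul_aeval_mem (O := O) u r
  obtain ⟨ds, hds, hβs⟩ := exists_mul_aeval_mem (O := O) u s
  have hinj : Function.Injective (algebraMap O L) := by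
    rw [IsScalarTower.algebraMap_eq O E L]
    exact (algebraMap E L).injective.comp (FaithfulSMul.algebraMap_injective O E)
  have hdrL : algebraMap O L dr ≠ 0 := fun h => hdr (hinj (by rw [h, map_zero]))
  have hdsL : algebraMap O L ds ≠ 0 := fun h => hds (hinj (by rw [h, map_zero]))
  refine ⟨algebraMap O _ ds * ⟨_, hβr⟩, algebraMap O _ dr * ⟨_, hβs⟩, ?_, ?_⟩
  · intro h0
    have h1 := congrArg (Subtype.val : Algebra.adjoin O {u} → L) h0
    have h2 : algebraMap O L dr * (algebraMap O L ds * aeval u s) = 0 := h1
    exact (mul_ne_zero hdrL (mul_ne_zero hdsL hs)) h2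
  · show algebraMap O L dr * (algebraMap O L ds * aeval u s) * (aeval u r / aeval u s) =
      algebraMap O L ds * (algebraMap O L dr * aeval u r)
    field_simp

/-- If `L` is finite over `E(u)` then every element of `L` is algebraic over `O[u]`
(the hypothesis `halg` of `gaussOne_of_red_eq_one`). -/
theorem isAlgebraic_adjoin_of_finite (u : L)
    [FiniteDimensional (IntermediateField.adjoin E {u}) L] (x : L) :
    IsAlgebraic (Algebra.adjoin O {u}) x := by
  set B : Subalgebra O L := Algebra.adjoin O {u} with hB
  set K : IntermediateField E L := IntermediateField.adjoin E {u} with hK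
  have hle : ∀ b : B, (b : L) ∈ K := by
    intro b
    have h1 : Algebra.adjoin O {u} ≤ K.toSubalgebra.restrictScalars O := by
      apply Algebra.adjoin_le
      rw [Set.singleton_subset_iff]
      exact IntermediateField.mem_adjoin_simple_self E u
    exact h1 b.2
  let incl : B →+* K :=
    { toFun := fun b => ⟨(b : L), hle b⟩
      map_one' := rfl
      map_mul' := fun _ _ => rfl
      map_zero' := rfl
      map_add' := fun _ _ => rfl }
  let _ : Algebra B K := incl.toAlgebra
  have _ : IsScalarTower B K L := IsScalarTower.of_algebraMap_eq (fun _ => rfl)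
  have _ : Algebra.IsAlgebraic B K := by
    refine ⟨fun y => ?_⟩
    obtain ⟨b₁, b₂, hb₂, h⟩ := exists_fraction_of_mem_adjoin (O := O) u y.2
    refine ⟨C b₂ * X - C b₁, ?_, ?_⟩
    · intro h0
      have h1 := congrArg (fun q : B[X] => q.coeff 1) h0
      simp at h1
      exact hb₂ h1
    · rw [map_sub, map_mul, aeval_C, aeval_C, aeval_X, sub_eq_zero]
      exact Subtype.ext h
  exact (Algebra.IsAlgebraic.isAlgebraic (R := K) x).restrictScalars B

/-- **Adapter, in the hypotheses of the Model theorem** (`L` finite over `E(u)`, `E = Frac O`):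
the literal body of `Model.GaussOne π u g` from "`emb g` lies in the Gauss ring with
reduction `1`" and "`π` is prime in the integral closure of `O[u]` in `L`" (= `Model.main_a`). -/
theorem gaussOne_of_red_eq_one' (emb : L →ₐ[E] LaurentSeries E)
    (hfrac : ∀ x : L, emb x ∈ GaussDVR.fracField O E)
    (π : O) (hπ : Irreducible π) (u : L) (uO : LaurentSeries O)
    (hu : emb u = GaussDVR.iota O E uO) (hpole : (GaussDVR.rho O uO).order < 0)
    [FiniteDimensional (IntermediateField.adjoin E {u}) L]
    (hprime : Prime (algebraMap (Algebra.adjoin O {u}) (integralClosure (Algebra.adjoin O {u}) L)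
      (algebraMap O (Algebra.adjoin O {u}) π)))
    (g : L) (hgV : emb g ∈ GaussDVR.V O E) (hg1 : GaussDVR.red O E ⟨emb g, hgV⟩ = 1) :
    ∃ a b : L, IsIntegral (Algebra.adjoin O {u}) a ∧ IsIntegral (Algebra.adjoin O {u}) b ∧
      (∀ c : L, IsIntegral (Algebra.adjoin O {u}) c → b ≠ algebraMap O L π * c) ∧
      g * b = b + algebraMap O L π * a :=
  gaussOne_of_red_eq_one emb hfrac π hπ u uO hu hpole
    (isAlgebraic_adjoin_of_finite (O := O) (E := E) u) hprime g hgV hg1

end Algebraic

end Fermat.Agent.S30.GaussOne
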