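import Mathlib
import Fermat.Agent.S28.Defs
import Fermat.Agent.S28.Formal
import Fermat.Agent.S28.Orders
import Fermat.Agent.S28.Vieta

set_option autoImplicit false
set_option linter.deprecated false

noncomputable section

namespace Fermat.Agent.S30.ModSep

open ModularCurve Fermat.Agent.S28 Fermat.Agent.S28.Defs

variable {N : ℕ}

/-- The generator `j(q^N)` of the level-`N` function field, as a formal monomial. -/
def jN (N : ℕ) : MvPolynomial (Gen N) ℤ := MvPolynomial.X (Gen.j ⟨N, dvd_rfl⟩)

/-! ### Coefficients of a twisted `j` -/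

section Twist

variable {R : Type*} [CommRing R]

theorem twist_coeff_mul (u : Rˣ) {k : ℕ} (hk : k ≠ 0) (f : LaurentSeries R) (m : ℤ) :
    (twist R u k f).coeff ((k : ℤ) * m) = ((u ^ m : Rˣ) : R) * f.coeff m := by
  unfold twist
  rw [RingHom.comp_apply, Formal.qE_coeff_mul hk, scale_coeff]

theorem jqModC_coeff_neg_one : (jqModC R).coeff (-1) = 1 := by
  have h := coeff_jqModC_pow_self R 1
  simpa using h

theorem twist_jq_coeff (u : Rˣ) {k : ℕ} (hk : k ≠ 0) :
    (twist R u k (jqModC R)).coeff (-(k : ℤ)) = ((u⁻¹ : Rˣ) : R) := by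
  have h := twist_coeff_mul u hk (jqModC R) (-1)
  rw [jqModC_coeff_neg_one, mul_one, zpow_neg_one] at h
  rw [← h]
  congr 1
  ring

end Twist

/-! ### The conjugates of `j(q^N)` -/

section Conj

variable (R : Type*) [CommRing R] (S : RowSystem N) (ζ : Rˣ) (ν : R)

/-- The conjugates of `j(q^N)`, as series in `t = q^{1/N}`: `j(ζ^{ab} t^{a²})`. -/
def conj (q : S.C) : LaurentSeries R := S.sig R ζ ν q (jN N)

theorem conj_eq [NeZero N] (q : S.C) : conj R S ζ ν q =
    twist R (ζ ^ (S.a q N * S.b q N)) (S.a q N * S.a q N) (jqModC R) := by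
  have h : conj R S ζ ν q = twist R (ζ ^ (N / (N / S.a q N) * S.b q N))
      (S.a q N * (N / (N / S.a q N))) (jqModC R) := by
    unfold conj RowSystem.sig jN
    rw [Orders.sigma_X]
    rfl
  rw [h, Nat.div_div_self (Orders.RowSystem.a_dvd S q N dvd_rfl) (NeZero.ne N)]

theorem a_ne_zero [NeZero N] (q : S.C) : S.a q N ≠ 0 := fun h => by
  have := Orders.RowSystem.a_dvd S q N dvd_rfl
  rw [h, zero_dvd_iff] at this
  exact NeZero.ne N this

theorem coeffMap_conj {R' : Type*} [CommRing R'] (f : R →+* R') (q : S.C) :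
    coeffMap f (conj R S ζ ν q) = conj R' S (Units.map (f : R →* R') ζ) (f ν) q :=
  Formal.coeffMap_sig f S ζ ν q (jN N)

/-- At the identity row the conjugate is `j(q^N)` itself, in the variable `t`. -/
theorem conj_one [NeZero N] (hζ : ζ ^ N = 1) (hν : (N : R) * ν = 1) :
    conj R S ζ ν S.one = qE R N (qE R N (jqModC R)) := by
  unfold conj RowSystem.sig
  rw [Orders.sigma_eq_qE_comp_ev ζ ν N _ _ (NeZero.ne N) hζ hν (fun d hd => by
    rw [S.a_gcd S.one d hd, S.a_one]; exact Nat.gcd_eq_left hd)]
  rw [RingHom.comp_apply]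
  unfold jN
  rw [Orders.ev_X]
  rfl

end Conj

section ConjField

variable {κ : Type*} [Field κ] (S : RowSystem N) (ζ : κˣ) (ν : κ)

theorem orderTop_conj [NeZero N] (q : S.C) :
    (conj κ S ζ ν q).orderTop = ((-((S.a q N * S.a q N : ℕ) : ℤ) : ℤ) : WithTop ℤ) := by
  rw [conj_eq, Orders.orderTop_twist _ (Nat.mul_ne_zero (a_ne_zero S q) (a_ne_zero S q)) _
    (Orders.orderTop_jqModC κ)]
  congr 1
  ring

/-- The conjugates are pairwise distinct when `ζ` is a primitive `N`-th root of unity and the
rows are distinct. -/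
theorem conj_injective [NeZero N] (hζ : IsPrimitiveRoot ζ N)
    (hinj : ∀ q q' : S.C, S.a q N = S.a q' N →
      S.b q N % (N / S.a q N) = S.b q' N % (N / S.a q' N) → q = q') :
    Function.Injective (conj κ S ζ ν) := by
  intro q q' h
  have ha : S.a q N = S.a q' N := by
    have h1 := orderTop_conj S ζ ν q
    have h2 := orderTop_conj S ζ ν q'
    rw [h, h2] at h1
    have h3 : ((S.a q' N * S.a q' N : ℕ) : ℤ) = ((S.a q N * S.a q N : ℕ) : ℤ) := by
      have := WithTop.coe_injective h1
      linarith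
    have h4 : S.a q' N * S.a q' N = S.a q N * S.a q N := by exact_mod_cast h3
    exact (Nat.mul_self_inj.mp h4).symm
  refine hinj q q' ha ?_
  rw [← ha]
  have hk : S.a q N * S.a q N ≠ 0 := Nat.mul_ne_zero (a_ne_zero S q) (a_ne_zero S q)
  have hc : (conj κ S ζ ν q).coeff (-((S.a q N * S.a q N : ℕ) : ℤ)) =
      (conj κ S ζ ν q').coeff (-((S.a q N * S.a q N : ℕ) : ℤ)) := by rw [h]
  rw [conj_eq, conj_eq, ← ha, twist_jq_coeff _ hk, twist_jq_coeff _ hk] at hc
  have hc' : ζ ^ (S.a q N * S.b q N) = ζ ^ (S.a q N * S.b q' N) := by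
    have := Units.ext hc
    exact inv_injective this
  -- now compare exponents modulo `N`
  have hdvd : S.a q N ∣ N := Orders.RowSystem.a_dvd S q N dvd_rfl
  have ha0 : 0 < S.a q N := Nat.pos_of_ne_zero (a_ne_zero S q)
  have hN' : S.a q N * (N / S.a q N) = N := Nat.mul_div_cancel' hdvd
  have key : ∀ b b' : ℕ, b ≤ b' → ζ ^ (S.a q N * b) = ζ ^ (S.a q N * b') →
      b % (N / S.a q N) = b' % (N / S.a q N) := by
    intro b b' hle hpow
    have h1 : ζ ^ (S.a q N * (b' - b)) = 1 := by
      have h2 : S.a q N * b' = S.a q N * b + S.a q N * (b' - b) := by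
        rw [← Nat.mul_add, Nat.add_sub_cancel' hle]
      rw [h2, pow_add] at hpow
      exact mul_left_cancel (hpow.symm.trans (mul_one _).symm)
    have h3 : N ∣ S.a q N * (b' - b) := (hζ.pow_eq_one_iff_dvd _).mp h1
    have h5 : N / S.a q N ∣ b' - b := by
      have h6 : S.a q N * (N / S.a q N) ∣ S.a q N * (b' - b) := by rw [hN']; exact h3
      exact (Nat.mul_dvd_mul_iff_left ha0).mp h6
    exact ((Nat.modEq_iff_dvd' hle).mpr h5)
  rcases le_total (S.b q N) (S.b q' N) with hle | hle
  · exact key _ _ hle hc'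
  · exact (key _ _ hle hc'.symm).symm

end ConjField

/-! ### The modular polynomial -/

section ModPoly

variable (R : Type*) [CommRing R] (S : RowSystem N) (ζ : Rˣ) (ν : R)

/-- `p ↦ p(j(t^N))`. -/
abbrev phi (R : Type*) [CommRing R] (N : ℕ) : Polynomial R →+* LaurentSeries R :=
  Polynomial.eval₂RingHom (HahnSeries.C : R →+* LaurentSeries R) (qE R N (jqModC R))

/-- `P` is a modular polynomial for the row system: its image is `∏_q (X - conj_q)`. -/
def IsModPoly (P : Polynomial (Polynomial R)) : Prop :=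
  P.map (phi R N) = ∏ q : S.C, (Polynomial.X - Polynomial.C (conj R S ζ ν q))

theorem exists_isModPoly [Nontrivial R] (hS : S.HasSymm R ζ ν) :
    ∃ P : Polynomial (Polynomial R), P.Monic ∧ P.natDegree = Fintype.card S.C ∧
      IsModPoly R S ζ ν P :=
  Vieta.exists_monic_of_hasSymm S ζ ν hS (jN N)

theorem coeffMap_comp_phi {R' : Type*} [CommRing R'] (f : R →+* R') :
    (coeffMap f).comp (phi R N) = (phi R' N).comp (Polynomial.mapRingHom f) := by
  refine Polynomial.ringHom_ext (fun a => ?_) ?_
  · simp only [RingHom.comp_apply, Polynomial.coe_eval₂RingHom, Polynomial.eval₂_C,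
      Polynomial.coe_mapRingHom, Polynomial.map_C, Formal.coeffMap_C]
  · simp only [RingHom.comp_apply, Polynomial.coe_eval₂RingHom, Polynomial.eval₂_X,
      Polynomial.coe_mapRingHom, Polynomial.map_X, Formal.coeffMap_qE, coeffMap_jqModC]

/-- Base change of a modular polynomial. -/
theorem IsModPoly.map {P : Polynomial (Polynomial R)} (hP : IsModPoly R S ζ ν P)
    {R' : Type*} [CommRing R'] (f : R →+* R') :
    IsModPoly R' S (Units.map (f : R →* R') ζ) (f ν) (P.map (Polynomial.mapRingHom f)) := by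
  unfold IsModPoly at hP ⊢
  have h := congrArg (Polynomial.map (coeffMap f)) hP
  rw [Polynomial.map_map, coeffMap_comp_phi, ← Polynomial.map_map] at h
  rw [h, Polynomial.map_prod]
  refine Finset.prod_congr rfl fun q _ => ?_
  rw [Polynomial.map_sub, Polynomial.map_X, Polynomial.map_C, coeffMap_conj]

/-- `j(q^N)` is a root of a modular polynomial (in the variable `q`). -/
theorem IsModPoly.root [NeZero N] {P : Polynomial (Polynomial R)} (hP : IsModPoly R S ζ ν P)
    (hζ : ζ ^ N = 1) (hν : (N : R) * ν = 1) :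
    P.eval₂ (Polynomial.eval₂RingHom (HahnSeries.C : R →+* LaurentSeries R) (jqModC R))
      (qE R N (jqModC R)) = 0 := by
  have hcomp : phi R N = (qE R N).comp
      (Polynomial.eval₂RingHom (HahnSeries.C : R →+* LaurentSeries R) (jqModC R)) := by
    refine Polynomial.ringHom_ext (fun a => ?_) ?_
    · simp only [RingHom.comp_apply, Polynomial.coe_eval₂RingHom, Polynomial.eval₂_C,
        Formal.qE_C]
    · simp only [RingHom.comp_apply, Polynomial.coe_eval₂RingHom, Polynomial.eval₂_X]
  have h1 : (P.map (phi R N)).eval (conj R S ζ ν S.one) = 0 := by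
    rw [hP, Polynomial.eval_prod]
    exact Finset.prod_eq_zero (Finset.mem_univ S.one) (by simp)
  rw [Polynomial.eval_map, conj_one R S ζ ν hζ hν, hcomp, ← Polynomial.hom_eval₂] at h1
  exact Orders.qE_injective R (by rw [h1, map_zero])

end ModPoly

/-! ### Separability over a field -/

section Sep

variable {κ : Type*} [Field κ] (S : RowSystem N) (ζ : κˣ) (ν : κ)

theorem phi_injective [NeZero N] : Function.Injective (phi κ N) := by
  rw [injective_iff_map_eq_zero]
  intro p hp
  by_contra hne
  have h := Orders.orderTop_eval₂_jq_le κ (NeZero.ne N) hne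
  have h' : (phi κ N p).orderTop ≤ ((0 : ℤ) : WithTop ℤ) := h
  rw [hp, HahnSeries.orderTop_zero] at h'
  exact absurd h' (by simp)

theorem exists_lift_phi [NeZero N] : ∃ g : RatFunc κ →+* LaurentSeries κ,
    g.comp (algebraMap (Polynomial κ) (RatFunc κ)) = phi κ N := by
  have hφ : Function.Injective (phi κ N) := phi_injective
  have hφ' : nonZeroDivisors (Polynomial κ) ≤
      (nonZeroDivisors (LaurentSeries κ)).comap (phi κ N) :=
    nonZeroDivisors_le_comap_nonZeroDivisors_of_injective _ hφ
  exact ⟨RatFunc.liftRingHom (phi κ N) hφ',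
    RingHom.ext fun x => RatFunc.liftRingHom_algebraMap (phi κ N) hφ' x⟩

theorem IsModPoly.separable_map_phi [NeZero N] {P : Polynomial (Polynomial κ)}
    (hP : IsModPoly κ S ζ ν P) (hζ : IsPrimitiveRoot ζ N)
    (hinj : ∀ q q' : S.C, S.a q N = S.a q' N →
      S.b q N % (N / S.a q N) = S.b q' N % (N / S.a q' N) → q = q') :
    (P.map (phi κ N)).Separable := by
  rw [hP]
  exact (Polynomial.separable_prod_X_sub_C_iff).mpr (conj_injective S ζ ν hζ hinj)

/-- Over a field, with `ζ` primitive and distinct rows, a modular polynomial is separable over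
the fraction field of `κ[X]`. -/
theorem IsModPoly.separable [NeZero N] {P : Polynomial (Polynomial κ)}
    (hP : IsModPoly κ S ζ ν P) (hζ : IsPrimitiveRoot ζ N)
    (hinj : ∀ q q' : S.C, S.a q N = S.a q' N →
      S.b q N % (N / S.a q N) = S.b q' N % (N / S.a q' N) → q = q') :
    (P.map (algebraMap (Polynomial κ) (RatFunc κ))).Separable := by
  have hsep := hP.separable_map_phi S ζ ν hζ hinj
  obtain ⟨g, hg⟩ := exists_lift_phi (κ := κ) (N := N)
  rw [← hg, ← Polynomial.map_map] at hsep
  exact (Polynomial.separable_map g).mp hsep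

end Sep

end Fermat.Agent.S30.ModSep
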