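import Mathlib
import Fermat.Agent.S28.Defs
import Fermat.Agent.S28.RowDefs
import Fermat.Agent.S28.Formal
import Fermat.Agent.S28.Orders
import Fermat.Agent.S28.Vieta
import Fermat.Agent.S28.Hermite
import Fermat.Agent.S28.RowGen
import Fermat.Agent.S30.ModSep

set_option autoImplicit false
set_option linter.deprecated false

noncomputable section

namespace Fermat.Agent.S30.ModSep

open ModularCurve Fermat.Agent.S28 Fermat.Agent.S28.Defs

universe v

/-- A primitive `N`-th root of unity stays primitive under any ring hom to a nontrivial ring,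
as soon as `N` is invertible in the (domain) source. -/
theorem isPrimitiveRoot_map_of_isUnit {R κ : Type*} [CommRing R] [IsDomain R] [CommRing κ]
    [Nontrivial κ] (f : R →+* κ) {ζ : R} {N : ℕ} (hζ : IsPrimitiveRoot ζ N)
    (hN : IsUnit (N : R)) : IsPrimitiveRoot (f ζ) N := by
  rcases Nat.eq_zero_or_pos N with h0 | hpos
  · subst h0
    exfalso
    simp only [Nat.cast_zero, isUnit_zero_iff] at hN
    exact zero_ne_one hN
  refine IsPrimitiveRoot.mk_of_lt (f ζ) hpos ?_ ?_
  · rw [← map_pow, hζ.pow_eq_one, map_one]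
  · intro l hl0 hlN hl
    obtain ⟨n, rfl⟩ : ∃ n, N = n + 1 := ⟨N - 1, by omega⟩
    have hprod := hζ.prod_one_sub_pow_eq_order
    have hu : IsUnit (∏ k ∈ Finset.range n, (1 - ζ ^ (k + 1))) := by
      rw [hprod]
      simpa using hN
    have hmem : l - 1 ∈ Finset.range n := Finset.mem_range.mpr (by omega)
    have hdvd : (1 - ζ ^ (l - 1 + 1)) ∣ ∏ k ∈ Finset.range n, (1 - ζ ^ (k + 1)) :=
      Finset.dvd_prod_of_mem _ hmem
    have hu' : IsUnit (1 - ζ ^ (l - 1 + 1)) := isUnit_of_dvd_unit hdvd hu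
    have hl' : l - 1 + 1 = l := by omega
    rw [hl'] at hu'
    have hu'' := hu'.map f
    rw [map_sub, map_one, map_pow, hl, sub_self] at hu''
    exact not_isUnit_zero hu''

section Inst

variable (N : ℕ) [NeZero N] {R : Type*} [CommRing R] (ι : R →+* ℂ)

/-- **The modular polynomial over a subring of `ℂ`** containing `ζ_N` and `1/N`. -/
theorem exists_isModPoly_of_embedding (hι : Function.Injective ι) (ζ : Rˣ)
    (hζ : ι (ζ : R) = (zetaC N : ℂ)) (ν : R) (hν : (N : R) * ν = 1) :
    ∃ P : Polynomial (Polynomial R), P.Monic ∧ P.natDegree = (CongruenceSubgroup.Gamma0 N).index ∧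
      IsModPoly R (Hermite.rowSystem N) ζ ν P := by
  have : Nontrivial R := ⟨⟨0, 1, fun h => by
    have := congrArg ι h
    rw [map_zero, map_one] at this
    exact zero_ne_one this⟩⟩
  have hζ' : Units.map (ι : R →* ℂ) ζ = zetaC N := Units.ext hζ
  have hν' : ι ν = (N : ℂ)⁻¹ := by
    have h1 : (N : ℂ) * ι ν = 1 := by
      rw [← map_natCast ι, ← map_mul, hν, map_one]
    exact eq_inv_of_mul_eq_one_right h1
  have hS : (Hermite.rowSystem N).HasSymm R ζ ν := by
    apply Formal.hasSymm_of_injective ι hι (Hermite.rowSystem N) ζ ν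
    rw [hζ', hν']
    exact RowGen.rowSystem_hasSymm N
  obtain ⟨P, hmonic, hdeg, hP⟩ := exists_isModPoly R (Hermite.rowSystem N) ζ ν hS
  exact ⟨P, hmonic, hdeg.trans (Hermite.card_rowSystem N), hP⟩

theorem isPrimitiveRoot_of_embedding (hι : Function.Injective ι) (ζ : Rˣ)
    (hζ : ι (ζ : R) = (zetaC N : ℂ)) : IsPrimitiveRoot (ζ : R) N := by
  have h : IsPrimitiveRoot (ι (ζ : R)) N := by
    rw [hζ]
    exact Complex.isPrimitiveRoot_exp N (NeZero.ne N)
  exact IsPrimitiveRoot.of_map_of_injective h hι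

/-- Reduction of the modular polynomial along any ring hom to a field is separable. -/
theorem IsModPoly.separable_map_of_embedding (hι : Function.Injective ι) (ζ : Rˣ)
    (hζ : ι (ζ : R) = (zetaC N : ℂ)) (ν : R) (hν : (N : R) * ν = 1)
    {P : Polynomial (Polynomial R)} (hP : IsModPoly R (Hermite.rowSystem N) ζ ν P)
    {κ : Type v} [Field κ] (f : R →+* κ) :
    ((P.map (Polynomial.mapRingHom f)).map
      (algebraMap (Polynomial κ) (RatFunc κ))).Separable := by
  have : IsDomain R := Function.Injective.isDomain ι hι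
  have hprim : IsPrimitiveRoot (f (ζ : R)) N :=
    isPrimitiveRoot_map_of_isUnit f (isPrimitiveRoot_of_embedding N ι hι ζ hζ)
      (IsUnit.of_mul_eq_one _ hν)
  have hprim' : IsPrimitiveRoot (Units.map (f : R →* κ) ζ) N :=
    IsPrimitiveRoot.coe_units_iff.mp hprim
  exact (hP.map R (Hermite.rowSystem N) ζ ν f).separable (Hermite.rowSystem N) _ _ hprim'
    (Hermite.rowSystem_inj N)

/-- **Modular input (i)**, packaged: for a subring `R ⊆ ℂ` containing a primitive `N`-th root of
unity and `1/N`, there is a monic `P ∈ R[j][X]` of degree `[SL₂(ℤ) : Γ₀(N)]` with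
`P(j, j(q^N)) = 0` whose reduction along every ring hom from `R` to a field `κ` is separable over
`κ(j)`. -/
theorem exists_modular_poly (hι : Function.Injective ι) {ζ₀ : R} (hζ₀ : IsPrimitiveRoot ζ₀ N)
    (hN : IsUnit (N : R)) :
    ∃ P : Polynomial (Polynomial R), P.Monic ∧ P.natDegree = (CongruenceSubgroup.Gamma0 N).index ∧
      P.eval₂ (Polynomial.eval₂RingHom (HahnSeries.C : R →+* LaurentSeries R) (jqModC R))
        (qE R N (jqModC R)) = 0 ∧
      ∀ (κ : Type v) [Field κ] (f : R →+* κ),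
        ((P.map (Polynomial.mapRingHom f)).map
          (algebraMap (Polynomial κ) (RatFunc κ))).Separable := by
  have : IsDomain R := Function.Injective.isDomain ι hι
  -- move to the standard root of unity
  have h1 : IsPrimitiveRoot (ι ζ₀) N := hζ₀.map_of_injective hι
  have h2 : ((zetaC N : ℂˣ) : ℂ) ^ N = 1 :=
    (Complex.isPrimitiveRoot_exp N (NeZero.ne N)).pow_eq_one
  obtain ⟨i, -, hi⟩ := h1.eq_pow_of_pow_eq_one h2
  let u : Rˣ := (hζ₀.isUnit (NeZero.ne N)).unit
  have hu : (u : R) = ζ₀ := IsUnit.unit_spec _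
  let ζ : Rˣ := u ^ i
  have hζ : ι (ζ : R) = (zetaC N : ℂ) := by
    show ι ((u ^ i : Rˣ) : R) = _
    rw [Units.val_pow_eq_pow_val, hu, map_pow, hi]
  obtain ⟨ν, hν⟩ := hN.exists_right_inv
  obtain ⟨P, hmonic, hdeg, hP⟩ := exists_isModPoly_of_embedding N ι hι ζ hζ ν hν
  refine ⟨P, hmonic, hdeg, ?_, fun κ _ f => ?_⟩
  · have hζN : ζ ^ N = 1 := by
      apply Units.ext
      rw [Units.val_pow_eq_pow_val, Units.val_one]
      exact (isPrimitiveRoot_of_embedding N ι hι ζ hζ).pow_eq_one
    exact hP.root R (Hermite.rowSystem N) ζ ν hζN hν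
  · exact hP.separable_map_of_embedding N ι hι ζ hζ ν hν f

end Inst

end Fermat.Agent.S30.ModSep
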