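/-
S30 / modular input (i), discriminant form (helper148).

* Generic: if a monic `m ∈ A[X]` splits over a domain `Λ` (via `φ : A →+* Λ`) into linear factors
  whose roots have pairwise distinct reductions under `red : Λ →+* k`, then the discriminant of
  the power basis of `A[X]/(m)` has nonzero reduction.
* Modular: the discriminant of the modular polynomial (w.r.t. the power basis of
  `O[j][X]/(P)`) is nonzero after every reduction `O →+* κ` to a field.
-/
import Mathlib
import Fermat.Agent.S30.Model.EmbDiscVert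
import Fermat.Agent.S30.ModSepInst

set_option autoImplicit false
set_option linter.deprecated false

noncomputable section

namespace Fermat.Agent.S30.ModDisc

open Polynomial

/-! ### Generic part -/

section Generic

variable {A Λ k : Type*} [CommRing A] [CommRing Λ] [IsDomain Λ] [Field k]

/-- The discriminant of the power basis of `A[X]/(m)`. -/
def discrOf {m : A[X]} (hm : m.Monic) : A :=
  Algebra.discr A (AdjoinRoot.powerBasis' hm).basis

theorem natDegree_eq_card_of_map_eq_prod [Nontrivial A] {m : A[X]} (hm : m.Monic) (φ : A →+* Λ)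
    {ι : Type*} [Fintype ι] (r : ι → Λ) (hfac : m.map φ = ∏ i, (X - C (r i))) :
    m.natDegree = Fintype.card ι := by
  have h1 : (m.map φ).natDegree = m.natDegree := hm.natDegree_map φ
  rw [← h1, hfac, natDegree_prod_of_monic _ _ (fun i _ => monic_X_sub_C (r i))]
  simp

/-- **Generic discriminant criterion**: roots with pairwise distinct reductions. -/
theorem red_discrOf_ne_zero [Nontrivial A] {m : A[X]} (hm : m.Monic) (φ : A →+* Λ)
    (red : Λ →+* k) {ι : Type*} [Fintype ι] (r : ι → Λ)
    (hfac : m.map φ = ∏ i, (X - C (r i))) (hinj : Function.Injective (red ∘ r)) :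
    red (φ (discrOf hm)) ≠ 0 := by
  classical
  have hcard : Fintype.card (Fin (AdjoinRoot.powerBasis' hm).dim) = Fintype.card ι := by
    rw [Fintype.card_fin]
    exact natDegree_eq_card_of_map_eq_prod hm φ r hfac
  let e : Fin (AdjoinRoot.powerBasis' hm).dim ≃ ι := Fintype.equivOfCardEq hcard
  have hroot : ∀ i : ι, m.eval₂ φ (r i) = 0 := by
    intro i
    rw [← eval_map, hfac, eval_prod]
    exact Finset.prod_eq_zero (Finset.mem_univ i) (by simp)
  let σ : Fin (AdjoinRoot.powerBasis' hm).dim → AdjoinRoot m →+* Λ :=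
    fun i => AdjoinRoot.lift φ (r (e i)) (hroot (e i))
  have hσ : ∀ i, (σ i).comp (algebraMap A (AdjoinRoot m)) = φ := fun i =>
    AdjoinRoot.lift_comp_of (hroot (e i))
  have hinj' : Function.Injective fun i => red.comp (σ i) := by
    intro i i' h
    have h1 := congrArg (fun g : AdjoinRoot m →+* k => g (AdjoinRoot.root m)) h
    simp only [RingHom.comp_apply, σ, AdjoinRoot.lift_root] at h1
    exact e.injective (hinj h1)
  exact Fermat.Agent.S30.Model.EmbDiscVert.red_map_discr_ne_zero
    (AdjoinRoot.powerBasis' hm).basis φ red σ hσ hinj'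

end Generic

/-! ### The modular polynomial -/

section Modular

open ModularCurve Fermat.Agent.S28 Fermat.Agent.S28.Defs Fermat.Agent.S30.ModSep

universe v

variable (N : ℕ) [NeZero N] {O : Type*} [CommRing O] (ι : O →+* ℂ)

/-- The discriminant of a modular polynomial is nonzero after any reduction to a field. -/
theorem IsModPoly.map_discrOf_ne_zero (hι : Function.Injective ι) (ζ : Oˣ)
    (hζ : ι (ζ : O) = (zetaC N : ℂ)) (ν : O) (hν : (N : O) * ν = 1)
    {P : Polynomial (Polynomial O)} (hP : IsModPoly O (Hermite.rowSystem N) ζ ν P)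
    (hmonic : P.Monic) {κ : Type v} [Field κ] (f : O →+* κ) :
    (discrOf hmonic).map f ≠ 0 := by
  have hdom : IsDomain O := Function.Injective.isDomain ι hι
  have hprim : IsPrimitiveRoot (f (ζ : O)) N :=
    isPrimitiveRoot_map_of_isUnit f (isPrimitiveRoot_of_embedding N ι hι ζ hζ)
      (IsUnit.of_mul_eq_one _ hν)
  have hprim' : IsPrimitiveRoot (Units.map (f : O →* κ) ζ) N :=
    IsPrimitiveRoot.coe_units_iff.mp hprim
  have hinj : Function.Injective
      ((coeffMap f : LaurentSeries O →+* LaurentSeries κ) ∘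
        (conj O (Hermite.rowSystem N) ζ ν)) := by
    intro q q' h
    simp only [Function.comp_apply, coeffMap_conj] at h
    exact conj_injective (Hermite.rowSystem N) _ _ hprim' (Hermite.rowSystem_inj N) h
  have h1 := red_discrOf_ne_zero hmonic (phi O N) (coeffMap f)
    (conj O (Hermite.rowSystem N) ζ ν) hP hinj
  intro h0
  apply h1
  have h2 : coeffMap f (phi O N (discrOf hmonic)) = phi κ N ((discrOf hmonic).map f) := by
    have := congrArg (fun g : Polynomial O →+* LaurentSeries κ => g (discrOf hmonic))
      (coeffMap_comp_phi (N := N) O f)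
    simpa using this
  rw [h2, h0, map_zero]

/-- **Modular input (i), discriminant form.** For a subring `O ⊆ ℂ` containing a primitive `N`-th
root of unity and `1/N`: a monic `P ∈ O[j][X]` of degree `[SL₂(ℤ) : Γ₀(N)]` with
`P(j, j(q^N)) = 0` whose discriminant (that of the power basis of `O[j][X]/(P)`) is nonzero after
every reduction of `O` to a field; in particular `P` is separable after every such reduction. -/
theorem exists_modular_poly_discr (hι : Function.Injective ι) {ζ₀ : O}
    (hζ₀ : IsPrimitiveRoot ζ₀ N) (hN : IsUnit (N : O)) :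
    ∃ (P : Polynomial (Polynomial O)) (hP : P.Monic),
      P.natDegree = (CongruenceSubgroup.Gamma0 N).index ∧
      P.eval₂ (Polynomial.eval₂RingHom (HahnSeries.C : O →+* LaurentSeries O) (jqModC O))
        (qE O N (jqModC O)) = 0 ∧
      (∀ (κ : Type v) [Field κ] (f : O →+* κ),
        ((P.map (Polynomial.mapRingHom f)).map
          (algebraMap (Polynomial κ) (RatFunc κ))).Separable) ∧
      ∀ (κ : Type v) [Field κ] (f : O →+* κ), (discrOf hP).map f ≠ 0 := by
  have hdom : IsDomain O := Function.Injective.isDomain ι hι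
  have h1 : IsPrimitiveRoot (ι ζ₀) N := hζ₀.map_of_injective hι
  have h2 : ((zetaC N : ℂˣ) : ℂ) ^ N = 1 :=
    (Complex.isPrimitiveRoot_exp N (NeZero.ne N)).pow_eq_one
  obtain ⟨i, -, hi⟩ := h1.eq_pow_of_pow_eq_one h2
  let u : Oˣ := (hζ₀.isUnit (NeZero.ne N)).unit
  have hu : (u : O) = ζ₀ := IsUnit.unit_spec _
  let ζ : Oˣ := u ^ i
  have hζ : ι (ζ : O) = (zetaC N : ℂ) := by
    show ι ((u ^ i : Oˣ) : O) = _
    rw [Units.val_pow_eq_pow_val, hu, map_pow, hi]
  obtain ⟨ν, hν⟩ := hN.exists_right_inv
  obtain ⟨P, hmonic, hdeg, hP⟩ := exists_isModPoly_of_embedding N ι hι ζ hζ ν hν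
  refine ⟨P, hmonic, hdeg, ?_, fun κ _ f => ?_, fun κ _ f => ?_⟩
  · have hζN : ζ ^ N = 1 := by
      apply Units.ext
      rw [Units.val_pow_eq_pow_val, Units.val_one]
      exact (isPrimitiveRoot_of_embedding N ι hι ζ hζ).pow_eq_one
    exact hP.root O (Hermite.rowSystem N) ζ ν hζN hν
  · exact hP.separable_map_of_embedding N ι hι ζ hζ ν hν f
  · exact IsModPoly.map_discrOf_ne_zero N ι hι ζ hζ ν hν hP hmonic f

end Modular

end Fermat.Agent.S30.ModDisc
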