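/-
Engine core for S30 ("Clifford lemma with complex conjugation").
Mathlib only.  Author: helper109.

Field-level statement: a finite-dimensional representation on which every group element satisfies a
quadratic relation `g² - a g + ε(g) = 0` (ε a character), in the presence of an involution `c` with
`ε(c) = -1`, has a stable subspace of dimension 1 or 2; in dimension 2 the characteristic
polynomial of every `g` is `X² - a X + ε(g)`.
-/
import Mathlib

set_option autoImplicit false

open Polynomial

namespace Fermat.Agent.S30.ConjClifford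

section Field

variable {K : Type*} [Field K] {G : Type*} [Group G]
  {W : Type*} [AddCommGroup W] [Module K W]

/-- `a` is an admissible "trace" of `g` on the subspace `N`:
`g² - a g + ε(g) = 0` on `N`. -/
def RelOn (ρ : G →* Module.End K W) (ε : G →* Kˣ) (N : Submodule K W) (g : G) (a : K) : Prop :=
  ∀ x ∈ N, ρ g (ρ g x) - a • ρ g x + (ε g : K) • x = 0

/-- `N` is stable under the action. -/
def Stable (ρ : G →* Module.End K W) (N : Submodule K W) : Prop :=
  ∀ g, ∀ x ∈ N, ρ g x ∈ N

variable {ρ : G →* Module.End K W} {ε : G →* Kˣ} {N : Submodule K W}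

lemma RelOn.mono {N' : Submodule K W} (h : N' ≤ N) {g : G} {a : K}
    (hr : RelOn ρ ε N g a) : RelOn ρ ε N' g a := fun x hx => hr x (h hx)

/-- The polarised relation: for an involution `c` with `ε c = -1`,
`h (c x) + c (h x) = d x + a (c x)` on `N`. -/
lemma polar (hst : Stable ρ N) {c : G} (hc : c * c = 1) (hεc : ε c = -1)
    {h : G} {a d : K} (ha : RelOn ρ ε N h a) (hd : RelOn ρ ε N (c * h) d)
    {x : W} (hx : x ∈ N) :
    ρ h (ρ c x) + ρ c (ρ h x) = d • x + a • ρ c x := by
  have hcc : ∀ y, ρ c (ρ c y) = y := fun y => by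
    have : (ρ c * ρ c) y = y := by rw [← map_mul, hc, map_one]; rfl
    exact this
  have he : (ε (c * h) : K) = - (ε h : K) := by
    rw [map_mul, hεc]; simp
  have he0 : (ε h : K) ≠ 0 := (ε h).ne_zero
  -- relation for `c * h` at a point `y ∈ N`: c h c h y = d c h y + e y
  have hD : ∀ y ∈ N, ρ c (ρ h (ρ c (ρ h y))) = d • ρ c (ρ h y) + (ε h : K) • y := by
    intro y hy
    have := hd y hy
    rw [he, map_mul] at this
    simp only [Module.End.mul_apply] at this
    have h2 : ρ c (ρ h (ρ c (ρ h y))) - d • ρ c (ρ h y) - (ε h : K) • y = 0 := by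
      rw [← this]; simp [neg_smul, sub_eq_add_neg]
    rw [sub_sub, sub_eq_zero] at h2
    exact h2
  -- apply c: h c h y = d h y + e c y
  have hD' : ∀ y ∈ N, ρ h (ρ c (ρ h y)) = d • ρ h y + (ε h : K) • ρ c y := by
    intro y hy
    have := congrArg (ρ c) (hD y hy)
    rw [hcc, map_add, map_smul, map_smul, hcc] at this
    exact this
  -- relation for h at y: h h y = a h y - e y
  have hH : ∀ y ∈ N, ρ h (ρ h y) = a • ρ h y - (ε h : K) • y := by
    intro y hy
    have := ha y hy
    rw [sub_add, sub_eq_zero] at this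
    exact this
  -- set z := a x - h x; then h z = e x
  have hz : ρ h (a • x - ρ h x) = (ε h : K) • x := by
    rw [map_sub, map_smul, hH x hx]; abel
  have hzN : a • x - ρ h x ∈ N := N.sub_mem (N.smul_mem _ hx) (hst h x hx)
  -- apply hD' to z
  have key := hD' (a • x - ρ h x) hzN
  rw [hz, map_smul, map_smul, map_sub, map_smul] at key
  -- key : e • h (c x) = d • e • x + e • (a • c x - c (h x))
  have : (ε h : K) • (ρ h (ρ c x) + ρ c (ρ h x)) = (ε h : K) • (d • x + a • ρ c x) := by
    rw [smul_add, key]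
    simp only [smul_add, smul_sub, smul_smul]
    rw [mul_comm d]
    abel
  exact smul_right_injective W he0 this


/-- The orbit span of a vector. -/
def orbitSpan (ρ : G →* Module.End K W) (v : W) : Submodule K W :=
  Submodule.span K (Set.range fun h : G => ρ h v)

lemma mem_orbitSpan_self (v : W) : v ∈ orbitSpan ρ v :=
  Submodule.subset_span ⟨1, by simp⟩

lemma orbitSpan_stable (v : W) : Stable ρ (orbitSpan ρ v) := by
  intro g x hx
  refine Submodule.span_induction (p := fun x _ => ρ g x ∈ orbitSpan ρ v) ?_ ?_ ?_ ?_ hx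
  · rintro _ ⟨h, rfl⟩
    refine Submodule.subset_span ⟨g * h, ?_⟩
    simp [map_mul]
  · simp
  · intro x y _ _ hx hy
    rw [map_add]; exact Submodule.add_mem _ hx hy
  · intro a x _ hx
    rw [map_smul]; exact Submodule.smul_mem _ _ hx

lemma orbitSpan_le {U : Submodule K W} (hU : Stable ρ U) {v : W} (hv : v ∈ U) :
    orbitSpan ρ v ≤ U := by
  refine Submodule.span_le.2 ?_
  rintro _ ⟨h, rfl⟩
  exact hU h v hv

/-- `U` is a minimal nonzero stable subspace. -/
structure IsMinimalStable (ρ : G →* Module.End K W) (U : Submodule K W) : Prop where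
  ne_bot : U ≠ ⊥
  stable : Stable ρ U
  minimal : ∀ U' : Submodule K W, U' ≠ ⊥ → Stable ρ U' → U' ≤ U → U' = U

lemma exists_minimalStable [FiniteDimensional K W] (hN : N ≠ ⊥) (hst : Stable ρ N) :
    ∃ U : Submodule K W, U ≤ N ∧ IsMinimalStable ρ U := by
  have wf : WellFounded ((· < ·) : Submodule K W → Submodule K W → Prop) := wellFounded_lt
  let S : Set (Submodule K W) := {U | U ≠ ⊥ ∧ Stable ρ U ∧ U ≤ N}
  have hS : S.Nonempty := ⟨N, hN, hst, le_rfl⟩
  obtain ⟨U, ⟨hU0, hUst, hUN⟩, hmin⟩ := wf.has_min S hS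
  refine ⟨U, hUN, hU0, hUst, ?_⟩
  intro U' hU'0 hU'st hU'U
  by_contra hne
  exact hmin U' ⟨hU'0, hU'st, hU'U.trans hUN⟩ (lt_of_le_of_ne hU'U hne)

lemma IsMinimalStable.orbitSpan_eq {U : Submodule K W} (hU : IsMinimalStable ρ U) {v : W}
    (hv : v ∈ U) (hv0 : v ≠ 0) : orbitSpan ρ v = U := by
  refine hU.minimal _ ?_ (orbitSpan_stable v) (orbitSpan_le hU.stable hv)
  intro h
  have := mem_orbitSpan_self (ρ := ρ) v
  rw [h, Submodule.mem_bot] at this
  exact hv0 this

/-- If `c v = v`, then `u + c u ∈ K v` for all `u ∈ U`. -/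
lemma plus_mem_span {U : Submodule K W} (hU : IsMinimalStable ρ U) (hUN : U ≤ N)
    (hst : Stable ρ N)
    (hrel : ∀ g, ∃ a : K, RelOn ρ ε N g a) {c : G} (hc : c * c = 1) (hεc : ε c = -1)
    {v : W} (hv : v ∈ U) (hv0 : v ≠ 0) (hcv : ρ c v = v) {u : W} (hu : u ∈ U) :
    u + ρ c u ∈ Submodule.span K {v} := by
  rw [← hU.orbitSpan_eq hv hv0] at hu
  refine Submodule.span_induction (p := fun u _ => u + ρ c u ∈ Submodule.span K {v}) ?_ ?_ ?_ ?_ hu
  · rintro _ ⟨h, rfl⟩
    obtain ⟨a, ha⟩ := hrel h
    obtain ⟨d, hd⟩ := hrel (c * h)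
    have := polar hst hc hεc ha hd (hUN hv)
    rw [hcv] at this
    rw [this, ← add_smul]
    exact Submodule.smul_mem _ _ (Submodule.mem_span_singleton_self v)
  · simp
  · intro x y _ _ hx hy
    have : x + y + ρ c (x + y) = (x + ρ c x) + (y + ρ c y) := by rw [map_add]; abel
    rw [this]; exact Submodule.add_mem _ hx hy
  · intro a x _ hx
    have : a • x + ρ c (a • x) = a • (x + ρ c x) := by rw [map_smul, smul_add]
    rw [this]; exact Submodule.smul_mem _ _ hx

/-- If `c w = -w`, then `u - c u ∈ K w` for all `u ∈ U`. -/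
lemma minus_mem_span {U : Submodule K W} (hU : IsMinimalStable ρ U) (hUN : U ≤ N)
    (hst : Stable ρ N)
    (hrel : ∀ g, ∃ a : K, RelOn ρ ε N g a) {c : G} (hc : c * c = 1) (hεc : ε c = -1)
    {w : W} (hw : w ∈ U) (hw0 : w ≠ 0) (hcw : ρ c w = -w) {u : W} (hu : u ∈ U) :
    u - ρ c u ∈ Submodule.span K {w} := by
  rw [← hU.orbitSpan_eq hw hw0] at hu
  refine Submodule.span_induction (p := fun u _ => u - ρ c u ∈ Submodule.span K {w}) ?_ ?_ ?_ ?_ hu
  · rintro _ ⟨h, rfl⟩
    obtain ⟨a, ha⟩ := hrel h
    obtain ⟨d, hd⟩ := hrel (c * h)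
    have := polar hst hc hεc ha hd (hUN hw)
    rw [hcw, map_neg, smul_neg] at this
    -- this : -h w + c (h w) = d w - a w
    have e : ρ h w - ρ c (ρ h w) = (a - d) • w := by
      rw [sub_smul]
      have h2 : ρ c (ρ h w) = d • w + -(a • w) + ρ h w := by rw [← this]; abel
      rw [h2]; abel
    rw [e]
    exact Submodule.smul_mem _ _ (Submodule.mem_span_singleton_self w)
  · simp
  · intro x y _ _ hx hy
    have : x + y - ρ c (x + y) = (x - ρ c x) + (y - ρ c y) := by rw [map_add]; abel
    rw [this]; exact Submodule.add_mem _ hx hy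
  · intro a x _ hx
    have : a • x - ρ c (a • x) = a • (x - ρ c x) := by rw [map_smul, smul_sub]
    rw [this]; exact Submodule.smul_mem _ _ hx


/-- The restricted action on a stable subspace. -/
def restr (ρ : G →* Module.End K W) {U : Submodule K W} (hU : Stable ρ U) (g : G) :
    Module.End K U :=
  (ρ g).restrict (hU g)

@[simp] lemma restr_apply {U : Submodule K W} (hU : Stable ρ U) (g : G) (u : U) :
    ((restr ρ hU g) u : W) = ρ g (u : W) := rfl

/-- Structure of a minimal stable subspace: it is a line, or it has a basis of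
eigenvectors of `c` for the eigenvalues `1` and `-1`. -/
lemma line_or_eigenbasis (h2 : (2 : K) ≠ 0) {U : Submodule K W} (hU : IsMinimalStable ρ U)
    (hUN : U ≤ N) (hst : Stable ρ N)
    (hrel : ∀ g, ∃ a : K, RelOn ρ ε N g a) {c : G} (hc : c * c = 1) (hεc : ε c = -1) :
    Module.finrank K U = 1 ∨
      ∃ b : Module.Basis (Fin 2) K U, ρ c (b 0 : W) = (b 0 : W) ∧ ρ c (b 1 : W) = -(b 1 : W) := by
  have hcc : ∀ y, ρ c (ρ c y) = y := fun y => by
    have : (ρ c * ρ c) y = y := by rw [← map_mul, hc, map_one]; rfl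
    exact this
  have half : ∀ u : W, u = (2 : K)⁻¹ • ((u + ρ c u) + (u - ρ c u)) := by
    intro u
    have : (u + ρ c u) + (u - ρ c u) = (2 : K) • u := by rw [two_smul]; abel
    rw [this, smul_smul, inv_mul_cancel₀ h2, one_smul]
  by_cases hm : ∀ u ∈ U, ρ c u = -u
  · -- c = -1 on U
    left
    obtain ⟨w, hw, hw0⟩ := Submodule.exists_mem_ne_zero_of_ne_bot hU.ne_bot
    have hle : U ≤ Submodule.span K {w} := by
      intro u hu
      have h1 := minus_mem_span hU hUN hst hrel hc hεc hw hw0 (hm w hw) hu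
      rw [hm u hu, sub_neg_eq_add, ← two_smul K u] at h1
      have : u = (2 : K)⁻¹ • ((2 : K) • u) := by rw [smul_smul, inv_mul_cancel₀ h2, one_smul]
      rw [this]; exact Submodule.smul_mem _ _ h1
    have heq : U = Submodule.span K {w} :=
      le_antisymm hle ((Submodule.span_singleton_le_iff_mem w U).2 hw)
    rw [heq]; exact finrank_span_singleton hw0
  by_cases hp : ∀ u ∈ U, ρ c u = u
  · -- c = 1 on U
    left
    obtain ⟨v, hv, hv0⟩ := Submodule.exists_mem_ne_zero_of_ne_bot hU.ne_bot
    have hle : U ≤ Submodule.span K {v} := by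
      intro u hu
      have h1 := plus_mem_span hU hUN hst hrel hc hεc hv hv0 (hp v hv) hu
      rw [hp u hu, ← two_smul K u] at h1
      have : u = (2 : K)⁻¹ • ((2 : K) • u) := by rw [smul_smul, inv_mul_cancel₀ h2, one_smul]
      rw [this]; exact Submodule.smul_mem _ _ h1
    have heq : U = Submodule.span K {v} :=
      le_antisymm hle ((Submodule.span_singleton_le_iff_mem v U).2 hv)
    rw [heq]; exact finrank_span_singleton hv0
  -- both eigenvalues occur
  right
  push Not at hm hp
  obtain ⟨u1, hu1, hu1'⟩ := hm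
  obtain ⟨u2, hu2, hu2'⟩ := hp
  set v : W := u1 + ρ c u1 with hvdef
  set w : W := u2 - ρ c u2 with hwdef
  have hv : v ∈ U := U.add_mem hu1 (hU.stable c u1 hu1)
  have hw : w ∈ U := U.sub_mem hu2 (hU.stable c u2 hu2)
  have hv0 : v ≠ 0 := by
    intro h
    apply hu1'
    rw [hvdef] at h
    exact eq_neg_of_add_eq_zero_right h
  have hw0 : w ≠ 0 := by
    intro h
    apply hu2'
    rw [hwdef, sub_eq_zero] at h
    exact h.symm
  have hcv : ρ c v = v := by rw [hvdef, map_add, hcc]; abel
  have hcw : ρ c w = -w := by rw [hwdef, map_sub, hcc]; abel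
  have hli : LinearIndependent K ![(⟨v, hv⟩ : U), ⟨w, hw⟩] := by
    rw [LinearIndependent.pair_iff]
    intro s t hst'
    have h0 : s • v + t • w = 0 := by
      have := congrArg (Subtype.val) hst'
      simpa using this
    have h1 : s • v - t • w = 0 := by
      have := congrArg (ρ c) h0
      rw [map_add, map_smul, map_smul, hcv, hcw, map_zero, smul_neg] at this
      rw [sub_eq_add_neg]; exact this
    have hs : (2 * s) • v = 0 := by
      have : (2 * s) • v = (s • v + t • w) + (s • v - t • w) := by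
        rw [mul_smul, two_smul]; abel
      rw [this, h0, h1, add_zero]
    have ht : (2 * t) • w = 0 := by
      have : (2 * t) • w = (s • v + t • w) - (s • v - t • w) := by
        rw [mul_smul, two_smul]; abel
      rw [this, h0, h1, sub_zero]
    have hs' : s = 0 := by
      rcases smul_eq_zero.1 hs with h | h
      · exact (mul_eq_zero.1 h).resolve_left h2
      · exact absurd h hv0
    have ht' : t = 0 := by
      rcases smul_eq_zero.1 ht with h | h
      · exact (mul_eq_zero.1 h).resolve_left h2
      · exact absurd h hw0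
    exact ⟨hs', ht'⟩
  have hsp : ⊤ ≤ Submodule.span K (Set.range ![(⟨v, hv⟩ : U), ⟨w, hw⟩]) := by
    rintro ⟨u, hu⟩ -
    have h1 := plus_mem_span hU hUN hst hrel hc hεc hv hv0 hcv hu
    have h2' := minus_mem_span hU hUN hst hrel hc hεc hw hw0 hcw hu
    obtain ⟨s, hs⟩ := Submodule.mem_span_singleton.1 h1
    obtain ⟨t, ht⟩ := Submodule.mem_span_singleton.1 h2'
    have hu' : (⟨u, hu⟩ : U) = ((2 : K)⁻¹ * s) • (⟨v, hv⟩ : U) + ((2 : K)⁻¹ * t) • (⟨w, hw⟩ : U) := by
      apply Subtype.ext
      simp only [Submodule.coe_add, Submodule.coe_smul]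
      rw [mul_smul, mul_smul, hs, ht, ← smul_add]
      exact half u
    rw [hu']
    refine Submodule.add_mem _ (Submodule.smul_mem _ _ (Submodule.subset_span ⟨0, rfl⟩))
      (Submodule.smul_mem _ _ (Submodule.subset_span ⟨1, rfl⟩))
  refine ⟨Module.Basis.mk hli hsp, ?_, ?_⟩
  · rw [Module.Basis.mk_apply]; exact hcv
  · rw [Module.Basis.mk_apply]; exact hcw


/-- In the eigenbasis case, the characteristic polynomial of every `g` on `U` is
`X² - a X + ε(g)` for every admissible `a`. -/
lemma charpoly_of_eigenbasis [FiniteDimensional K W] (h2 : (2 : K) ≠ 0)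
    {U : Submodule K W} (hUst : Stable ρ U)
    (hUN : U ≤ N) (hst : Stable ρ N)
    (hrel : ∀ g, ∃ a : K, RelOn ρ ε N g a) {c : G} (hc : c * c = 1) (hεc : ε c = -1)
    (b : Module.Basis (Fin 2) K U) (hb0 : ρ c (b 0 : W) = (b 0 : W))
    (hb1 : ρ c (b 1 : W) = -(b 1 : W)) {g : G} {a : K} (ha : RelOn ρ ε N g a) :
    LinearMap.charpoly (restr ρ hUst g) = X ^ 2 - C a * X + C (ε g : K) := by
  have hcc : ∀ y, ρ c (ρ c y) = y := fun y => by
    have : (ρ c * ρ c) y = y := by rw [← map_mul, hc, map_one]; rfl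
    exact this
  obtain ⟨d, hd⟩ := hrel (c * g)
  set A : Module.End K U := restr ρ hUst g with hA
  set Cc : Module.End K U := restr ρ hUst c with hCc
  have hCC : Cc * Cc = 1 := by
    apply LinearMap.ext; intro u; apply Subtype.ext
    simp [hCc, hcc]
  -- operator identity on U
  have hop : A + Cc * A * Cc = d • Cc + a • (1 : Module.End K U) := by
    apply LinearMap.ext; intro u; apply Subtype.ext
    have hu : ρ c (u : W) ∈ N := hUN (hUst c u u.2)
    have := polar hst hc hεc ha hd hu
    rw [hcc] at this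
    simp only [LinearMap.add_apply, Module.End.mul_apply, LinearMap.smul_apply,
      Module.End.one_apply, Submodule.coe_add, Submodule.coe_smul, hA, hCc, restr_apply]
    exact this
  -- trace of Cc is zero
  have htrC : LinearMap.trace K U Cc = 0 := by
    rw [LinearMap.trace_eq_matrix_trace K b, Matrix.trace_fin_two,
      LinearMap.toMatrix_apply, LinearMap.toMatrix_apply]
    have e0 : Cc (b 0) = b 0 := Subtype.ext (by simp [hCc, hb0])
    have e1 : Cc (b 1) = -b 1 := Subtype.ext (by simp [hCc, hb1])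
    rw [e0, e1, map_neg]
    simp
  have hfin : Module.finrank K U = 2 := by
    rw [Module.finrank_eq_card_basis b]; simp
  have htr : LinearMap.trace K U A = a := by
    have h1 := congrArg (LinearMap.trace K U) hop
    rw [map_add, map_add, map_smul, map_smul, htrC, LinearMap.trace_one, hfin,
      LinearMap.trace_mul_comm, ← mul_assoc, hCC, one_mul] at h1
    have h3 : (2 : K) * LinearMap.trace K U A = 2 * a := by
      have : LinearMap.trace K U A + LinearMap.trace K U A = a * 2 := by
        simpa using h1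
      rw [two_mul, this, mul_comm]
    exact mul_left_cancel₀ h2 h3
  have hchar : LinearMap.charpoly A
      = X ^ 2 - C (LinearMap.trace K U A) * X + C (LinearMap.det A) := by
    rw [← LinearMap.charpoly_toMatrix A b, Matrix.charpoly_fin_two,
      ← LinearMap.trace_eq_matrix_trace K b, LinearMap.det_toMatrix]
  -- Cayley–Hamilton
  have hCH := LinearMap.aeval_self_charpoly A
  rw [hchar, htr] at hCH
  have hCH' : A * A - a • A + (LinearMap.det A) • (1 : Module.End K U) = 0 := by
    have : (aeval A) (X ^ 2 - C a * X + C (LinearMap.det A) : K[X])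
        = A * A - a • A + (LinearMap.det A) • (1 : Module.End K U) := by
      simp [pow_two, Algebra.smul_def]
    rw [← this]; exact hCH
  have hrelU : A * A - a • A + (ε g : K) • (1 : Module.End K U) = 0 := by
    apply LinearMap.ext; intro u; apply Subtype.ext
    have := ha (u : W) (hUN u.2)
    simp only [LinearMap.add_apply, LinearMap.sub_apply, Module.End.mul_apply,
      LinearMap.smul_apply, Module.End.one_apply, Submodule.coe_add, Submodule.coe_sub,
      Submodule.coe_smul, hA, restr_apply, LinearMap.zero_apply, Submodule.coe_zero]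
    exact this
  have hdet : LinearMap.det A = (ε g : K) := by
    have h3 : (LinearMap.det A) • (1 : Module.End K U) = (ε g : K) • (1 : Module.End K U) :=
      add_left_cancel (hCH'.trans hrelU.symm)
    have h4 := congrArg (fun f : Module.End K U => f (b 0)) h3
    simp only [LinearMap.smul_apply, Module.End.one_apply] at h4
    exact smul_left_injective K (b.ne_zero 0) h4
  rw [hchar, htr, hdet]

/-- **Field-level core.** -/
theorem exists_stable_dim_le_two [FiniteDimensional K W] (h2 : (2 : K) ≠ 0) (hN : N ≠ ⊥)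
    (hst : Stable ρ N) (hrel : ∀ g, ∃ a : K, RelOn ρ ε N g a)
    {c : G} (hc : c * c = 1) (hεc : ε c = -1) :
    ∃ (U : Submodule K W) (_ : U ≤ N) (hU : Stable ρ U),
      Module.finrank K U = 1 ∨
      (Module.finrank K U = 2 ∧ ∀ g a, RelOn ρ ε N g a →
        LinearMap.charpoly (restr ρ hU g) = X ^ 2 - C a * X + C (ε g : K)) := by
  obtain ⟨U, hUN, hU⟩ := exists_minimalStable hN hst
  refine ⟨U, hUN, hU.stable, ?_⟩
  rcases line_or_eigenbasis h2 hU hUN hst hrel hc hεc with h | ⟨b, hb0, hb1⟩
  · exact Or.inl h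
  · refine Or.inr ⟨?_, ?_⟩
    · rw [Module.finrank_eq_card_basis b]; simp
    · intro g a ha
      exact charpoly_of_eigenbasis h2 hU.stable hUN hst hrel hc hεc b hb0 hb1 ha

end Field

end Fermat.Agent.S30.ConjClifford
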