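/-
Engine core for S30, lattice form ("Clifford lemma with complex conjugation", integral version).
Mathlib + Fermat.Agent.S30.ConjClifford.  Author: helper109.
-/
import Fermat.Agent.S30.ConjClifford

set_option autoImplicit false
set_option linter.unusedSectionVars false

open Polynomial TensorProduct

namespace Fermat.Agent.S30.ConjClifford

section Lattice

variable {O : Type} [CommRing O] [IsDomain O]
  {K : Type} [Field K] [Algebra O K] [IsFractionRing O K]
  {G : Type} [Group G] {M : Type} [AddCommGroup M] [Module O M]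

/-- The base-changed action on `Frac O ⊗ M`. -/
noncomputable def rhoK (K : Type) [Field K] [Algebra O K] (ρ : G →* Module.End O M) :
    G →* Module.End K (K ⊗[O] M) where
  toFun g := (ρ g).baseChange K
  map_one' := by
    rw [map_one]
    exact LinearMap.baseChange_id
  map_mul' g h := by
    rw [map_mul]
    exact LinearMap.baseChange_comp (ρ h) (ρ g)

/-- The canonical map `M → Frac O ⊗ M`. -/
noncomputable def iota (O : Type) [CommRing O] (K : Type) [Field K] [Algebra O K]
    (M : Type) [AddCommGroup M] [Module O M] : M →ₗ[O] K ⊗[O] M :=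
  TensorProduct.mk O K M 1

lemma iota_apply (m : M) : iota O K M m = (1 : K) ⊗ₜ[O] m := rfl

lemma rhoK_iota (ρ : G →* Module.End O M) (g : G) (m : M) :
    rhoK K ρ g (iota O K M m) = iota O K M (ρ g m) := by
  simp [rhoK, iota_apply]

lemma iota_smul (a : O) (m : M) :
    iota O K M (a • m) = (algebraMap O K a) • iota O K M m := by
  rw [map_smul, algebraMap_smul]

lemma iota_injective [Module.Free O M] : Function.Injective (iota O K M) := by
  have h1 : Function.Injective (LinearMap.rTensor M (Algebra.linearMap O K)) :=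
    Module.Flat.rTensor_preserves_injective_linearMap _ (IsFractionRing.injective O K)
  intro m m' h
  apply (TensorProduct.lid O M).symm.injective
  apply h1
  simpa [iota_apply] using h

/-- Clearing denominators. -/
lemma exists_smul_eq_iota (x : K ⊗[O] M) :
    ∃ (s : O) (m : M), s ≠ 0 ∧ (algebraMap O K s) • x = iota O K M m := by
  induction x using TensorProduct.induction_on with
  | zero => exact ⟨1, 0, one_ne_zero, by simp⟩
  | tmul k m =>
    obtain ⟨⟨a, s⟩, hs⟩ := IsLocalization.surj (nonZeroDivisors O) k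
    refine ⟨s, a • m, nonZeroDivisors.ne_zero s.2, ?_⟩
    rw [iota_smul, iota_apply, TensorProduct.smul_tmul', TensorProduct.smul_tmul', smul_eq_mul,
      smul_eq_mul, mul_one, mul_comm]
    exact congrArg (· ⊗ₜ[O] m) hs
  | add x y hx hy =>
    obtain ⟨s, m, hs, h1⟩ := hx
    obtain ⟨t, n, ht, h2⟩ := hy
    refine ⟨s * t, t • m + s • n, mul_ne_zero hs ht, ?_⟩
    rw [map_add, iota_smul, iota_smul, ← h1, ← h2, smul_add, map_mul, smul_smul, smul_smul,
      mul_comm (algebraMap O K t)]


/-- The `Frac O`-span of a submodule of `M`. -/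
noncomputable def spanK (K : Type) [Field K] [Algebra O K] (N : Submodule O M) :
    Submodule K (K ⊗[O] M) :=
  Submodule.span K (iota O K M '' (N : Set M))

/-- The character `ε` with values in `Frac O`. -/
noncomputable def epsK (K : Type) [Field K] [Algebra O K] (ε : G →* Oˣ) : G →* Kˣ :=
  (Units.map (algebraMap O K).toMonoidHom).comp ε

@[simp] lemma epsK_apply (ε : G →* Oˣ) (g : G) :
    ((epsK K ε g : Kˣ) : K) = algebraMap O (K) (ε g : O) :=
  rfl

lemma spanK_ne_bot [Module.Free O M] {N : Submodule O M} (hN : N ≠ ⊥) : spanK K N ≠ ⊥ := by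
  obtain ⟨n, hn, hn0⟩ := Submodule.exists_mem_ne_zero_of_ne_bot hN
  intro h
  have h1 : iota O K M n ∈ spanK K N := Submodule.subset_span ⟨n, hn, rfl⟩
  rw [h, Submodule.mem_bot] at h1
  exact hn0 (iota_injective (by rw [h1, map_zero]))

lemma spanK_stable {ρ : G →* Module.End O M} {N : Submodule O M}
    (hst : ∀ g, ∀ m ∈ N, ρ g m ∈ N) : Stable (rhoK K ρ) (spanK K N) := by
  intro g x hx
  refine Submodule.span_induction (p := fun x _ => rhoK K ρ g x ∈ spanK K N) ?_ ?_ ?_ ?_ hx
  · rintro _ ⟨n, hn, rfl⟩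
    rw [rhoK_iota]
    exact Submodule.subset_span ⟨_, hst g n hn, rfl⟩
  · simp
  · intro x y _ _ hx hy
    rw [map_add]; exact Submodule.add_mem _ hx hy
  · intro a x _ hx
    rw [map_smul]; exact Submodule.smul_mem _ _ hx

lemma spanK_relOn {ρ : G →* Module.End O M} {N : Submodule O M} {ε : G →* Oˣ} {g : G} {a : O}
    (ha : ∀ m ∈ N, ρ g (ρ g m) - a • ρ g m + (ε g : O) • m = 0) :
    RelOn (rhoK K ρ) (epsK K ε) (spanK K N) g (algebraMap O K a) := by
  intro x hx
  refine Submodule.span_induction
    (p := fun x _ => rhoK K ρ g (rhoK K ρ g x) - (algebraMap O K a) • rhoK K ρ g x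
      + ((epsK K ε g : Kˣ) : K) • x = 0) ?_ ?_ ?_ ?_ hx
  · rintro _ ⟨n, hn, rfl⟩
    rw [rhoK_iota, rhoK_iota, epsK_apply, ← iota_smul, ← iota_smul, ← map_sub, ← map_add,
      ha n hn, map_zero]
  · simp
  · intro x y _ _ hx hy
    have : rhoK K ρ g (rhoK K ρ g (x + y)) - (algebraMap O K a) • rhoK K ρ g (x + y)
        + ((epsK K ε g : Kˣ) : K) • (x + y)
        = (rhoK K ρ g (rhoK K ρ g x) - (algebraMap O K a) • rhoK K ρ g x
            + ((epsK K ε g : Kˣ) : K) • x)
          + (rhoK K ρ g (rhoK K ρ g y) - (algebraMap O K a) • rhoK K ρ g y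
            + ((epsK K ε g : Kˣ) : K) • y) := by
      simp only [map_add, smul_add]; abel
    rw [this, hx, hy, add_zero]
  · intro b x _ hx
    have : rhoK K ρ g (rhoK K ρ g (b • x)) - (algebraMap O K a) • rhoK K ρ g (b • x)
        + ((epsK K ε g : Kˣ) : K) • (b • x)
        = b • (rhoK K ρ g (rhoK K ρ g x) - (algebraMap O K a) • rhoK K ρ g x
            + ((epsK K ε g : Kˣ) : K) • x) := by
      simp only [map_smul, smul_add, smul_sub]
      rw [smul_comm b (algebraMap O K a), smul_comm b]
    rw [this, hx, smul_zero]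

/-- The lattice of a subspace: `V = {m : ι m ∈ U}`. -/
noncomputable def lattice (U : Submodule (K) (K ⊗[O] M)) :
    Submodule O M :=
  (U.restrictScalars O).comap (iota O K M)

lemma mem_lattice {U : Submodule (K) (K ⊗[O] M)} {m : M} :
    m ∈ lattice U ↔ iota O K M m ∈ U := Iff.rfl

lemma lattice_stable {ρ : G →* Module.End O M}
    {U : Submodule (K) (K ⊗[O] M)} (hU : Stable (rhoK K ρ) U)
    (g : G) : ∀ m ∈ lattice U, ρ g m ∈ lattice U := by
  intro m hm
  rw [mem_lattice, ← rhoK_iota]
  exact hU g _ hm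

/-- The lattice is saturated. -/
lemma lattice_saturated {U : Submodule (K) (K ⊗[O] M)} {d : O}
    (hd : d ≠ 0) {m : M} (h : d • m ∈ lattice U) : m ∈ lattice U := by
  rw [mem_lattice, iota_smul] at h
  rw [mem_lattice]
  have hd' : algebraMap O (K) d ≠ 0 := by
    intro h0
    exact hd ((IsFractionRing.injective O K) (by rw [h0, map_zero]))
  have := U.smul_mem (algebraMap O K d)⁻¹ h
  rwa [smul_smul, inv_mul_cancel₀ hd', one_smul] at this


section Basis

variable [Module.Free O M]

/-- The vectors of `U` coming from a family in the lattice. -/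
noncomputable def liftFam (U : Submodule (K) (K ⊗[O] M)) {n : ℕ}
    (b : Fin n → lattice U) : Fin n → U :=
  fun i => ⟨iota O K M (b i : M), (b i).2⟩

lemma liftFam_coe (U : Submodule (K) (K ⊗[O] M)) {n : ℕ}
    (b : Fin n → lattice U) (i : Fin n) :
    ((liftFam U b i : U) : K ⊗[O] M) = iota O K M (b i : M) := rfl

lemma liftFam_linearIndependent (U : Submodule (K) (K ⊗[O] M)) {n : ℕ}
    (b : Module.Basis (Fin n) O (lattice U)) :
    LinearIndependent (K) (liftFam U b) := by
  have h1 : LinearIndependent O (fun i => ((b i : lattice U) : M)) :=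
    b.linearIndependent.map' (lattice U).subtype (Submodule.ker_subtype _)
  have h2 : LinearIndependent O (fun i => iota O K M ((b i : lattice U) : M)) :=
    h1.map' (iota O K M) (LinearMap.ker_eq_bot.2 iota_injective)
  have h3 : LinearIndependent (K) (fun i => iota O K M ((b i : lattice U) : M)) :=
    (LinearIndependent.iff_fractionRing O K).1 h2
  exact LinearIndependent.of_comp U.subtype h3

lemma liftFam_span (U : Submodule (K) (K ⊗[O] M)) {n : ℕ}
    (b : Module.Basis (Fin n) O (lattice U)) :
    ⊤ ≤ Submodule.span (K) (Set.range (liftFam U b)) := by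
  rintro u -
  obtain ⟨s, m, hs, hsm⟩ := exists_smul_eq_iota (u : K ⊗[O] M)
  have hs' : algebraMap O (K) s ≠ 0 := by
    intro h0
    exact hs ((IsFractionRing.injective O K) (by rw [h0, map_zero]))
  have hm : m ∈ lattice U := by
    rw [mem_lattice, ← hsm]; exact U.smul_mem _ u.2
  have hsum : (algebraMap O K s) • u
      = ∑ i, (algebraMap O K (b.repr ⟨m, hm⟩ i)) • liftFam U b i := by
    apply Subtype.ext
    rw [Submodule.coe_smul, hsm, Submodule.coe_sum]
    simp only [Submodule.coe_smul, liftFam_coe]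
    have h1 : m = ∑ i, (b.repr ⟨m, hm⟩ i) • ((b i : lattice U) : M) := by
      have := congrArg (Subtype.val) (b.sum_repr ⟨m, hm⟩)
      rw [Submodule.coe_sum] at this
      simpa using this.symm
    conv_lhs => rw [h1]
    rw [map_sum]
    exact Finset.sum_congr rfl fun i _ => iota_smul _ _
  have hu : u = (algebraMap O K s)⁻¹ •
      ∑ i, (algebraMap O K (b.repr ⟨m, hm⟩ i)) • liftFam U b i := by
    rw [← hsum, smul_smul, inv_mul_cancel₀ hs', one_smul]
  rw [hu]
  refine Submodule.smul_mem _ _ (Submodule.sum_mem _ fun i _ => ?_)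
  exact Submodule.smul_mem _ _ (Submodule.subset_span ⟨i, rfl⟩)

/-- The `Frac O`-basis of `U` given by an `O`-basis of its lattice. -/
noncomputable def basisK (U : Submodule (K) (K ⊗[O] M)) {n : ℕ}
    (b : Module.Basis (Fin n) O (lattice U)) : Module.Basis (Fin n) (K) U :=
  Module.Basis.mk (liftFam_linearIndependent U b) (liftFam_span U b)

lemma basisK_apply (U : Submodule (K) (K ⊗[O] M)) {n : ℕ}
    (b : Module.Basis (Fin n) O (lattice U)) (i : Fin n) :
    ((basisK U b i : U) : K ⊗[O] M) = iota O K M (b i : M) := by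
  rw [basisK, Module.Basis.mk_apply]; rfl

/-- The restricted action on the lattice. -/
noncomputable def latRestr (ρ : G →* Module.End O M)
    {U : Submodule (K) (K ⊗[O] M)} (hU : Stable (rhoK K ρ) U) :
    G →* Module.End O (lattice U) where
  toFun g := (ρ g).restrict (lattice_stable hU g)
  map_one' := by
    apply LinearMap.ext; intro v; apply Subtype.ext
    simp
  map_mul' g h := by
    apply LinearMap.ext; intro v; apply Subtype.ext
    simp [map_mul]

@[simp] lemma latRestr_apply (ρ : G →* Module.End O M)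
    {U : Submodule (K) (K ⊗[O] M)} (hU : Stable (rhoK K ρ) U)
    (g : G) (v : lattice U) : ((latRestr ρ hU g v : lattice U) : M) = ρ g (v : M) := rfl

lemma toMatrix_basisK (ρ : G →* Module.End O M)
    {U : Submodule (K) (K ⊗[O] M)} (hU : Stable (rhoK K ρ) U) {n : ℕ}
    (b : Module.Basis (Fin n) O (lattice U)) (g : G) :
    LinearMap.toMatrix (basisK U b) (basisK U b) (restr (rhoK K ρ) hU g)
      = (LinearMap.toMatrix b b (latRestr ρ hU g)).map (algebraMap O K) := by
  ext i j
  rw [LinearMap.toMatrix_apply, Matrix.map_apply]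
  have key : restr (rhoK K ρ) hU g (basisK U b j)
      = ∑ i, (algebraMap O K (LinearMap.toMatrix b b (latRestr ρ hU g) i j))
          • basisK U b i := by
    apply Subtype.ext
    rw [restr_apply, basisK_apply, rhoK_iota, Submodule.coe_sum]
    simp only [Submodule.coe_smul, basisK_apply]
    have h1 : ρ g ((b j : lattice U) : M)
        = ∑ i, (LinearMap.toMatrix b b (latRestr ρ hU g) i j) • ((b i : lattice U) : M) := by
      have := congrArg (Subtype.val) (b.sum_repr (latRestr ρ hU g (b j)))
      rw [Submodule.coe_sum] at this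
      simp only [Submodule.coe_smul, latRestr_apply] at this
      rw [← this]
      exact Finset.sum_congr rfl fun i _ => by rw [LinearMap.toMatrix_apply]
    rw [h1, map_sum]
    exact Finset.sum_congr rfl fun i _ => iota_smul _ _
  rw [key, Module.Basis.repr_sum_self]

end Basis


section Main

variable [IsPrincipalIdealRing O] [Module.Free O M] [Module.Finite O M]

local instance instFreeSubK (U : Submodule K (K ⊗[O] M)) : Module.Free K U :=
  @Module.Free.of_divisionRing K U _ _ _

lemma finrank_lattice (U : Submodule (K) (K ⊗[O] M)) :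
    Module.finrank O (lattice U) = Module.finrank (K) U := by
  have := Module.finrank_eq_card_basis (basisK U (Module.finBasis O (lattice U)))
  rw [this]; simp

lemma charpoly_lattice (ρ : G →* Module.End O M)
    {U : Submodule (K) (K ⊗[O] M)} (hU : Stable (rhoK K ρ) U) (g : G) :
    LinearMap.charpoly (M := U) (restr (rhoK K ρ) hU g)
      = (LinearMap.charpoly (latRestr ρ hU g)).map (algebraMap O K) := by
  rw [← LinearMap.charpoly_toMatrix _ (basisK U (Module.finBasis O (lattice U))),
    toMatrix_basisK, Matrix.charpoly_map, LinearMap.charpoly_toMatrix]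

/-- Relations on `N` hold on the lattice of any subspace of `spanK K N`. -/
lemma rel_on_lattice {ρ : G →* Module.End O M} {N : Submodule O M} {ε : G →* Oˣ}
    {U : Submodule (K) (K ⊗[O] M)} (hUN : U ≤ spanK K N) {g : G} {a : O}
    (ha : ∀ m ∈ N, ρ g (ρ g m) - a • ρ g m + (ε g : O) • m = 0) {v : M} (hv : v ∈ lattice U) :
    ρ g (ρ g v) - a • ρ g v + (ε g : O) • v = 0 := by
  have h := spanK_relOn (ρ := ρ) (ε := ε) ha (iota O K M v) (hUN hv)
  rw [rhoK_iota, rhoK_iota, epsK_apply, ← iota_smul, ← iota_smul, ← map_sub, ← map_add] at h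
  exact iota_injective (by rw [h, map_zero])

/-- Congruences pass to the (saturated) lattice. -/
lemma lattice_congr (ρ : G →* Module.End O M)
    {U : Submodule (K) (K ⊗[O] M)} (hU : Stable (rhoK K ρ) U)
    (g : G) (I : Ideal O) (hI : ∀ m : M, ρ g m - m ∈ I • (⊤ : Submodule O M)) (v : lattice U) :
    latRestr ρ hU g v - v ∈ I • (⊤ : Submodule O (lattice U)) := by
  obtain ⟨d, rfl⟩ := (IsPrincipalIdealRing.principal I).principal
  have h1 := hI (v : M)
  change _ ∈ (Ideal.span {d}) • (⊤ : Submodule O M) at h1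
  change _ ∈ (Ideal.span {d}) • (⊤ : Submodule O (lattice U))
  rw [Submodule.ideal_span_singleton_smul, Submodule.mem_smul_pointwise_iff_exists] at h1 ⊢
  obtain ⟨m', -, hm'⟩ := h1
  by_cases hd : d = 0
  · refine ⟨0, Submodule.mem_top, ?_⟩
    apply Subtype.ext
    rw [smul_zero, Submodule.coe_zero, Submodule.coe_sub, latRestr_apply, ← hm', hd, zero_smul]
  · have hmem : d • m' ∈ lattice U := by
      rw [hm']; exact (lattice U).sub_mem (lattice_stable hU g _ v.2) v.2
    refine ⟨⟨m', lattice_saturated hd hmem⟩, Submodule.mem_top, ?_⟩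
    apply Subtype.ext
    rw [Submodule.coe_smul, Submodule.coe_sub, latRestr_apply]
    exact hm'


/-- A diagonal two-dimensional representation. -/
noncomputable def diagRep (ψ₁ ψ₂ : G →* O) : G →* Module.End O (Fin 2 → O) where
  toFun g := Matrix.toLin' (Matrix.diagonal ![ψ₁ g, ψ₂ g])
  map_one' := by
    have : (![ψ₁ 1, ψ₂ 1] : Fin 2 → O) = fun _ => 1 := by
      ext i; fin_cases i <;> simp
    rw [this, Matrix.diagonal_one, Matrix.toLin'_one]; rfl
  map_mul' g h := by
    have : (![ψ₁ (g * h), ψ₂ (g * h)] : Fin 2 → O)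
        = fun i => ![ψ₁ g, ψ₂ g] i * ![ψ₁ h, ψ₂ h] i := by
      ext i; fin_cases i <;> simp
    rw [this, ← Matrix.diagonal_mul_diagonal, Matrix.toLin'_mul]; rfl

lemma diagRep_charpoly (ψ₁ ψ₂ : G →* O) (g : G) :
    LinearMap.charpoly (diagRep ψ₁ ψ₂ g)
      = X ^ 2 - C (ψ₁ g + ψ₂ g) * X + C (ψ₁ g * ψ₂ g) := by
  change LinearMap.charpoly (Matrix.toLin' (Matrix.diagonal ![ψ₁ g, ψ₂ g])) = _
  rw [Matrix.charpoly_toLin', Matrix.charpoly_fin_two, Matrix.trace_diagonal, Matrix.det_diagonal,
    Fin.sum_univ_two, Fin.prod_univ_two]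
  simp

lemma diagRep_congr (ψ₁ ψ₂ : G →* O) (g : G) (d : O) (h1 : ψ₁ g - 1 ∈ Ideal.span {d})
    (h2 : ψ₂ g - 1 ∈ Ideal.span {d}) (x : Fin 2 → O) :
    diagRep ψ₁ ψ₂ g x - x ∈ (Ideal.span {d}) • (⊤ : Submodule O (Fin 2 → O)) := by
  rw [Submodule.ideal_span_singleton_smul, Submodule.mem_smul_pointwise_iff_exists]
  obtain ⟨r1, hr1⟩ := Ideal.mem_span_singleton'.1 h1
  obtain ⟨r2, hr2⟩ := Ideal.mem_span_singleton'.1 h2
  refine ⟨![r1 * x 0, r2 * x 1], Submodule.mem_top, ?_⟩
  have hx : diagRep ψ₁ ψ₂ g x = fun i => ![ψ₁ g, ψ₂ g] i * x i := by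
    change Matrix.toLin' (Matrix.diagonal ![ψ₁ g, ψ₂ g]) x = _
    rw [Matrix.toLin'_apply]
    ext i
    rw [Matrix.mulVec_diagonal]
  rw [hx]
  ext i
  fin_cases i
  · simp only [Fin.zero_eta, Pi.smul_apply, Matrix.cons_val_zero, smul_eq_mul, Pi.sub_apply]
    rw [← mul_assoc, mul_comm d, hr1]; ring
  · simp only [Fin.mk_one, Pi.smul_apply, Matrix.cons_val_one, Matrix.cons_val_fin_one,
      smul_eq_mul, Pi.sub_apply]
    rw [← mul_assoc, mul_comm d, hr2]; ring


/-- **Engine core, integral form.**  A finite free `O`-module `M` with an action of `G`, a nonzero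
stable submodule `N` on which every `g` satisfies `g² - a g + ε(g) = 0` for some `a`, and an
involution `c` with `ε(c) = -1`.  Then there is a free rank-two `O`-module with a `G`-action whose
characteristic polynomials are `X² - a X + ε(g)` and which inherits the congruence kernels
of `M`. -/
theorem exists_rank_two_rep (h2 : (2 : O) ≠ 0) (ρ : G →* Module.End O M) (N : Submodule O M)
    (hN : N ≠ ⊥) (hst : ∀ g, ∀ m ∈ N, ρ g m ∈ N) (ε : G →* Oˣ)
    (hrel : ∀ g, ∃ a : O, ∀ m ∈ N, ρ g (ρ g m) - a • ρ g m + (ε g : O) • m = 0)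
    (c : G) (hc : c * c = 1) (hεc : ε c = -1) :
    ∃ (V : Type) (_ : AddCommGroup V) (_ : Module O V) (_ : Module.Free O V)
      (_ : Module.Finite O V) (ρV : G →* Module.End O V),
      Module.finrank O V = 2 ∧
      (∀ g (a : O), (∀ m ∈ N, ρ g (ρ g m) - a • ρ g m + (ε g : O) • m = 0) →
          LinearMap.charpoly (ρV g) = X ^ 2 - C a * X + C (ε g : O)) ∧
      (∀ g (I : Ideal O), (∀ m : M, ρ g m - m ∈ I • (⊤ : Submodule O M)) → (ε g : O) - 1 ∈ I →
          ∀ v : V, ρV g v - v ∈ I • (⊤ : Submodule O V)) := by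
  have hinj : Function.Injective (algebraMap O (FractionRing O)) :=
    IsFractionRing.injective O (FractionRing O)
  have h2K : (2 : FractionRing O) ≠ 0 := by
    intro h
    apply h2
    apply hinj
    rw [map_zero, map_ofNat]
    exact h
  have hεcK : epsK (FractionRing O) ε c = -1 := by
    apply Units.ext
    rw [epsK_apply, hεc]
    simp
  obtain ⟨U, hUN, hU, hcase⟩ := exists_stable_dim_le_two (ρ := rhoK (FractionRing O) ρ)
    (ε := epsK (FractionRing O) ε) (N := spanK (FractionRing O) N) h2K (spanK_ne_bot hN)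
    (spanK_stable hst)
    (fun g => let ⟨a, ha⟩ := hrel g; ⟨algebraMap O (FractionRing O) a, spanK_relOn ha⟩) hc hεcK
  have hrank := finrank_lattice U
  rcases hcase with h1 | ⟨h2', hchar⟩
  · -- the line case
    have hr1 : Module.finrank O (lattice U) = 1 := by rw [hrank, h1]
    let b : Module.Basis (Fin 1) O (lattice U) := Module.finBasisOfFinrankEq O (lattice U) hr1
    have hgen : ∀ v : lattice U, v = (b.repr v 0) • b 0 := by
      intro v
      have := b.sum_repr v
      rw [Fin.sum_univ_one] at this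
      exact this.symm
    have hinjv : ∀ r s : O, r • b 0 = s • b 0 → r = s := by
      intro r s h
      have := congrArg (fun v => b.repr v 0) h
      simpa using this
    let ψ : G → O := fun g => b.repr (latRestr ρ hU g (b 0)) 0
    have hψ : ∀ g, latRestr ρ hU g (b 0) = ψ g • b 0 := fun g => hgen _
    have hψ1 : ψ 1 = 1 := by
      apply hinjv
      rw [← hψ, map_one, one_smul]; rfl
    have hψmul : ∀ g h, ψ (g * h) = ψ g * ψ h := by
      intro g h
      apply hinjv
      rw [← hψ, map_mul, Module.End.mul_apply, hψ h, map_smul, hψ g, smul_smul, mul_comm]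
    let ψhom : G →* O := { toFun := ψ, map_one' := hψ1, map_mul' := hψmul }
    let ψu : G →* Oˣ := ψhom.toHomUnits
    have hψu : ∀ g, ((ψu g : Oˣ) : O) = ψ g := fun g => MonoidHom.coe_toHomUnits ψhom g
    let ψ2 : G →* O := (Units.coeHom O).comp (ε / ψu)
    have hψ2 : ∀ g, ψ2 g = (ε g : O) * (((ψu g)⁻¹ : Oˣ) : O) := fun g => by
      simp [ψ2, div_eq_mul_inv]
    have hu : ∀ g, ψ g * (((ψu g)⁻¹ : Oˣ) : O) = 1 := fun g => by
      rw [← hψu g]; simp
    have hquad : ∀ g (a : O), (∀ m ∈ N, ρ g (ρ g m) - a • ρ g m + (ε g : O) • m = 0) →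
        ψ g * ψ g - a * ψ g + (ε g : O) = 0 := by
      intro g a ha
      have h := rel_on_lattice (K := FractionRing O) hUN ha (b 0).2
      have h' : latRestr ρ hU g (latRestr ρ hU g (b 0)) - a • latRestr ρ hU g (b 0)
          + (ε g : O) • b 0 = 0 := Subtype.ext (by simpa using h)
      rw [hψ g, map_smul, hψ g, smul_smul, smul_smul, ← sub_smul, ← add_smul] at h'
      exact hinjv _ 0 (by rw [h', zero_smul])
    refine ⟨Fin 2 → O, inferInstance, inferInstance, inferInstance, inferInstance,
      diagRep ψhom ψ2, Module.finrank_fin_fun O, ?_, ?_⟩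
    · intro g a ha
      rw [diagRep_charpoly]
      have hq := hquad g a ha
      have haψ : a * ψ g = ψ g * ψ g + (ε g : O) := by linear_combination -hq
      have e1 : ψhom g + ψ2 g = a := by
        change ψ g + ψ2 g = a
        rw [hψ2]
        calc ψ g + (ε g : O) * (((ψu g)⁻¹ : Oˣ) : O)
            = (ψ g * ψ g + (ε g : O)) * (((ψu g)⁻¹ : Oˣ) : O) := by
              rw [add_mul, mul_assoc, hu, mul_one]
          _ = a * (ψ g * (((ψu g)⁻¹ : Oˣ) : O)) := by rw [← haψ, mul_assoc]
          _ = a := by rw [hu, mul_one]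
      have e2 : ψhom g * ψ2 g = (ε g : O) := by
        change ψ g * ψ2 g = _
        rw [hψ2, mul_left_comm, hu, mul_one]
      rw [e1, e2]
    · intro g I hI hε x
      obtain ⟨d, rfl⟩ := (IsPrincipalIdealRing.principal I).principal
      change (ε g : O) - 1 ∈ Ideal.span {d} at hε
      change _ ∈ (Ideal.span {d}) • (⊤ : Submodule O (Fin 2 → O))
      have hc1 : ψ g - 1 ∈ Ideal.span {d} := by
        have := lattice_congr ρ hU g (Ideal.span {d}) hI (b 0)
        rw [Submodule.ideal_span_singleton_smul, Submodule.mem_smul_pointwise_iff_exists] at this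
        obtain ⟨m', -, hm'⟩ := this
        rw [Ideal.mem_span_singleton']
        refine ⟨b.repr m' 0, ?_⟩
        apply hinjv
        rw [mul_comm, mul_smul, ← hgen m', hm', hψ g, sub_smul, one_smul]
      have hc2 : ψ2 g - 1 ∈ Ideal.span {d} := by
        rw [hψ2]
        have hu' : (((ψu g)⁻¹ : Oˣ) : O) * ψ g = 1 := by rw [mul_comm]; exact hu g
        have : (ε g : O) * (((ψu g)⁻¹ : Oˣ) : O) - 1
            = (((ψu g)⁻¹ : Oˣ) : O) * (((ε g : O) - 1) - (ψ g - 1)) := by
          linear_combination hu'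
        rw [this]
        exact Ideal.mul_mem_left _ _ (Ideal.sub_mem _ hε hc1)
      exact diagRep_congr ψhom ψ2 g d hc1 hc2 x
  · -- the plane case
    refine ⟨lattice U, inferInstance, inferInstance, inferInstance, inferInstance,
      latRestr ρ hU, by rw [hrank, h2'], ?_, ?_⟩
    · intro g a ha
      have hK : LinearMap.charpoly (M := U) (restr (rhoK (FractionRing O) ρ) hU g) = _ :=
        hchar g (algebraMap O (FractionRing O) a) (spanK_relOn ha)
      have e1 := charpoly_lattice ρ hU g
      apply Polynomial.map_injective (algebraMap O (FractionRing O)) hinj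
      rw [← e1, hK]
      simp
    · intro g I hI _ v
      exact lattice_congr ρ hU g I hI v

end Main

end Lattice

end Fermat.Agent.S30.ConjClifford
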