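/-
S30 ENGINE interface (helper210).

`ESData N p` = "Eichler–Shimura matrix data" for level `N` and the prime `p`:
a free `ℤ`-lattice of rank `r` with commuting integer Hecke matrices `t ℓ`, and a continuous
`p`-adic Galois action `ρ` on `ℤ_[p]^r` commuting with the `t ℓ`, unramified outside `N p`,
satisfying the Eichler–Shimura relation `ρ(σ)² - t_ℓ ρ(σ) + ℓ = 0` at every Frobenius `σ`
over `ℓ ∤ N p`, and such that the cusp forms of weight 2 embed Hecke-equivariantly in `ℂ^r`.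

Producers (the Kummer / Betti bricks) prove `Nonempty (ESData N p)`;
the ENGINE proves the statement of S30 from it.
-/
import Mathlib
import Fermat.Prelude.Def_CuspForm_HeckeGaloisRepDatum

set_option autoImplicit false

namespace Fermat.Agent.S30

/-- The absolute Galois group of `ℚ` (as in the frozen statements). -/
abbrev GQ : Type := AlgebraicClosure ℚ ≃ₐ[ℚ] AlgebraicClosure ℚ

/-- Eichler–Shimura matrix data for level `N` and the prime `p`. -/
structure ESData (N p : ℕ) [NeZero N] [Fact p.Prime] where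
  /-- rank of the lattice -/
  r : ℕ
  /-- integer Hecke matrices (only the values at primes `ℓ ∤ N p` matter) -/
  t : ℕ → Matrix (Fin r) (Fin r) ℤ
  /-- the `p`-adic Galois action -/
  ρ : GQ →* Matrix (Fin r) (Fin r) ℤ_[p]
  t_comm : ∀ ℓ ℓ' : ℕ, Commute (t ℓ) (t ℓ')
  ρ_comm : ∀ (σ : GQ) (ℓ : ℕ), Commute (ρ σ) ((t ℓ).map (Int.castRingHom ℤ_[p]))
  /-- continuity: modulo `p ^ n` the action factors through a finite quotient -/
  cont : ∀ n : ℕ, ∃ L : IntermediateField ℚ (AlgebraicClosure ℚ), FiniteDimensional ℚ L ∧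
    ∀ σ : GQ, (∀ x ∈ L, σ x = x) →
      ∀ i j, (ρ σ - 1) i j ∈ Ideal.span {(p : ℤ_[p]) ^ n}
  /-- unramified outside `N p` -/
  unr : ∀ q : ℕ, q.Prime → ¬ q ∣ N → q ≠ p →
    ∀ P : ValuationSubring (AlgebraicClosure ℚ), P.LiesOverPrime q →
      ∀ σ ∈ P.inertiaSubgroupIn ℚ, ρ σ = 1
  /-- the Eichler–Shimura relation at Frobenius elements -/
  es : ∀ ℓ : ℕ, ℓ.Prime → ¬ ℓ ∣ N → ℓ ≠ p →
    ∀ A : ValuationSubring (AlgebraicClosure ℚ), A.LiesOverPrime ℓ →
      ∀ σ : GQ, A.IsFrobeniusAt σ ℓ →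
        ρ σ * ρ σ - (t ℓ).map (Int.castRingHom ℤ_[p]) * ρ σ
          + (ℓ : Matrix (Fin r) (Fin r) ℤ_[p]) = 0
  /-- the weight-2 cusp forms occur: a Hecke-equivariant embedding into `ℂ^r` -/
  occ : ∃ Φ : CuspForm (CongruenceSubgroup.Gamma0 N) 2 →ₗ[ℂ] (Fin r → ℂ),
    Function.Injective Φ ∧
      ∀ (ℓ : ℕ) (hℓ : ℓ.Prime) (hℓN : ¬ ℓ ∣ N), ℓ ≠ p →
        ∀ f : CuspForm (CongruenceSubgroup.Gamma0 N) 2,
          Φ (CuspForm.heckeTLin 2 hℓ hℓN f) = ((t ℓ).map (Int.castRingHom ℂ)).mulVec (Φ f)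

end Fermat.Agent.S30
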