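/-
S30 ENGINE brick (helper91): the `p`-adic cyclotomic character of `G_ℚ` and the facts the engine
consumes:

* `eps p : GQ →* ℤ_[p]ˣ` (Mathlib's `cyclotomicCharacter` on `AlgebraicClosure ℚ`);
* `eps_spec`        : the action on `p`-power roots of unity;
* `eps_frobenius`   : `eps p σ = ℓ` for every Frobenius element `σ` over a prime `ℓ ≠ p`;
* `eps_inertia`     : `eps p σ = 1` for `σ` in an inertia group over a prime `q ≠ p`;
* `eps_complexConjugation` : `eps p c = -1`;
* `eps_congr`, `eps_cont`  : `eps p` modulo `p ^ n` only depends on the action on `ℚ(ζ_{p^n})`;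
* `eps_pow_frobenius`      : the shape used with the Frobenius density lemma;
* `lucasS`, `lucas_comm`, `lucas_algebra` : the Lucas relation `(x^b)² - s_b x^b + d^b = 0`.
-/
import Mathlib
import Fermat.Prelude.Def_GaloisRep_ComplexConjugation
import Fermat.Prelude.Def_EllipticCurve_FrobeniusTrace
import Fermat.Agent.S30.Defs

set_option autoImplicit false

namespace Fermat.Agent.S30.CycloChar

open Fermat.Agent.S30

/-! ### The Lucas relation -/

section lucas

/-- The Lucas sequence `s_b = α^b + β^b` attached to the quadratic `X² - a X + d`. -/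
def lucasS {R : Type*} [Ring R] (a d : R) : ℕ → R
  | 0 => 2
  | 1 => a
  | (b + 2) => a * lucasS a d (b + 1) - d * lucasS a d b

@[simp] theorem lucasS_zero {R : Type*} [Ring R] (a d : R) : lucasS a d 0 = 2 := rfl

@[simp] theorem lucasS_one {R : Type*} [Ring R] (a d : R) : lucasS a d 1 = a := rfl

theorem lucasS_add_two {R : Type*} [Ring R] (a d : R) (b : ℕ) :
    lucasS a d (b + 2) = a * lucasS a d (b + 1) - d * lucasS a d b := rfl

theorem map_lucasS {R S : Type*} [Ring R] [Ring S] (f : R →+* S) (a d : R) (b : ℕ) :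
    f (lucasS a d b) = lucasS (f a) (f d) b := by
  induction b using Nat.strong_induction_on with
  | _ b ih =>
    match b with
    | 0 => simp only [lucasS_zero]; exact map_ofNat f 2
    | 1 => simp
    | (b + 2) =>
      rw [lucasS_add_two, lucasS_add_two, map_sub, map_mul, map_mul, ih (b + 1) (by omega),
        ih b (by omega)]

/-- In a commutative ring: `lucasS a d b = x ^ b + (a - x) ^ b` when `x² - a x + d = 0`. -/
theorem lucasS_eq {R : Type*} [CommRing R] (x a d : R) (h : x * x - a * x + d = 0) (b : ℕ) :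
    lucasS a d b = x ^ b + (a - x) ^ b := by
  have hy : x * (a - x) = d := by linear_combination -h
  induction b using Nat.strong_induction_on with
  | _ b ih =>
    match b with
    | 0 => simp; norm_num
    | 1 => simp
    | (b + 2) =>
      rw [lucasS_add_two, ih (b + 1) (by omega), ih b (by omega)]
      linear_combination (x ^ b + (a - x) ^ b) * hy

/-- **Lucas relation**, commutative form: if `x² - a x + d = 0` then
`(x^b)² - s_b x^b + d^b = 0`. -/
theorem lucas_comm {R : Type*} [CommRing R] (x a d : R) (h : x * x - a * x + d = 0) (b : ℕ) :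
    x ^ b * x ^ b - lucasS a d b * x ^ b + d ^ b = 0 := by
  have hy : x * (a - x) = d := by linear_combination -h
  rw [lucasS_eq x a d h b, ← hy, mul_pow]
  ring

/-- **Lucas relation** for an element `x` of an algebra `E` over a commutative ring `O`
satisfying `x² - a • x + d • 1 = 0` with scalars `a d : O`. -/
theorem lucas_algebra {O E : Type*} [CommRing O] [Ring E] [Algebra O E] (x : E) (a d : O)
    (h : x * x - a • x + d • (1 : E) = 0) (b : ℕ) :
    x ^ b * x ^ b - lucasS a d b • x ^ b + d ^ b • (1 : E) = 0 := by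
  -- work in the commutative quotient `O[X] ⧸ (X² - a X + d)` and map to `E`
  let P : Polynomial O := Polynomial.X * Polynomial.X - Polynomial.C a * Polynomial.X
    + Polynomial.C d
  let I : Ideal (Polynomial O) := Ideal.span {P}
  have hP : (Polynomial.aeval x) P = 0 := by
    simp only [P, map_add, map_sub, map_mul, Polynomial.aeval_X, Polynomial.aeval_C]
    rw [← h, Algebra.smul_def, Algebra.smul_def, mul_one]
  have hI : ∀ q ∈ I, (Polynomial.aeval x : Polynomial O →ₐ[O] E).toRingHom q = 0 := by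
    intro q hq
    obtain ⟨c, rfl⟩ := Ideal.mem_span_singleton.mp hq
    show (Polynomial.aeval x) (P * c) = 0
    rw [map_mul, hP, zero_mul]
  let φ : Polynomial O ⧸ I →+* E := Ideal.Quotient.lift I _ hI
  let ξ : Polynomial O ⧸ I := Ideal.Quotient.mk I Polynomial.X
  let α : Polynomial O ⧸ I := Ideal.Quotient.mk I (Polynomial.C a)
  let δ : Polynomial O ⧸ I := Ideal.Quotient.mk I (Polynomial.C d)
  have hξ : ξ * ξ - α * ξ + δ = 0 := by
    show Ideal.Quotient.mk I Polynomial.X * Ideal.Quotient.mk I Polynomial.X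
      - Ideal.Quotient.mk I (Polynomial.C a) * Ideal.Quotient.mk I Polynomial.X
      + Ideal.Quotient.mk I (Polynomial.C d) = 0
    rw [← map_mul, ← map_mul, ← map_sub, ← map_add]
    exact Ideal.Quotient.eq_zero_iff_mem.mpr (Ideal.subset_span rfl)
  have key := lucas_comm ξ α δ hξ b
  have hφξ : φ ξ = x := by
    show Ideal.Quotient.lift I _ hI (Ideal.Quotient.mk I Polynomial.X) = x
    rw [Ideal.Quotient.lift_mk]
    exact Polynomial.aeval_X x
  have hφC : ∀ c : O, φ (Ideal.Quotient.mk I (Polynomial.C c)) = algebraMap O E c := by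
    intro c
    show Ideal.Quotient.lift I _ hI (Ideal.Quotient.mk I (Polynomial.C c)) = algebraMap O E c
    rw [Ideal.Quotient.lift_mk]
    exact Polynomial.aeval_C x c
  have hS : lucasS α δ b = Ideal.Quotient.mk I (Polynomial.C (lucasS a d b)) := by
    have := map_lucasS ((Ideal.Quotient.mk I).comp (Polynomial.C : O →+* Polynomial O)) a d b
    simpa [α, δ] using this.symm
  have key2 := congrArg φ key
  rw [map_zero, map_add, map_sub, map_mul, map_mul, map_pow, map_pow, hφξ, hS, hφC,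
    show (δ : Polynomial O ⧸ I) = Ideal.Quotient.mk I (Polynomial.C d) from rfl, hφC] at key2
  rw [Algebra.smul_def, Algebra.smul_def, mul_one, map_pow]
  exact key2

end lucas

/-! ### The cyclotomic character -/

local notation "Qb" => AlgebraicClosure ℚ

variable (p : ℕ) [Fact p.Prime]

private theorem neZero_p : NeZero (p : ℚ) :=
  ⟨by exact_mod_cast (Fact.out : p.Prime).ne_zero⟩

private theorem enough (i : ℕ) : HasEnoughRootsOfUnity Qb (p ^ i) :=
  have := neZero_p p
  inferInstance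

/-- The `p`-adic cyclotomic character of `G_ℚ`. -/
noncomputable def eps : GQ →* ℤ_[p]ˣ :=
  (cyclotomicCharacter Qb p).comp (MulSemiringAction.toRingAut GQ Qb)

/-- The defining property of `eps`: the action on `p`-power roots of unity. -/
theorem eps_spec (σ : GQ) (n : ℕ) {t : Qb} (ht : t ^ (p ^ n) = 1) :
    σ t = t ^ (PadicInt.toZModPow n (eps p σ : ℤ_[p])).val := by
  have := enough p
  exact cyclotomicCharacter.spec p (MulSemiringAction.toRingAut GQ Qb σ) t ht

private theorem exists_zeta (n : ℕ) : ∃ ζ : Qb, IsPrimitiveRoot ζ (p ^ n) :=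
  have := enough p n
  HasEnoughRootsOfUnity.exists_primitiveRoot Qb (p ^ n)

/-- A chosen primitive `p ^ n`-th root of unity in `AlgebraicClosure ℚ`. -/
noncomputable def zeta (n : ℕ) : Qb := (exists_zeta p n).choose

theorem zeta_spec (n : ℕ) : IsPrimitiveRoot (zeta p n) (p ^ n) := (exists_zeta p n).choose_spec

theorem zeta_pow (n : ℕ) : zeta p n ^ (p ^ n) = 1 := (zeta_spec p n).pow_eq_one

private theorem ppow_pos (n : ℕ) : 0 < p ^ n := pow_pos (Fact.out : p.Prime).pos n

/-- Two exponents give the same power of `zeta p n` iff they agree in `ZMod (p ^ n)`. -/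
theorem zeta_pow_eq_iff (n a b : ℕ) :
    zeta p n ^ a = zeta p n ^ b ↔ (a : ZMod (p ^ n)) = (b : ZMod (p ^ n)) := by
  rw [((zeta_spec p n).isOfFinOrder (ppow_pos p n).ne').pow_eq_pow_iff_modEq,
    ← (zeta_spec p n).eq_orderOf, ZMod.natCast_eq_natCast_iff]

/-- `eps p σ` modulo `p ^ n` is the exponent of the action of `σ` on `zeta p n`. -/
theorem toZModPow_eps_eq (σ : GQ) (n a : ℕ) (h : σ (zeta p n) = zeta p n ^ a) :
    PadicInt.toZModPow n (eps p σ : ℤ_[p]) = (a : ZMod (p ^ n)) := by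
  have : NeZero (p ^ n) := ⟨(ppow_pos p n).ne'⟩
  have h1 := eps_spec p σ n (zeta_pow p n)
  rw [h] at h1
  have h2 := (zeta_pow_eq_iff p n _ _).mp h1
  rw [ZMod.natCast_zmod_val] at h2
  exact h2.symm

/-- `eps p σ` is determined modulo `p ^ n` by an exponent `a` with `σ μ = μ ^ a` on
`p ^ n`-th roots of unity. -/
theorem eps_of_pow (σ : GQ) (n a : ℕ) (h : σ (zeta p n) = zeta p n ^ a) :
    (eps p σ : ℤ_[p]) - (a : ℤ_[p]) ∈ Ideal.span {(p : ℤ_[p]) ^ n} := by
  rw [← PadicInt.ker_toZModPow, RingHom.mem_ker, map_sub, toZModPow_eps_eq p σ n a h,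
    map_natCast, sub_self]

/-- Variant of `eps_of_pow` with the hypothesis on all `p ^ n`-th roots of unity. -/
theorem eps_of_pow' (σ : GQ) (n a : ℕ) (h : ∀ μ : Qb, μ ^ (p ^ n) = 1 → σ μ = μ ^ a) :
    (eps p σ : ℤ_[p]) - (a : ℤ_[p]) ∈ Ideal.span {(p : ℤ_[p]) ^ n} :=
  eps_of_pow p σ n a (h _ (zeta_pow p n))

/-! ### Roots of unity and valuation subrings -/

private theorem val_int_le_one (A : ValuationSubring Qb) (a : ℤ) : A.valuation (a : Qb) ≤ 1 :=
  (A.valuation_le_one_iff _).mpr (intCast_mem A a)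

private theorem val_root (A : ValuationSubring Qb) {n : ℕ} {ζ : Qb} (hζ : ζ ^ (p ^ n) = 1) :
    A.valuation ζ = 1 := by
  have h : A.valuation ζ ^ (p ^ n) = 1 := by rw [← map_pow, hζ, map_one]
  exact (pow_eq_one_iff.mp h).resolve_right (ppow_pos p n).ne'

/-- `p`-power roots of unity that are congruent modulo the maximal ideal of a valuation subring
over a prime `ℓ ≠ p` are equal. -/
theorem root_eq_of_val_sub_lt_one {ℓ : ℕ} (hℓ : ℓ.Prime) (hℓp : ℓ ≠ p)
    (A : ValuationSubring Qb) (hA : A.LiesOverPrime ℓ) (n : ℕ) {ζ ξ : Qb}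
    (hζ : ζ ^ (p ^ n) = 1) (hξ : ξ ^ (p ^ n) = 1) (h : A.valuation (ζ - ξ) < 1) : ζ = ξ := by
  by_contra hne
  have hξ0 : ξ ≠ 0 := by
    rintro rfl
    rw [zero_pow (ppow_pos p n).ne'] at hξ
    exact zero_ne_one hξ
  set η := ζ * ξ⁻¹ with hη
  have hη1 : η ^ (p ^ n) = 1 := by rw [hη, mul_pow, inv_pow, hζ, hξ, inv_one, mul_one]
  have hηne : η ≠ 1 := by
    intro h1
    apply hne
    rw [hη] at h1
    exact eq_of_mul_inv_eq_one h1
  have hvη : A.valuation (η - 1) < 1 := by
    have : η - 1 = (ζ - ξ) * ξ⁻¹ := by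
      rw [hη, sub_mul, mul_inv_cancel₀ hξ0]
    rw [this, map_mul, map_inv₀, val_root p A hξ, inv_one, mul_one]
    exact h
  have hvη' : A.valuation η = 1 := val_root p A hη1
  have hsum : ∑ i ∈ Finset.range (p ^ n), η ^ i = 0 := by
    have := geom_sum_mul η (p ^ n)
    rw [hη1, sub_self] at this
    exact (mul_eq_zero.mp this).resolve_right (sub_ne_zero.mpr hηne)
  have hpow : ∀ i : ℕ, A.valuation (η ^ i - 1) < 1 := by
    intro i
    have : η ^ i - 1 = (∑ j ∈ Finset.range i, η ^ j) * (η - 1) := (geom_sum_mul η i).symm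
    rw [this, map_mul]
    have hle : A.valuation (∑ j ∈ Finset.range i, η ^ j) ≤ 1 := by
      apply Valuation.map_sum_le
      intro j _
      rw [map_pow, hvη', one_pow]
    calc A.valuation (∑ j ∈ Finset.range i, η ^ j) * A.valuation (η - 1)
        ≤ 1 * A.valuation (η - 1) := mul_le_mul_left hle _
      _ < 1 := by rw [one_mul]; exact hvη
  have hm : A.valuation ((p ^ n : ℕ) : Qb) < 1 := by
    have : ((p ^ n : ℕ) : Qb) = - ∑ i ∈ Finset.range (p ^ n), (η ^ i - 1) := by
      rw [Finset.sum_sub_distrib, hsum]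
      simp
    rw [this, Valuation.map_neg]
    exact Valuation.map_sum_lt _ one_ne_zero (fun i _ => hpow i)
  have hl : A.valuation (ℓ : Qb) < 1 := A.mem_nonunits_iff.mp hA
  have hcop : IsCoprime ((p ^ n : ℕ) : ℤ) (ℓ : ℤ) := by
    rw [Nat.isCoprime_iff_coprime]
    exact Nat.Coprime.pow_left n ((Nat.coprime_primes Fact.out hℓ).mpr (Ne.symm hℓp))
  obtain ⟨a, b, hab⟩ := hcop
  have h1 : (1 : Qb) = (a : Qb) * ((p ^ n : ℕ) : Qb) + (b : Qb) * (ℓ : Qb) := by
    have := congrArg (Int.cast : ℤ → Qb) hab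
    push_cast at this ⊢
    exact this.symm
  have hlt : A.valuation (1 : Qb) < 1 := by
    rw [h1]
    apply Valuation.map_add_lt
    · rw [map_mul]
      exact lt_of_le_of_lt (mul_le_of_le_one_left' (val_int_le_one A a)) hm
    · rw [map_mul]
      exact lt_of_le_of_lt (mul_le_of_le_one_left' (val_int_le_one A b)) hl
  rw [map_one] at hlt
  exact lt_irrefl _ hlt

/-- A Frobenius element at `A` is congruent to the `q`-th power map on `A`. -/
private theorem val_frob_sub_pow_lt_one (A : ValuationSubring Qb) {σ : GQ} {q : ℕ}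
    (hσ : A.IsFrobeniusAt σ q) {x : Qb} (hx : x ∈ A) : A.valuation (σ x - x ^ q) < 1 := by
  obtain ⟨hd, hf⟩ := hσ
  have h2 := hf (IsLocalRing.residue A ⟨x, hx⟩)
  rw [← IsLocalRing.ResidueField.residue_smul, ← map_pow, ← sub_eq_zero, ← map_sub,
    IsLocalRing.residue_eq_zero_iff, ValuationSubring.valuation_lt_one_iff] at h2
  exact h2

/-- An element of the inertia group at `A` is congruent to the identity on `A`. -/
private theorem val_inertia_sub_lt_one (A : ValuationSubring Qb) {σ : GQ}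
    (hσ : σ ∈ A.inertiaSubgroupIn ℚ) {x : Qb} (hx : x ∈ A) : A.valuation (σ x - x) < 1 := by
  obtain ⟨τ, hτ, rfl⟩ := hσ
  have h1 : MulSemiringAction.toRingAut (A.decompositionSubgroup ℚ) (IsLocalRing.ResidueField A) τ
      = 1 := hτ
  have h2 : τ • (IsLocalRing.residue A ⟨x, hx⟩) = IsLocalRing.residue A ⟨x, hx⟩ := by
    have := congrArg (fun f => f (IsLocalRing.residue A ⟨x, hx⟩)) h1
    simpa using this
  rw [← IsLocalRing.ResidueField.residue_smul, ← sub_eq_zero, ← map_sub,
    IsLocalRing.residue_eq_zero_iff, ValuationSubring.valuation_lt_one_iff] at h2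
  exact h2

private theorem mem_of_val_eq_one (A : ValuationSubring Qb) {x : Qb} (hx : A.valuation x = 1) :
    x ∈ A := (A.valuation_le_one_iff _).mp hx.le

/-! ### Frobenius, inertia, complex conjugation -/

/-- `eps p σ = ℓ` for every Frobenius element `σ` over a prime `ℓ ≠ p`. -/
theorem eps_frobenius {ℓ : ℕ} (hℓ : ℓ.Prime) (hℓp : ℓ ≠ p) (A : ValuationSubring Qb)
    (hA : A.LiesOverPrime ℓ) (σ : GQ) (hσ : A.IsFrobeniusAt σ ℓ) : (eps p σ : ℤ_[p]) = ℓ := by
  refine PadicInt.ext_of_toZModPow.mp fun n => ?_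
  rw [map_natCast]
  apply toZModPow_eps_eq
  have hz := zeta_pow p n
  have hσz : σ (zeta p n) ^ (p ^ n) = 1 := by rw [← map_pow, hz, map_one]
  have hpz : (zeta p n ^ ℓ) ^ (p ^ n) = 1 := by rw [← pow_mul, mul_comm, pow_mul, hz, one_pow]
  exact root_eq_of_val_sub_lt_one p hℓ hℓp A hA n hσz hpz
    (val_frob_sub_pow_lt_one A hσ (mem_of_val_eq_one A (val_root p A hz)))

/-- `eps p` is trivial on the inertia groups over primes `q ≠ p`. -/
theorem eps_inertia {q : ℕ} (hq : q.Prime) (hqp : q ≠ p) (P : ValuationSubring Qb)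
    (hP : P.LiesOverPrime q) (σ : GQ) (hσ : σ ∈ P.inertiaSubgroupIn ℚ) : eps p σ = 1 := by
  apply Units.ext
  rw [Units.val_one]
  refine PadicInt.ext_of_toZModPow.mp fun n => ?_
  rw [map_one]
  have h := toZModPow_eps_eq p σ n 1 ?_
  · rw [h, Nat.cast_one]
  · have hz := zeta_pow p n
    have hσz : σ (zeta p n) ^ (p ^ n) = 1 := by rw [← map_pow, hz, map_one]
    rw [pow_one]
    exact root_eq_of_val_sub_lt_one p hq hqp P hP n hσz hz
      (val_inertia_sub_lt_one P hσ (mem_of_val_eq_one P (val_root p P hz)))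

/-- Complex conjugation inverts roots of unity. -/
theorem complexConjugation_root {m : ℕ} (hm : m ≠ 0) {t : Qb} (ht : t ^ m = 1) :
    complexConjugation t = t⁻¹ := by
  apply complexEmbedding.toRingHom.injective
  show complexEmbedding (complexConjugation t) = complexEmbedding t⁻¹
  rw [complexEmbedding_complexConjugation, map_inv₀]
  have h1 : complexEmbedding t ^ m = 1 := by rw [← map_pow, ht, map_one]
  have h2 : ‖complexEmbedding t‖ = 1 := Complex.norm_eq_one_of_pow_eq_one h1 hm
  exact (Complex.inv_eq_conj h2).symm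

/-- `eps p c = -1` for complex conjugation `c`. -/
theorem eps_complexConjugation : eps p complexConjugation = -1 := by
  apply Units.ext
  rw [Units.val_neg, Units.val_one]
  refine PadicInt.ext_of_toZModPow.mp fun n => ?_
  have : NeZero (p ^ n) := ⟨(ppow_pos p n).ne'⟩
  have hz := zeta_pow p n
  have hc : complexConjugation (zeta p n) = zeta p n ^ (p ^ n - 1) := by
    rw [complexConjugation_root (ppow_pos p n).ne' hz]
    apply inv_eq_of_mul_eq_one_right
    rw [← pow_succ', Nat.sub_add_cancel (ppow_pos p n), hz]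
  rw [toZModPow_eps_eq p complexConjugation n (p ^ n - 1) hc, map_neg, map_one,
    Nat.cast_sub (ppow_pos p n), Nat.cast_one, ZMod.natCast_self, zero_sub]

/-! ### Continuity -/

/-- The field `ℚ(ζ_{p^n})` inside `AlgebraicClosure ℚ`. -/
noncomputable def cycloField (n : ℕ) : IntermediateField ℚ Qb :=
  IntermediateField.adjoin ℚ {zeta p n}

theorem zeta_mem_cycloField (n : ℕ) : zeta p n ∈ cycloField p n :=
  IntermediateField.mem_adjoin_simple_self ℚ (zeta p n)

theorem finiteDimensional_cycloField (n : ℕ) : FiniteDimensional ℚ (cycloField p n) := by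
  apply IntermediateField.adjoin.finiteDimensional
  exact ((zeta_spec p n).isIntegral (ppow_pos p n)).tower_top

/-- `eps p` modulo `p ^ n` only depends on the action on `ℚ(ζ_{p^n})`. -/
theorem eps_congr (n : ℕ) (σ τ : GQ) (h : ∀ x ∈ cycloField p n, σ x = τ x) :
    (eps p σ : ℤ_[p]) - (eps p τ : ℤ_[p]) ∈ Ideal.span {(p : ℤ_[p]) ^ n} := by
  have : NeZero (p ^ n) := ⟨(ppow_pos p n).ne'⟩
  have hτ := eps_spec p τ n (zeta_pow p n)
  have hσ : σ (zeta p n) = zeta p n ^ (PadicInt.toZModPow n (eps p τ : ℤ_[p])).val := by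
    rw [h _ (zeta_mem_cycloField p n), hτ]
  have h1 := toZModPow_eps_eq p σ n _ hσ
  rw [ZMod.natCast_zmod_val] at h1
  rw [← PadicInt.ker_toZModPow, RingHom.mem_ker, map_sub, h1, sub_self]

/-- Continuity of `eps p`, in the shape of `GaloisActionIsAdicContinuous`. -/
theorem eps_cont (n : ℕ) : ∃ L : IntermediateField ℚ Qb, FiniteDimensional ℚ L ∧
    ∀ σ τ : GQ, (∀ x ∈ L, σ x = τ x) →
      (eps p σ : ℤ_[p]) - (eps p τ : ℤ_[p]) ∈ Ideal.span {(p : ℤ_[p]) ^ n} :=
  ⟨cycloField p n, finiteDimensional_cycloField p n, eps_congr p n⟩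

theorem eps_sub_one_mem (n : ℕ) (σ : GQ) (h : ∀ x ∈ cycloField p n, σ x = x) :
    (eps p σ : ℤ_[p]) - 1 ∈ Ideal.span {(p : ℤ_[p]) ^ n} := by
  have := eps_congr p n σ 1 (fun x hx => by rw [h x hx]; rfl)
  rwa [map_one, Units.val_one] at this

/-- The shape used with the Frobenius density lemma: if `g` acts on `ℚ(ζ_{p^n})` as the `b`-th
power of a Frobenius element `s` over `ℓ ≠ p`, then `eps p g ≡ ℓ ^ b` modulo `p ^ n`. -/
theorem eps_pow_frobenius (n : ℕ) {ℓ : ℕ} (hℓ : ℓ.Prime) (hℓp : ℓ ≠ p)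
    (A : ValuationSubring Qb) (hA : A.LiesOverPrime ℓ) (s : GQ) (hs : A.IsFrobeniusAt s ℓ)
    (g : GQ) (b : ℕ) (h : ∀ x ∈ cycloField p n, g x = (s ^ b) x) :
    (eps p g : ℤ_[p]) - (ℓ : ℤ_[p]) ^ b ∈ Ideal.span {(p : ℤ_[p]) ^ n} := by
  have h1 := eps_congr p n g (s ^ b) h
  rwa [map_pow, Units.val_pow_eq_pow_val, eps_frobenius p hℓ hℓp A hA s hs] at h1

/-! ### Transport along a ring homomorphism `ℤ_[p] →+* O`

For the engine: `O` is the coefficient ring (a `p`-adically complete ring) and `φ` the canonical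
map. -/

section transport

variable {O : Type*} [CommRing O] (φ : ℤ_[p] →+* O)

/-- The cyclotomic character with values in `Oˣ`, for a ring homomorphism `φ : ℤ_[p] →+* O`. -/
noncomputable def epsO : GQ →* Oˣ := (Units.map (φ : ℤ_[p] →* O)).comp (eps p)

theorem epsO_apply (σ : GQ) : (epsO p φ σ : O) = φ (eps p σ : ℤ_[p]) := rfl

theorem epsO_frobenius {ℓ : ℕ} (hℓ : ℓ.Prime) (hℓp : ℓ ≠ p) (A : ValuationSubring Qb)
    (hA : A.LiesOverPrime ℓ) (σ : GQ) (hσ : A.IsFrobeniusAt σ ℓ) : (epsO p φ σ : O) = ℓ := by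
  rw [epsO_apply, eps_frobenius p hℓ hℓp A hA σ hσ, map_natCast]

theorem epsO_inertia {q : ℕ} (hq : q.Prime) (hqp : q ≠ p) (P : ValuationSubring Qb)
    (hP : P.LiesOverPrime q) (σ : GQ) (hσ : σ ∈ P.inertiaSubgroupIn ℚ) : epsO p φ σ = 1 := by
  rw [epsO, MonoidHom.comp_apply, eps_inertia p hq hqp P hP σ hσ, map_one]

theorem epsO_complexConjugation : epsO p φ complexConjugation = -1 := by
  apply Units.ext
  rw [epsO_apply, eps_complexConjugation, Units.val_neg, Units.val_neg, Units.val_one,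
    Units.val_one, map_neg, map_one]

private theorem map_mem_span {x : ℤ_[p]} {n : ℕ} (hx : x ∈ Ideal.span {(p : ℤ_[p]) ^ n}) :
    φ x ∈ Ideal.span {(p : O) ^ n} := by
  obtain ⟨y, rfl⟩ := Ideal.mem_span_singleton.mp hx
  rw [map_mul, map_pow, map_natCast]
  exact Ideal.mem_span_singleton.mpr (dvd_mul_right _ _)

theorem epsO_congr (n : ℕ) (σ τ : GQ) (h : ∀ x ∈ cycloField p n, σ x = τ x) :
    (epsO p φ σ : O) - (epsO p φ τ : O) ∈ Ideal.span {(p : O) ^ n} := by
  rw [epsO_apply, epsO_apply, ← map_sub]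
  exact map_mem_span p φ (eps_congr p n σ τ h)

theorem epsO_sub_one_mem (n : ℕ) (σ : GQ) (h : ∀ x ∈ cycloField p n, σ x = x) :
    (epsO p φ σ : O) - 1 ∈ Ideal.span {(p : O) ^ n} := by
  have := map_mem_span p φ (eps_sub_one_mem p n σ h)
  rwa [map_sub, map_one] at this

theorem epsO_pow_frobenius (n : ℕ) {ℓ : ℕ} (hℓ : ℓ.Prime) (hℓp : ℓ ≠ p)
    (A : ValuationSubring Qb) (hA : A.LiesOverPrime ℓ) (s : GQ) (hs : A.IsFrobeniusAt s ℓ)
    (g : GQ) (b : ℕ) (h : ∀ x ∈ cycloField p n, g x = (s ^ b) x) :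
    (epsO p φ g : O) - (ℓ : O) ^ b ∈ Ideal.span {(p : O) ^ n} := by
  have := map_mem_span p φ (eps_pow_frobenius p n hℓ hℓp A hA s hs g b h)
  rwa [map_sub, map_pow, map_natCast] at this

end transport

end Fermat.Agent.S30.CycloChar
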