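/-
S30 ENGINE: the eigen-lattice of a Hecke character inside `R^r` and the Galois action on `R^r`
obtained from `ESData` by base change along `ι : ℤ_[p] →+* R`.  (helper210)
-/
import Mathlib
import Fermat.Agent.S30.Defs

set_option autoImplicit false

namespace Fermat.Agent.S30

variable {N p : ℕ} [NeZero N] [Fact p.Prime]

/-- The Hecke matrix `t ℓ` with entries cast to a commutative ring `R`. -/
def ESData.tR (D : ESData N p) (R : Type*) [CommRing R] (ℓ : ℕ) :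
    Matrix (Fin D.r) (Fin D.r) R :=
  (D.t ℓ).map (Int.castRingHom R)

/-- The Galois action of `D` base-changed along `ι : ℤ_[p] →+* R`, as matrices. -/
noncomputable def ESData.ρR (D : ESData N p) {R : Type*} [CommRing R] (ι : ℤ_[p] →+* R) :
    GQ →* Matrix (Fin D.r) (Fin D.r) R :=
  (ι.mapMatrix : Matrix (Fin D.r) (Fin D.r) ℤ_[p] →+* Matrix (Fin D.r) (Fin D.r) R).toMonoidHom.comp
    D.ρ

/-- The Galois action of `D` base-changed along `ι`, as endomorphisms of `R^r`. -/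
noncomputable def ESData.ρEnd (D : ESData N p) {R : Type*} [CommRing R] (ι : ℤ_[p] →+* R) :
    GQ →* Module.End R (Fin D.r → R) :=
  ((Matrix.toLinAlgEquiv' : Matrix (Fin D.r) (Fin D.r) R ≃ₐ[R] Module.End R (Fin D.r → R)) :
    Matrix (Fin D.r) (Fin D.r) R →* Module.End R (Fin D.r → R)).comp (D.ρR ι)

theorem ESData.ρEnd_apply (D : ESData N p) {R : Type*} [CommRing R] (ι : ℤ_[p] →+* R)
    (g : GQ) (v : Fin D.r → R) : D.ρEnd ι g v = (D.ρR ι g).mulVec v := by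
  simp [ESData.ρEnd, Matrix.toLinAlgEquiv'_apply]

theorem ESData.ρR_apply (D : ESData N p) {R : Type*} [CommRing R] (ι : ℤ_[p] →+* R)
    (g : GQ) : D.ρR ι g = (D.ρ g).map ι := rfl

/-- The `χ`-eigen-lattice: vectors of `R^r` on which every `t ℓ` (`ℓ ∤ N`, `ℓ ∉ S`) acts through
the scalar `χ (T ℓ)`. -/
def eigenLattice (D : ESData N p) (S : Finset ℕ) {R : Type*} [CommRing R]
    (χ : CuspForm.heckeAlgebra N 2 (↑S : Set ℕ) →+* R) : Submodule R (Fin D.r → R) where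
  carrier := {v | ∀ (ℓ : ℕ) (hℓ : ℓ.Prime) (hℓN : ¬ ℓ ∣ N) (hℓS : ℓ ∉ (↑S : Set ℕ)),
    (D.tR R ℓ).mulVec v = χ (CuspForm.heckeAlgebra.T hℓ hℓN hℓS) • v}
  add_mem' := by
    intro v w hv hw ℓ hℓ hℓN hℓS
    rw [Matrix.mulVec_add, hv ℓ hℓ hℓN hℓS, hw ℓ hℓ hℓN hℓS, smul_add]
  zero_mem' := by
    intro ℓ hℓ hℓN hℓS
    simp
  smul_mem' := by
    intro c v hv ℓ hℓ hℓN hℓS
    rw [Matrix.mulVec_smul, hv ℓ hℓ hℓN hℓS, smul_comm]

theorem mem_eigenLattice (D : ESData N p) (S : Finset ℕ) {R : Type*} [CommRing R]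
    (χ : CuspForm.heckeAlgebra N 2 (↑S : Set ℕ) →+* R) (v : Fin D.r → R) :
    v ∈ eigenLattice D S χ ↔ ∀ (ℓ : ℕ) (hℓ : ℓ.Prime) (hℓN : ¬ ℓ ∣ N) (hℓS : ℓ ∉ (↑S : Set ℕ)),
      (D.tR R ℓ).mulVec v = χ (CuspForm.heckeAlgebra.T hℓ hℓN hℓS) • v := Iff.rfl

/-- `ρ` commutes with the Hecke matrices after base change. -/
theorem ESData.ρR_comm (D : ESData N p) {R : Type*} [CommRing R] (ι : ℤ_[p] →+* R)
    (g : GQ) (ℓ : ℕ) : D.ρR ι g * D.tR R ℓ = D.tR R ℓ * D.ρR ι g := by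
  have h := D.ρ_comm g ℓ
  have h2 : ((D.t ℓ).map (Int.castRingHom ℤ_[p])).map ι = D.tR R ℓ := by
    ext i j
    simp [ESData.tR, Matrix.map_apply]
  have h3 := congrArg (fun M : Matrix (Fin D.r) (Fin D.r) ℤ_[p] => M.map ι) h.eq
  simp only [Matrix.map_mul] at h3
  rw [h2] at h3
  exact h3

/-- The eigen-lattice is stable under the Galois action. -/
theorem eigenLattice_stable (D : ESData N p) (S : Finset ℕ) {R : Type*} [CommRing R]
    (ι : ℤ_[p] →+* R) (χ : CuspForm.heckeAlgebra N 2 (↑S : Set ℕ) →+* R) (g : GQ)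
    {v : Fin D.r → R} (hv : v ∈ eigenLattice D S χ) :
    (D.ρR ι g).mulVec v ∈ eigenLattice D S χ := by
  intro ℓ hℓ hℓN hℓS
  rw [Matrix.mulVec_mulVec, ← D.ρR_comm ι g ℓ, ← Matrix.mulVec_mulVec, hv ℓ hℓ hℓN hℓS,
    Matrix.mulVec_smul]

end Fermat.Agent.S30
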