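/-
S30 ENGINE — ASSEMBLY (helper210).  The statement of S30 from `Nonempty (ESData N p)` and the
engine bricks, each taken as an explicit hypothesis in the shape of the task rows
(PadicHom, CycloChar, Eigen, QuadRel, ConjClifford).  Sorry-free; the final wiring file
feeds the landed bricks.
-/
import Mathlib
import Fermat.Agent.S30.EigenLattice
import Fermat.Prelude.Def_GaloisRep_ComplexConjugation

set_option autoImplicit false
open Polynomial

namespace Fermat.Agent.S30.Engine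

open Fermat.Agent.S30

/-- A vector of `R^r` with all coordinates in an ideal `I` lies in `I • ⊤`. -/
theorem mem_smul_top_of_forall_mem {R : Type*} [CommRing R] {r : ℕ} (I : Ideal R)
    (v : Fin r → R) (hv : ∀ i, v i ∈ I) : v ∈ I • (⊤ : Submodule R (Fin r → R)) := by
  classical
  have h : v = ∑ i, v i • (Pi.single i (1 : R) : Fin r → R) := by
    ext j
    simp [Finset.sum_apply, Pi.single_apply]
  rw [h]
  exact Submodule.sum_mem _ fun i _ => Submodule.smul_mem_smul (hv i) Submodule.mem_top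

section

variable {N p : ℕ} [NeZero N] [Fact p.Prime]

/-- Shape of the conclusion of the ConjClifford brick for a fixed ring/group/module. -/
def RankTwoConclusion {O : Type} [CommRing O] {G : Type} [Group G] {M : Type} [AddCommGroup M]
    [Module O M] (ρ : G →* Module.End O M) (Nl : Submodule O M) (ε : G →* Oˣ) : Prop :=
  ∃ (V : Type) (_ : AddCommGroup V) (_ : Module O V) (_ : Module.Free O V)
    (_ : Module.Finite O V) (ρV : G →* Module.End O V),
    Module.finrank O V = 2 ∧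
    (∀ g (a : O), (∀ m ∈ Nl, ρ g (ρ g m) - a • ρ g m + ((ε g : Oˣ) : O) • m = 0) →
      LinearMap.charpoly (ρV g) = X ^ 2 - C a * X + C ((ε g : Oˣ) : O)) ∧
    (∀ g (I : Ideal O), (∀ m : M, ρ g m - m ∈ I • (⊤ : Submodule O M)) →
      ((ε g : Oˣ) : O) - 1 ∈ I → ∀ v : V, ρV g v - v ∈ I • (⊤ : Submodule O V))

/-- The engine for one datum: everything is stated for a fixed `D`, `ι`, `χ`. -/
theorem exists_rep_of_bricks (D : ESData N p) (S : Finset ℕ) (hpS : p ∈ S)
    (𝒪' : Type) [CommRing 𝒪'] [IsDomain 𝒪'] [IsDiscreteValuationRing 𝒪']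
    [IsAdicComplete (IsLocalRing.maximalIdeal 𝒪') 𝒪'] [Finite (IsLocalRing.ResidueField 𝒪')]
    [CharZero 𝒪'] (hp𝒪' : (p : 𝒪') ∈ IsLocalRing.maximalIdeal 𝒪')
    (χ : CuspForm.heckeAlgebra N 2 (↑S : Set ℕ) →+* 𝒪')
    (ι : ℤ_[p] →+* 𝒪')
    -- CycloChar
    (eps : GQ →* ℤ_[p]ˣ)
    (eps_frob : ∀ {ℓ : ℕ}, ℓ.Prime → ℓ ≠ p → ∀ A : ValuationSubring (AlgebraicClosure ℚ),
      A.LiesOverPrime ℓ → ∀ σ : GQ, A.IsFrobeniusAt σ ℓ →
        ((eps σ : ℤ_[p]ˣ) : ℤ_[p]) = (ℓ : ℤ_[p]))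
    (eps_inertia : ∀ {q : ℕ}, q.Prime → q ≠ p → ∀ P : ValuationSubring (AlgebraicClosure ℚ),
      P.LiesOverPrime q → ∀ σ : GQ, σ ∈ P.inertiaSubgroupIn ℚ → eps σ = 1)
    (eps_cont : ∀ n : ℕ, ∃ L : IntermediateField ℚ (AlgebraicClosure ℚ),
      FiniteDimensional ℚ L ∧ ∀ σ : GQ, (∀ x ∈ L, σ x = x) →
        ((eps σ : ℤ_[p]ˣ) : ℤ_[p]) - 1 ∈ Ideal.span {(p : ℤ_[p]) ^ n})
    -- ConjClifford, already applied to the eigen-lattice
    (hrank : RankTwoConclusion (D.ρEnd ι) (eigenLattice D S χ)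
      ((Units.map (ι : ℤ_[p] →* 𝒪')).comp eps)) :
    ∃ ρ : GaloisRepAdic 𝒪',
      (∀ (ℓ : ℕ) (hℓ : ℓ.Prime) (hℓN : ¬ ℓ ∣ N) (hℓS : ℓ ∉ (↑S : Set ℕ)),
        ∀ A : ValuationSubring (AlgebraicClosure ℚ), A.LiesOverPrime ℓ →
          ∀ σ : AlgebraicClosure ℚ ≃ₐ[ℚ] AlgebraicClosure ℚ, A.IsFrobeniusAt σ ℓ →
            LinearMap.charpoly (ρ.ρ σ) =
              X ^ 2 - C (χ (CuspForm.heckeAlgebra.T hℓ hℓN hℓS)) * X + C ((ℓ : 𝒪'))) ∧
      (∀ q : ℕ, q.Prime → ¬ q ∣ N → q ≠ p → ρ.IsUnramifiedAt q) := by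
  classical
  obtain ⟨V, iV1, iV2, iV3, iV4, ρV, hfin, hchar, hcong⟩ := hrank
  -- `ι` maps `p^n ℤ_p` into `𝔪^n`
  have hιp : ∀ (n : ℕ) (x : ℤ_[p]), x ∈ Ideal.span {(p : ℤ_[p]) ^ n} →
      ι x ∈ IsLocalRing.maximalIdeal 𝒪' ^ n := by
    intro n x hx
    obtain ⟨y, rfl⟩ := Ideal.mem_span_singleton'.mp hx
    rw [map_mul, map_pow, map_natCast]
    exact Ideal.mul_mem_left _ _ (Ideal.pow_mem_pow hp𝒪' n)
  -- continuity
  have hcontV : GaloisActionIsAdicContinuous 𝒪' ρV := by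
    intro n
    obtain ⟨L₁, hL₁, h₁⟩ := D.cont n
    obtain ⟨L₂, hL₂, h₂⟩ := eps_cont n
    refine ⟨L₁ ⊔ L₂, ?_, ?_⟩
    · exact IntermediateField.finiteDimensional_sup L₁ L₂
    · intro σ hσ v
      have hσ₁ : ∀ x ∈ L₁, σ x = x := fun x hx => hσ x ((le_sup_left : L₁ ≤ L₁ ⊔ L₂) hx)
      have hσ₂ : ∀ x ∈ L₂, σ x = x := fun x hx => hσ x ((le_sup_right : L₂ ≤ L₁ ⊔ L₂) hx)
      refine hcong σ (IsLocalRing.maximalIdeal 𝒪' ^ n) ?_ ?_ v
      · intro m
        rw [D.ρEnd_apply]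
        apply mem_smul_top_of_forall_mem
        intro i
        have hentry : ((D.ρR ι σ).mulVec m - m) i
            = ∑ j, ι ((D.ρ σ - 1) i j) * m j := by
          rw [Pi.sub_apply, Matrix.mulVec, dotProduct]
          have : m i = ∑ j, ι ((1 : Matrix (Fin D.r) (Fin D.r) ℤ_[p]) i j) * m j := by
            simp [Matrix.one_apply]
          rw [this, ← Finset.sum_sub_distrib]
          refine Finset.sum_congr rfl fun j _ => ?_
          rw [D.ρR_apply, Matrix.map_apply, Matrix.sub_apply, map_sub, sub_mul]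
        rw [hentry]
        exact Ideal.sum_mem _ fun j _ => Ideal.mul_mem_right _ _ (hιp n _ (h₁ σ hσ₁ i j))
      · have := hιp n _ (h₂ σ hσ₂)
        simpa using this
  refine ⟨{ V := V, finrank_eq := hfin, ρ := ρV, isAdicContinuous := hcontV }, ?_, ?_⟩
  · -- Frobenius characteristic polynomials
    intro ℓ hℓ hℓN hℓS A hA σ hσ
    have hℓp : ℓ ≠ p := fun h => hℓS (by rw [h]; exact_mod_cast hpS)
    have hes := D.es ℓ hℓ hℓN hℓp A hA σ hσ
    have hεσ : (((Units.map (ι : ℤ_[p] →* 𝒪')).comp eps σ : 𝒪'ˣ) : 𝒪') = (ℓ : 𝒪') := by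
      simp [eps_frob hℓ hℓp A hA σ hσ]
    have key := hchar σ (χ (CuspForm.heckeAlgebra.T hℓ hℓN hℓS)) ?_
    · rw [hεσ] at key
      exact key
    · intro m hm
      rw [hεσ, D.ρEnd_apply, D.ρEnd_apply]
      have hstab := eigenLattice_stable D S ι χ σ hm
      have ht := hstab ℓ hℓ hℓN hℓS
      -- map the matrix relation along `ι` and apply it to `m`
      have hmat : D.ρR ι σ * D.ρR ι σ - D.tR 𝒪' ℓ * D.ρR ι σ
          + (ℓ : Matrix (Fin D.r) (Fin D.r) 𝒪') = 0 := by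
        have h3 := congrArg (ι.mapMatrix :
          Matrix (Fin D.r) (Fin D.r) ℤ_[p] →+* Matrix (Fin D.r) (Fin D.r) 𝒪') hes
        simp only [map_add, map_sub, map_mul, map_zero, map_natCast] at h3
        have h2 : (ι.mapMatrix : Matrix (Fin D.r) (Fin D.r) ℤ_[p] →+* _)
            ((D.t ℓ).map (Int.castRingHom ℤ_[p])) = D.tR 𝒪' ℓ := by
          ext i j
          simp [ESData.tR, Matrix.map_apply]
        rw [h2] at h3
        exact h3
      have happ := congrArg (fun M : Matrix (Fin D.r) (Fin D.r) 𝒪' => M.mulVec m) hmat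
      simp only [Matrix.add_mulVec, Matrix.sub_mulVec, Matrix.zero_mulVec,
        ← Matrix.mulVec_mulVec] at happ
      rw [ht] at happ
      have hnat : (ℓ : Matrix (Fin D.r) (Fin D.r) 𝒪').mulVec m = (ℓ : 𝒪') • m := by
        ext i
        simp [Matrix.mulVec, dotProduct, Matrix.natCast_apply]
      rw [hnat] at happ
      exact happ
  · -- unramified outside `N p`
    intro q hq hqN hqp P hP σ hσ
    have h1 : D.ρ σ = 1 := D.unr q hq hqN hqp P hP σ hσ
    have h2 : eps σ = 1 := eps_inertia hq hqp P hP σ hσ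
    have hv : ∀ v : V, ρV σ v - v ∈ (⊥ : Ideal 𝒪') • (⊤ : Submodule 𝒪' V) := by
      refine hcong σ (⊥ : Ideal 𝒪') ?_ ?_
      · intro m
        have h0 : D.ρEnd ι σ m - m = 0 := by
          rw [D.ρEnd_apply, D.ρR_apply, h1, Matrix.map_one _ (map_zero ι) (map_one ι),
            Matrix.one_mulVec, sub_self]
        rw [h0]
        exact Submodule.zero_mem _
      · have h0 : (((Units.map (ι : ℤ_[p] →* 𝒪')).comp eps σ : 𝒪'ˣ) : 𝒪') - 1 = 0 := by
          rw [MonoidHom.comp_apply, h2, map_one, Units.val_one, sub_self]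
        rw [h0]
        exact Submodule.zero_mem _
    apply LinearMap.ext
    intro v
    have := hv v
    rw [Submodule.bot_smul, Submodule.mem_bot, sub_eq_zero] at this
    simpa using this

end

end Fermat.Agent.S30.Engine
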