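/-
S30 ENGINE — MAIN (helper210).  The statement of S30 from `Nonempty (ESData N p)` and the three
remaining engine bricks, each as a named `Prop` in the exact shape of its task row
(Eigen 214, QuadRel 215, ConjClifford 216).  Sorry-free.
-/
import Mathlib
import Fermat.Agent.S30.Engine
import Fermat.Agent.S30.CycloChar
import Fermat.Agent.Lib.CycloChar

set_option autoImplicit false
open Polynomial

namespace Fermat.Agent.S30.EngineMain

open Fermat.Agent.S30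

/-- Row 214 (Engine.Eigen): the eigen-lattice of a Hecke character is nonzero. -/
def EigenStatement : Prop :=
  ∀ (N p : ℕ) [NeZero N] [Fact p.Prime] (D : ESData N p) (S : Finset ℕ) (_ : p ∈ S)
    (_ : ∀ q : ℕ, q.Prime → q ∣ N → q ∈ S) (R : Type) [CommRing R] [IsDomain R] [CharZero R]
    (χ : CuspForm.heckeAlgebra N 2 (↑S : Set ℕ) →+* R), eigenLattice D S χ ≠ ⊥

/-- Row 215 (Engine.QuadRel): every `g` satisfies a quadratic relation on the eigen-lattice. -/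
def QuadRelStatement : Prop :=
  ∀ (N p : ℕ) [NeZero N] [Fact p.Prime] (D : ESData N p) (S : Finset ℕ) (_ : p ∈ S)
    (_ : ∀ q : ℕ, q.Prime → q ∣ N → q ∈ S)
    (𝒪' : Type) [CommRing 𝒪'] [IsDomain 𝒪'] [IsDiscreteValuationRing 𝒪']
    [IsAdicComplete (IsLocalRing.maximalIdeal 𝒪') 𝒪'] [CharZero 𝒪']
    (_ : (p : 𝒪') ∈ IsLocalRing.maximalIdeal 𝒪') (ι : ℤ_[p] →+* 𝒪')
    (χ : CuspForm.heckeAlgebra N 2 (↑S : Set ℕ) →+* 𝒪') (g : GQ),
    ∃ a : 𝒪', ∀ m ∈ eigenLattice D S χ,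
      (D.ρR ι g).mulVec ((D.ρR ι g).mulVec m) - a • (D.ρR ι g).mulVec m
        + ι ((CycloChar.eps p g : ℤ_[p]ˣ) : ℤ_[p]) • m = 0

/-- Row 216 (Engine.ConjClifford): the rank-two representation cut out by complex conjugation. -/
def ConjCliffordStatement : Prop :=
  ∀ (O : Type) [CommRing O] [IsDomain O] [IsPrincipalIdealRing O] (_ : (2 : O) ≠ 0)
    (G : Type) [Group G] (M : Type) [AddCommGroup M] [Module O M] [Module.Free O M]
    [Module.Finite O M] (ρ : G →* Module.End O M) (Nl : Submodule O M) (_ : Nl ≠ ⊥)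
    (_ : ∀ g, ∀ m ∈ Nl, ρ g m ∈ Nl) (ε : G →* Oˣ)
    (_ : ∀ g, ∃ a : O, ∀ m ∈ Nl, ρ g (ρ g m) - a • ρ g m + ((ε g : Oˣ) : O) • m = 0)
    (c : G) (_ : c * c = 1) (_ : ε c = -1), Engine.RankTwoConclusion ρ Nl ε

/-- **The S30 engine.**  The statement of S30 from the three brick statements and the
existence of Eichler–Shimura data. -/
theorem result_of_bricks (h1 : EigenStatement) (h2 : QuadRelStatement)
    (h3 : ConjCliffordStatement)
    (hES : ∀ (N p : ℕ) [NeZero N] [Fact p.Prime], Nonempty (ESData N p)) :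
    ∀ (p : ℕ) [Fact p.Prime] (N : ℕ) [NeZero N] (S : Finset ℕ)
      (_hpS : p ∈ S) (_hNS : ∀ q : ℕ, q.Prime → q ∣ N → q ∈ S)
      (𝒪' : Type) [CommRing 𝒪'] [IsDomain 𝒪'] [IsDiscreteValuationRing 𝒪']
      [IsAdicComplete (IsLocalRing.maximalIdeal 𝒪') 𝒪'] [Finite (IsLocalRing.ResidueField 𝒪')]
      [CharZero 𝒪'] (_hp𝒪' : (p : 𝒪') ∈ IsLocalRing.maximalIdeal 𝒪')
      (χ : CuspForm.heckeAlgebra N 2 (↑S : Set ℕ) →+* 𝒪'),
      ∃ (𝒪'' : Type) (_ : CommRing 𝒪'') (_ : IsDomain 𝒪'') (_ : IsDiscreteValuationRing 𝒪'')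
        (_ : IsAdicComplete (IsLocalRing.maximalIdeal 𝒪'') 𝒪'')
        (_ : Finite (IsLocalRing.ResidueField 𝒪'')) (_ : CharZero 𝒪'')
        (_ : Algebra 𝒪' 𝒪'') (_ : Module.Finite 𝒪' 𝒪'') (_ : IsLocalHom (algebraMap 𝒪' 𝒪'')),
      Function.Injective (algebraMap 𝒪' 𝒪'') ∧
      ∃ ρ : GaloisRepAdic 𝒪'',
        (∀ (ℓ : ℕ) (hℓ : ℓ.Prime) (hℓN : ¬ ℓ ∣ N) (hℓS : ℓ ∉ (↑S : Set ℕ)),
          ∀ A : ValuationSubring (AlgebraicClosure ℚ), A.LiesOverPrime ℓ →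
            ∀ σ : AlgebraicClosure ℚ ≃ₐ[ℚ] AlgebraicClosure ℚ, A.IsFrobeniusAt σ ℓ →
              LinearMap.charpoly (ρ.ρ σ) =
                X ^ 2 - C (algebraMap 𝒪' 𝒪'' (χ (CuspForm.heckeAlgebra.T hℓ hℓN hℓS))) * X
                  + C ((ℓ : 𝒪''))) ∧
        (∀ q : ℕ, q.Prime → ¬ q ∣ N → q ≠ p → ρ.IsUnramifiedAt q) := by
  intro p _ N _ S hpS hNS 𝒪' _ _ _ _ _ _ hp𝒪' χ
  obtain ⟨D⟩ := hES N p
  let ι : ℤ_[p] →+* 𝒪' :=
    Fermat.Agent.Lib.CycloChar.padicHom p (IsLocalRing.maximalIdeal 𝒪') hp𝒪'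
  have hN : eigenLattice D S χ ≠ ⊥ := h1 N p D S hpS hNS 𝒪' χ
  have hst : ∀ g : GQ, ∀ m ∈ eigenLattice D S χ, D.ρEnd ι g m ∈ eigenLattice D S χ := by
    intro g m hm
    rw [D.ρEnd_apply]
    exact eigenLattice_stable D S ι χ g hm
  have hrel : ∀ g : GQ, ∃ a : 𝒪', ∀ m ∈ eigenLattice D S χ,
      D.ρEnd ι g (D.ρEnd ι g m) - a • D.ρEnd ι g m
        + ((CycloChar.epsO p ι g : 𝒪'ˣ) : 𝒪') • m = 0 := by
    intro g
    obtain ⟨a, ha⟩ := h2 N p D S hpS hNS 𝒪' hp𝒪' ι χ g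
    refine ⟨a, fun m hm => ?_⟩
    rw [D.ρEnd_apply, D.ρEnd_apply, CycloChar.epsO_apply]
    exact ha m hm
  have hrank : Engine.RankTwoConclusion (D.ρEnd ι) (eigenLattice D S χ) (CycloChar.epsO p ι) :=
    h3 𝒪' two_ne_zero GQ (Fin D.r → 𝒪') (D.ρEnd ι) (eigenLattice D S χ) hN hst
      (CycloChar.epsO p ι) hrel complexConjugation complexConjugation_mul_self
      (CycloChar.epsO_complexConjugation p ι)
  obtain ⟨ρ, hρ1, hρ2⟩ := Engine.exists_rep_of_bricks D S hpS 𝒪' hp𝒪' χ ι (CycloChar.eps p)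
    (fun hℓ hℓp A hA σ hσ => CycloChar.eps_frobenius p hℓ hℓp A hA σ hσ)
    (fun hq hqp P hP σ hσ => CycloChar.eps_inertia p hq hqp P hP σ hσ)
    (fun n => ⟨CycloChar.cycloField p n, CycloChar.finiteDimensional_cycloField p n,
      fun σ hσ => CycloChar.eps_sub_one_mem p n σ hσ⟩)
    hrank
  refine ⟨𝒪', inferInstance, inferInstance, inferInstance, inferInstance, inferInstance,
    inferInstance, Algebra.id 𝒪', Module.Finite.self 𝒪', ?_, ?_, ρ, ?_, hρ2⟩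
  · exact ⟨fun a ha => ha⟩
  · exact fun a b h => h
  · intro ℓ hℓ hℓN hℓS A hA σ hσ
    exact hρ1 ℓ hℓ hℓN hℓS A hA σ hσ

end Fermat.Agent.S30.EngineMain
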