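/-
S30 engine, task row 216 (Engine.ConjClifford): the brick statement
`EngineMain.ConjCliffordStatement`, from `ConjClifford.exists_rank_two_rep`.  Author: helper109.
-/
import Fermat.Agent.S30.EngineMain
import Fermat.Agent.S30.ConjCliffordLattice

set_option autoImplicit false

namespace Fermat.Agent.S30.ConjClifford

/-- Row 216: the ConjClifford brick of the S30 engine. -/
theorem conjCliffordStatement : Fermat.Agent.S30.EngineMain.ConjCliffordStatement := by
  intro O _ _ _ h2 G _ M _ _ _ _ ρ Nl hN hst ε hrel c hc hεc
  exact exists_rank_two_rep h2 ρ Nl hN hst ε hrel c hc hεc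

end Fermat.Agent.S30.ConjClifford
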