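/-
S30 ENGINE, row Engine.Eigen (helper61): the eigen-lattice of a character of the Hecke algebra
inside `R^r` is nonzero.

* `exists_eigenvector`: a character `φ` of a commutative `K`-algebra `A` acting on a
  finite-dimensional space `V`, such that `φ` kills the annihilator of `V`, has an eigenvector.
* `eigenLattice_ne_bot`: the engine statement (uses `D.occ` and `D.t_comm`).
-/
import Mathlib
import Fermat.Agent.S30.EigenLattice

set_option autoImplicit false
set_option linter.unusedVariables false

namespace Fermat.Agent.S30.Eigen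

open Polynomial

section Abstract

variable {K A V : Type*} [Field K] [CommRing A] [Algebra K A] [AddCommGroup V] [Module K V]

/-- Polynomials in a restricted endomorphism. -/
theorem aeval_restrict_apply (g : Module.End K V) (W : Submodule K V)
    (hW : ∀ w ∈ W, g w ∈ W) (q : K[X]) (w : W) :
    ((aeval (g.restrict hW) q) w : V) = (aeval g q) (w : V) := by
  induction q using Polynomial.induction_on' with
  | add p q hp hq => simp [hp, hq]
  | monomial n a =>
    simp only [aeval_monomial, Module.End.mul_apply, Module.algebraMap_end_apply,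
      Submodule.coe_smul]
    rw [Module.End.pow_restrict n hW]
    rfl

variable [FiniteDimensional K V]

/-- Auxiliary statement for `exists_eigenvector`: induction on the dimension of a stable
subspace whose annihilator is killed by the character. -/
theorem exists_eigenvector_aux (ρ : A →ₐ[K] Module.End K V) (φ : A →ₐ[K] K) (n : ℕ) :
    ∀ W : Submodule K V, Module.finrank K W ≤ n → W ≠ ⊥ → (∀ a, ∀ w ∈ W, ρ a w ∈ W) →
      (∀ a, (∀ w ∈ W, ρ a w = 0) → φ a = 0) →
      ∃ v ∈ W, v ≠ 0 ∧ ∀ a, ρ a v = φ a • v := by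
  induction n with
  | zero =>
    intro W hW hne _ _
    exact absurd (Submodule.finrank_eq_zero.mp (Nat.le_zero.mp hW)) hne
  | succ n ih =>
    intro W hW hne hst hann
    by_cases hall : ∀ a, ∀ w ∈ W, ρ a w = φ a • w
    · obtain ⟨w, hw, hw0⟩ := Submodule.exists_mem_ne_zero_of_ne_bot hne
      exact ⟨w, hw, hw0, fun a => hall a w hw⟩
    push Not at hall
    obtain ⟨a₀, w₀, hw₀, hne₀⟩ := hall
    -- the element `b` in the kernel of `φ` acting non-trivially on `W`
    set b : A := a₀ - algebraMap K A (φ a₀) with hb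
    have hφb : φ b = 0 := by simp [hb]
    have hρb : ∀ v, ρ b v = ρ a₀ v - φ a₀ • v := by
      intro v
      simp [hb, map_sub, AlgHom.commutes, Module.algebraMap_end_apply]
    have hbw₀ : ρ b w₀ ≠ 0 := by
      rw [hρb]
      exact sub_ne_zero.mpr hne₀
    have hcomm : ∀ a c v, ρ a (ρ c v) = ρ c (ρ a v) := by
      intro a c v
      rw [← Module.End.mul_apply, ← Module.End.mul_apply, ← map_mul, ← map_mul, mul_comm]
    -- the two stable subspaces
    set W' : Submodule K V := W ⊓ LinearMap.ker (ρ b) with hW'
    set W'' : Submodule K V := W.map (ρ b) with hW''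
    have hW'le : W' ≤ W := inf_le_left
    have hW''le : W'' ≤ W := by
      rintro _ ⟨w, hw, rfl⟩
      exact hst b w hw
    have hW'st : ∀ a, ∀ w ∈ W', ρ a w ∈ W' := by
      intro a w hw
      have h2 : ρ b w = 0 := LinearMap.mem_ker.mp hw.2
      exact Submodule.mem_inf.mpr ⟨hst a w hw.1, LinearMap.mem_ker.mpr (by rw [hcomm, h2, map_zero])⟩
    have hW''st : ∀ a, ∀ w ∈ W'', ρ a w ∈ W'' := by
      rintro a _ ⟨w, hw, rfl⟩
      exact ⟨ρ a w, hst a w hw, hcomm b a w⟩
    have hW'neW : W' ≠ W := by
      intro h
      apply hbw₀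
      have : w₀ ∈ W' := by rw [h]; exact hw₀
      exact LinearMap.mem_ker.mp this.2
    have hW'lt : W' < W := lt_of_le_of_ne hW'le hW'neW
    have hW''ne : W'' ≠ ⊥ := by
      intro h
      have : ρ b w₀ ∈ W'' := ⟨w₀, hw₀, rfl⟩
      rw [h, Submodule.mem_bot] at this
      exact hbw₀ this
    -- the restriction of `ρ b` to `W`
    set f : Module.End K W := (ρ b).restrict (hst b) with hf
    have hfinj : W' = ⊥ → Function.Injective f := by
      intro h
      rw [← LinearMap.ker_eq_bot, LinearMap.ker_eq_bot']
      intro w hw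
      have h1 : (ρ b) (w : V) = 0 := by
        have := congrArg (Subtype.val) hw
        simpa [hf] using this
      have h2 : (w : V) ∈ W' := ⟨w.2, LinearMap.mem_ker.mpr h1⟩
      rw [h, Submodule.mem_bot] at h2
      exact Subtype.ext h2
    by_cases hW'bot : W' = ⊥
    · -- `ρ b` is injective on `W`: contradiction via the minimal polynomial
      exfalso
      have hinj := hfinj hW'bot
      have hq0 := LinearMap.minpoly_coeff_zero_of_injective hinj
      set q := minpoly K f with hq
      have hc : φ (aeval b q) = q.coeff 0 := by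
        rw [← Polynomial.aeval_algHom_apply, hφb, Polynomial.coeff_zero_eq_aeval_zero]
      apply hq0
      rw [← hc]
      apply hann
      intro w hw
      rw [← Polynomial.aeval_algHom_apply]
      have := aeval_restrict_apply (ρ b) W (hst b) q ⟨w, hw⟩
      rw [← hf, hq, minpoly.aeval] at this
      simpa using this.symm
    · -- `W'` is a smaller nonzero stable subspace
      have hfinW : Module.finrank K W' ≤ n :=
        Nat.lt_succ_iff.mp (lt_of_lt_of_le (Submodule.finrank_lt_finrank_of_lt hW'lt) hW)
      by_cases hann' : ∀ a, (∀ w ∈ W', ρ a w = 0) → φ a = 0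
      · obtain ⟨v, hv, hv0, hev⟩ := ih W' hfinW hW'bot hW'st hann'
        exact ⟨v, hW'le hv, hv0, hev⟩
      push Not at hann'
      obtain ⟨Q, hQ, hφQ⟩ := hann'
      have hW''neW : W'' ≠ W := by
        intro h
        apply hW'bot
        -- `f` is surjective, hence injective
        have hsurj : Function.Surjective f := by
          intro w
          have : (w : V) ∈ W'' := by rw [h]; exact w.2
          obtain ⟨u, hu, hu'⟩ := this
          exact ⟨⟨u, hu⟩, Subtype.ext hu'⟩
        have hinj : Function.Injective f := LinearMap.injective_iff_surjective.mpr hsurj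
        rw [eq_bot_iff]
        intro w hw
        have : f ⟨w, hw.1⟩ = 0 := Subtype.ext (LinearMap.mem_ker.mp hw.2)
        have h0 : (⟨w, hw.1⟩ : W) = 0 := hinj (by rw [this, map_zero])
        exact congrArg Subtype.val h0
      have hW''lt : W'' < W := lt_of_le_of_ne hW''le hW''neW
      have hfinW'' : Module.finrank K W'' ≤ n :=
        Nat.lt_succ_iff.mp (lt_of_lt_of_le (Submodule.finrank_lt_finrank_of_lt hW''lt) hW)
      by_cases hann'' : ∀ a, (∀ w ∈ W'', ρ a w = 0) → φ a = 0
      · obtain ⟨v, hv, hv0, hev⟩ := ih W'' hfinW'' hW''ne hW''st hann''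
        exact ⟨v, hW''le hv, hv0, hev⟩
      push Not at hann''
      obtain ⟨P, hP, hφP⟩ := hann''
      exfalso
      have : φ (Q * P) = 0 := by
        apply hann
        intro w hw
        rw [map_mul, Module.End.mul_apply]
        apply hQ
        refine Submodule.mem_inf.mpr ⟨hst P w hw, LinearMap.mem_ker.mpr ?_⟩
        rw [hcomm]
        exact hP _ ⟨w, hw, rfl⟩
      rw [map_mul] at this
      exact (mul_ne_zero hφQ hφP) this

/-- **Eigenvector of a character.** Let `A` be a commutative `K`-algebra acting on a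
finite-dimensional `K`-vector space `V`, and `φ : A → K` a character vanishing on the annihilator
of `V`. Then `V` contains a nonzero vector on which every `a` acts through `φ a`. -/
theorem exists_eigenvector (ρ : A →ₐ[K] Module.End K V) (φ : A →ₐ[K] K)
    (h : ∀ a, ρ a = 0 → φ a = 0) : ∃ v : V, v ≠ 0 ∧ ∀ a, ρ a v = φ a • v := by
  have hne : (⊤ : Submodule K V) ≠ ⊥ := by
    intro htop
    have h1 : ρ 1 = 0 := by
      ext v
      have : v ∈ (⊤ : Submodule K V) := Submodule.mem_top
      rw [htop, Submodule.mem_bot] at this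
      simp [this]
    have := h 1 h1
    rw [map_one] at this
    exact one_ne_zero this
  obtain ⟨v, -, hv0, hv⟩ := exists_eigenvector_aux ρ φ (Module.finrank K (⊤ : Submodule K V)) ⊤
    le_rfl hne (fun _ _ _ => Submodule.mem_top)
    (fun a ha => h a (LinearMap.ext fun v => by simpa using ha v Submodule.mem_top))
  exact ⟨v, hv0, hv⟩

end Abstract

section EvalComm

variable {R0 M I : Type*} [CommRing R0] [Ring M] [Algebra R0 M]

open scoped IsMulCommutative in
/-- Evaluation of multivariate polynomials at a commuting family of elements of a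
(possibly noncommutative) algebra. -/
noncomputable def evalComm (x : I → M) (hx : ∀ i j, x i * x j = x j * x i) :
    MvPolynomial I R0 →ₐ[R0] M :=
  haveI : IsMulCommutative (Algebra.adjoin R0 (Set.range x)) :=
    Algebra.isMulCommutative_adjoin R0 (by rintro _ ⟨i, rfl⟩ _ ⟨j, rfl⟩; exact hx i j)
  (Algebra.adjoin R0 (Set.range x)).val.comp
    (MvPolynomial.aeval fun i =>
      (⟨x i, Algebra.subset_adjoin ⟨i, rfl⟩⟩ : Algebra.adjoin R0 (Set.range x)))

theorem evalComm_X (x : I → M) (hx : ∀ i j, x i * x j = x j * x i) (i : I) :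
    evalComm (R0 := R0) x hx (MvPolynomial.X i) = x i := by
  simp [evalComm]

end EvalComm

section Wiring

variable {N p : ℕ} [NeZero N] [Fact p.Prime]

/-- The index type of the Hecke operators entering the eigen-lattice. -/
abbrev Idx (N : ℕ) (S : Finset ℕ) : Type :=
  {ℓ : ℕ // ℓ.Prime ∧ ¬ ℓ ∣ N ∧ ℓ ∉ (↑S : Set ℕ)}

/-- The Hecke operator attached to an index. -/
noncomputable def heckeT (S : Finset ℕ) (i : Idx N S) : CuspForm.heckeAlgebra N 2 (↑S : Set ℕ) :=
  CuspForm.heckeAlgebra.T i.2.1 i.2.2.1 i.2.2.2

/-- Evaluation of integer polynomials at the integer Hecke matrices. -/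
noncomputable def evZ (D : ESData N p) (S : Finset ℕ) :
    MvPolynomial (Idx N S) ℤ →ₐ[ℤ] Matrix (Fin D.r) (Fin D.r) ℤ :=
  evalComm (fun i : Idx N S => D.t i.1) (fun i j => (D.t_comm i.1 j.1).eq)

/-- Evaluation of integer polynomials at the Hecke operators. -/
noncomputable def evT (S : Finset ℕ) :
    MvPolynomial (Idx N S) ℤ →ₐ[ℤ] CuspForm.heckeAlgebra N 2 (↑S : Set ℕ) :=
  MvPolynomial.aeval (heckeT (N := N) S)

/-- Evaluation of polynomials over a commutative ring `K` at the Hecke matrices. -/
noncomputable def evK (D : ESData N p) (S : Finset ℕ) (K : Type*) [CommRing K] :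
    MvPolynomial (Idx N S) K →ₐ[K] Matrix (Fin D.r) (Fin D.r) K :=
  evalComm (fun i : Idx N S => D.tR K i.1) (fun i j => by
    have h := congrArg (fun M : Matrix (Fin D.r) (Fin D.r) ℤ => M.map (Int.castRingHom K))
      (D.t_comm i.1 j.1).eq
    simp only [Matrix.map_mul] at h
    exact h)

theorem evZ_X (D : ESData N p) (S : Finset ℕ) (i : Idx N S) :
    evZ D S (MvPolynomial.X i) = D.t i.1 := evalComm_X _ _ i

theorem evK_X (D : ESData N p) (S : Finset ℕ) (K : Type*) [CommRing K] (i : Idx N S) :
    evK D S K (MvPolynomial.X i) = D.tR K i.1 := evalComm_X _ _ i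

/-- Base change of the evaluation at the Hecke matrices. -/
theorem evK_map (D : ESData N p) (S : Finset ℕ) (K : Type*) [CommRing K]
    (P : MvPolynomial (Idx N S) ℤ) :
    evK D S K (MvPolynomial.map (Int.castRingHom K) P) = (evZ D S P).map (Int.castRingHom K) := by
  have h : ((evK D S K).toRingHom.comp (MvPolynomial.map (Int.castRingHom K)) :
      MvPolynomial (Idx N S) ℤ →+* Matrix (Fin D.r) (Fin D.r) K) =
      ((Int.castRingHom K).mapMatrix.comp (evZ D S).toRingHom) := by
    apply MvPolynomial.ringHom_ext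
    · intro a
      rw [eq_intCast (MvPolynomial.C : ℤ →+* MvPolynomial (Idx N S) ℤ) a]
      simp
    · intro i
      simp [evK_X, evZ_X, ESData.tR]
  exact congrArg (fun f => f P) h

/-- **Transfer of relations** (uses `D.occ`): an integer polynomial relation between the Hecke
matrices holds between the Hecke operators. -/
theorem evT_eq_zero_of_evZ_eq_zero (D : ESData N p) (S : Finset ℕ) (hpS : p ∈ S)
    (P : MvPolynomial (Idx N S) ℤ) (hP : evZ D S P = 0) : evT (N := N) S P = 0 := by
  obtain ⟨Φ, hΦinj, hΦ⟩ := D.occ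
  have key : ∀ (Q : MvPolynomial (Idx N S) ℤ) (f : CuspForm (CongruenceSubgroup.Gamma0 N) 2),
      Φ ((evT (N := N) S Q : Module.End ℂ (CuspForm (CongruenceSubgroup.Gamma0 N) 2)) f) =
        ((evZ D S Q).map (Int.castRingHom ℂ)).mulVec (Φ f) := by
    intro Q
    induction Q using MvPolynomial.induction_on with
    | C a =>
      intro f
      rw [eq_intCast (MvPolynomial.C : ℤ →+* MvPolynomial (Idx N S) ℤ) a, map_intCast, map_intCast]
      have h1 : (((a : ℤ) : Matrix (Fin D.r) (Fin D.r) ℤ)).map (Int.castRingHom ℂ) =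
          ((a : ℤ) : Matrix (Fin D.r) (Fin D.r) ℂ) := by
        have := map_intCast ((Int.castRingHom ℂ).mapMatrix :
          Matrix (Fin D.r) (Fin D.r) ℤ →+* Matrix (Fin D.r) (Fin D.r) ℂ) a
        exact this
      rw [h1, Matrix.intCast_mulVec, SubringClass.coe_intCast, Module.End.intCast_apply, map_zsmul,
        Int.cast_smul_eq_zsmul]
    | add Q₁ Q₂ h₁ h₂ =>
      intro f
      rw [map_add, map_add, Subalgebra.coe_add, LinearMap.add_apply, map_add, h₁, h₂,
        Matrix.map_add, Matrix.add_mulVec]
      · intro x y; simp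
    | mul_X Q i h =>
      intro f
      rw [map_mul, map_mul, Subalgebra.coe_mul, Module.End.mul_apply, h, evZ_X]
      have hi : i.1 ≠ p := by
        intro hip
        exact i.2.2.2 (by rw [hip]; exact Finset.mem_coe.mpr hpS)
      have h2 : Φ ((evT (N := N) S (MvPolynomial.X i) :
          Module.End ℂ (CuspForm (CongruenceSubgroup.Gamma0 N) 2)) f) =
          ((D.t i.1).map (Int.castRingHom ℂ)).mulVec (Φ f) := by
        have := hΦ i.1 i.2.1 i.2.2.1 hi f
        simpa [evT, heckeT] using this
      rw [h2, Matrix.mulVec_mulVec, Matrix.map_mul]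
  have h0 : ∀ f, (evT (N := N) S P : Module.End ℂ (CuspForm (CongruenceSubgroup.Gamma0 N) 2)) f
      = 0 := by
    intro f
    apply hΦinj
    rw [key, hP, map_zero]
    simp
  exact Subtype.ext (LinearMap.ext h0)

/-- **Engine.Eigen**: the eigen-lattice of a character of the Hecke algebra is nonzero. -/
theorem eigenLattice_ne_bot (D : ESData N p) (S : Finset ℕ) (hpS : p ∈ S)
    (hNS : ∀ q : ℕ, q.Prime → q ∣ N → q ∈ S) {R : Type} [CommRing R] [IsDomain R] [CharZero R]
    (χ : CuspForm.heckeAlgebra N 2 (↑S : Set ℕ) →+* R) : eigenLattice D S χ ≠ ⊥ := by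
  classical
  let K := FractionRing R
  have : CharZero K := charZero_of_injective_algebraMap (IsFractionRing.injective R K)
  -- the eigenvalues
  let lam : Idx N S → K := fun i => algebraMap R K (χ (heckeT S i))
  let lamZ : MvPolynomial (Idx N S) ℤ →+* K :=
    (algebraMap R K).comp (χ.comp (evT (N := N) S).toRingHom)
  -- extension of the character to an additive functional on all integer matrices
  obtain ⟨ψ, hψ⟩ : ∃ ψ : Matrix (Fin D.r) (Fin D.r) ℤ →+ K, ∀ P, ψ (evZ D S P) = lamZ P := by
    let e : MvPolynomial (Idx N S) ℤ →+ Matrix (Fin D.r) (Fin D.r) ℤ :=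
      (evZ D S).toRingHom.toAddMonoidHom
    have hker : e.ker ≤ (lamZ.toAddMonoidHom).ker := by
      intro P hP
      rw [AddMonoidHom.mem_ker] at hP ⊢
      have h0 := evT_eq_zero_of_evZ_eq_zero D S hpS P hP
      show algebraMap R K (χ (evT S P)) = 0
      rw [h0, map_zero, map_zero]
    obtain ⟨g', hg'⟩ := (Module.Baer.of_divisible K).extension_property_addMonoidHom
      (QuotientAddGroup.kerLift e) (QuotientAddGroup.kerLift_injective e)
      (QuotientAddGroup.lift e.ker lamZ.toAddMonoidHom hker)
    refine ⟨g', fun P => ?_⟩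
    have h := DFunLike.congr_fun hg' (QuotientAddGroup.mk P)
    rw [AddMonoidHom.comp_apply, QuotientAddGroup.kerLift_mk, QuotientAddGroup.lift_mk] at h
    exact h
  -- the `K`-linear functional on matrices over `K`
  let Ψ : Matrix (Fin D.r) (Fin D.r) K →ₗ[K] K :=
    ∑ a, ∑ b, (ψ (Matrix.single a b (1 : ℤ))) • Matrix.entryLinearMap K K a b
  have hΨint : ∀ m : Matrix (Fin D.r) (Fin D.r) ℤ, Ψ (m.map (Int.castRingHom K)) = ψ m := by
    intro m
    conv_rhs => rw [Matrix.matrix_eq_sum_single m]
    simp only [Ψ, LinearMap.sum_apply, LinearMap.smul_apply, Matrix.entryLinearMap_apply,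
      Matrix.map_apply, map_sum]
    refine Finset.sum_congr rfl fun a _ => Finset.sum_congr rfl fun b _ => ?_
    have h1 : Matrix.single a b (m a b) = (m a b) • Matrix.single a b (1 : ℤ) := by
      rw [Matrix.smul_single]
      simp
    rw [h1, map_zsmul, zsmul_eq_mul, smul_eq_mul, mul_comm]
    simp
  have hΨZ : ∀ Q : MvPolynomial (Idx N S) ℤ,
      Ψ (evK D S K (MvPolynomial.map (Int.castRingHom K) Q)) =
        MvPolynomial.aeval lam (MvPolynomial.map (Int.castRingHom K) Q) := by
    intro Q
    rw [evK_map, hΨint, hψ]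
    have h : lamZ = ((MvPolynomial.aeval lam : MvPolynomial (Idx N S) K →ₐ[K] K).toRingHom.comp
        (MvPolynomial.map (Int.castRingHom K))) := by
      apply MvPolynomial.ringHom_ext
      · intro a
        rw [eq_intCast (MvPolynomial.C : ℤ →+* MvPolynomial (Idx N S) ℤ) a]
        simp
      · intro i
        simp [lamZ, lam, evT]
    exact congrArg (fun f => f Q) h
  have hΨ : ∀ P : MvPolynomial (Idx N S) K, Ψ (evK D S K P) = MvPolynomial.aeval lam P := by
    intro P
    induction P using MvPolynomial.induction_on' with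
    | monomial u a =>
      have h1 : MvPolynomial.monomial u a =
          a • MvPolynomial.map (Int.castRingHom K) (MvPolynomial.monomial u (1 : ℤ)) := by
        rw [MvPolynomial.map_monomial, MvPolynomial.smul_monomial]
        simp
      rw [h1, map_smul, map_smul, map_smul, hΨZ]
    | add P Q hP hQ => rw [map_add, map_add, map_add, hP, hQ]
  -- the eigenvector over `K`
  let ρ : MvPolynomial (Idx N S) K →ₐ[K] Module.End K (Fin D.r → K) :=
    (Matrix.toLinAlgEquiv' :
      Matrix (Fin D.r) (Fin D.r) K ≃ₐ[K] Module.End K (Fin D.r → K)).toAlgHom.comp (evK D S K)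
  obtain ⟨v, hv0, hv⟩ := exists_eigenvector ρ (MvPolynomial.aeval lam) (by
    intro P hP
    have h0 : evK D S K P = 0 := by
      apply (Matrix.toLinAlgEquiv' :
        Matrix (Fin D.r) (Fin D.r) K ≃ₐ[K] Module.End K (Fin D.r → K)).injective
      rw [map_zero]
      exact hP
    rw [← hΨ, h0, map_zero])
  have hv' : ∀ i : Idx N S, (D.tR K i.1).mulVec v = lam i • v := by
    intro i
    have := hv (MvPolynomial.X i)
    simpa [ρ, evK_X, Matrix.toLinAlgEquiv'_apply] using this
  -- clear denominators
  obtain ⟨b, hb⟩ := IsLocalization.exist_integer_multiples_of_finite (nonZeroDivisors R) v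
  have hb' : ∀ i, ∃ x : R, algebraMap R K x = (b : R) • v i := fun i => hb i
  choose w hw using hb'
  have hb0 : algebraMap R K (b : R) ≠ 0 :=
    IsFractionRing.to_map_ne_zero_of_mem_nonZeroDivisors b.2
  have hw0 : w ≠ 0 := by
    intro h
    apply hv0
    funext i
    have h1 := hw i
    rw [h, Pi.zero_apply, map_zero, Algebra.smul_def] at h1
    exact (mul_eq_zero.mp h1.symm).resolve_left hb0
  have hmem : w ∈ eigenLattice D S χ := by
    intro ℓ hℓ hℓN hℓS
    funext j
    apply IsFractionRing.injective R K
    have h1 := hv' ⟨ℓ, hℓ, hℓN, hℓS⟩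
    have h2 : (D.tR R ℓ).map (algebraMap R K) = D.tR K ℓ := by
      ext a c
      simp [ESData.tR, Matrix.map_apply]
    have h3 : (algebraMap R K) ∘ w = (b : R) • v := by
      funext i
      exact hw i
    rw [RingHom.map_mulVec, h2, h3, Matrix.mulVec_smul, h1]
    simp only [Pi.smul_apply, smul_eq_mul, map_mul, lam, heckeT]
    rw [hw j, Algebra.smul_def, Algebra.smul_def]
    ring
  intro hbot
  rw [hbot, Submodule.mem_bot] at hmem
  exact hw0 hmem

end Wiring

end Fermat.Agent.S30.Eigen
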