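/-
S30 ENGINE, row Engine.Eigen (helper61): the brick statement in the shape consumed by
`EngineMain.result_of_bricks`.
-/
import Fermat.Agent.S30.Eigen
import Fermat.Agent.S30.EngineMain

set_option autoImplicit false

namespace Fermat.Agent.S30.Eigen

/-- Row 214 in the exact shape `EngineMain.EigenStatement`. -/
theorem eigenStatement : Fermat.Agent.S30.EngineMain.EigenStatement :=
  fun _ _ _ _ D S hpS hNS _ _ _ _ χ => eigenLattice_ne_bot D S hpS hNS χ

end Fermat.Agent.S30.Eigen
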