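/-
S30 ENGINE brick (helper244, tasks row 215 `Engine.QuadRel`).

Every `g : G_ℚ` satisfies a quadratic relation `ρ(g)² - a ρ(g) + ε(g) = 0` on the eigen-lattice
of a Hecke character:

* `exists_limit`   : the LIMIT LEMMA in scalar form over a complete DVR;
* `exists_approx`  : the FROBENIUS-POWER STEP (Frobenius density + `D.es` + Lucas + `D.cont`
                     + continuity of the cyclotomic character) giving the relation modulo `𝔪 ^ n`;
* `exists_quadratic_relation_of_density` : the statement of `EnginePlan.exists_quadratic_relation`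
                     with the Frobenius density lemma as an explicit hypothesis.
-/
import Mathlib
import Fermat.Agent.S30.EigenLattice
import Fermat.Agent.S30.CycloChar

set_option autoImplicit false

namespace Fermat.Agent.S30.QuadRel

open Fermat.Agent.S30 IsLocalRing

/-! ### The limit lemma -/

section Limit

variable {O : Type*} [CommRing O] [IsDomain O] [IsDiscreteValuationRing O]

/-- Cancellation in a DVR: for `c ≠ 0` there is `k` with `x * c ∈ 𝔪 ^ (n + k) → x ∈ 𝔪 ^ n`. -/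
theorem exists_cancel (c : O) (hc : c ≠ 0) :
    ∃ k : ℕ, ∀ (x : O) (n : ℕ), x * c ∈ maximalIdeal O ^ (n + k) → x ∈ maximalIdeal O ^ n := by
  obtain ⟨ϖ, hϖ⟩ := IsDiscreteValuationRing.exists_irreducible O
  obtain ⟨k, u, hu⟩ := IsDiscreteValuationRing.eq_unit_mul_pow_irreducible hc hϖ
  refine ⟨k, fun x n hx => ?_⟩
  rw [hϖ.maximalIdeal_eq, Ideal.span_singleton_pow, Ideal.mem_span_singleton] at hx ⊢
  obtain ⟨y, hy⟩ := hx
  have hϖ0 : ϖ ^ k ≠ 0 := pow_ne_zero k hϖ.ne_zero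
  have h1 : (x * (u : O)) * ϖ ^ k = (ϖ ^ n * y) * ϖ ^ k := by
    rw [hu] at hy
    rw [mul_assoc, hy, pow_add]
    ring
  have h2 : x * (u : O) = ϖ ^ n * y := mul_right_cancel₀ hϖ0 h1
  refine ⟨y * ((u⁻¹ : Oˣ) : O), ?_⟩
  calc x = x * (u : O) * ((u⁻¹ : Oˣ) : O) := by rw [mul_assoc, Units.mul_inv, mul_one]
    _ = ϖ ^ n * (y * ((u⁻¹ : Oˣ) : O)) := by rw [h2, mul_assoc]

omit [IsDomain O] [IsDiscreteValuationRing O] in
theorem mem_pow_smul_top_iff (I : Ideal O) (n : ℕ) (x : O) :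
    x ∈ (I ^ n • ⊤ : Submodule O O) ↔ x ∈ I ^ n := by
  rw [smul_eq_mul, Ideal.mul_top]

/-- **Limit lemma**, scalar form.  Over a complete DVR, if for every `n` some scalar `a` makes all
the quantities `w t - a * u t` lie in `𝔪 ^ n`, then one scalar makes them all vanish. -/
theorem exists_limit [IsAdicComplete (maximalIdeal O) O] {T : Type*} (u w : T → O)
    (h : ∀ n : ℕ, ∃ a : O, ∀ t, w t - a * u t ∈ maximalIdeal O ^ n) :
    ∃ a : O, ∀ t, w t - a * u t = 0 := by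
  classical
  have hHaus : ∀ x : O, (∀ n, x ∈ maximalIdeal O ^ n) → x = 0 := by
    intro x hx
    have hH : IsHausdorff (maximalIdeal O) O := inferInstance
    refine IsHausdorff.haus hH x fun n => ?_
    rw [SModEq.sub_mem, sub_zero, mem_pow_smul_top_iff]
    exact hx n
  by_cases hu : ∀ t, u t = 0
  · refine ⟨0, fun t => hHaus _ fun n => ?_⟩
    obtain ⟨a, ha⟩ := h n
    have h1 := ha t
    rw [hu t, mul_zero] at h1 ⊢
    exact h1
  · push Not at hu
    obtain ⟨t0, ht0⟩ := hu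
    obtain ⟨k, hk⟩ := exists_cancel (u t0) ht0
    choose a ha using h
    have hcauchy : ∀ {m n : ℕ}, m ≤ n → a (m + k) - a (n + k) ∈ maximalIdeal O ^ m := by
      intro m n hmn
      apply hk
      have h1 := ha (m + k) t0
      have h2 : w t0 - a (n + k) * u t0 ∈ maximalIdeal O ^ (m + k) :=
        Ideal.pow_le_pow_right (by omega) (ha (n + k) t0)
      have h3 : (a (m + k) - a (n + k)) * u t0
          = (w t0 - a (n + k) * u t0) - (w t0 - a (m + k) * u t0) := by ring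
      rw [h3]
      exact Ideal.sub_mem _ h2 h1
    have hP : IsPrecomplete (maximalIdeal O) O := inferInstance
    obtain ⟨L, hL⟩ := IsPrecomplete.prec hP (f := fun m => a (m + k)) (by
      intro m n hmn
      rw [SModEq.sub_mem, mem_pow_smul_top_iff]
      exact hcauchy hmn)
    refine ⟨L, fun t => hHaus _ fun n => ?_⟩
    have h1 : w t - a (n + k) * u t ∈ maximalIdeal O ^ n :=
      Ideal.pow_le_pow_right (by omega) (ha (n + k) t)
    have h2 : a (n + k) - L ∈ maximalIdeal O ^ n := by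
      have h := hL n
      rw [SModEq.sub_mem, mem_pow_smul_top_iff] at h
      exact h
    have h3 : w t - L * u t = (w t - a (n + k) * u t) + (a (n + k) - L) * u t := by ring
    rw [h3]
    exact Ideal.add_mem _ h1 (Ideal.mul_mem_right _ _ h2)

end Limit

/-! ### Vectors with coordinates in an ideal -/

section VecIdeal

variable {R : Type*} [CommRing R] {n : Type*} [Fintype n]

/-- The submodule of vectors all of whose coordinates lie in the ideal `J`. -/
def vecIdeal (J : Ideal R) (n : Type*) : Submodule R (n → R) :=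
  Submodule.pi Set.univ (fun _ => J)

omit [Fintype n] in
theorem mem_vecIdeal {J : Ideal R} {v : n → R} : v ∈ vecIdeal J n ↔ ∀ i, v i ∈ J := by
  simp [vecIdeal, Submodule.mem_pi]

theorem mulVec_mem_of_entries {J : Ideal R} {Z : Matrix n n R} (hZ : ∀ i j, Z i j ∈ J)
    (v : n → R) : Z.mulVec v ∈ vecIdeal J n := by
  rw [mem_vecIdeal]
  intro i
  simp only [Matrix.mulVec, dotProduct]
  exact Ideal.sum_mem _ fun j _ => Ideal.mul_mem_right _ _ (hZ i j)

theorem mulVec_mem_of_mem {J : Ideal R} (M : Matrix n n R) {v : n → R}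
    (hv : v ∈ vecIdeal J n) : M.mulVec v ∈ vecIdeal J n := by
  rw [mem_vecIdeal] at hv ⊢
  intro i
  simp only [Matrix.mulVec, dotProduct]
  exact Ideal.sum_mem _ fun j _ => Ideal.mul_mem_left _ _ (hv j)

omit [Fintype n] in
theorem smul_mem_of_mem {J : Ideal R} {c : R} (hc : c ∈ J) (v : n → R) :
    c • v ∈ vecIdeal J n := by
  rw [mem_vecIdeal]
  intro i
  simp only [Pi.smul_apply, smul_eq_mul]
  exact Ideal.mul_mem_right _ _ hc

/-- Powers of the restriction of a matrix to a stable submodule. -/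
theorem restrict_pow_apply [DecidableEq n] (E : Submodule R (n → R)) (Y : Matrix n n R)
    (hY : ∀ v ∈ E, Y.mulVecLin v ∈ E) (b : ℕ) (m : E) :
    (((Y.mulVecLin.restrict hY : Module.End R E) ^ b) m : n → R) = (Y ^ b).mulVec m := by
  induction b generalizing m with
  | zero => simp
  | succ b ih =>
    rw [pow_succ, Module.End.mul_apply, ih, pow_succ, ← Matrix.mulVec_mulVec]
    rfl

end VecIdeal

/-! ### The Frobenius-power step -/

section Main

variable {N p : ℕ} [NeZero N] [Fact p.Prime]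

/-- The shape of the Frobenius density lemma (`Lib.FrobeniusDensity.exists_frobenius_pow_eq`)
consumed here. -/
def DensityStatement : Prop :=
  ∀ (L : IntermediateField ℚ (AlgebraicClosure ℚ)) [FiniteDimensional ℚ L] (S : Finset ℕ)
    (g : GQ),
    ∃ (ℓ : ℕ) (A : ValuationSubring (AlgebraicClosure ℚ)) (s : GQ) (b : ℕ),
      ℓ.Prime ∧ ℓ ∉ S ∧ A.LiesOverPrime ℓ ∧ A.IsFrobeniusAt s ℓ ∧ 0 < b ∧
        ∀ x ∈ L, (s ^ b) x = g x

/-- **Frobenius-power step**: modulo `𝔪 ^ n` the element `g` satisfies a quadratic relation on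
the eigen-lattice. -/
theorem exists_approx (hdens : DensityStatement) (D : ESData N p) (S : Finset ℕ) (hpS : p ∈ S)
    (hNS : ∀ q : ℕ, q.Prime → q ∣ N → q ∈ S)
    (𝒪' : Type) [CommRing 𝒪'] [IsDomain 𝒪'] [IsDiscreteValuationRing 𝒪']
    (hp : (p : 𝒪') ∈ maximalIdeal 𝒪') (ι : ℤ_[p] →+* 𝒪')
    (χ : CuspForm.heckeAlgebra N 2 (↑S : Set ℕ) →+* 𝒪') (g : GQ) (n : ℕ) :
    ∃ a : 𝒪', ∀ m ∈ eigenLattice D S χ,
      (D.ρR ι g).mulVec ((D.ρR ι g).mulVec m) - a • (D.ρR ι g).mulVec m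
        + ι ((CycloChar.eps p g : ℤ_[p]ˣ) : ℤ_[p]) • m
          ∈ vecIdeal (maximalIdeal 𝒪' ^ n) (Fin D.r) := by
  classical
  obtain ⟨L1, hL1fin, hL1⟩ := D.cont n
  have := hL1fin
  have := CycloChar.finiteDimensional_cycloField p n
  obtain ⟨ℓ, A, s, b, hℓ, hℓS, hA, hs, -, hsg⟩ :=
    hdens (L1 ⊔ CycloChar.cycloField p n) S g
  have hℓp : ℓ ≠ p := fun h => hℓS (h ▸ hpS)
  have hℓN : ¬ ℓ ∣ N := fun h => hℓS (hNS ℓ hℓ h)
  have hℓS' : ℓ ∉ (↑S : Set ℕ) := by simpa using hℓS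
  set J : Ideal 𝒪' := maximalIdeal 𝒪' ^ n with hJ
  have hιJ : ∀ x : ℤ_[p], x ∈ Ideal.span {(p : ℤ_[p]) ^ n} → ι x ∈ J := by
    intro x hx
    obtain ⟨y, rfl⟩ := Ideal.mem_span_singleton.mp hx
    rw [map_mul, map_pow, map_natCast]
    exact Ideal.mul_mem_right _ _ (Ideal.pow_mem_pow hp n)
  -- the three matrices
  obtain ⟨X, hX⟩ : ∃ X, X = D.ρR ι g := ⟨_, rfl⟩
  obtain ⟨Ys, hYs⟩ : ∃ Ys, Ys = D.ρR ι s := ⟨_, rfl⟩
  obtain ⟨W, hW⟩ : ∃ W, W = D.ρR ι (s ^ b) := ⟨_, rfl⟩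
  have hWpow : W = Ys ^ b := by rw [hW, hYs, map_pow]
  -- `X - W` has entries in `J`
  have hZ : ∀ i j, (X - W) i j ∈ J := by
    intro i j
    obtain ⟨σ, hσ⟩ : ∃ σ : GQ, σ = (s ^ b)⁻¹ * g := ⟨_, rfl⟩
    have hσfix : ∀ x ∈ L1, σ x = x := by
      intro x hx
      have hx' : x ∈ L1 ⊔ CycloChar.cycloField p n := (le_sup_left : L1 ≤ _) hx
      have h := hsg x hx'
      rw [hσ, AlgEquiv.mul_apply, ← h, ← AlgEquiv.mul_apply, inv_mul_cancel, AlgEquiv.one_apply]
    have hg : g = s ^ b * σ := by rw [hσ, mul_inv_cancel_left]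
    have h1 := hL1 σ hσfix
    have h2 : D.ρ g - D.ρ (s ^ b) = D.ρ (s ^ b) * (D.ρ σ - 1) := by
      rw [mul_sub, mul_one, ← map_mul, ← hg]
    have h3 : (X - W) i j = ι ((D.ρ g - D.ρ (s ^ b)) i j) := by
      rw [hX, hW, ESData.ρR_apply, ESData.ρR_apply, Matrix.sub_apply, Matrix.sub_apply,
        Matrix.map_apply, Matrix.map_apply, map_sub]
    rw [h3, h2]
    apply hιJ
    rw [Matrix.mul_apply]
    exact Ideal.sum_mem _ fun k _ => Ideal.mul_mem_left _ _ (h1 k j)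
  -- the Eichler–Shimura relation for `Ys`
  have hes := D.es ℓ hℓ hℓN hℓp A hA s hs
  have hesR : Ys * Ys - D.tR 𝒪' ℓ * Ys + (ℓ : Matrix (Fin D.r) (Fin D.r) 𝒪') = 0 := by
    have h := congrArg (ι.mapMatrix : Matrix (Fin D.r) (Fin D.r) ℤ_[p] →+* _) hes
    rw [map_add, map_sub, map_mul, map_mul, map_zero, map_natCast] at h
    have h2 : ι.mapMatrix ((D.t ℓ).map (Int.castRingHom ℤ_[p])) = D.tR 𝒪' ℓ := by
      ext i j
      simp [ESData.tR, Matrix.map_apply]
    have h3 : ι.mapMatrix (D.ρ s) = Ys := by rw [hYs]; rfl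
    rw [h2, h3] at h
    exact h
  -- restriction to the eigen-lattice
  obtain ⟨E, hE⟩ : ∃ E, E = eigenLattice D S χ := ⟨_, rfl⟩
  have hst : ∀ v ∈ E, Ys.mulVecLin v ∈ E := by
    intro v hv
    rw [hE] at hv ⊢
    rw [hYs]
    exact eigenLattice_stable D S ι χ s hv
  obtain ⟨x, hx⟩ : ∃ x : Module.End 𝒪' E, x = Ys.mulVecLin.restrict hst := ⟨_, rfl⟩
  obtain ⟨c, hc⟩ : ∃ c : 𝒪', c = χ (CuspForm.heckeAlgebra.T hℓ hℓN hℓS') := ⟨_, rfl⟩
  have hxm : ∀ m : E, ((x m : E) : Fin D.r → 𝒪') = Ys.mulVec m := by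
    intro m
    rw [hx]
    rfl
  have hrel : x * x - c • x + (ℓ : 𝒪') • (1 : Module.End 𝒪' E) = 0 := by
    refine LinearMap.ext fun m => Subtype.ext ?_
    have hm' : Ys.mulVec (m : Fin D.r → 𝒪') ∈ eigenLattice D S χ := by
      have h := hst m m.2
      rw [← hE]
      exact h
    have heig : (D.tR 𝒪' ℓ).mulVec (Ys.mulVec (m : Fin D.r → 𝒪')) = c • Ys.mulVec (m : Fin D.r → 𝒪') := by
      rw [hc]
      exact hm' ℓ hℓ hℓN hℓS'
    have h := congrArg (fun M : Matrix (Fin D.r) (Fin D.r) 𝒪' => M.mulVec (m : Fin D.r → 𝒪')) hesR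
    simp only [Matrix.add_mulVec, Matrix.sub_mulVec, Matrix.zero_mulVec, ← Matrix.mulVec_mulVec,
      Matrix.natCast_mulVec] at h
    rw [heig] at h
    simp only [LinearMap.add_apply, LinearMap.sub_apply, LinearMap.smul_apply,
      Module.End.mul_apply, Module.End.one_apply, LinearMap.zero_apply, Submodule.coe_add,
      Submodule.coe_sub, Submodule.coe_smul, ZeroMemClass.coe_zero, hxm]
    exact h
  -- Lucas
  have hl := CycloChar.lucas_algebra x c (ℓ : 𝒪') hrel b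
  obtain ⟨a, ha⟩ : ∃ a : 𝒪', a = CycloChar.lucasS c (ℓ : 𝒪') b := ⟨_, rfl⟩
  rw [← ha] at hl
  have hxb : ∀ m : E, (((x ^ b) m : E) : Fin D.r → 𝒪') = W.mulVec m := by
    intro m
    rw [hx, restrict_pow_apply, hWpow]
  have hbr : ∀ m : E, W.mulVec (W.mulVec (m : Fin D.r → 𝒪')) - a • W.mulVec (m : Fin D.r → 𝒪')
      + (ℓ : 𝒪') ^ b • (m : Fin D.r → 𝒪') = 0 := by
    intro m
    have h := congrArg (fun f : Module.End 𝒪' E => ((f m : E) : Fin D.r → 𝒪')) hl
    simp only [LinearMap.add_apply, LinearMap.sub_apply, LinearMap.smul_apply,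
      Module.End.mul_apply, Module.End.one_apply, LinearMap.zero_apply, Submodule.coe_add,
      Submodule.coe_sub, Submodule.coe_smul, ZeroMemClass.coe_zero, hxb] at h
    exact h
  -- the cyclotomic character
  have heJ : ι ((CycloChar.eps p g : ℤ_[p]ˣ) : ℤ_[p]) - (ℓ : 𝒪') ^ b ∈ J := by
    have h := hιJ _ (CycloChar.eps_pow_frobenius p n hℓ hℓp A hA s hs g b
      (fun x hx => (hsg x ((le_sup_right : CycloChar.cycloField p n ≤ _) hx)).symm))
    rw [map_sub, map_pow, map_natCast] at h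
    exact h
  -- assembly
  refine ⟨a, fun m hm => ?_⟩
  rw [← hX]
  obtain ⟨e, he⟩ : ∃ e : 𝒪', e = ι ((CycloChar.eps p g : ℤ_[p]ˣ) : ℤ_[p]) := ⟨_, rfl⟩
  rw [← he] at heJ ⊢
  obtain ⟨Z, hZdef⟩ : ∃ Z, Z = X - W := ⟨_, rfl⟩
  rw [← hZdef] at hZ
  have hXWZ : X = W + Z := by rw [hZdef]; abel
  have e1 : X.mulVec m = W.mulVec m + Z.mulVec m := by rw [hXWZ, Matrix.add_mulVec]
  have e2 : X.mulVec (X.mulVec m) =
      W.mulVec (W.mulVec m) + W.mulVec (Z.mulVec m) + Z.mulVec (X.mulVec m) := by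
    conv_lhs => rw [hXWZ, Matrix.add_mulVec]
    rw [← hXWZ, e1, Matrix.mulVec_add]
  have hm' : m ∈ E := by rw [hE]; exact hm
  have h0 := hbr ⟨m, hm'⟩
  simp only at h0
  have key : X.mulVec (X.mulVec m) - a • X.mulVec m + e • m =
      W.mulVec (Z.mulVec m) + Z.mulVec (X.mulVec m) - a • Z.mulVec m
        + (e - (ℓ : 𝒪') ^ b) • m := by
    have h4 : X.mulVec (X.mulVec m) - a • X.mulVec m + e • m =
        (W.mulVec (W.mulVec m) - a • W.mulVec m + (ℓ : 𝒪') ^ b • m)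
          + (W.mulVec (Z.mulVec m) + Z.mulVec (X.mulVec m) - a • Z.mulVec m
            + (e - (ℓ : 𝒪') ^ b) • m) := by
      have e1' : a • X.mulVec m = a • W.mulVec m + a • Z.mulVec m := by rw [e1, smul_add]
      rw [e2, e1']
      module
    rw [h4, h0, zero_add]
  rw [key]
  refine Submodule.add_mem _ (Submodule.sub_mem _ (Submodule.add_mem _ ?_ ?_) ?_) ?_
  · exact mulVec_mem_of_mem W (mulVec_mem_of_entries hZ m)
  · exact mulVec_mem_of_entries hZ _
  · exact Submodule.smul_mem _ a (mulVec_mem_of_entries hZ m)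
  · exact smul_mem_of_mem heJ m

/-- **Engine.QuadRel**, with the Frobenius density lemma as a hypothesis: every `g : G_ℚ`
satisfies a quadratic relation on the eigen-lattice of `χ`, with constant term the cyclotomic
character. -/
theorem exists_quadratic_relation_of_density (hdens : DensityStatement) (D : ESData N p)
    (S : Finset ℕ) (hpS : p ∈ S) (hNS : ∀ q : ℕ, q.Prime → q ∣ N → q ∈ S)
    (𝒪' : Type) [CommRing 𝒪'] [IsDomain 𝒪'] [IsDiscreteValuationRing 𝒪']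
    [IsAdicComplete (maximalIdeal 𝒪') 𝒪']
    (hp : (p : 𝒪') ∈ maximalIdeal 𝒪') (ι : ℤ_[p] →+* 𝒪')
    (χ : CuspForm.heckeAlgebra N 2 (↑S : Set ℕ) →+* 𝒪') (g : GQ) :
    ∃ a : 𝒪', ∀ m ∈ eigenLattice D S χ,
      (D.ρR ι g).mulVec ((D.ρR ι g).mulVec m) - a • (D.ρR ι g).mulVec m
        + ι ((CycloChar.eps p g : ℤ_[p]ˣ) : ℤ_[p]) • m = 0 := by
  obtain ⟨a, ha⟩ := exists_limit (O := 𝒪') (T := ↥(eigenLattice D S χ) × Fin D.r)
    (fun t => ((D.ρR ι g).mulVec (t.1 : Fin D.r → 𝒪')) t.2)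
    (fun t => ((D.ρR ι g).mulVec ((D.ρR ι g).mulVec (t.1 : Fin D.r → 𝒪'))) t.2
      + ι ((CycloChar.eps p g : ℤ_[p]ˣ) : ℤ_[p]) * (t.1 : Fin D.r → 𝒪') t.2)
    (by
      intro n
      obtain ⟨a, ha⟩ := exists_approx hdens D S hpS hNS 𝒪' hp ι χ g n
      refine ⟨a, fun t => ?_⟩
      have h := mem_vecIdeal.mp (ha t.1 t.1.2) t.2
      simp only [Pi.add_apply, Pi.sub_apply, Pi.smul_apply, smul_eq_mul] at h
      have h2 : ((D.ρR ι g).mulVec ((D.ρR ι g).mulVec (t.1 : Fin D.r → 𝒪'))) t.2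
          + ι ((CycloChar.eps p g : ℤ_[p]ˣ) : ℤ_[p]) * (t.1 : Fin D.r → 𝒪') t.2
          - a * ((D.ρR ι g).mulVec (t.1 : Fin D.r → 𝒪')) t.2
          = ((D.ρR ι g).mulVec ((D.ρR ι g).mulVec (t.1 : Fin D.r → 𝒪'))) t.2
          - a * ((D.ρR ι g).mulVec (t.1 : Fin D.r → 𝒪')) t.2
          + ι ((CycloChar.eps p g : ℤ_[p]ˣ) : ℤ_[p]) * (t.1 : Fin D.r → 𝒪') t.2 := by ring
      rw [h2]
      exact h)
  refine ⟨a, fun m hm => ?_⟩
  funext i
  have h := ha (⟨m, hm⟩, i)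
  simp only [Pi.add_apply, Pi.sub_apply, Pi.smul_apply, smul_eq_mul, Pi.zero_apply]
  simp only at h
  linear_combination h

/-- The same statement with all arguments explicit, in the literal shape of
`EngineMain.QuadRelStatement` (row 215), from the Frobenius density lemma. -/
theorem quadRelStatement_of_density (hdens : DensityStatement) :
    ∀ (N p : ℕ) [NeZero N] [Fact p.Prime] (D : ESData N p) (S : Finset ℕ) (_ : p ∈ S)
      (_ : ∀ q : ℕ, q.Prime → q ∣ N → q ∈ S)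
      (𝒪' : Type) [CommRing 𝒪'] [IsDomain 𝒪'] [IsDiscreteValuationRing 𝒪']
      [IsAdicComplete (IsLocalRing.maximalIdeal 𝒪') 𝒪'] [CharZero 𝒪']
      (_ : (p : 𝒪') ∈ IsLocalRing.maximalIdeal 𝒪') (ι : ℤ_[p] →+* 𝒪')
      (χ : CuspForm.heckeAlgebra N 2 (↑S : Set ℕ) →+* 𝒪') (g : GQ),
      ∃ a : 𝒪', ∀ m ∈ eigenLattice D S χ,
        (D.ρR ι g).mulVec ((D.ρR ι g).mulVec m) - a • (D.ρR ι g).mulVec m
          + ι ((CycloChar.eps p g : ℤ_[p]ˣ) : ℤ_[p]) • m = 0 :=
  fun _ _ _ _ D S hpS hNS 𝒪' _ _ _ _ _ hp ι χ g =>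
    exists_quadratic_relation_of_density hdens D S hpS hNS 𝒪' hp ι χ g

end Main

end Fermat.Agent.S30.QuadRel
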