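/-
S30 ENGINE — FINAL (helper210).  All engine bricks are discharged: the statement of S30 follows
from the existence of Eichler–Shimura data `ESData N p` alone.  Sorry-free.

`Fermat/Agent/S30.lean` is then the single line
`theorem result := EngineFinal.result_of_esData (fun N p => <producer>)`.
-/
import Mathlib
import Fermat.Agent.S30.EngineMain
import Fermat.Agent.S30.EigenBrick
import Fermat.Agent.S30.QuadRel
import Fermat.Agent.S30.ConjCliffordBrick
import Fermat.Agent.Lib.FrobeniusDensity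

set_option autoImplicit false
open Polynomial

namespace Fermat.Agent.S30.EngineFinal

open Fermat.Agent.S30

/-- **S30 from Eichler–Shimura data.**  The frozen statement of S30, assuming only that
`ESData N p` is inhabited for every level `N` and prime `p`. -/
theorem result_of_esData
    (hES : ∀ (N p : ℕ) [NeZero N] [Fact p.Prime], Nonempty (ESData N p)) :
    ∀ (p : ℕ) [Fact p.Prime] (N : ℕ) [NeZero N] (S : Finset ℕ)
      (_hpS : p ∈ S) (_hNS : ∀ q : ℕ, q.Prime → q ∣ N → q ∈ S)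
      (𝒪' : Type) [CommRing 𝒪'] [IsDomain 𝒪'] [IsDiscreteValuationRing 𝒪']
      [IsAdicComplete (IsLocalRing.maximalIdeal 𝒪') 𝒪'] [Finite (IsLocalRing.ResidueField 𝒪')]
      [CharZero 𝒪'] (_hp𝒪' : (p : 𝒪') ∈ IsLocalRing.maximalIdeal 𝒪')
      (χ : CuspForm.heckeAlgebra N 2 (↑S : Set ℕ) →+* 𝒪'),
      ∃ (𝒪'' : Type) (_ : CommRing 𝒪'') (_ : IsDomain 𝒪'') (_ : IsDiscreteValuationRing 𝒪'')
        (_ : IsAdicComplete (IsLocalRing.maximalIdeal 𝒪'') 𝒪'')
        (_ : Finite (IsLocalRing.ResidueField 𝒪'')) (_ : CharZero 𝒪'')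
        (_ : Algebra 𝒪' 𝒪'') (_ : Module.Finite 𝒪' 𝒪'') (_ : IsLocalHom (algebraMap 𝒪' 𝒪'')),
      Function.Injective (algebraMap 𝒪' 𝒪'') ∧
      ∃ ρ : GaloisRepAdic 𝒪'',
        (∀ (ℓ : ℕ) (hℓ : ℓ.Prime) (hℓN : ¬ ℓ ∣ N) (hℓS : ℓ ∉ (↑S : Set ℕ)),
          ∀ A : ValuationSubring (AlgebraicClosure ℚ), A.LiesOverPrime ℓ →
            ∀ σ : AlgebraicClosure ℚ ≃ₐ[ℚ] AlgebraicClosure ℚ, A.IsFrobeniusAt σ ℓ →
              LinearMap.charpoly (ρ.ρ σ) =
                X ^ 2 - C (algebraMap 𝒪' 𝒪'' (χ (CuspForm.heckeAlgebra.T hℓ hℓN hℓS))) * X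
                  + C ((ℓ : 𝒪''))) ∧
        (∀ q : ℕ, q.Prime → ¬ q ∣ N → q ≠ p → ρ.IsUnramifiedAt q) :=
  EngineMain.result_of_bricks Eigen.eigenStatement
    (QuadRel.quadRelStatement_of_density
      (fun L _ S g => Fermat.Agent.Lib.FrobeniusDensity.exists_frobenius_pow_eq L S g))
    ConjClifford.conjCliffordStatement hES

end Fermat.Agent.S30.EngineFinal
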