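import Fermat.Agent.S24.JHol
import Fermat.Agent.S24.JOrd
import Fermat.Agent.S24.AdjoinShift
import Fermat.Agent.S24.FibreCount.Main
import Fermat.Agent.S30.PlacePoint.Generic

set_option autoImplicit false

/-!
# Stability of "all orders on the upper half plane are divisible by `m`" under automorphisms

Setting (`CData N F`): a field `F` over `ℂ` (the function field `ℂ(j(q^d) : d ∣ N)`), a generating
subalgebra `F₀` with an injective ring homomorphism `θ : F₀ → HolH` ("the function with this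
`q`-expansion") having exact stabiliser `Γ₀(N)`, `θ j = jHol`, and `[F : ℂ(j)] ≤ [SL₂(ℤ) : Γ₀(N)]`.

For `τ : ℍ` the order function `D.ord τ : F → ℤ` is `ord_τ (θ a) - ord_τ (θ b)` on `a / b`.

Main result `dvd_ord_of_ringEquiv`: if `s : F ≃+* F` is a ring automorphism fixing `j` and
acting on the constants through some `σ : ℂ ≃+* ℂ` (e.g. the coefficientwise action of `σ` on
`q`-expansions), and `m ∣ D.ord τ f` for all `τ`, then `m ∣ D.ord τ (s f)` for all `τ`.

The proof is the uniformisation statement `exists_ord_eq`: every order function `u` on `F`,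
trivial on `ℂˣ`, with `u (j - a) = sExp a` (`sExp a = 3, 2, 1` for `a = 0`, `1728`, else) is
`D.ord τ'` for some `τ'`.
-/

noncomputable section

namespace Fermat.Agent.S30.AutStable

open UpperHalfPlane CongruenceSubgroup IntermediateField AlgebraicCurve
open Fermat.Agent.S24.HolH Fermat.Agent.S24.JHol Fermat.Agent.S24.JFun
open Fermat.Agent.S24.FibreCount.ValPlace Fermat.Agent.S24.FibreCount.Main
open Fermat.Agent.S24
open scoped MatrixGroups

/-! ### Local exponents of `j` -/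

/-- The order of vanishing of `j - c` at any point above `c`. -/
def sExp (c : ℂ) : ℕ := if c = 0 then 3 else if c = 1728 then 2 else 1

theorem sExp_pos (c : ℂ) : 0 < sExp c := by
  unfold sExp
  split_ifs <;> norm_num

theorem sExp_ringEquiv (σ : ℂ ≃+* ℂ) (c : ℂ) : sExp (σ c) = sExp c := by
  have h0 : σ c = 0 ↔ c = 0 := by
    constructor
    · intro h
      have := congrArg σ.symm h
      simpa using this
    · rintro rfl
      exact map_zero σ
  have h1 : σ c = 1728 ↔ c = 1728 := by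
    constructor
    · intro h
      have h2 : σ c = σ 1728 := by rw [h, map_ofNat]
      exact σ.injective h2
    · rintro rfl
      exact map_ofNat σ 1728
  unfold sExp
  simp only [h0, h1]

/-- `j - j(τ)` vanishes at `τ` to order exactly `sExp (j τ)`. -/
theorem ordZ_jHol_sub (τ : ℍ) :
    ordZ τ (jHol - algebraMap ℂ HolH (jFun τ)) = sExp (jFun τ) := by
  unfold sExp
  split_ifs with h0 h1
  · rw [h0, map_zero, sub_zero]
    have h : ordAt τ jHol = 3 := by
      rw [ordAt, toC_jHol]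
      exact Fermat.Agent.S24.JOrd.analyticOrderAt_jH_of_eq_zero τ h0
    rw [ordZ, h]
    rfl
  · rw [h1]
    have h : ordAt τ (jHol - algebraMap ℂ HolH 1728) = 2 := by
      rw [ordAt, toC_jHol_sub]
      exact Fermat.Agent.S24.JOrd.analyticOrderAt_jH_sub_1728 τ h1
    rw [ordZ, h]
    rfl
  · rw [ordZ_jHol_sub_self τ h0 h1]
    rfl

/-! ### Generic place → embedding lemma with an inequality on the degree -/

section Emb

variable {K F : Type*} [Field K] [Field F] [Algebra K F]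

/-- Variant of `PlacePoint.exists_emb_field` needing only `[F : K(x)] ≤ #I`. -/
theorem exists_emb_field_of_le [CharZero K]
    (x : F) (hx : Transcendental K x) (hfin : FiniteDimensional K⟮x⟯ F)
    {E : Type*} [Field E] (u : E → ℤ) (hu : IsOrd u)
    {I : Type*} [Fintype I] [Nonempty I] (ι : I → F →+* E) (hι : Function.Injective ι)
    (hcard : Module.finrank K⟮x⟯ F ≤ Fintype.card I)
    (hK : ∀ i j (c : K), ι i (algebraMap K F c) = ι j (algebraMap K F c))
    (hxx : ∀ i j, ι i x = ι j x)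
    (hconst : ∀ i (c : K), c ≠ 0 → u (ι i (algebraMap K F c)) = 0)
    (hxpos : ∀ i, 0 < u (ι i x))
    (v : Place K F) (hv : 0 < v.ord x) :
    ∃ i, ∃ κ : ℤ, 0 < κ ∧ ∀ f : F, f ≠ 0 → u (ι i f) = κ * v.ord f := by
  classical
  have hx0 : x ≠ 0 := by
    rintro rfl
    exact hx isAlgebraic_zero
  have : Fact (Transcendental K x) := ⟨hx⟩
  have : Module.Finite K⟮x⟯ F := hfin
  have huI : ∀ i, IsOrd (fun f => u (ι i f)) := fun i => hu.comp (ι i)
  have hnt : ∀ i, ∃ t : F, t ≠ 0 ∧ 0 < (fun f => u (ι i f)) t := fun i => ⟨x, hx0, hxpos i⟩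
  let P : I → Place K F := fun i => placeOfOrd (huI i) (hconst i) (hnt i)
  have hram : ∀ i, ∃ κ : ℤ, 0 < κ ∧ (∃ π : F, π ≠ 0 ∧ u (ι i π) = κ) ∧
      ∀ f : F, f ≠ 0 → u (ι i f) = κ * (P i).ord f := fun i =>
    exists_ramification_placeOfOrd (huI i) (hconst i) (hnt i)
  choose κ hκpos hκπ hκ using hram
  have hPx : ∀ i, 0 < (P i).ord x := by
    intro i
    have h := hκ i x hx0
    have h2 := hxpos i
    rw [h] at h2
    exact (mul_pos_iff_of_pos_left (hκpos i)).mp h2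
  have hsurj : ∃ i, P i = v := by
    by_contra hne
    simp only [not_exists] at hne
    obtain ⟨a, ha0, hPa, hN⟩ := FibreCount.Avoid.exists_norm_pos K x v hv P hPx hne
    let i₀ : I := Classical.arbitrary I
    obtain ⟨-, hprod⟩ :=
      FibreCount.NormProd.norm_eq_prod_of_embeddings (K := K) x ι hι hK hxx hcard i₀
    have h1 := hprod a
    have hN0 : algebraMap K⟮x⟯ F (Algebra.norm K⟮x⟯ a) ≠ 0 := by
      have : Algebra.norm K⟮x⟯ a ≠ 0 := by
        rw [Ne, Algebra.norm_eq_zero_iff]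
        exact ha0
      simpa using this
    have h2 := hκ i₀ _ hN0
    have h3 : u (∏ i, ι i a) = ∑ i, u (ι i a) :=
      hu.map_prod Finset.univ (fun i => ι i a) (fun i _ => (map_ne_zero (ι i)).mpr ha0)
    have h4 : ∑ i, u (ι i a) = 0 :=
      Finset.sum_eq_zero (fun i _ => by rw [hκ i a ha0, hPa i, mul_zero])
    have h5 := hN (P i₀) (hPx i₀)
    have h6 : u (ι i₀ (algebraMap K⟮x⟯ F (Algebra.norm K⟮x⟯ a))) = 0 := by
      have : ι i₀ (algebraMap K⟮x⟯ F (Algebra.norm K⟮x⟯ a)) = ∏ i, ι i a := h1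
      rw [this, h3, h4]
    rw [h6] at h2
    have : 0 < κ i₀ * (P i₀).ord (algebraMap K⟮x⟯ F (Algebra.norm K⟮x⟯ a)) :=
      mul_pos (hκpos i₀) h5
    omega
  obtain ⟨i, hi⟩ := hsurj
  refine ⟨i, κ i, hκpos i, fun f hf => ?_⟩
  rw [hκ i f hf, hi]

end Emb

/-! ### The data -/

/-- Analytic uniformisation data over `ℂ` for the function field of `X₀(N)`. -/
structure CData (N : ℕ) (F : Type*) [Field F] [Algebra ℂ F] where
  /-- the element `j` -/
  jF : F
  /-- a generating subalgebra -/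
  F₀ : Subalgebra ℂ F
  hF₀ : ∀ f : F, ∃ a b : F₀, (b : F) ≠ 0 ∧ f * b = a
  hj : jF ∈ F₀
  /-- evaluation on the upper half plane -/
  θ : F₀ →+* HolH
  θ_inj : Function.Injective θ
  θ_const : ∀ c : ℂ, θ (algebraMap ℂ F₀ c) = algebraMap ℂ HolH c
  θ_j : θ ⟨jF, hj⟩ = jHol
  θ_inv : ∀ g ∈ Gamma0 N, ∀ f : F₀, compSL g (θ f) = θ f
  θ_stab : ∀ g : SL(2, ℤ), (∀ f : F₀, compSL g (θ f) = θ f) → g ∈ Gamma0 N
  trans : Transcendental ℂ jF
  fin : FiniteDimensional ℂ⟮jF⟯ F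
  deg_le : Module.finrank ℂ⟮jF⟯ F ≤ Nat.card (SL(2, ℤ) ⧸ Gamma0 N)

namespace CData

variable {N : ℕ} {F : Type*} [Field F] [Algebra ℂ F] (D : CData N F)

theorem isFractionRing : IsFractionRing D.F₀ F := by
  apply IsFractionRing.of_field
  intro f
  obtain ⟨a, b, hb, hab⟩ := D.hF₀ f
  refine ⟨a, b, ?_⟩
  show f = (a : F) / (b : F)
  rw [eq_div_iff hb]
  exact hab

/-- The twisted evaluation `f ↦ θ f ∘ γ`. -/
def ρ (γ : SL(2, ℤ)) : D.F₀ →+* HolH :=
  ((compSL γ : HolH →ₐ[ℂ] HolH) : HolH →+* HolH).comp D.θ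

theorem ρ_apply (γ : SL(2, ℤ)) (f : D.F₀) : D.ρ γ f = compSL γ (D.θ f) := rfl

theorem ρ_injective (γ : SL(2, ℤ)) : Function.Injective (D.ρ γ) :=
  (compSL_injective _).comp D.θ_inj

theorem ρ_const (γ : SL(2, ℤ)) (c : ℂ) :
    D.ρ γ (algebraMap ℂ D.F₀ c) = algebraMap ℂ HolH c := by
  rw [ρ_apply, D.θ_const, AlgHom.commutes]

/-- The element `j - a` of `F₀`. -/
def num (a : ℂ) : D.F₀ :=
  ⟨D.jF - algebraMap ℂ F a, sub_mem D.hj (Subalgebra.algebraMap_mem _ a)⟩

theorem coe_num (a : ℂ) : ((D.num a : D.F₀) : F) = D.jF - algebraMap ℂ F a := rfl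

theorem θ_num (a : ℂ) : D.θ (D.num a) = jHol - algebraMap ℂ HolH a := by
  have h : D.num a = ⟨D.jF, D.hj⟩ - algebraMap ℂ D.F₀ a := rfl
  rw [h, map_sub, D.θ_j, D.θ_const]

theorem ρ_num (γ : SL(2, ℤ)) (a : ℂ) : D.ρ γ (D.num a) = jHol - algebraMap ℂ HolH a := by
  rw [ρ_apply, θ_num, compSL_jHol_sub]

theorem num_ne_zero (a : ℂ) : D.num a ≠ 0 := by
  intro h
  have h1 := congrArg D.θ h
  rw [θ_num, map_zero] at h1
  exact jHol_sub_ne_zero a h1

/-- `ρ γ` followed by the inclusion into the fraction field. -/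
def ρFrac (γ : SL(2, ℤ)) : D.F₀ →+* FractionRing HolH :=
  (algebraMap HolH (FractionRing HolH)).comp (D.ρ γ)

theorem ρFrac_apply (γ : SL(2, ℤ)) (a : D.F₀) :
    D.ρFrac γ a = algebraMap HolH (FractionRing HolH) (D.ρ γ a) := rfl

theorem ρFrac_injective (γ : SL(2, ℤ)) : Function.Injective (D.ρFrac γ) := by
  intro a b h
  rw [ρFrac_apply, ρFrac_apply] at h
  exact D.ρ_injective γ (IsFractionRing.injective HolH (FractionRing HolH) h)

/-- The field embedding `F → Frac HolH` induced by `ρ γ`. -/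
def emb (γ : SL(2, ℤ)) : F →+* FractionRing HolH :=
  @IsFractionRing.lift D.F₀ _ F _ (FractionRing HolH) _ _ D.isFractionRing (D.ρFrac γ)
    (D.ρFrac_injective γ)

theorem emb_coe (γ : SL(2, ℤ)) (a : D.F₀) :
    D.emb γ (a : F) = algebraMap HolH (FractionRing HolH) (D.ρ γ a) :=
  @IsFractionRing.lift_algebraMap D.F₀ _ F _ (FractionRing HolH) _ _ D.isFractionRing
    (D.ρFrac γ) (D.ρFrac_injective γ) a

theorem exists_frac {f : F} (hf : f ≠ 0) :
    ∃ a b : D.F₀, a ≠ 0 ∧ b ≠ 0 ∧ f = (a : F) / (b : F) := by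
  obtain ⟨a, b, hb, hab⟩ := D.hF₀ f
  refine ⟨a, b, ?_, ?_, by rw [eq_div_iff hb]; exact hab⟩
  · rintro rfl
    rw [ZeroMemClass.coe_zero] at hab
    exact mul_ne_zero hf hb hab
  · rintro rfl
    exact hb rfl

theorem coe_ne_zero {a : D.F₀} (ha : a ≠ 0) : (a : F) ≠ 0 := fun h => ha (Subtype.ext h)

/-- The order function at `τ` of the `γ`-twisted evaluation. -/
def ordG (γ : SL(2, ℤ)) (τ : ℍ) (f : F) : ℤ := ordFrac (ordZ τ) (D.emb γ f)

/-- The order at `τ ∈ ℍ` of an element of `F`. -/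
def ord (τ : ℍ) (f : F) : ℤ := D.ordG 1 τ f

theorem isOrd_ordFrac (τ : ℍ) : IsOrd (ordFrac (R := HolH) (ordZ τ)) :=
  Fermat.Agent.S24.FibreCount.Main.isOrd_ordFrac (fun _ _ ha hb => ordZ_mul τ ha hb)
    (fun _ _ ha hb hab => min_le_ordZ_add τ ha hb hab)

theorem isOrd_ordG (γ : SL(2, ℤ)) (τ : ℍ) : IsOrd (D.ordG γ τ) :=
  (isOrd_ordFrac τ).comp (D.emb γ)

theorem isOrd_ord (τ : ℍ) : IsOrd (D.ord τ) := D.isOrd_ordG 1 τ

theorem ordG_coe (γ : SL(2, ℤ)) (τ : ℍ) {a : D.F₀} (ha : a ≠ 0) :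
    D.ordG γ τ (a : F) = ordZ τ (D.ρ γ a) := by
  rw [ordG, emb_coe]
  exact ordFrac_algebraMap (fun _ _ ha hb => ordZ_mul τ ha hb)
    ((map_ne_zero_iff _ (D.ρ_injective γ)).mpr ha)

theorem ordG_div (γ : SL(2, ℤ)) (τ : ℍ) {a b : D.F₀} (ha : a ≠ 0) (hb : b ≠ 0) :
    D.ordG γ τ ((a : F) / (b : F)) = ordZ τ (D.ρ γ a) - ordZ τ (D.ρ γ b) := by
  rw [(D.isOrd_ordG γ τ).map_div (D.coe_ne_zero ha) (D.coe_ne_zero hb), ordG_coe D γ τ ha,
    ordG_coe D γ τ hb]

theorem ρ_one (f : D.F₀) : D.ρ 1 f = D.θ f := by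
  rw [ρ_apply, compSL_one]

/-- `D.ord τ (a / b) = ord_τ (θ a) - ord_τ (θ b)`. -/
theorem ord_div (τ : ℍ) {a b : D.F₀} (ha : a ≠ 0) (hb : b ≠ 0) :
    D.ord τ ((a : F) / (b : F)) = ordZ τ (D.θ a) - ordZ τ (D.θ b) := by
  rw [ord, ordG_div D 1 τ ha hb, ρ_one, ρ_one]

theorem ord_coe (τ : ℍ) {a : D.F₀} (ha : a ≠ 0) : D.ord τ (a : F) = ordZ τ (D.θ a) := by
  rw [ord, ordG_coe D 1 τ ha, ρ_one]

/-- The twisted order at `τ` is the order at `γ • τ`. -/
theorem ordG_eq_ord (γ : SL(2, ℤ)) (τ : ℍ) {f : F} (hf : f ≠ 0) :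
    D.ordG γ τ f = D.ord (γ • τ) f := by
  obtain ⟨a, b, ha, hb, rfl⟩ := D.exists_frac hf
  rw [ordG_div D γ τ ha hb, ord_div D (γ • τ) ha hb, ρ_apply, ρ_apply, ordZ_compSL, ordZ_compSL]

theorem ordG_algebraMap (γ : SL(2, ℤ)) (τ : ℍ) {c : ℂ} (hc : c ≠ 0) :
    D.ordG γ τ (algebraMap ℂ F c) = 0 := by
  have h0 : algebraMap ℂ D.F₀ c ≠ 0 := by
    intro h
    have h1 := congrArg D.θ h
    rw [D.θ_const, map_zero] at h1
    have h2 := congrArg (fun φ : HolH => (φ : ℍ → ℂ) τ) h1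
    exact hc h2
  have h1 : algebraMap ℂ F c = ((algebraMap ℂ D.F₀ c : D.F₀) : F) := rfl
  rw [h1, ordG_coe D γ τ h0, ρ_const]
  exact ordZ_algebraMap hc

theorem ord_algebraMap (τ : ℍ) {c : ℂ} (hc : c ≠ 0) : D.ord τ (algebraMap ℂ F c) = 0 :=
  D.ordG_algebraMap 1 τ hc

theorem ordG_num (γ : SL(2, ℤ)) (τ : ℍ) (a : ℂ) :
    D.ordG γ τ (D.jF - algebraMap ℂ F a) = ordZ τ (jHol - algebraMap ℂ HolH a) := by
  rw [← coe_num, ordG_coe D γ τ (D.num_ne_zero a), ρ_num]

/-- `D.ord τ (j - j(τ)) = sExp (j τ)`. -/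
theorem ord_num_self (τ : ℍ) :
    D.ord τ (D.jF - algebraMap ℂ F (jFun τ)) = sExp (jFun τ) := by
  rw [ord, ordG_num, ordZ_jHol_sub]

theorem emb_injective_of_mem (γ γ' : SL(2, ℤ)) (h : D.emb γ = D.emb γ') :
    γ * γ'⁻¹ ∈ Gamma0 N := by
  refine D.θ_stab _ fun f => ?_
  have h1 : D.ρ γ f = D.ρ γ' f := by
    apply IsFractionRing.injective HolH (FractionRing HolH)
    rw [← emb_coe, ← emb_coe, h]
  rw [ρ_apply, ρ_apply] at h1
  rw [compSL_mul, h1, compSL_inv_compSL]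

end CData

/-! ### Uniformisation and the main theorem -/

section Main

variable {N : ℕ} [NeZero N] {F : Type*} [Field F] [Algebra ℂ F] (D : CData N F)

/-- **Uniformisation.**  Every order function on `F`, trivial on the constants, whose value at
`j - a` is the local exponent `sExp a`, is the order function of a point of `ℍ`. -/
theorem exists_ord_eq (u : F → ℤ) (hu : IsOrd u)
    (hK : ∀ c : ℂ, c ≠ 0 → u (algebraMap ℂ F c) = 0) (a : ℂ)
    (hua : u (D.jF - algebraMap ℂ F a) = sExp a) :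
    ∃ τ' : ℍ, ∀ f : F, f ≠ 0 → u f = D.ord τ' f := by
  classical
  have hfinq : Finite (SL(2, ℤ) ⧸ Gamma0 N) := Subgroup.finite_quotient_of_finiteIndex
  let _ : Fintype (SL(2, ℤ) ⧸ Gamma0 N) := Fintype.ofFinite _
  set x : F := D.jF - algebraMap ℂ F a with hxdef
  have hx : Transcendental ℂ x :=
    Fermat.Agent.S24.AdjoinShift.transcendental_sub_algebraMap D.trans a
  have hx0 : x ≠ 0 := by
    intro h
    rw [h] at hx
    exact hx isAlgebraic_zero
  have hfin : FiniteDimensional ℂ⟮x⟯ F :=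
    Fermat.Agent.S24.AdjoinShift.finiteDimensional_sub_algebraMap D.jF a D.fin
  have hspos : (0 : ℤ) < sExp a := by exact_mod_cast sExp_pos a
  -- the place of `u`
  have hnt : ∃ t : F, t ≠ 0 ∧ 0 < u t := ⟨x, hx0, by rw [hua]; exact hspos⟩
  obtain ⟨κu, hκu, -, huv⟩ := exists_ramification_placeOfOrd hu hK hnt
  set v : Place ℂ F := placeOfOrd hu hK hnt with hvdef
  have hv : 0 < v.ord x := by
    have h := huv x hx0
    rw [hua] at h
    rw [h] at hspos
    exact (mul_pos_iff_of_pos_left hκu).mp hspos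
  -- a point above `a` and the embeddings
  obtain ⟨τa, hτa⟩ := jFun_surjective a
  let ι : SL(2, ℤ) ⧸ Gamma0 N → F →+* FractionRing HolH := fun i => D.emb (Quotient.out i)⁻¹
  have hι : Function.Injective ι := by
    intro i i' h
    have h1 := D.emb_injective_of_mem _ _ h
    rw [inv_inv] at h1
    have h2 : (QuotientGroup.mk (Quotient.out i) : SL(2, ℤ) ⧸ Gamma0 N)
        = QuotientGroup.mk (Quotient.out i') := QuotientGroup.eq.mpr h1
    rwa [QuotientGroup.out_eq', QuotientGroup.out_eq'] at h2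
  have hw := CData.isOrd_ordFrac τa
  have hord : ∀ i (f : F), ordFrac (ordZ τa) (ι i f) = D.ordG (Quotient.out i)⁻¹ τa f :=
    fun i f => rfl
  have hcard : Module.finrank ℂ⟮x⟯ F ≤ Fintype.card (SL(2, ℤ) ⧸ Gamma0 N) := by
    rw [hxdef, Fermat.Agent.S24.AdjoinShift.finrank_sub_algebraMap, ← Nat.card_eq_fintype_card]
    exact D.deg_le
  have hemb : ∀ (γ : SL(2, ℤ)) (c : ℂ),
      D.emb γ (algebraMap ℂ F c) = algebraMap HolH (FractionRing HolH) (algebraMap ℂ HolH c) := by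
    intro γ c
    have h1 : algebraMap ℂ F c = ((algebraMap ℂ D.F₀ c : D.F₀) : F) := rfl
    rw [h1, CData.emb_coe, CData.ρ_const]
  have hembx : ∀ γ : SL(2, ℤ),
      D.emb γ x = algebraMap HolH (FractionRing HolH) (jHol - algebraMap ℂ HolH a) := by
    intro γ
    rw [hxdef, ← CData.coe_num, CData.emb_coe, CData.ρ_num]
  have hxval : ∀ i, ordFrac (ordZ τa) (ι i x) = sExp a := by
    intro i
    rw [hord, hxdef, CData.ordG_num]
    have h := ordZ_jHol_sub τa
    rw [hτa] at h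
    exact h
  obtain ⟨i, κ, hκ, hi⟩ := exists_emb_field_of_le x hx hfin (ordFrac (ordZ τa)) hw ι hι hcard
    (fun i j c => by show D.emb _ _ = D.emb _ _; rw [hemb, hemb])
    (fun i j => by show D.emb _ _ = D.emb _ _; rw [hembx, hembx])
    (fun i c hc => by rw [hord]; exact D.ordG_algebraMap _ τa hc)
    (fun i => by rw [hxval]; exact hspos) v hv
  -- comparison of the two multiples at `x`
  have h1 := hi x hx0
  rw [hxval] at h1
  have h2 := huv x hx0
  rw [hua] at h2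
  have hκeq : κ = κu := by
    have h3 : κ * v.ord x = κu * v.ord x := by rw [← h1, ← h2]
    exact mul_right_cancel₀ hv.ne' h3
  refine ⟨(Quotient.out i)⁻¹ • τa, fun f hf => ?_⟩
  rw [← D.ordG_eq_ord _ τa hf, ← hord, hi f hf, huv f hf, hκeq]

/-- **Aut-stability.**  If a ring automorphism `s` of `F` fixes `j` and acts on the constants
through a ring automorphism `σ` of `ℂ`, then divisibility by `m` of all orders on `ℍ` is
preserved by `s`. -/
theorem dvd_ord_of_ringEquiv (σ : ℂ ≃+* ℂ) (s : F ≃+* F)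
    (hs : ∀ c : ℂ, s (algebraMap ℂ F c) = algebraMap ℂ F (σ c)) (hsj : s D.jF = D.jF)
    (m : ℤ) {f : F} (hf : f ≠ 0) (h : ∀ τ : ℍ, m ∣ D.ord τ f) (τ : ℍ) :
    m ∣ D.ord τ (s f) := by
  -- the order function `u = ord_τ ∘ s`
  have hu : IsOrd (fun g : F => D.ord τ (s g)) := (D.isOrd_ord τ).comp (s : F →+* F)
  have hK : ∀ c : ℂ, c ≠ 0 → D.ord τ (s (algebraMap ℂ F c)) = 0 := by
    intro c hc
    rw [hs]
    exact D.ord_algebraMap τ ((map_ne_zero σ).mpr hc)
  have hua : D.ord τ (s (D.jF - algebraMap ℂ F (σ.symm (jFun τ)))) = sExp (σ.symm (jFun τ)) := by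
    rw [map_sub, hsj, hs, RingEquiv.apply_symm_apply, D.ord_num_self,
      ← sExp_ringEquiv σ (σ.symm (jFun τ)), RingEquiv.apply_symm_apply]
  obtain ⟨τ', hτ'⟩ := exists_ord_eq D (fun g : F => D.ord τ (s g)) hu hK _ hua
  have h1 : D.ord τ (s f) = D.ord τ' f := hτ' f hf
  rw [h1]
  exact h τ'

end Main

end Fermat.Agent.S30.AutStable

end
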