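import Mathlib
import Fermat.Agent.S21
import Fermat.Agent.S22.GammaFG
import Fermat.Agent.S16.LB.HeckePeriod
import Fermat.Agent.S30.BettiHecke.Hom
import Fermat.Prelude.Thm_CuspForm_heckeTLin_comm

/-!
# S30 / E5: the homology-side group `A N` with its Hecke operators

`A N := Γ₀(N)^ab / ⟨γ : (tr γ)² ≤ 4⟩` (the elements of trace² at most `4` are `± 1`, the elliptic
and the parabolic elements), so that `Hom(A N, M)` is the group of homomorphisms `Γ₀(N) → M`
trivial on elliptic and parabolic elements, for EVERY coefficient group `M` (torsion allowed).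

* `cls`, `lift`, `lift_cls`, `hom_ext`: universal property; `A_fg`.
* `tau N ℓ : A N →+ A N`: the Hecke operator (transfer), with `tau_cls` and `comp_tau`
  (`c ∘ tau = tHom (c ∘ cls)`, `tHom` from `BettiHecke.Hom`).  That `tHom cls` kills the relations
  is the CYCLE LEMMA (`sum_eq_zero_of_cycles` + `trace_pow_sq_le`), valid with torsion.
* `tau_comm`, `occ`: exactly the hypotheses `hτ`, `occ` of `BettiLimit.nonempty_esData`.
* `exists_fixed_of_trace_sq_lt`, `mem_peSet_cases`, `kills_peSet_of`: how to check that a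
  homomorphism kills `peSet` (fixed point in `ℍ` / conjugate of `± T ^ n`).
-/

set_option autoImplicit false

open scoped MatrixGroups
open CongruenceSubgroup Matrix.SpecialLinearGroup ModularForm ModularCurve ModularCurve.Period
open UpperHalfPlane
open Fermat.Agent.S22.HeckePerm Fermat.Agent.S30.BettiHecke

namespace Fermat.Agent.S30.BettiA


/-! ### Traces of powers in `SL(2, ℤ)` -/

/-- Cayley–Hamilton for `2 × 2` integer matrices of determinant one. -/
theorem mul_self_eq_of_det (M : Matrix (Fin 2) (Fin 2) ℤ) (h : M.det = 1) :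
    M * M = M.trace • M - 1 := by
  rw [Matrix.det_fin_two] at h
  have e : ∀ i j, (M * M) i j = M i 0 * M 0 j + M i 1 * M 1 j := fun i j => by
    rw [Matrix.mul_apply, Fin.sum_univ_two]
  ext i j
  rw [e, Matrix.sub_apply, Matrix.smul_apply, smul_eq_mul, Matrix.trace_fin_two, Matrix.one_apply]
  fin_cases i <;> fin_cases j
  · simp
    linear_combination -h
  · simp
    ring
  · simp
    ring
  · simp
    linear_combination -h

theorem trace_pow_succ_succ (M : Matrix (Fin 2) (Fin 2) ℤ) (h : M.det = 1) (k : ℕ) :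
    (M ^ (k + 2)).trace = M.trace * (M ^ (k + 1)).trace - (M ^ k).trace := by
  have h1 : M ^ (k + 2) = M.trace • M ^ (k + 1) - M ^ k := by
    rw [pow_add, pow_two, mul_self_eq_of_det M h, mul_sub, mul_one, Matrix.mul_smul, ← pow_succ]
  rw [h1, Matrix.trace_sub, Matrix.trace_smul, smul_eq_mul]

theorem trace_pow_invariant (M : Matrix (Fin 2) (Fin 2) ℤ) (h : M.det = 1) (k : ℕ) :
    (M ^ k).trace ^ 2 - M.trace * (M ^ k).trace * (M ^ (k + 1)).trace + (M ^ (k + 1)).trace ^ 2
      = 4 - M.trace ^ 2 := by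
  induction k with
  | zero =>
    simp [Matrix.trace_one]
    ring
  | succ k ih =>
    rw [trace_pow_succ_succ M h k]
    linear_combination ih

/-- If `(tr M)² ≤ 4` then `(tr M^k)² ≤ 4` for all `k` (`M ∈ SL₂(ℤ)`). -/
theorem trace_pow_sq_le (M : Matrix (Fin 2) (Fin 2) ℤ) (h : M.det = 1) (ht : M.trace ^ 2 ≤ 4)
    (k : ℕ) : (M ^ k).trace ^ 2 ≤ 4 := by
  have hinv := trace_pow_invariant M h
  rcases lt_or_eq_of_le ht with hlt | heq
  · -- elliptic case
    by_contra hcon
    rw [not_le] at hcon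
    have h1 := hinv k
    nlinarith [mul_pos (show (0 : ℤ) < 4 - M.trace ^ 2 by linarith)
      (show (0 : ℤ) < (M ^ k).trace ^ 2 - 4 by linarith),
      sq_nonneg (2 * (M ^ (k + 1)).trace - M.trace * (M ^ k).trace)]
  · -- parabolic case
    have key : ∀ k : ℕ, (M ^ k).trace ^ 2 = 4 := by
      intro k
      induction k with
      | zero => simp [Matrix.trace_one]
      | succ k ih =>
        have h1 := hinv k
        have h2 : (2 * (M ^ (k + 1)).trace - M.trace * (M ^ k).trace) ^ 2 = 0 := by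
          nlinarith
        have h3 : 2 * (M ^ (k + 1)).trace = M.trace * (M ^ k).trace := by
          have := pow_eq_zero_iff (two_ne_zero) |>.mp h2
          linarith
        nlinarith
    exact (key k).le

/-! ### Sums over a permutation, cycle by cycle -/

theorem sum_eq_zero_of_cycles {ι M : Type*} [Fintype ι] [DecidableEq ι] [AddCommMonoid M]
    (σ : Equiv.Perm ι) (h : ι → M)
    (H : ∀ (x : ι) (k : ℕ), 0 < k → (σ ^ k) x = x →
      ∑ i ∈ Finset.range k, h ((σ ^ i) x) = 0) :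
    ∑ x, h x = 0 := by
  classical
  have key : ∀ (n : ℕ) (s : Finset ι), s.card = n → (∀ x ∈ s, σ x ∈ s) → ∑ x ∈ s, h x = 0 := by
    intro n
    induction n using Nat.strong_induction_on with
    | _ n ih =>
      intro s hs hclosed
      rcases s.eq_empty_or_nonempty with rfl | ⟨x, hx⟩
      · simp
      · -- the orbit of `x`
        have hper : Function.IsPeriodicPt σ (orderOf σ) x := by
          show σ^[orderOf σ] x = x
          rw [← Equiv.Perm.coe_pow, pow_orderOf_eq_one]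
          rfl
        set k := Function.minimalPeriod σ x with hk
        have hkpos : 0 < k := hper.minimalPeriod_pos (orderOf_pos σ)
        have hkx : (σ ^ k) x = x := by
          have := Function.isPeriodicPt_minimalPeriod σ x
          rw [Equiv.Perm.coe_pow]
          exact this
        set O : Finset ι := (Finset.range k).image (fun i => (σ ^ i) x) with hO
        have hmemO : ∀ i, (σ ^ i) x ∈ s := by
          intro i
          induction i with
          | zero => simpa using hx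
          | succ i ih' =>
            rw [pow_succ', Equiv.Perm.mul_apply]
            exact hclosed _ ih'
        have hOs : O ⊆ s := by
          intro y hy
          rw [hO, Finset.mem_image] at hy
          obtain ⟨i, _, rfl⟩ := hy
          exact hmemO i
        have hinj : Set.InjOn (fun i => (σ ^ i) x) (Finset.range k : Set ℕ) := by
          intro i hi j hj hij
          have hi' : i < k := Finset.mem_range.mp hi
          have hj' : j < k := Finset.mem_range.mp hj
          have := Function.iterate_injOn_Iio_minimalPeriod (f := σ) (x := x)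
            (Set.mem_Iio.mpr hi') (Set.mem_Iio.mpr hj')
          apply this
          simpa [Equiv.Perm.coe_pow] using hij
        have hsumO : ∑ y ∈ O, h y = 0 := by
          rw [hO, Finset.sum_image hinj]
          exact H x k hkpos hkx
        have hxO : x ∈ O := by
          rw [hO, Finset.mem_image]
          exact ⟨0, Finset.mem_range.mpr hkpos, by simp⟩
        have hclosed' : ∀ y ∈ s \ O, σ y ∈ s \ O := by
          intro y hy
          rw [Finset.mem_sdiff] at hy ⊢
          refine ⟨hclosed y hy.1, fun hσy => hy.2 ?_⟩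
          rw [hO, Finset.mem_image] at hσy ⊢
          obtain ⟨i, hi, hiy⟩ := hσy
          have hi' : i < k := Finset.mem_range.mp hi
          rcases Nat.eq_zero_or_pos i with rfl | hipos
          · -- `σ y = x = σ (σ^(k-1) x)`
            refine ⟨k - 1, Finset.mem_range.mpr (by omega), ?_⟩
            apply σ.injective
            have : σ ((σ ^ (k - 1)) x) = (σ ^ k) x := by
              rw [← Equiv.Perm.mul_apply, ← pow_succ', Nat.sub_add_cancel hkpos]
            rw [this, hkx]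
            simpa using hiy
          · refine ⟨i - 1, Finset.mem_range.mpr (by omega), ?_⟩
            apply σ.injective
            have : σ ((σ ^ (i - 1)) x) = (σ ^ i) x := by
              rw [← Equiv.Perm.mul_apply, ← pow_succ', Nat.sub_add_cancel hipos]
            rw [this, hiy]
        have hcard : (s \ O).card < n := by
          rw [← hs]
          exact Finset.card_lt_card (Finset.sdiff_ssubset hOs ⟨x, hxO⟩)
        have hrest := ih (s \ O).card hcard (s \ O) rfl hclosed'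
        rw [← Finset.sum_sdiff hOs, hrest, hsumO, add_zero]
  simpa using key (Finset.univ : Finset ι).card Finset.univ rfl (fun x _ => Finset.mem_univ _)



/-- An element of `SL(2, ℤ)` with `(trace)² < 4` has a fixed point in `ℍ`. -/
theorem exists_fixed_of_trace_sq_lt (g : SL(2, ℤ)) (h : (g 0 0 + g 1 1) ^ 2 < 4) :
    ∃ τ : ℍ, g • τ = τ := by
  have hdet : g 0 0 * g 1 1 - g 0 1 * g 1 0 = 1 := by
    have := g.det_coe
    rwa [Matrix.det_fin_two] at this
  have hc : g 1 0 ≠ 0 := by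
    intro hc
    rw [hc, mul_zero, sub_zero] at hdet
    rcases Int.eq_one_or_neg_one_of_mul_eq_one' hdet with ⟨h0, h1⟩ | ⟨h0, h1⟩ <;>
      rw [h0, h1] at h <;> norm_num at h
  set a : ℝ := ((g 0 0 : ℤ) : ℝ) with ha
  set b : ℝ := ((g 0 1 : ℤ) : ℝ) with hb
  set c : ℝ := ((g 1 0 : ℤ) : ℝ) with hc'
  set d : ℝ := ((g 1 1 : ℤ) : ℝ) with hd
  have hcR : c ≠ 0 := by
    rw [hc']
    exact_mod_cast hc
  have hdetR : a * d - b * c = 1 := by
    rw [ha, hb, hc', hd]
    exact_mod_cast hdet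
  have hD : 0 < 4 - (a + d) ^ 2 := by
    have : (a + d) ^ 2 < 4 := by
      rw [ha, hd]
      exact_mod_cast h
    linarith
  set s : ℝ := Real.sqrt (4 - (a + d) ^ 2) with hs
  have hspos : 0 < s := Real.sqrt_pos.mpr hD
  have hs2 : s ^ 2 = 4 - (a + d) ^ 2 := Real.sq_sqrt hD.le
  set x : ℝ := (a - d) / (2 * c) with hx
  set y : ℝ := s / (2 * |c|) with hy
  have hypos : 0 < y := by
    rw [hy]
    have : 0 < |c| := abs_pos.mpr hcR
    positivity
  have hx2 : 2 * c * x = a - d := by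
    rw [hx]
    field_simp
  have hy2 : 4 * c ^ 2 * y ^ 2 = 4 - (a + d) ^ 2 := by
    rw [hy, div_pow, mul_pow, sq_abs, hs2]
    field_simp
    norm_num
  refine ⟨⟨⟨x, y⟩, hypos⟩, ?_⟩
  apply UpperHalfPlane.ext
  rw [coe_specialLinearGroup_apply]
  have hden : ((algebraMap ℤ ℝ (g 1 0) : ℝ) : ℂ) * ((⟨⟨x, y⟩, hypos⟩ : ℍ) : ℂ)
      + ((algebraMap ℤ ℝ (g 1 1) : ℝ) : ℂ) ≠ 0 := by
    intro h0
    have him := congrArg Complex.im h0
    simp only [algebraMap_int_eq, eq_intCast, Complex.add_im, Complex.mul_im, Complex.ofReal_re,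
      Complex.ofReal_im, zero_mul, add_zero, Complex.zero_im] at him
    rcases mul_eq_zero.mp him with h1 | h1
    · exact hcR h1
    · exact hypos.ne' h1
  rw [div_eq_iff hden]
  have e4 : 4 * c * (a * x + b - (c * x ^ 2 + d * x - c * y ^ 2)) = 0 := by
    linear_combination (-(2 * c * x - (a - d))) * hx2 + hy2 - 4 * hdetR
  have e5 : a * x + b - (c * x ^ 2 + d * x - c * y ^ 2) = 0 := by
    rcases mul_eq_zero.mp e4 with h1 | h1
    · exfalso
      exact hcR (by linarith)
    · exact h1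
  apply Complex.ext
  · simp only [algebraMap_int_eq, eq_intCast, Complex.add_re, Complex.mul_re, Complex.ofReal_re,
      Complex.ofReal_im, zero_mul, sub_zero, Complex.add_im, Complex.mul_im,
      add_zero]
    linear_combination e5
  · simp only [algebraMap_int_eq, eq_intCast, Complex.add_re, Complex.mul_re, Complex.ofReal_re,
      Complex.ofReal_im, zero_mul, sub_zero, Complex.add_im, Complex.mul_im,
      add_zero]
    linear_combination (-y) * hx2


/-! ### The group `A N = Γ₀(N)^ab / ⟨trace² ≤ 4⟩` -/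

variable {N : ℕ}

/-- The trace of an element of `Γ₀(N)`. -/
def trG (γ : Gamma0 N) : ℤ := (γ : SL(2, ℤ)) 0 0 + (γ : SL(2, ℤ)) 1 1

theorem trG_eq_trace (γ : Gamma0 N) :
    trG γ = ((γ : SL(2, ℤ)) : Matrix (Fin 2) (Fin 2) ℤ).trace := by
  rw [Matrix.trace_fin_two]
  rfl

/-- The elements of `Γ₀(N)` of trace² at most `4`: `± 1`, the elliptic and the parabolic
elements. -/
def peSet (N : ℕ) : Set (Gamma0 N) := {γ | trG γ ^ 2 ≤ 4}

theorem mem_peSet {γ : Gamma0 N} : γ ∈ peSet N ↔ trG γ ^ 2 ≤ 4 := Iff.rfl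

/-- The subgroup of `Γ₀(N)^ab` generated by the classes of the elements of trace² at most `4`. -/
def relSub (N : ℕ) : AddSubgroup (Additive (Abelianization (Gamma0 N))) :=
  AddSubgroup.closure
    ((fun γ : Gamma0 N => Additive.ofMul (Abelianization.of γ)) '' peSet N)

/-- `A N = Γ₀(N)^ab / ⟨± 1, elliptic, parabolic⟩`, written additively
(`= H₁(X₀(N), ℤ)`; no torsion-freeness is claimed or used). -/
def A (N : ℕ) : Type := Additive (Abelianization (Gamma0 N)) ⧸ relSub N

noncomputable instance instAddCommGroupA (N : ℕ) : AddCommGroup (A N) :=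
  inferInstanceAs (AddCommGroup (Additive (Abelianization (Gamma0 N)) ⧸ relSub N))

/-- The class map `Γ₀(N) → A N`. -/
noncomputable def cls (N : ℕ) : Additive (Gamma0 N) →+ A N :=
  (QuotientAddGroup.mk' (relSub N)).comp (MonoidHom.toAdditive Abelianization.of)

theorem cls_surjective (N : ℕ) : Function.Surjective (cls N) := by
  intro a
  obtain ⟨b, rfl⟩ := QuotientAddGroup.mk'_surjective (relSub N) a
  obtain ⟨γ, hγ⟩ := QuotientGroup.mk_surjective (s := commutator (Gamma0 N)) (Additive.toMul b)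
  refine ⟨Additive.ofMul γ, ?_⟩
  show (QuotientAddGroup.mk' (relSub N)) (Additive.ofMul (Abelianization.of γ)) = _
  congr 1

theorem cls_eq_zero_of_mem {γ : Gamma0 N} (h : γ ∈ peSet N) : cls N (Additive.ofMul γ) = 0 := by
  show (QuotientAddGroup.mk' (relSub N)) (Additive.ofMul (Abelianization.of γ)) = 0
  rw [QuotientAddGroup.mk'_apply, QuotientAddGroup.eq_zero_iff]
  exact AddSubgroup.subset_closure ⟨γ, h, rfl⟩

/-- Homomorphisms `A N →+ M` are determined by their values on the classes. -/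
theorem hom_ext {M : Type*} [AddCommGroup M] {c c' : A N →+ M}
    (h : c.comp (cls N) = c'.comp (cls N)) : c = c' := by
  ext a
  obtain ⟨γ, rfl⟩ := cls_surjective N a
  exact DFunLike.congr_fun h γ

/-- The auxiliary map `Γ₀(N)^ab → M` of a homomorphism `Γ₀(N) → M`. -/
noncomputable def abLift {M : Type*} [AddCommGroup M] (φ : Additive (Gamma0 N) →+ M) :
    Additive (Abelianization (Gamma0 N)) →+ M :=
  MonoidHom.toAdditiveLeft (Abelianization.lift (AddMonoidHom.toMultiplicativeRight φ))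

theorem abLift_of {M : Type*} [AddCommGroup M] (φ : Additive (Gamma0 N) →+ M) (γ : Gamma0 N) :
    abLift φ (Additive.ofMul (Abelianization.of γ)) = φ (Additive.ofMul γ) := by
  show Multiplicative.toAdd (Abelianization.lift (AddMonoidHom.toMultiplicativeRight φ)
    (Abelianization.of γ)) = _
  rw [Abelianization.lift_apply_of]
  rfl

/-- Universal property of `A N`: a homomorphism `Γ₀(N) → M` killing the elements of trace²
at most `4` factors through `A N`. -/
noncomputable def lift {M : Type*} [AddCommGroup M] (φ : Additive (Gamma0 N) →+ M)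
    (h : ∀ γ ∈ peSet N, φ (Additive.ofMul γ) = 0) : A N →+ M :=
  QuotientAddGroup.lift (relSub N) (abLift φ) (by
    rw [relSub, AddSubgroup.closure_le]
    rintro _ ⟨γ, hγ, rfl⟩
    show abLift φ (Additive.ofMul (Abelianization.of γ)) = 0
    rw [abLift_of]
    exact h γ hγ)

@[simp]
theorem lift_cls {M : Type*} [AddCommGroup M] (φ : Additive (Gamma0 N) →+ M)
    (h : ∀ γ ∈ peSet N, φ (Additive.ofMul γ) = 0) (γ : Additive (Gamma0 N)) :
    lift φ h (cls N γ) = φ γ := by
  obtain ⟨γ, rfl⟩ := Additive.ofMul.surjective γ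
  show abLift φ (Additive.ofMul (Abelianization.of γ)) = _
  exact abLift_of φ γ

theorem lift_comp_cls {M : Type*} [AddCommGroup M] (φ : Additive (Gamma0 N) →+ M)
    (h : ∀ γ ∈ peSet N, φ (Additive.ofMul γ) = 0) : (lift φ h).comp (cls N) = φ :=
  AddMonoidHom.ext fun γ => lift_cls φ h γ

/-- `A N` is finitely generated. -/
theorem A_fg (N : ℕ) [NeZero N] : AddGroup.FG (A N) := by
  have : Group.FG (Gamma0 N) := Fermat.Agent.S22.GammaFG.gamma0_fg N
  have : AddGroup.FG (Additive (Gamma0 N)) := GroupFG.iff_add_fg.mp inferInstance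
  exact AddGroup.fg_of_surjective (cls_surjective N)

/-! ### The Hecke operators on `A N` -/

section Tau

variable {ℓ : ℕ}

/-- `rPerm` of a power is the power of `rPerm`. -/
theorem rPerm_pow (hℓ : ℓ.Prime) (γ : Gamma0 N) (k : ℕ) (x : OnePoint (ZMod ℓ)) :
    rPerm hℓ ((γ ^ k : Gamma0 N) : SL(2, ℤ)) x = (rPerm hℓ (γ : SL(2, ℤ)) ^ k) x := by
  induction k with
  | zero =>
    rw [pow_zero, pow_zero, Subgroup.coe_one, rPerm_one]
  | succ k ih =>
    rw [pow_succ, rPerm_coe_mul, ih, pow_succ', Equiv.Perm.mul_apply]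

/-- The class of the cocycle of a power is the sum of the classes along the orbit. -/
theorem cls_coc_pow (hℓ : ℓ.Prime) (hℓN : ¬ ℓ ∣ N) (γ : Gamma0 N) (k : ℕ)
    (x : OnePoint (ZMod ℓ)) :
    cls N (Additive.ofMul (coc hℓ hℓN (γ ^ k) x)) =
      ∑ i ∈ Finset.range k,
        cls N (Additive.ofMul (coc hℓ hℓN γ ((rPerm hℓ (γ : SL(2, ℤ)) ^ i) x))) := by
  induction k generalizing x with
  | zero =>
    rw [pow_zero, coc_one, Finset.sum_range_zero]
    exact map_zero _
  | succ k ih =>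
    rw [pow_succ', coc_mul, ofMul_mul, map_add, ih, Finset.sum_range_succ', add_comm]
    congr 1

/-- The cocycle at a fixed index is a real conjugate: it has the same trace. -/
theorem trG_coc_of_fixed (hℓ : ℓ.Prime) (hℓN : ¬ ℓ ∣ N) (γ : Gamma0 N) (x : OnePoint (ZMod ℓ))
    (hx : rPerm hℓ (γ : SL(2, ℤ)) x = x) : trG (coc hℓ hℓN γ x) = trG γ := by
  have h := coc_spec hℓ hℓN γ x
  rw [hx] at h
  have h2 : mapGL ℝ ((coc hℓ hℓN γ x : Gamma0 N) : SL(2, ℤ)) =
      tRep ℓ x * mapGL ℝ (γ : SL(2, ℤ)) * (tRep ℓ x)⁻¹ := by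
    rw [h, mul_inv_cancel_right]
  have h3 := congrArg (fun g : GL (Fin 2) ℝ => (g : Matrix (Fin 2) (Fin 2) ℝ).trace) h2
  simp only [Matrix.GeneralLinearGroup.coe_mul] at h3
  rw [Matrix.trace_units_conj, mapGL_val, mapGL_val, Matrix.trace_fin_two, Matrix.trace_fin_two]
    at h3
  simp only [Matrix.map_apply] at h3
  have h4 : ((trG (coc hℓ hℓN γ x) : ℤ) : ℝ) = ((trG γ : ℤ) : ℝ) := by
    rw [trG, trG]
    push_cast
    exact h3
  exact_mod_cast h4

theorem pow_mem_peSet {γ : Gamma0 N} (hγ : γ ∈ peSet N) (k : ℕ) : γ ^ k ∈ peSet N := by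
  rw [mem_peSet, trG_eq_trace] at hγ ⊢
  rw [Subgroup.coe_pow, Matrix.SpecialLinearGroup.coe_pow]
  exact trace_pow_sq_le _ (γ : SL(2, ℤ)).det_coe hγ k

/-- CYCLE LEMMA: the transfer of the class map kills the elements of trace² at most `4`. -/
theorem tHom_cls_eq_zero [NeZero ℓ] (hℓ : ℓ.Prime) (hℓN : ¬ ℓ ∣ N) {γ : Gamma0 N}
    (hγ : γ ∈ peSet N) : tHom (A N) hℓ hℓN (cls N) (Additive.ofMul γ) = 0 := by
  classical
  rw [tHom_apply]
  refine sum_eq_zero_of_cycles (rPerm hℓ (γ : SL(2, ℤ)))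
    (fun x => cls N (Additive.ofMul (coc hℓ hℓN γ x))) fun x k _ hkx => ?_
  rw [← cls_coc_pow hℓ hℓN γ k x]
  refine cls_eq_zero_of_mem ?_
  rw [mem_peSet, trG_coc_of_fixed hℓ hℓN (γ ^ k) x (by rw [rPerm_pow, hkx])]
  exact pow_mem_peSet hγ k

/-- The Hecke operator `T_ℓ` on `A N`, for a prime `ℓ ∤ N`. -/
noncomputable def tauAux [NeZero ℓ] (hℓ : ℓ.Prime) (hℓN : ¬ ℓ ∣ N) : A N →+ A N :=
  lift (tHom (A N) hℓ hℓN (cls N)) fun _ hγ => tHom_cls_eq_zero hℓ hℓN hγ

open Classical in
/-- The Hecke operator `T_ℓ` on `A N` (`0` unless `ℓ` is a prime not dividing `N`). -/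
noncomputable def tau (N ℓ : ℕ) : A N →+ A N :=
  if h : ℓ.Prime ∧ ¬ ℓ ∣ N then
    haveI : NeZero ℓ := ⟨h.1.ne_zero⟩
    tauAux h.1 h.2
  else 0

theorem tau_eq [NeZero ℓ] (hℓ : ℓ.Prime) (hℓN : ¬ ℓ ∣ N) : tau N ℓ = tauAux hℓ hℓN := by
  unfold tau
  rw [dif_pos ⟨hℓ, hℓN⟩]

theorem tau_comp_cls [NeZero ℓ] (hℓ : ℓ.Prime) (hℓN : ¬ ℓ ∣ N) :
    (tau N ℓ).comp (cls N) = tHom (A N) hℓ hℓN (cls N) := by
  rw [tau_eq hℓ hℓN]
  exact lift_comp_cls _ _

/-- `T_ℓ [γ] = ∑_x [coc γ x]`. -/
theorem tau_cls [NeZero ℓ] (hℓ : ℓ.Prime) (hℓN : ¬ ℓ ∣ N) (γ : Gamma0 N) :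
    tau N ℓ (cls N (Additive.ofMul γ)) =
      ∑ x : OnePoint (ZMod ℓ), cls N (Additive.ofMul (coc hℓ hℓN γ x)) := by
  have h := DFunLike.congr_fun (tau_comp_cls (N := N) hℓ hℓN) (Additive.ofMul γ)
  rw [tHom_apply] at h
  exact h

/-- On characters, `tau` is the group-cohomological Hecke operator `tHom`. -/
theorem comp_tau [NeZero ℓ] (hℓ : ℓ.Prime) (hℓN : ¬ ℓ ∣ N) {M : Type*} [AddCommGroup M]
    (c : A N →+ M) : (c.comp (tau N ℓ)).comp (cls N) = tHom M hℓ hℓN (c.comp (cls N)) := by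
  rw [AddMonoidHom.comp_assoc, tau_comp_cls hℓ hℓN, tHom_comp]

end Tau

/-! ### Checking that a homomorphism kills `peSet` -/

/-- An element of trace² at most `4` has a fixed point in `ℍ` or is `± g T ^ n g⁻¹`. -/
theorem mem_peSet_cases {γ : Gamma0 N} (h : γ ∈ peSet N) :
    (∃ τ : ℍ, (γ : SL(2, ℤ)) • τ = τ) ∨
      ∃ (g : SL(2, ℤ)) (n : ℤ), (γ : SL(2, ℤ)) = g * ModularGroup.T ^ n * g⁻¹ ∨
        (γ : SL(2, ℤ)) = -(g * ModularGroup.T ^ n * g⁻¹) := by
  rw [mem_peSet] at h
  rcases lt_or_eq_of_le h with hlt | heq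
  · exact Or.inl (exists_fixed_of_trace_sq_lt _ hlt)
  · right
    rw [trG_eq_trace] at heq
    obtain ⟨δ, hδ⟩ := Fermat.Agent.S21.exists_conj_upper (γ : SL(2, ℤ)) heq
    obtain ⟨m, hm⟩ := Fermat.Agent.S21.upper_eq_T_zpow _ hδ
    refine ⟨δ, m, ?_⟩
    rcases hm with hm | hm
    · left
      rw [← hm]
      group
    · right
      rw [← neg_mul, ← mul_neg, ← hm]
      group

/-- Criterion for a homomorphism to factor through `A N`. -/
theorem kills_peSet_of {M : Type*} [AddCommGroup M] (φ : Additive (Gamma0 N) →+ M)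
    (hfix : ∀ (γ : Gamma0 N) (τ : ℍ), (γ : SL(2, ℤ)) • τ = τ → φ (Additive.ofMul γ) = 0)
    (hpar : ∀ (γ : Gamma0 N) (g : SL(2, ℤ)) (n : ℤ),
      (γ : SL(2, ℤ)) = g * ModularGroup.T ^ n * g⁻¹ → φ (Additive.ofMul γ) = 0)
    (hneg : ∀ (γ : Gamma0 N) (g : SL(2, ℤ)) (n : ℤ),
      (γ : SL(2, ℤ)) = -(g * ModularGroup.T ^ n * g⁻¹) → φ (Additive.ofMul γ) = 0) :
    ∀ γ ∈ peSet N, φ (Additive.ofMul γ) = 0 := by
  intro γ hγ
  rcases mem_peSet_cases hγ with ⟨τ, hτ⟩ | ⟨g, n, h | h⟩
  · exact hfix γ τ hτ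
  · exact hpar γ g n h
  · exact hneg γ g n h

/-! ### Periods: the hypotheses `hτ` and `occ` of `BettiLimit.nonempty_esData` -/

section Period

variable (N) [NeZero N]

/-- Periods of cusp forms kill the elements of trace² at most `4`. -/
theorem periodMap_kills (f : CuspForm (Gamma0 N) 2) :
    ∀ γ ∈ peSet N, periodMap N f (Additive.ofMul γ) = 0 := by
  intro γ hγ
  rw [mem_peSet] at hγ
  rcases lt_or_eq_of_le hγ with hlt | heq
  · obtain ⟨τ, hτ⟩ := exists_fixed_of_trace_sq_lt _ hlt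
    obtain ⟨F, hF⟩ := Fermat.Agent.S21.exists_primitive N f
    rw [Fermat.Agent.S21.periodMap_apply N hF γ τ, hτ, sub_self]
  · rw [trG_eq_trace] at heq
    exact (mem_parabolicHoms_iff.mp (Fermat.Agent.S21.periodMap_mem_parabolicHoms N f)) γ heq

/-- The period homomorphism of a cusp form, on `A N`. -/
noncomputable def perHom (f : CuspForm (Gamma0 N) 2) : A N →+ ℂ :=
  lift (periodMap N f) (periodMap_kills N f)

theorem perHom_cls (f : CuspForm (Gamma0 N) 2) (γ : Additive (Gamma0 N)) :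
    perHom N f (cls N γ) = periodMap N f γ :=
  lift_cls _ _ γ

theorem periodMap_injective : Function.Injective (periodMap N) := by
  intro f g hfg
  have h := (Fermat.Agent.S21.result N).1
  have h2 : periodHomPair N (f, 0) = periodHomPair N (g, 0) := by
    rw [Fermat.Agent.S21.periodHomPair_apply, Fermat.Agent.S21.periodHomPair_apply, hfg]
  exact (Prod.mk.inj (h h2)).1

/-- The period map `S₂(Γ₀(N)) → Hom(A N, ℂ)`, as a linear map into functions. -/
noncomputable def perLin : CuspForm (Gamma0 N) 2 →ₗ[ℂ] (A N → ℂ) where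
  toFun f := fun a => perHom N f a
  map_add' f g := by
    funext a
    obtain ⟨γ, rfl⟩ := cls_surjective N a
    simp only [Pi.add_apply, perHom_cls, Fermat.Agent.S21.periodMap_add, AddMonoidHom.add_apply]
  map_smul' c f := by
    funext a
    obtain ⟨γ, rfl⟩ := cls_surjective N a
    simp only [Pi.smul_apply, perHom_cls, Fermat.Agent.S21.periodMap_smul, AddMonoidHom.smul_apply,
      RingHom.id_apply]

theorem perLin_apply (f : CuspForm (Gamma0 N) 2) (a : A N) : perLin N f a = perHom N f a := rfl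

theorem perLin_injective : Function.Injective (perLin N) := by
  intro f g hfg
  apply periodMap_injective N
  refine AddMonoidHom.ext fun γ => ?_
  have := congrFun hfg (cls N γ)
  rwa [perLin_apply, perLin_apply, perHom_cls, perHom_cls] at this

/-- Hecke equivariance of the period map. -/
theorem perLin_hecke {ℓ : ℕ} (hℓ : ℓ.Prime) (hℓN : ¬ ℓ ∣ N) (f : CuspForm (Gamma0 N) 2)
    (a : A N) : perLin N (CuspForm.heckeTLin 2 hℓ hℓN f) a = perLin N f (tau N ℓ a) := by
  have : NeZero ℓ := ⟨hℓ.ne_zero⟩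
  obtain ⟨γ, rfl⟩ := cls_surjective N a
  obtain ⟨γ, rfl⟩ := Additive.ofMul.surjective γ
  rw [perLin_apply, perLin_apply, perHom_cls, tau_cls hℓ hℓN, map_sum]
  simp only [perHom_cls]
  exact Fermat.Agent.S16.LB.periodMap_heckeT hℓ hℓN f γ (rPerm hℓ (γ : SL(2, ℤ)))
    (coc hℓ hℓN γ) (coc_spec hℓ hℓN γ)

/-- The hypothesis `occ` of `BettiLimit.nonempty_esData` (for any `p`). -/
theorem occ (p : ℕ) :
    ∃ P : CuspForm (CongruenceSubgroup.Gamma0 N) 2 →ₗ[ℂ] (A N → ℂ),
      (∀ f a b, P f (a + b) = P f a + P f b) ∧ Function.Injective P ∧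
        ∀ (ℓ : ℕ) (hℓ : ℓ.Prime) (hℓN : ¬ ℓ ∣ N), ℓ ≠ p →
          ∀ f a, P (CuspForm.heckeTLin 2 hℓ hℓN f) a = P f (tau N ℓ a) :=
  ⟨perLin N, fun f a b => map_add (perHom N f) a b, perLin_injective N,
    fun _ hℓ hℓN _ f a => perLin_hecke N hℓ hℓN f a⟩

/-- Every complex character of `A N` is a period pair (Eichler–Shimura, S21). -/
theorem exists_periodHomPair (ψ : A N →+ ℂ) :
    ∃ fg : CuspForm (Gamma0 N) 2 × CuspForm (Gamma0 N) 2,
      periodHomPair N fg = ψ.comp (cls N) := by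
  have hmem : ψ.comp (cls N) ∈ parabolicHoms ℂ (Gamma0 N) ℂ := by
    rw [mem_parabolicHoms_iff]
    intro γ hγ
    have hγ' : γ ∈ peSet N := by
      rw [mem_peSet, trG_eq_trace, hγ]
    rw [AddMonoidHom.comp_apply, cls_eq_zero_of_mem hγ', map_zero]
  rw [← (Fermat.Agent.S21.result N).2] at hmem
  exact hmem

/-- Hecke operators on period pairs. -/
theorem comp_tau_periodHomPair {ℓ : ℕ} (hℓ : ℓ.Prime) (hℓN : ¬ ℓ ∣ N) (ψ : A N →+ ℂ)
    (f g : CuspForm (Gamma0 N) 2) (h : ψ.comp (cls N) = periodHomPair N (f, g)) :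
    (ψ.comp (tau N ℓ)).comp (cls N) =
      periodHomPair N (CuspForm.heckeTLin 2 hℓ hℓN f, CuspForm.heckeTLin 2 hℓ hℓN g) := by
  have : NeZero ℓ := ⟨hℓ.ne_zero⟩
  rw [comp_tau hℓ hℓN, h]
  refine AddMonoidHom.ext fun γ => ?_
  obtain ⟨γ, rfl⟩ := Additive.ofMul.surjective γ
  rw [tHom_apply]
  exact (Fermat.Agent.S16.LB.periodHomPair_heckeT hℓ hℓN f g γ (rPerm hℓ (γ : SL(2, ℤ)))
    (coc hℓ hℓN γ) (coc_spec hℓ hℓN γ)).symm

/-- The Hecke operators commute on complex characters of `A N`. -/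
theorem tau_comm_complex {ℓ ℓ' : ℕ} (hℓ : ℓ.Prime) (hℓN : ¬ ℓ ∣ N) (hℓ' : ℓ'.Prime)
    (hℓ'N : ¬ ℓ' ∣ N) (ψ : A N →+ ℂ) :
    (ψ.comp (tau N ℓ)).comp (tau N ℓ') = (ψ.comp (tau N ℓ')).comp (tau N ℓ) := by
  obtain ⟨⟨f, g⟩, hfg⟩ := exists_periodHomPair N ψ
  apply hom_ext
  rw [comp_tau_periodHomPair N hℓ' hℓ'N _ _ _ (comp_tau_periodHomPair N hℓ hℓN ψ f g hfg.symm),
    comp_tau_periodHomPair N hℓ hℓN _ _ _ (comp_tau_periodHomPair N hℓ' hℓ'N ψ f g hfg.symm)]
  have hc := CuspForm.heckeTLin_comm (N := N) 2 hℓ hℓN hℓ' hℓ'N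
  have e : ∀ u : CuspForm (Gamma0 N) 2,
      CuspForm.heckeTLin 2 hℓ hℓN (CuspForm.heckeTLin 2 hℓ' hℓ'N u) =
        CuspForm.heckeTLin 2 hℓ' hℓ'N (CuspForm.heckeTLin 2 hℓ hℓN u) := fun u =>
    LinearMap.congr_fun hc.eq u
  rw [e f, e g]

/-- The hypothesis `hτ` of `BettiLimit.nonempty_esData`. -/
theorem tau_comm {ℓ ℓ' : ℕ} (hℓ : ℓ.Prime) (hℓN : ¬ ℓ ∣ N) (hℓ' : ℓ'.Prime) (hℓ'N : ¬ ℓ' ∣ N)
    (c : A N →+ ℤ) : (c.comp (tau N ℓ)).comp (tau N ℓ') = (c.comp (tau N ℓ')).comp (tau N ℓ) := by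
  have h := tau_comm_complex N hℓ hℓN hℓ' hℓ'N ((Int.castAddHom ℂ).comp c)
  ext a
  have h2 := DFunLike.congr_fun h a
  simp only [AddMonoidHom.comp_apply, Int.coe_castAddHom] at h2
  exact_mod_cast h2

end Period

end Fermat.Agent.S30.BettiA
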