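import Fermat.Agent.S30.BettiHecke.Coset
import Fermat.Agent.S30.BettiHecke.Hom
import Fermat.Agent.S30.BettiHecke.Period
import Fermat.Agent.S30.BettiHecke.Involution
import Fermat.Agent.S30.BettiHecke.DualBasis
import Fermat.Agent.S30.BettiHecke.Lattice
import Fermat.Agent.S30.BettiHecke.Occ
import Fermat.Agent.S30.BettiHecke.Basis
import Fermat.Agent.S30.BettiHecke.Comm

/-!
# S30 / E4: the Betti side of the Hecke comparison  (umbrella file)

Summary of the API (namespace `Fermat.Agent.S30.BettiHecke`, `G := Gamma0 N`):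

* `Coset`:  `rPerm hp γ`, `coc hp hpN γ x`, `coc_spec`
  (`tRep p x * γ = coc γ x * tRep p (rPerm γ x)`), `coc_unique`, `coc_mul`, `coc_one`.
* `Hom`:  `tHom A hp hpN : (Additive G →+ A) →+ (Additive G →+ A)`, `tHom_apply`, `tHom_comp`
  (naturality), `tLin`; multiplier lemmas `heckeProd_smul`, `heckeSum_smul`.
* `Period`:  `tHom_periodMap : tHom ℂ hp hpN (periodMap N f) = periodMap N (T_p f)`.
* `Involution`:  `tHom_charInvolution`.
* `Lattice`:  `parRank N`, `parDual N i`, `parGen N i`, `parDual_parGen`, `par_expand`.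
* `Occ`:  `Lam N`, `castHom`, `tLam`, `tHom_expand`, `tHom_isParabolic`, `tHom_periodHomPair`,
  `heckeAct N S hS : heckeAlgebra N 2 S →+* Module.End ℤ (Lam N)`, `heckeAct_T`,
  `heckeAct_injective`.
* `Basis`:  `parBasis N R` (basis of `parabolicHoms R G R` for torsion-free `R`), `finrank_lam`.
* `Comm`:  `tLam_comm`, `tHom_comm_int`, `tHom_comm`, `periodMapLin`, `periodMap_injective`,
  `tHom_periodMapLin`, `sl2_pow_twelve_of_trace_sq_lt`, `isParabolicHom_apply_of_trace_sq_le`.
-/
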