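/-
S30 producer side: TORSION-ROBUST p-adic limit assembly (helper162).

Input: a finitely generated abelian group `A` (think `Γ₀(N)^ab / ⟨parabolic, elliptic, -1⟩`,
which may have torsion as far as we can prove), Hecke endomorphisms `τ ℓ : A →+ A`, and for every
`n` an action of `G_ℚ` on the finite group `A →+ ZMod (p ^ n)` (the transport of the Galois
action on the Kummer classes `J_{p^n}`), compatible with reduction, commuting with Hecke,
continuous, unramified outside `N p`, satisfying the Eichler–Shimura relation at Frobenius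
elements; plus an injective Hecke-equivariant period map `S₂(Γ₀(N)) → Hom(A, ℂ)`.

Output: `Nonempty (ESData N p)`.

The finite groups `A →+ ZMod (p ^ n)` need NOT be free over `ZMod (p ^ n)`: only the limit
`Hom(A, ℤ_p) = Hom(A / torsion, ℤ_p)` is free, and that is all that is used.
-/
import Mathlib
import Fermat.Agent.S30.Defs

set_option autoImplicit false
set_option linter.unusedSectionVars false

namespace Fermat.Agent.S30.BettiLimit

open Fermat.Agent.S30 Module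

/-! ### 1. Coordinates on a finitely generated abelian group modulo torsion -/

/-- Coordinates modulo torsion: elements `a i` of `A` and functionals `e j : A →+ ℤ`, dual to
each other, such that every additive map to a torsion-free group is determined by its values
on the `a i`. -/
theorem exists_coords (A : Type) [AddCommGroup A] (hA : AddGroup.FG A) :
    ∃ (r : ℕ) (a : Fin r → A) (e : Fin r → (A →+ ℤ)),
      (∀ i j, e j (a i) = if i = j then 1 else 0) ∧
      (∀ (M : Type) [AddCommGroup M] [Module.IsTorsionFree ℤ M] (c : A →+ M) (x : A),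
         c x = ∑ i, e i x • c (a i)) := by
  classical
  have : Module.Finite ℤ A := Module.Finite.iff_addGroup_fg.mpr hA
  have : Module.Free ℤ (A ⧸ Submodule.torsion ℤ A) := Module.free_of_finite_type_torsion_free'
  let b := Module.finBasis ℤ (A ⧸ Submodule.torsion ℤ A)
  have hsurj : ∀ y : A ⧸ Submodule.torsion ℤ A, ∃ x : A, (Submodule.torsion ℤ A).mkQ x = y :=
    Submodule.mkQ_surjective _
  choose lift hlift using hsurj
  refine ⟨finrank ℤ (A ⧸ Submodule.torsion ℤ A), fun i => lift (b i),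
    fun j => ((b.coord j).comp (Submodule.torsion ℤ A).mkQ).toAddMonoidHom, ?_, ?_⟩
  · intro i j
    simp only [LinearMap.toAddMonoidHom_coe, LinearMap.coe_comp, Function.comp_apply, hlift,
      Basis.coord_apply, Basis.repr_self, Finsupp.single_apply]
  · intro M _ _ c x
    have hker : Submodule.torsion ℤ A ≤ LinearMap.ker c.toIntLinearMap := by
      intro y hy
      obtain ⟨n, hn⟩ := (Submodule.mem_torsion_iff y).1 hy
      have hn' : (n : ℤ) • y = 0 := hn
      have h1 : (n : ℤ) • c y = (n : ℤ) • (0 : M) := by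
        rw [smul_zero, ← map_zsmul, hn', map_zero]
      have hreg : IsRegular (n : ℤ) := IsRegular.of_ne_zero (nonZeroDivisors.ne_zero n.2)
      exact (Module.IsTorsionFree.isSMulRegular hreg) h1
    let c' : (A ⧸ Submodule.torsion ℤ A) →ₗ[ℤ] M :=
      (Submodule.torsion ℤ A).liftQ c.toIntLinearMap hker
    have hc' : ∀ y : A, c' ((Submodule.torsion ℤ A).mkQ y) = c y := fun y => rfl
    calc c x = c' ((Submodule.torsion ℤ A).mkQ x) := (hc' x).symm
      _ = c' (∑ i, b.repr ((Submodule.torsion ℤ A).mkQ x) i • b i) := by rw [b.sum_repr]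
      _ = ∑ i, b.repr ((Submodule.torsion ℤ A).mkQ x) i • c' (b i) := by
          simp only [map_sum, map_smul]
      _ = ∑ i, ((b.coord i).comp (Submodule.torsion ℤ A).mkQ).toAddMonoidHom x •
            c (lift (b i)) := by
          refine Finset.sum_congr rfl fun i _ => ?_
          rw [← hc' (lift (b i)), hlift]
          rfl

/-! ### 2. Limits of compatible sequences in `ℤ_[p]` -/

section Limit

variable {p : ℕ} [hp : Fact p.Prime]

omit hp in
theorem cast_compat (x : ∀ n : ℕ, ZMod (p ^ n))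
    (hx : ∀ n, ZMod.castHom (pow_dvd_pow p (Nat.le_succ n)) (ZMod (p ^ n)) (x (n + 1)) = x n)
    {k1 k2 : ℕ} (hk : k1 ≤ k2) :
    ZMod.castHom (pow_dvd_pow p hk) (ZMod (p ^ k1)) (x k2) = x k1 := by
  induction k2, hk using Nat.le_induction with
  | base => simp
  | succ k2 hk ih =>
    rw [← ih, ← hx k2]
    exact (RingHom.congr_fun
      (ZMod.castHom_comp (pow_dvd_pow p hk) (pow_dvd_pow p (Nat.le_succ k2))) (x (k2 + 1))).symm

/-- The subring of compatible sequences in `∏ ZMod (p ^ n)`. -/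
def compatSubring (p : ℕ) : Subring (∀ n : ℕ, ZMod (p ^ n)) where
  carrier := {x | ∀ n,
    ZMod.castHom (pow_dvd_pow p (Nat.le_succ n)) (ZMod (p ^ n)) (x (n + 1)) = x n}
  mul_mem' := by
    intro a b ha hb n
    simp only [Pi.mul_apply, map_mul, ha n, hb n]
  one_mem' := by
    intro n
    simp only [Pi.one_apply, map_one]
  add_mem' := by
    intro a b ha hb n
    simp only [Pi.add_apply, map_add, ha n, hb n]
  zero_mem' := by
    intro n
    simp only [Pi.zero_apply, map_zero]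
  neg_mem' := by
    intro a ha n
    simp only [Pi.neg_apply, map_neg, ha n]

/-- Every compatible sequence has a limit in `ℤ_[p]`. -/
theorem exists_limit (x : ∀ n : ℕ, ZMod (p ^ n))
    (hx : ∀ n, ZMod.castHom (pow_dvd_pow p (Nat.le_succ n)) (ZMod (p ^ n)) (x (n + 1)) = x n) :
    ∃ y : ℤ_[p], ∀ n, PadicInt.toZModPow n y = x n := by
  let f : ∀ k : ℕ, compatSubring p →+* ZMod (p ^ k) := fun k =>
    (Pi.evalRingHom (fun n : ℕ => ZMod (p ^ n)) k).comp (compatSubring p).subtype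
  have f_compat : ∀ (k1 k2 : ℕ) (hk : k1 ≤ k2),
      (ZMod.castHom (pow_dvd_pow p hk) (ZMod (p ^ k1))).comp (f k2) = f k1 := by
    intro k1 k2 hk
    ext ⟨z, hz⟩
    exact cast_compat z hz hk
  refine ⟨PadicInt.lift f_compat ⟨x, hx⟩, fun n => ?_⟩
  exact RingHom.congr_fun (PadicInt.lift_spec f_compat n) ⟨x, hx⟩

end Limit

/-! ### 3. Finite-level matrices -/

section Main

variable {p : ℕ} [hp : Fact p.Prime] {A : Type} [AddCommGroup A] {r : ℕ}

/-- Reduction `Hom(A, ℤ/p^(n+1)) → Hom(A, ℤ/p^n)`. -/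
def red (A : Type) [AddCommGroup A] (p n : ℕ) (c : A →+ ZMod (p ^ (n + 1))) : A →+ ZMod (p ^ n) :=
  (ZMod.castHom (pow_dvd_pow p (Nat.le_succ n)) (ZMod (p ^ n))).toAddMonoidHom.comp c

@[simp] theorem red_apply (n : ℕ) (c : A →+ ZMod (p ^ (n + 1))) (x : A) :
    red A p n c x = ZMod.castHom (pow_dvd_pow p (Nat.le_succ n)) (ZMod (p ^ n)) (c x) := rfl

/-- The reduction mod `p ^ n` of the integral functional `e j`. -/
def ebar (e : Fin r → (A →+ ℤ)) (p n : ℕ) (j : Fin r) : A →+ ZMod (p ^ n) :=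
  (Int.castAddHom (ZMod (p ^ n))).comp (e j)

@[simp] theorem ebar_apply (e : Fin r → (A →+ ℤ)) (n : ℕ) (j : Fin r) (x : A) :
    ebar e p n j x = ((e j x : ℤ) : ZMod (p ^ n)) := rfl

theorem red_ebar (e : Fin r → (A →+ ℤ)) (n : ℕ) (j : Fin r) :
    red A p n (ebar e p (n + 1) j) = ebar e p n j := by
  ext x
  simp only [red_apply, ebar_apply, map_intCast]

variable (a : Fin r → A) (e : Fin r → (A →+ ℤ))
  (act : ∀ n : ℕ, GQ →* AddMonoid.End (A →+ ZMod (p ^ n)))

/-- The matrix of `σ` at level `n` in the coordinates `a`, `e`. -/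
noncomputable def rhoN (n : ℕ) (σ : GQ) : Matrix (Fin r) (Fin r) (ZMod (p ^ n)) :=
  Matrix.of fun i j => act n σ (ebar e p n j) (a i)

theorem rhoN_apply (n : ℕ) (σ : GQ) (i j : Fin r) :
    rhoN a e act n σ i j = act n σ (ebar e p n j) (a i) := rfl

variable (hexp : ∀ (M : Type) [AddCommGroup M] [Module.IsTorsionFree ℤ M] (c : A →+ M) (x : A),
    c x = ∑ i, e i x • c (a i))
  (act_red : ∀ (n : ℕ) (σ : GQ) (c : A →+ ZMod (p ^ (n + 1))),
    act n σ (red A p n c) = red A p n (act (n + 1) σ c))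

include act_red in
theorem act_ebar_compat (σ : GQ) (j : Fin r) (x : A) (n : ℕ) :
    ZMod.castHom (pow_dvd_pow p (Nat.le_succ n)) (ZMod (p ^ n))
      (act (n + 1) σ (ebar e p (n + 1) j) x) = act n σ (ebar e p n j) x := by
  have h := act_red n σ (ebar e p (n + 1) j)
  rw [red_ebar] at h
  rw [h]
  rfl

include act_red in
theorem rhoN_compat (σ : GQ) (i j : Fin r) (n : ℕ) :
    ZMod.castHom (pow_dvd_pow p (Nat.le_succ n)) (ZMod (p ^ n)) (rhoN a e act (n + 1) σ i j) =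
      rhoN a e act n σ i j :=
  act_ebar_compat e act act_red σ j (a i) n

include hexp act_red in
/-- KEY: `σ ē_j` is the combination `∑ ρ_n(σ)_{ij} ē_i`, even if `Hom(A, ℤ/p^n)` is bigger than
the span of the `ē_i` (the compatible family `(σ ē_j)_n` is one element of `Hom(A, ℤ_p)`). -/
theorem act_ebar_apply (n : ℕ) (σ : GQ) (j : Fin r) (x : A) :
    act n σ (ebar e p n j) x = ∑ i, ((e i x : ℤ) : ZMod (p ^ n)) * rhoN a e act n σ i j := by
  choose lim hlim using fun y : A =>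
    exists_limit (fun m => act m σ (ebar e p m j) y) (act_ebar_compat e act act_red σ j y)
  let c : A →+ ℤ_[p] :=
    { toFun := lim
      map_zero' := by
        refine PadicInt.ext_of_toZModPow.1 fun m => ?_
        rw [hlim, map_zero, map_zero]
      map_add' := by
        intro y z
        refine PadicInt.ext_of_toZModPow.1 fun m => ?_
        rw [map_add, hlim, hlim, hlim, map_add] }
  have h := congrArg (PadicInt.toZModPow n) (hexp ℤ_[p] c x)
  have hc : ∀ y, c y = lim y := fun y => rfl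
  rw [hc, hlim, map_sum] at h
  rw [h]
  refine Finset.sum_congr rfl fun i _ => ?_
  rw [map_zsmul, hc, hlim, zsmul_eq_mul, rhoN_apply]

include hexp act_red in
theorem act_ebar_eq (n : ℕ) (σ : GQ) (j : Fin r) :
    act n σ (ebar e p n j) = ∑ i, (rhoN a e act n σ i j).val • ebar e p n i := by
  have : NeZero (p ^ n) := ⟨pow_ne_zero n hp.out.ne_zero⟩
  ext x
  rw [act_ebar_apply a e act hexp act_red, AddMonoidHom.finsetSum_apply]
  refine Finset.sum_congr rfl fun i _ => ?_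
  rw [AddMonoidHom.nsmul_apply, nsmul_eq_mul, ZMod.natCast_zmod_val, ebar_apply, mul_comm]

include hexp act_red in
theorem rhoN_mul (n : ℕ) (σ τ' : GQ) :
    rhoN a e act n (σ * τ') = rhoN a e act n σ * rhoN a e act n τ' := by
  have : NeZero (p ^ n) := ⟨pow_ne_zero n hp.out.ne_zero⟩
  ext k j
  rw [Matrix.mul_apply, rhoN_apply, map_mul, AddMonoid.End.coe_mul, Function.comp_apply,
    act_ebar_eq a e act hexp act_red n τ' j, map_sum, AddMonoidHom.finsetSum_apply]
  refine Finset.sum_congr rfl fun i _ => ?_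
  rw [map_nsmul, AddMonoidHom.nsmul_apply, nsmul_eq_mul, ZMod.natCast_zmod_val, mul_comm]
  rfl

variable (he : ∀ i j, e j (a i) = if i = j then 1 else 0)

include he in
theorem rhoN_eq_one_of_act (n : ℕ) (σ : GQ) (h : act n σ = 1) : rhoN a e act n σ = 1 := by
  ext i j
  rw [rhoN_apply, h, AddMonoid.End.coe_one, id, ebar_apply, he, Matrix.one_apply]
  split_ifs <;> simp

include he in
theorem rhoN_one (n : ℕ) : rhoN a e act n 1 = 1 :=
  rhoN_eq_one_of_act a e act he n 1 (map_one _)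

/-! ### 4. Hecke matrices -/

variable (τ : ℕ → A →+ A)

/-- The integer Hecke matrix: `(t ℓ) i j = e_j (τ_ℓ a_i)`. -/
def tmat (ℓ : ℕ) : Matrix (Fin r) (Fin r) ℤ :=
  Matrix.of fun i j => e j (τ ℓ (a i))

theorem tmat_apply (ℓ : ℕ) (i j : Fin r) : tmat a e τ ℓ i j = e j (τ ℓ (a i)) := rfl

include hexp in
theorem e_tau (ℓ : ℕ) (j : Fin r) (x : A) :
    e j (τ ℓ x) = ∑ i, e i x * tmat a e τ ℓ i j := by
  have h := hexp ℤ ((e j).comp (τ ℓ)) x
  simp only [AddMonoidHom.comp_apply, smul_eq_mul] at h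
  rw [h]
  rfl

include hexp in
theorem ebar_comp_tau (n : ℕ) (ℓ : ℕ) (j : Fin r) :
    (ebar e p n j).comp (τ ℓ) = ∑ i, tmat a e τ ℓ i j • ebar e p n i := by
  ext x
  rw [AddMonoidHom.comp_apply, ebar_apply, e_tau a e hexp τ ℓ j x, AddMonoidHom.finsetSum_apply,
    Int.cast_sum]
  refine Finset.sum_congr rfl fun i _ => ?_
  rw [AddMonoidHom.zsmul_apply, zsmul_eq_mul, ebar_apply, Int.cast_mul, mul_comm]

include hexp in
theorem tmat_mul_apply (ℓ ℓ' : ℕ) (k j : Fin r) :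
    (tmat a e τ ℓ * tmat a e τ ℓ') k j = e j (τ ℓ' (τ ℓ (a k))) := by
  rw [Matrix.mul_apply, e_tau a e hexp τ ℓ' j (τ ℓ (a k))]
  rfl

include hexp in
theorem tmat_comm (ℓ ℓ' : ℕ)
    (h : ∀ c : A →+ ℤ, (c.comp (τ ℓ)).comp (τ ℓ') = (c.comp (τ ℓ')).comp (τ ℓ)) :
    Commute (tmat a e τ ℓ) (tmat a e τ ℓ') := by
  ext k j
  rw [tmat_mul_apply a e hexp, tmat_mul_apply a e hexp]
  exact (DFunLike.congr_fun (h (e j)) (a k)).symm

include hexp act_red in
/-- Level-`n` form of `T_ℓ ∘ σ` in coordinates. -/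
theorem act_comp_tau_apply (n : ℕ) (σ : GQ) (ℓ : ℕ) (k j : Fin r) :
    ((act n σ (ebar e p n j)).comp (τ ℓ)) (a k) =
      ((tmat a e τ ℓ).map (Int.castRingHom (ZMod (p ^ n))) * rhoN a e act n σ) k j := by
  rw [AddMonoidHom.comp_apply, act_ebar_apply a e act hexp act_red, Matrix.mul_apply]
  rfl

include hexp act_red in
theorem rhoN_comm (n : ℕ) (σ : GQ) (ℓ : ℕ)
    (h : ∀ c : A →+ ZMod (p ^ n), act n σ (c.comp (τ ℓ)) = (act n σ c).comp (τ ℓ)) :
    Commute (rhoN a e act n σ) ((tmat a e τ ℓ).map (Int.castRingHom (ZMod (p ^ n)))) := by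
  ext k j
  rw [← act_comp_tau_apply a e act hexp act_red τ n σ ℓ k j, ← h, ebar_comp_tau a e hexp τ n ℓ j,
    map_sum, AddMonoidHom.finsetSum_apply, Matrix.mul_apply]
  refine Finset.sum_congr rfl fun i _ => ?_
  rw [map_zsmul, AddMonoidHom.zsmul_apply, zsmul_eq_mul, rhoN_apply, mul_comm]
  rfl

include hexp act_red he in
theorem rhoN_es (n : ℕ) (σ : GQ) (ℓ : ℕ)
    (h : ∀ c : A →+ ZMod (p ^ n), act n σ (act n σ c) - (act n σ c).comp (τ ℓ) + ℓ • c = 0) :
    rhoN a e act n σ * rhoN a e act n σ -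
      (tmat a e τ ℓ).map (Int.castRingHom (ZMod (p ^ n))) * rhoN a e act n σ +
      (ℓ : Matrix (Fin r) (Fin r) (ZMod (p ^ n))) = 0 := by
  ext k j
  have h1 := DFunLike.congr_fun (h (ebar e p n j)) (a k)
  rw [AddMonoidHom.add_apply, AddMonoidHom.sub_apply, act_comp_tau_apply a e act hexp act_red,
    AddMonoidHom.nsmul_apply, AddMonoidHom.zero_apply] at h1
  have h2 : act n σ (act n σ (ebar e p n j)) (a k) = (rhoN a e act n σ * rhoN a e act n σ) k j := by
    rw [← rhoN_mul a e act hexp act_red, rhoN_apply, map_mul, AddMonoid.End.coe_mul,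
      Function.comp_apply]
  rw [h2] at h1
  rw [Matrix.add_apply, Matrix.sub_apply, Matrix.zero_apply, ← h1]
  congr 1
  rw [Matrix.natCast_apply, ebar_apply, he]
  split_ifs <;> simp

end Main

/-! ### 5. The `p`-adic limit and `ESData` -/

section Assembly

variable {N p : ℕ} [NeZero N] [hp : Fact p.Prime]

theorem padic_matrix_ext {r : ℕ} {M M' : Matrix (Fin r) (Fin r) ℤ_[p]}
    (h : ∀ n : ℕ, (PadicInt.toZModPow n).mapMatrix M = (PadicInt.toZModPow n).mapMatrix M') :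
    M = M' := by
  ext i j
  refine PadicInt.ext_of_toZModPow.1 fun n => ?_
  exact congrFun (congrFun (h n) i) j

/-- **Torsion-robust assembly.**  A compatible system of `G_ℚ`-actions on the finite groups
`Hom(A, ℤ/p^n)` (`A` finitely generated, possibly with torsion), commuting with the Hecke
endomorphisms `τ ℓ` of `A`, continuous, unramified outside `N p`, with the Eichler–Shimura
relation at Frobenius elements, together with an injective Hecke-equivariant period map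
`S₂(Γ₀(N)) → Hom(A, ℂ)`, yields Eichler–Shimura matrix data. -/
theorem nonempty_esData (A : Type) [AddCommGroup A] (hA : AddGroup.FG A)
    (τ : ℕ → A →+ A)
    (hτ : ∀ ℓ ℓ' : ℕ, ℓ.Prime → ¬ ℓ ∣ N → ℓ ≠ p → ℓ'.Prime → ¬ ℓ' ∣ N → ℓ' ≠ p →
      ∀ c : A →+ ℤ, (c.comp (τ ℓ)).comp (τ ℓ') = (c.comp (τ ℓ')).comp (τ ℓ))
    (act : ∀ n : ℕ, GQ →* AddMonoid.End (A →+ ZMod (p ^ n)))
    (act_red : ∀ (n : ℕ) (σ : GQ) (c : A →+ ZMod (p ^ (n + 1))),
      act n σ (red A p n c) = red A p n (act (n + 1) σ c))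
    (act_τ : ∀ (n : ℕ) (σ : GQ) (ℓ : ℕ), ℓ.Prime → ¬ ℓ ∣ N → ℓ ≠ p →
      ∀ c : A →+ ZMod (p ^ n), act n σ (c.comp (τ ℓ)) = (act n σ c).comp (τ ℓ))
    (cont : ∀ n : ℕ, ∃ L : IntermediateField ℚ (AlgebraicClosure ℚ), FiniteDimensional ℚ L ∧
      ∀ σ : GQ, (∀ x ∈ L, σ x = x) → act n σ = 1)
    (unr : ∀ (n : ℕ) (q : ℕ), q.Prime → ¬ q ∣ N → q ≠ p →
      ∀ P : ValuationSubring (AlgebraicClosure ℚ), P.LiesOverPrime q →
        ∀ σ ∈ P.inertiaSubgroupIn ℚ, act n σ = 1)
    (es : ∀ (n : ℕ) (ℓ : ℕ), ℓ.Prime → ¬ ℓ ∣ N → ℓ ≠ p →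
      ∀ A' : ValuationSubring (AlgebraicClosure ℚ), A'.LiesOverPrime ℓ →
        ∀ σ : GQ, A'.IsFrobeniusAt σ ℓ →
          ∀ c : A →+ ZMod (p ^ n), act n σ (act n σ c) - (act n σ c).comp (τ ℓ) + ℓ • c = 0)
    (occ : ∃ P : CuspForm (CongruenceSubgroup.Gamma0 N) 2 →ₗ[ℂ] (A → ℂ),
      (∀ f a b, P f (a + b) = P f a + P f b) ∧ Function.Injective P ∧
        ∀ (ℓ : ℕ) (hℓ : ℓ.Prime) (hℓN : ¬ ℓ ∣ N), ℓ ≠ p →
          ∀ f a, P (CuspForm.heckeTLin 2 hℓ hℓN f) a = P f (τ ℓ a)) :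
    Nonempty (ESData N p) := by
  classical
  obtain ⟨r, a, e, he, hexp⟩ := exists_coords A hA
  -- the limit matrices
  have hex : ∀ (σ : GQ) (i j : Fin r), ∃ y : ℤ_[p],
      ∀ n, PadicInt.toZModPow n y = rhoN a e act n σ i j :=
    fun σ i j => exists_limit (fun n => rhoN a e act n σ i j) (rhoN_compat a e act act_red σ i j)
  choose ρ hρ using hex
  have hmap : ∀ (σ : GQ) (n : ℕ),
      (PadicInt.toZModPow n).mapMatrix (Matrix.of (ρ σ)) = rhoN a e act n σ := by
    intro σ n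
    ext i j
    exact hρ σ i j n
  let ρh : GQ →* Matrix (Fin r) (Fin r) ℤ_[p] :=
    { toFun := fun σ => Matrix.of (ρ σ)
      map_one' := by
        refine padic_matrix_ext fun n => ?_
        rw [hmap, rhoN_one a e act he, map_one]
      map_mul' := by
        intro σ τ'
        refine padic_matrix_ext fun n => ?_
        rw [map_mul, hmap, hmap, hmap, rhoN_mul a e act hexp act_red] }
  have hρm : ∀ (σ : GQ) (n : ℕ), (PadicInt.toZModPow n).mapMatrix (ρh σ) = rhoN a e act n σ :=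
    hmap
  -- the Hecke matrices
  let good : ℕ → Prop := fun ℓ => ℓ.Prime ∧ ¬ ℓ ∣ N ∧ ℓ ≠ p
  let t : ℕ → Matrix (Fin r) (Fin r) ℤ := fun ℓ => if good ℓ then tmat a e τ ℓ else 0
  have ht : ∀ ℓ, good ℓ → t ℓ = tmat a e τ ℓ := fun ℓ h => if_pos h
  have ht0 : ∀ ℓ, ¬ good ℓ → t ℓ = 0 := fun ℓ h => if_neg h
  have hTm : ∀ (M : Matrix (Fin r) (Fin r) ℤ) (n : ℕ),
      (PadicInt.toZModPow n).mapMatrix (M.map (Int.castRingHom ℤ_[p])) =
        M.map (Int.castRingHom (ZMod (p ^ n))) := by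
    intro M n
    ext i j
    simp
  refine ⟨{ r := r, t := t, ρ := ρh, t_comm := ?_, ρ_comm := ?_, cont := ?_, unr := ?_,
            es := ?_, occ := ?_ }⟩
  · -- t_comm
    intro ℓ ℓ'
    by_cases h : good ℓ
    · by_cases h' : good ℓ'
      · rw [ht ℓ h, ht ℓ' h']
        exact tmat_comm a e hexp τ ℓ ℓ' (hτ ℓ ℓ' h.1 h.2.1 h.2.2 h'.1 h'.2.1 h'.2.2)
      · rw [ht0 ℓ' h']
        exact Commute.zero_right _
    · rw [ht0 ℓ h]
      exact Commute.zero_left _
  · -- ρ_comm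
    intro σ ℓ
    by_cases h : good ℓ
    · rw [ht ℓ h]
      show ρh σ * _ = _ * ρh σ
      refine padic_matrix_ext fun n => ?_
      rw [map_mul, map_mul, hρm, hTm]
      exact (rhoN_comm a e act hexp act_red τ n σ ℓ (act_τ n σ ℓ h.1 h.2.1 h.2.2)).eq
    · rw [ht0 ℓ h]
      have : (0 : Matrix (Fin r) (Fin r) ℤ).map (Int.castRingHom ℤ_[p]) = 0 := by
        ext i j
        simp
      rw [this]
      exact Commute.zero_right _
  · -- cont
    intro n
    obtain ⟨L, hL, h⟩ := cont n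
    refine ⟨L, hL, fun σ hσ i j => ?_⟩
    rw [← PadicInt.ker_toZModPow, RingHom.mem_ker]
    have h1 : (PadicInt.toZModPow n).mapMatrix (ρh σ - 1) = 0 := by
      rw [map_sub, hρm, rhoN_eq_one_of_act a e act he n σ (h σ hσ), map_one, sub_self]
    exact congrFun (congrFun h1 i) j
  · -- unr
    intro q hq hqN hqp P hP σ hσ
    refine padic_matrix_ext fun n => ?_
    rw [hρm, map_one]
    exact rhoN_eq_one_of_act a e act he n σ (unr n q hq hqN hqp P hP σ hσ)
  · -- es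
    intro ℓ hℓ hℓN hℓp A' hA' σ hσ
    rw [ht ℓ ⟨hℓ, hℓN, hℓp⟩]
    refine padic_matrix_ext fun n => ?_
    rw [map_zero, map_add, map_sub, map_mul, map_mul, hρm, hTm, map_natCast]
    exact rhoN_es a e act hexp act_red he τ n σ ℓ (es n ℓ hℓ hℓN hℓp A' hA' σ hσ)
  · -- occ
    obtain ⟨P, hadd, hinj, hT⟩ := occ
    have hP : ∀ (f : CuspForm (CongruenceSubgroup.Gamma0 N) 2) (x : A),
        P f x = ∑ i, e i x • P f (a i) := fun f x =>
      hexp ℂ (AddMonoidHom.mk' (P f) (hadd f)) x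
    refine ⟨LinearMap.pi fun i => (LinearMap.proj (a i)).comp P, ?_, ?_⟩
    · intro f g hfg
      apply hinj
      funext x
      rw [hP f x, hP g x]
      refine Finset.sum_congr rfl fun i _ => ?_
      have := congrFun hfg i
      simp only [LinearMap.pi_apply, LinearMap.coe_comp, Function.comp_apply,
        LinearMap.proj_apply] at this
      rw [this]
    · intro ℓ hℓ hℓN hℓp f
      rw [ht ℓ ⟨hℓ, hℓN, hℓp⟩]
      funext k
      simp only [LinearMap.pi_apply, LinearMap.coe_comp, Function.comp_apply,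
        LinearMap.proj_apply, Matrix.mulVec, dotProduct, Matrix.map_apply, Int.coe_castRingHom]
      rw [hT ℓ hℓ hℓN hℓp f (a k), hP f (τ ℓ (a k))]
      refine Finset.sum_congr rfl fun i _ => ?_
      rw [zsmul_eq_mul, tmat_apply]

end Assembly

/-! ### 6. Version for an abstract inverse system `J n ≃+ Hom(A, ℤ/p^n)` -/

section System

variable {N p : ℕ} [NeZero N] [hp : Fact p.Prime]

/-- Transport of an additive endomorphism along an additive equivalence. -/
def conjEnd {X Y : Type} [AddCommGroup X] [AddCommGroup Y] (κ : X ≃+ Y) :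
    AddMonoid.End X →* AddMonoid.End Y where
  toFun f := κ.toAddMonoidHom.comp ((f : X →+ X).comp κ.symm.toAddMonoidHom)
  map_one' := by
    ext y : 1
    show κ ((1 : AddMonoid.End X) (κ.symm y)) = y
    rw [AddMonoid.End.coe_one, id, AddEquiv.apply_symm_apply]
  map_mul' := by
    intro f g
    ext y : 1
    show κ ((f * g) (κ.symm y)) = κ (f (κ.symm (κ (g (κ.symm y)))))
    rw [AddEquiv.symm_apply_apply, AddMonoid.End.coe_mul, Function.comp_apply]

theorem conjEnd_apply {X Y : Type} [AddCommGroup X] [AddCommGroup Y] (κ : X ≃+ Y)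
    (f : AddMonoid.End X) (y : Y) : conjEnd κ f y = κ (f (κ.symm y)) := rfl

/-- **Assembly for an abstract system.**  `J n` = Kummer classes modulo `p ^ n` (written
additively), with transition maps `π`, Hecke operators `T`, Galois action `g`, and
isomorphisms `κ n : J n ≃+ Hom(A, ℤ/p^n)` (the Kummer character maps) which are natural in `n`
and Hecke-equivariant. -/
theorem nonempty_esData_of_system (A : Type) [AddCommGroup A] (hA : AddGroup.FG A)
    (τ : ℕ → A →+ A)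
    (hτ : ∀ ℓ ℓ' : ℕ, ℓ.Prime → ¬ ℓ ∣ N → ℓ ≠ p → ℓ'.Prime → ¬ ℓ' ∣ N → ℓ' ≠ p →
      ∀ c : A →+ ℤ, (c.comp (τ ℓ)).comp (τ ℓ') = (c.comp (τ ℓ')).comp (τ ℓ))
    (J : ℕ → Type) [∀ n, AddCommGroup (J n)]
    (κ : ∀ n, J n ≃+ (A →+ ZMod (p ^ n)))
    (π : ∀ n, J (n + 1) →+ J n)
    (κ_π : ∀ (n : ℕ) (x : J (n + 1)), κ n (π n x) = red A p n (κ (n + 1) x))
    (T : ∀ n, ℕ → J n →+ J n)
    (κ_T : ∀ (n : ℕ) (ℓ : ℕ), ℓ.Prime → ¬ ℓ ∣ N → ℓ ≠ p →
      ∀ x : J n, κ n (T n ℓ x) = (κ n x).comp (τ ℓ))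
    (g : ∀ n, GQ →* AddMonoid.End (J n))
    (g_π : ∀ (n : ℕ) (σ : GQ) (x : J (n + 1)), π n (g (n + 1) σ x) = g n σ (π n x))
    (g_T : ∀ (n : ℕ) (σ : GQ) (ℓ : ℕ), ℓ.Prime → ¬ ℓ ∣ N → ℓ ≠ p →
      ∀ x : J n, g n σ (T n ℓ x) = T n ℓ (g n σ x))
    (cont : ∀ n : ℕ, ∃ L : IntermediateField ℚ (AlgebraicClosure ℚ), FiniteDimensional ℚ L ∧
      ∀ σ : GQ, (∀ x ∈ L, σ x = x) → ∀ y : J n, g n σ y = y)
    (unr : ∀ (n : ℕ) (q : ℕ), q.Prime → ¬ q ∣ N → q ≠ p →
      ∀ P : ValuationSubring (AlgebraicClosure ℚ), P.LiesOverPrime q →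
        ∀ σ ∈ P.inertiaSubgroupIn ℚ, ∀ y : J n, g n σ y = y)
    (es : ∀ (n : ℕ) (ℓ : ℕ), ℓ.Prime → ¬ ℓ ∣ N → ℓ ≠ p →
      ∀ A' : ValuationSubring (AlgebraicClosure ℚ), A'.LiesOverPrime ℓ →
        ∀ σ : GQ, A'.IsFrobeniusAt σ ℓ →
          ∀ y : J n, g n σ (g n σ y) - T n ℓ (g n σ y) + ℓ • y = 0)
    (occ : ∃ P : CuspForm (CongruenceSubgroup.Gamma0 N) 2 →ₗ[ℂ] (A → ℂ),
      (∀ f a b, P f (a + b) = P f a + P f b) ∧ Function.Injective P ∧
        ∀ (ℓ : ℕ) (hℓ : ℓ.Prime) (hℓN : ¬ ℓ ∣ N), ℓ ≠ p →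
          ∀ f a, P (CuspForm.heckeTLin 2 hℓ hℓN f) a = P f (τ ℓ a)) :
    Nonempty (ESData N p) := by
  let act : ∀ n : ℕ, GQ →* AddMonoid.End (A →+ ZMod (p ^ n)) := fun n => (conjEnd (κ n)).comp (g n)
  have hact : ∀ (n : ℕ) (σ : GQ) (c : A →+ ZMod (p ^ n)),
      act n σ c = κ n (g n σ ((κ n).symm c)) := fun n σ c => rfl
  refine nonempty_esData A hA τ hτ act ?_ ?_ ?_ ?_ ?_ occ
  · intro n σ c
    rw [hact, hact]
    obtain ⟨y, rfl⟩ := (κ (n + 1)).surjective c
    rw [← κ_π, AddEquiv.symm_apply_apply, AddEquiv.symm_apply_apply, ← g_π, κ_π]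
  · intro n σ ℓ hℓ hℓN hℓp c
    rw [hact, hact]
    obtain ⟨y, rfl⟩ := (κ n).surjective c
    rw [← κ_T n ℓ hℓ hℓN hℓp, AddEquiv.symm_apply_apply, AddEquiv.symm_apply_apply,
      g_T n σ ℓ hℓ hℓN hℓp, κ_T n ℓ hℓ hℓN hℓp]
  · intro n
    obtain ⟨L, hL, h⟩ := cont n
    refine ⟨L, hL, fun σ hσ => ?_⟩
    ext c : 1
    rw [hact, h σ hσ, AddEquiv.apply_symm_apply]
    rfl
  · intro n q hq hqN hqp P hP σ hσ
    ext c : 1
    rw [hact, unr n q hq hqN hqp P hP σ hσ, AddEquiv.apply_symm_apply]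
    rfl
  · intro n ℓ hℓ hℓN hℓp A' hA' σ hσ c
    obtain ⟨y, rfl⟩ := (κ n).surjective c
    rw [hact, hact, AddEquiv.symm_apply_apply, AddEquiv.symm_apply_apply,
      ← κ_T n ℓ hℓ hℓN hℓp, ← map_nsmul, ← map_sub, ← map_add,
      es n ℓ hℓ hℓN hℓp A' hA' σ hσ y, map_zero]

end System

end Fermat.Agent.S30.BettiLimit
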