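import Fermat.Agent.S30.Branch.Refined
import Fermat.Agent.S30.Branch.Modular

/-!
Umbrella file for the per-place ramification indices of `F_N / ℚ̄(j)`
(`Fermat.Agent.S30.Branch.ord_eq_one_generic`, `ord_dvd_three`, `ord_dvd_two`, `ord_dvd_level`)
and the refined fibre count (`ord_eq_card_orbit_field`, `ord_eq_card_orbit`).
-/
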