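import Fermat.Agent.S24.Cusp.DegUpper
import Fermat.Agent.S24.Cusp.Sys

set_option autoImplicit false
set_option linter.style.haveILetI false

/-!
# Invariant ⇒ rational

For an algebraically closed field `L` of characteristic zero with an embedding `ι : L →+* ℂ`:
if `f ∈ L((q))` is the `q`-expansion of a holomorphic `Γ₀(N)`-invariant function on `ℍ` all of
whose `SL(2,ℤ)`-translates have `L`-rational Laurent expansions in `q^(1/N)` (`f` is *good* for
the expansion system `sysOf ι N`), then `f ∈ L(j(q), j(q^N))`.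

Proof: Lagrange interpolation over the cusp embeddings.  With `θ = j(q^N)`, which separates the
cosets, the polynomial `R_f(X) = ∑_x σ_x(f) ∏_{y ≠ x} (X - σ_y θ)` has coefficients with
`SL(2,ℤ)`-invariant analytic avatars, hence in `L[j]` (`PolyJQExpK`), and
`R_f(σ_x θ) = σ_x(f) · ∏_{y ≠ x} (σ_x θ - σ_y θ)`; so `f = R_f(θ) / R_1(θ)`.
-/

namespace Fermat.Agent.S30.Rational

open UpperHalfPlane ModularCurve HahnSeries CongruenceSubgroup
open Fermat.Agent.S24.Puiseux Fermat.Agent.S24.Cusp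
open scoped MatrixGroups

section Abstract

variable {L : Type} [Field L] [Algebra ℚ L] {N : ℕ} [NeZero N] (Q : QExpSys L N)

/-! ### More closure properties of coefficientwise expansions -/

theorem hasPoly_C {A : LaurentSeries L} {φ : ℍ → ℂ} (h : Q.Has A φ) :
    Q.HasPoly (Polynomial.C A) (Polynomial.C φ) := by
  intro k
  rw [Polynomial.coeff_C, Polynomial.coeff_C]
  split_ifs
  · exact h
  · exact Q.has_zero

theorem hasPoly_sum {σ : Type*} (s : Finset σ) (P : σ → Polynomial (LaurentSeries L))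
    (Φ : σ → Polynomial (ℍ → ℂ)) (h : ∀ i ∈ s, Q.HasPoly (P i) (Φ i)) :
    Q.HasPoly (∑ i ∈ s, P i) (∑ i ∈ s, Φ i) := by
  intro k
  rw [Polynomial.finsetSum_coeff, Polynomial.finsetSum_coeff]
  exact Q.has_sum _ _ _ fun i hi => h i hi k

theorem translQ_one (x : SL(2, ℤ) ⧸ Gamma0 N) :
    Q.translQ (1 : Q.goodSubalgebra) x = 1 := by
  have h1 : (1 : Q.goodSubalgebra) = algebraMap L Q.goodSubalgebra 1 := (map_one _).symm
  funext τ
  simp only [QExpSys.translQ, QExpSys.transl]
  rw [h1, Q.funOf_algebraMap, map_one]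
  rfl

section Interp

variable [Fintype (SL(2, ℤ) ⧸ Gamma0 N)] [DecidableEq (SL(2, ℤ) ⧸ Gamma0 N)]

/-- The Lagrange interpolation numerator `∑_x σ_x(f) ∏_{y ≠ x} (X - σ_y θ)`. -/
noncomputable def interpPoly (f θ : Q.goodSubalgebra) : Polynomial (LaurentSeries L) :=
  ∑ x : SL(2, ℤ) ⧸ Gamma0 N, Polynomial.C (Q.cuspQ x f) *
    ∏ y : SL(2, ℤ) ⧸ Gamma0 N,
      (if y = x then 1 else Polynomial.X + Polynomial.C (-(Q.cuspQ y θ)))

/-- Its analytic avatar. -/
noncomputable def interpFun (f θ : Q.goodSubalgebra) : Polynomial (ℍ → ℂ) :=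
  ∑ x : SL(2, ℤ) ⧸ Gamma0 N, Polynomial.C (Q.translQ f x) *
    ∏ y : SL(2, ℤ) ⧸ Gamma0 N,
      (if y = x then 1 else Polynomial.X + Polynomial.C (-(Q.translQ θ y)))

theorem hasPoly_interp (f θ : Q.goodSubalgebra) :
    Q.HasPoly (interpPoly Q f θ) (interpFun Q f θ) := by
  refine hasPoly_sum Q _ _ _ fun x _ => ?_
  refine Q.hasPoly_mul (hasPoly_C Q (Q.has_cuspQ_translQ f x)) ?_
  refine Q.hasPoly_prod _ _ _ fun y _ => ?_
  split_ifs
  · exact Q.hasPoly_one
  · exact Q.hasPoly_X_add_C (Q.has_neg (Q.has_cuspQ_translQ θ y))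

theorem map_precomp_interpFun (f θ : Q.goodSubalgebra) (γ : SL(2, ℤ)) :
    (interpFun Q f θ).map (QExpSys.precomp γ) = interpFun Q f θ := by
  have hpre : ∀ (g : Q.goodSubalgebra) (x : SL(2, ℤ) ⧸ Gamma0 N),
      QExpSys.precomp γ (Q.translQ g x) = Q.translQ g (γ⁻¹ • x) := by
    intro g x
    funext τ
    rw [QExpSys.precomp_apply, Q.translQ_smul]
  have hpre' : ∀ (g : Q.goodSubalgebra) (x : SL(2, ℤ) ⧸ Gamma0 N),
      QExpSys.precomp γ (-(Q.translQ g x)) = -(Q.translQ g (γ⁻¹ • x)) := by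
    intro g x
    rw [map_neg, hpre]
  let F : (SL(2, ℤ) ⧸ Gamma0 N) → Polynomial (ℍ → ℂ) := fun x =>
    Polynomial.C (Q.translQ f x) * ∏ y : SL(2, ℤ) ⧸ Gamma0 N,
      (if y = x then 1 else Polynomial.X + Polynomial.C (-(Q.translQ θ y)))
  have hterm : ∀ x : SL(2, ℤ) ⧸ Gamma0 N, (F x).map (QExpSys.precomp γ) = F (γ⁻¹ • x) := by
    intro x
    simp only [F]
    rw [Polynomial.map_mul, Polynomial.map_C, hpre, Polynomial.map_prod]
    congr 1
    have h2 : ∀ y : SL(2, ℤ) ⧸ Gamma0 N,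
        (if y = x then (1 : Polynomial (ℍ → ℂ))
            else Polynomial.X + Polynomial.C (-(Q.translQ θ y))).map (QExpSys.precomp γ)
          = (fun y' : SL(2, ℤ) ⧸ Gamma0 N => if y' = γ⁻¹ • x then (1 : Polynomial (ℍ → ℂ))
              else Polynomial.X + Polynomial.C (-(Q.translQ θ y')))
            (MulAction.toPerm (γ⁻¹ : SL(2, ℤ)) y) := by
      intro y
      simp only [MulAction.toPerm_apply]
      by_cases hyx : y = x
      · rw [if_pos hyx, if_pos (by rw [hyx]), Polynomial.map_one]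
      · rw [if_neg hyx, if_neg (fun h => hyx (smul_left_cancel _ h)), Polynomial.map_add,
          Polynomial.map_X, Polynomial.map_C, hpre']
    simp only [h2]
    exact Equiv.prod_comp
      (MulAction.toPerm (γ⁻¹ : SL(2, ℤ)) : Equiv.Perm (SL(2, ℤ) ⧸ Gamma0 N))
      (fun y' : SL(2, ℤ) ⧸ Gamma0 N => if y' = γ⁻¹ • x then (1 : Polynomial (ℍ → ℂ))
        else Polynomial.X + Polynomial.C (-(Q.translQ θ y')))
  show (∑ x : SL(2, ℤ) ⧸ Gamma0 N, F x).map (QExpSys.precomp γ) = ∑ x : SL(2, ℤ) ⧸ Gamma0 N, F x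
  rw [Polynomial.map_sum]
  simp only [hterm]
  exact Equiv.sum_comp
    (MulAction.toPerm (γ⁻¹ : SL(2, ℤ)) : Equiv.Perm (SL(2, ℤ) ⧸ Gamma0 N)) F

theorem interpFun_coeff_smul (f θ : Q.goodSubalgebra) (k : ℕ) (γ : SL(2, ℤ)) (τ : ℍ) :
    (interpFun Q f θ).coeff k (γ • τ) = (interpFun Q f θ).coeff k τ := by
  have h := congrArg (fun P : Polynomial (ℍ → ℂ) => P.coeff k τ) (map_precomp_interpFun Q f θ γ)
  simp only [Polynomial.coeff_map, QExpSys.precomp_apply] at h
  exact h

theorem interpPoly_eval (f θ : Q.goodSubalgebra) (x : SL(2, ℤ) ⧸ Gamma0 N) :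
    (interpPoly Q f θ).eval (Q.cuspQ x θ) = Q.cuspQ x f *
      ∏ y : SL(2, ℤ) ⧸ Gamma0 N, (if y = x then 1 else Q.cuspQ x θ - Q.cuspQ y θ) := by
  rw [interpPoly, Polynomial.eval_finsetSum]
  rw [Finset.sum_eq_single x]
  · rw [Polynomial.eval_mul, Polynomial.eval_C, Polynomial.eval_prod]
    congr 1
    refine Finset.prod_congr rfl fun y _ => ?_
    split_ifs
    · simp
    · simp [sub_eq_add_neg]
  · intro x' _ hx'
    rw [Polynomial.eval_mul, Polynomial.eval_prod]
    have h0 : ∏ y : SL(2, ℤ) ⧸ Gamma0 N,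
        Polynomial.eval (Q.cuspQ x θ)
          (if y = x' then 1 else Polynomial.X + Polynomial.C (-(Q.cuspQ y θ))) = 0 := by
      refine Finset.prod_eq_zero (Finset.mem_univ x) ?_
      rw [if_neg (fun h => hx' h.symm)]
      simp
    rw [h0, mul_zero]
  · intro hx
    exact absurd (Finset.mem_univ x) hx

end Interp

/-- **Invariant ⇒ rational (abstract form).**  If invariant functions with an expansion are
polynomials in `j`, every good series lies in `L(j(q), j(q^N))`. -/
theorem good_mem_adjoin_of_hpoly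
    (hpoly : ∀ (A : LaurentSeries L) (φ : ℍ → ℂ), Q.Has A φ →
      (∀ (γ : SL(2, ℤ)) (τ : ℍ), φ (γ • τ) = φ τ) →
      ∃ R : Polynomial L, A = qExpand L N (Polynomial.aeval (jgen L 1) R))
    (f : Q.goodSubalgebra) :
    (f : LaurentSeries L) ∈ IntermediateField.adjoin L ({jgen L 1, jgen L N} : Set (LaurentSeries L)) := by
  classical
  letI : Fintype (SL(2, ℤ) ⧸ Gamma0 N) := Fintype.ofFinite _
  set θ : Q.goodSubalgebra := Q.jG N dvd_rfl with hθ
  set x0 : SL(2, ℤ) ⧸ Gamma0 N := ((1 : SL(2, ℤ)) : SL(2, ℤ) ⧸ Gamma0 N) with hx0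
  -- the subring `qExpand N (L[j, θ])`
  let B : Subring (LaurentSeries L) :=
    (Algebra.adjoin L ({jgen L 1, jgen L N} : Set (LaurentSeries L))).toSubring.map (qExpand L N)
  have hcoef : ∀ (g : Q.goodSubalgebra) (k : ℕ), (interpPoly Q g θ).coeff k ∈ B := by
    intro g k
    obtain ⟨R, hR⟩ := hpoly _ _ (hasPoly_interp Q g θ k) (interpFun_coeff_smul Q g θ k)
    rw [hR]
    refine ⟨_, ?_, rfl⟩
    show Polynomial.aeval (jgen L 1) R ∈ Algebra.adjoin L ({jgen L 1, jgen L N} : Set _)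
    exact Algebra.adjoin_mono (by simp) (Polynomial.aeval_mem_adjoin_singleton L (jgen L 1))
  have ht : Q.cuspQ x0 θ = qExpand L N (jgen L N) := by
    rw [hx0, Q.cuspQ_mk, Q.cuspHom_one, hθ, Q.coe_jG]
  have htB : Q.cuspQ x0 θ ∈ B := by
    rw [ht]
    exact ⟨_, Algebra.subset_adjoin (by simp), rfl⟩
  have heval : ∀ g : Q.goodSubalgebra, (interpPoly Q g θ).eval (Q.cuspQ x0 θ) ∈ B := by
    intro g
    rw [Polynomial.eval_eq_sum_range]
    exact Subring.sum_mem _ fun k _ => Subring.mul_mem _ (hcoef g k) (Subring.pow_mem _ htB k)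
  set D : LaurentSeries L := ∏ y : SL(2, ℤ) ⧸ Gamma0 N,
    (if y = x0 then 1 else Q.cuspQ x0 θ - Q.cuspQ y θ) with hD
  have hD0 : D ≠ 0 := by
    rw [hD, Finset.prod_ne_zero_iff]
    intro y _
    split_ifs with hy
    · exact one_ne_zero
    · intro h
      exact hy (Q.eq_of_cuspQ_jG_eq y x0 (sub_eq_zero.mp h).symm)
  obtain ⟨a, ha, hab⟩ := heval f
  obtain ⟨b, hb, hbb⟩ := heval 1
  rw [interpPoly_eval, ← hD] at hab hbb
  rw [map_one, one_mul] at hbb
  have hf1 : Q.cuspQ x0 f = qExpand L N (f : LaurentSeries L) := by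
    rw [hx0, Q.cuspQ_mk, Q.cuspHom_one]
  rw [hf1] at hab
  have hb0 : b ≠ 0 := by
    intro h
    rw [h, map_zero] at hbb
    exact hD0 hbb.symm
  have hfab : (f : LaurentSeries L) * b = a := by
    apply qExpand_injective N
    rw [map_mul, hbb, hab]
  have hfdiv : (f : LaurentSeries L) = a / b := by
    rw [eq_div_iff hb0, hfab]
  rw [hfdiv]
  have hle : Algebra.adjoin L ({jgen L 1, jgen L N} : Set (LaurentSeries L))
      ≤ (IntermediateField.adjoin L ({jgen L 1, jgen L N} : Set (LaurentSeries L))).toSubalgebra :=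
    IntermediateField.algebra_adjoin_le_adjoin L _
  exact div_mem (hle ha) (hle hb)

end Abstract

/-! ### The expansion system of an embedded algebraically closed field -/

section Concrete

variable {L : Type} [Field L] [Algebra ℚ L] [IsAlgClosed L] [CharZero L] (ι : L →+* ℂ)
  (N : ℕ) [NeZero N]

/-- The `q^(1/N)`-expansion system of an algebraically closed field `L` of characteristic zero
embedded in `ℂ` (`Cusp.qExpSys` for general `(L, ι)`; e.g. `L = ℚ̄`, or `L = ℂ` with `ι = id`). -/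
noncomputable def sysOf : QExpSys L N where
  Has := Fermat.Agent.S24.QB.HasQExpK ι N
  ι := ι
  has_add := fun hA hB => hA.add hB
  has_mul := fun hA hB => hA.mul hB
  has_const := Fermat.Agent.S24.QB.hasQExpK_algebraMap _ N
  has_unique := fun hA hB => hA.unique (NeZero.ne N) hB
  has_fun := fun hA hB => hA.fun_unique hB
  ζ := (Fermat.Agent.S24.QB.exists_unit_map_eq_exp ι (NeZero.ne N)).choose
  hζ := (Fermat.Agent.S24.QB.exists_unit_map_eq_exp ι (NeZero.ne N)).choose_spec.1
  has_shift := fun hA => hA.shift_T _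
    (Fermat.Agent.S24.QB.exists_unit_map_eq_exp ι (NeZero.ne N)).choose_spec.2
  jfun := Fermat.Agent.S24.JFun.jFun
  jfun_smul := Fermat.Agent.S24.JFun.jFun_smul
  has_j := fun a d b ha hd hadN => by
    refine ⟨cuspP (Fermat.Agent.S24.QB.exists_unit_map_eq_exp ι (NeZero.ne N)).choose N a d b, ?_⟩
    have h := Fermat.Agent.S24.QB.hasQExpK_cuspP ι (NeZero.ne N) _
      (Fermat.Agent.S24.QB.exists_unit_map_eq_exp ι (NeZero.ne N)).choose_spec.2 a d b
      (dvd_trans (dvd_mul_left d a) hadN) ha hd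
    exact h.congr fun τ => by rw [moebPt_eq_mob]
  has_jgen := fun δ _ hδN => by
    have h := Fermat.Agent.S24.QB.hasQExpK_cuspP ι (NeZero.ne N) _
      (Fermat.Agent.S24.QB.exists_unit_map_eq_exp ι (NeZero.ne N)).choose_spec.2 δ 1 0
      (one_dvd N) (Nat.pos_of_ne_zero (NeZero.ne δ)) one_pos
    rw [qExpand_jgen_eq_cuspP (Fermat.Agent.S24.QB.exists_unit_map_eq_exp ι
      (NeZero.ne N)).choose N δ]
    exact h.congr fun τ => by rw [moebPt_eq_mob]
  stab := fun g hg => by
    apply Fermat.Agent.S24.StabJ.mem_Gamma0_of_jFun_scale N g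
    intro τ
    rw [scaleH_eq_mob, scaleH_eq_mob]
    exact hg τ

theorem sysOf_has_iff {A : LaurentSeries L} {φ : ℍ → ℂ} :
    (sysOf ι N).Has A φ ↔ Fermat.Agent.S24.QB.HasQExpK ι N A φ := Iff.rfl

theorem sysOf_ι : (sysOf ι N).ι = ι := rfl

theorem sysOf_jfun : (sysOf ι N).jfun = Fermat.Agent.S24.JFun.jFun := rfl

/-- Unfolded goodness criterion: `f` is good iff it is the `q`-expansion of a
`Γ₀(N)`-invariant function all of whose `SL(2,ℤ)`-translates have `L`-rational expansions in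
`q^(1/N)`. -/
theorem mem_good_iff {f : LaurentSeries L} :
    f ∈ (sysOf ι N).goodSubalgebra ↔
      ∃ φ : ℍ → ℂ, Fermat.Agent.S24.QB.HasQExpK ι N (qExpand L N f) φ ∧
        (∀ γ ∈ Gamma0 N, ∀ τ : ℍ, φ (γ • τ) = φ τ) ∧
        ∀ γ : SL(2, ℤ), ∃ B : LaurentSeries L,
          Fermat.Agent.S24.QB.HasQExpK ι N B (fun τ => φ (γ • τ)) := Iff.rfl

theorem sysOf_hpoly (A : LaurentSeries L) (φ : ℍ → ℂ) (h : (sysOf ι N).Has A φ)
    (hinv : ∀ (γ : SL(2, ℤ)) (τ : ℍ), φ (γ • τ) = φ τ) :
    ∃ R : Polynomial L, A = qExpand L N (Polynomial.aeval (jgen L 1) R) := by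
  obtain ⟨R, -, hR⟩ := Fermat.Agent.S24.PolyJQExpK.exists_polynomial
    (ι := ι) (N := N) (A := A) (φ := φ) h hinv
  exact ⟨R, by rw [QExpSys.jgen_one]; exact hR⟩

/-- **Invariant ⇒ rational**: every good series lies in `L(j(q), j(q^N))`. -/
theorem good_mem_adjoin_pair (f : LaurentSeries L) (hf : f ∈ (sysOf ι N).goodSubalgebra) :
    f ∈ IntermediateField.adjoin L
      ({coeffEmb L jq, coeffEmb L (qExpand ℚ N jq)} : Set (LaurentSeries L)) := by
  have h := good_mem_adjoin_of_hpoly (sysOf ι N) (sysOf_hpoly ι N) ⟨f, hf⟩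
  rw [QExpSys.jgen_one] at h
  exact h

omit [IsAlgClosed L] [CharZero L] in
theorem pair_subset_gens :
    ({coeffEmb L jq, coeffEmb L (qExpand ℚ N jq)} : Set (LaurentSeries L))
      ⊆ Fermat.Agent.S24.DegreeGen.gens L N := by
  intro y hy
  rcases hy with rfl | hy
  · exact Fermat.Agent.S24.DegreeGen.coeffEmb_jq_mem_gens L N
  · rw [Set.mem_singleton_iff] at hy
    subst hy
    exact Fermat.Agent.S24.DegreeGen.coeffEmb_qExpand_mem_gens L dvd_rfl

/-- **Invariant ⇒ rational**: every good series lies in the function field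
`L(j(q^d) : d ∣ N)`. -/
theorem good_mem_adjoin (f : LaurentSeries L) (hf : f ∈ (sysOf ι N).goodSubalgebra) :
    f ∈ IntermediateField.adjoin L (Fermat.Agent.S24.DegreeGen.gens L N) :=
  IntermediateField.adjoin.mono L _ _ (pair_subset_gens N) (good_mem_adjoin_pair ι N f hf)

theorem gens_subset_good :
    Fermat.Agent.S24.DegreeGen.gens L N ⊆ ((sysOf ι N).goodSubalgebra : Set (LaurentSeries L)) := by
  rintro _ ⟨y, ⟨d, hd0, hd, rfl⟩, rfl⟩
  exact (sysOf ι N).good_jgen d hd

include ι in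
/-- The function field of `X₀(N)` over `L` is generated by `j(q)` and `j(q^N)`. -/
theorem adjoin_gens_eq_adjoin_pair :
    IntermediateField.adjoin L (Fermat.Agent.S24.DegreeGen.gens L N)
      = IntermediateField.adjoin L
        ({coeffEmb L jq, coeffEmb L (qExpand ℚ N jq)} : Set (LaurentSeries L)) := by
  apply le_antisymm
  · rw [IntermediateField.adjoin_le_iff]
    intro y hy
    exact good_mem_adjoin_pair ι N y (gens_subset_good ι N hy)
  · exact IntermediateField.adjoin.mono L _ _ (pair_subset_gens N)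

/-- Quotient form: if `f · j^k` is good then `f` lies in the function field (this is how
meromorphic invariant functions whose poles on `ℍ` are killed by a power of a level-one form
are handled). -/
theorem mem_adjoin_of_mul_pow_good (f : LaurentSeries L) (k : ℕ)
    (hf : f * coeffEmb L jq ^ k ∈ (sysOf ι N).goodSubalgebra) :
    f ∈ IntermediateField.adjoin L (Fermat.Agent.S24.DegreeGen.gens L N) := by
  have h1 := good_mem_adjoin ι N _ hf
  have hj : coeffEmb L jq ∈ IntermediateField.adjoin L (Fermat.Agent.S24.DegreeGen.gens L N) :=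
    IntermediateField.subset_adjoin L _ (Fermat.Agent.S24.DegreeGen.coeffEmb_jq_mem_gens L N)
  have hj0 : coeffEmb L jq ≠ 0 := by
    intro h0
    have h2 := Fermat.Agent.S24.DegreeGen.coeffEmb_jq_coeff_neg_one L
    rw [h0] at h2
    simp at h2
  have hfe : f = f * coeffEmb L jq ^ k / coeffEmb L jq ^ k := by
    rw [mul_div_assoc, div_self (pow_ne_zero k hj0), mul_one]
  rw [hfe]
  exact div_mem h1 (pow_mem hj k)

end Concrete

/-! ### The case `L = ℚ̄` -/

/-- Over `ℚ̄`: every good series lies in the function field of `X₀(N)` of the prelude. -/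
theorem good_mem_modularFunctionFieldBar (ι : AlgebraicClosure ℚ →+* ℂ) (N : ℕ) [NeZero N]
    (f : LaurentSeries (AlgebraicClosure ℚ)) (hf : f ∈ (sysOf ι N).goodSubalgebra) :
    f ∈ modularFunctionFieldBar N := by
  have h := good_mem_adjoin ι N f hf
  rw [← Fermat.Agent.S24.DegreeGen.laurentBaseChange_full_eq_adjoin] at h
  exact h

end Fermat.Agent.S30.Rational
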