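import Fermat.Agent.S30.RootQExp
import Fermat.Agent.S30.Rational
import Fermat.Agent.S24.QB.Conv
import Fermat.Agent.S24.Theta

set_option autoImplicit false
set_option linter.dupNamespace false

/-!
# Invariant holomorphic roots of good functions are good

* `root_good` : a `Γ₀(N)`-invariant holomorphic `m`-th root of (the avatar of) a good series is
  (the avatar of) a good series `x` with `x ^ m = f`.
* `exists_pow_eq_of_invariant` : the kernel of the Kummer character, over `ℚ̄`: if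
  `θ x = H ^ m` with `H` holomorphic and `Γ₀(N)`-invariant, then `x` is an `m`-th power in the
  function field `FN N`.
-/

open UpperHalfPlane Complex Filter Topology Function HahnSeries
open scoped Real Manifold MatrixGroups

noncomputable section

namespace Fermat.Agent.S30.RootGood

open Fermat.Agent.S24.QB Fermat.Agent.S24.Puiseux Fermat.Agent.S24 Fermat.Agent.S24.Cusp
open Fermat.Agent.S30.Rational Fermat.Agent.S30.RootQExp CongruenceSubgroup ModularCurve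

theorem conj_T_zpow_mem_Gamma0' (N : ℕ) (g : SL(2, ℤ)) :
    g * ModularGroup.T ^ (N : ℤ) * g⁻¹ ∈ Gamma0 N := by
  rw [Gamma0_mem]
  have h : (g * ModularGroup.T ^ (N : ℤ) * g⁻¹) 1 0 = -(N : ℤ) * (g 1 0) ^ 2 := by
    show (g * ModularGroup.T ^ (N : ℤ) * g⁻¹).1 1 0 = _
    rw [Matrix.SpecialLinearGroup.coe_mul, Matrix.SpecialLinearGroup.coe_mul,
      ModularGroup.coe_T_zpow, Matrix.SpecialLinearGroup.coe_inv, Matrix.adjugate_fin_two]
    simp [Matrix.mul_apply, Fin.sum_univ_two]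
    ring
  rw [h]
  simp

theorem T_mem_Gamma0' (N : ℕ) : ModularGroup.T ∈ Gamma0 N := by
  rw [Gamma0_mem]
  simp [ModularGroup.T]

/-- Translates of a `Γ₀(N)`-invariant function are `N`-periodic. -/
theorem periodic_translate {N : ℕ} {H : ℍ → ℂ}
    (hinv : ∀ γ ∈ Gamma0 N, ∀ τ : ℍ, H (γ • τ) = H τ) (g : SL(2, ℤ)) (τ : ℍ) :
    H (g • ((N : ℝ) +ᵥ τ)) = H (g • τ) := by
  have h1 : ((N : ℝ) +ᵥ τ) = ModularGroup.T ^ (N : ℤ) • τ := by
    rw [UpperHalfPlane.modular_T_zpow_smul]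
    simp
  have h2 : g • (ModularGroup.T ^ (N : ℤ) • τ)
      = (g * ModularGroup.T ^ (N : ℤ) * g⁻¹) • (g • τ) := by
    rw [← mul_smul, ← mul_smul, inv_mul_cancel_right]
  rw [h1, h2, hinv _ (conj_T_zpow_mem_Gamma0' N g)]

variable {L : Type} [Field L] [Algebra ℚ L] [IsAlgClosed L] [CharZero L] (ι : L →+* ℂ)
  (N : ℕ) [NeZero N]

/-- **Invariant holomorphic roots of good functions are good.** -/
theorem root_good {m : ℕ} (hm : m ≠ 0) {f : LaurentSeries L} {φ H : ℍ → ℂ}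
    (hfφ : HasQExpK ι 1 f φ) (hf : f ∈ (sysOf ι N).goodSubalgebra)
    (hH : MDifferentiable 𝓘(ℂ) 𝓘(ℂ) H) (hinv : ∀ γ ∈ Gamma0 N, ∀ τ : ℍ, H (γ • τ) = H τ)
    (hpow : ∀ τ : ℍ, H τ ^ m = φ τ) :
    ∃ x : LaurentSeries L, x ∈ (sysOf ι N).goodSubalgebra ∧ x ^ m = f ∧ HasQExpK ι 1 x H := by
  have hN : N ≠ 0 := NeZero.ne N
  obtain ⟨φ', hφ', -, hφ'B⟩ := (mem_good_iff ι N).mp hf
  have hφeq : φ' = φ := hφ'.fun_unique (hfφ.qExpand_one N)
  subst hφeq
  -- expansions of all translates of `H`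
  have hroot : ∀ g : SL(2, ℤ), ∃ A : LaurentSeries L, HasQExpK ι N A (fun τ => H (g • τ)) := by
    intro g
    obtain ⟨B, hB⟩ := hφ'B g
    have hg : (0 : ℝ) < ((g : GL (Fin 2) ℝ)).det.val := by simp
    have hHg : MDifferentiable 𝓘(ℂ) 𝓘(ℂ) (fun τ : ℍ => H (g • τ)) :=
      hH.comp (mdifferentiable_smul hg)
    obtain ⟨A, hA, -⟩ := hasQExpK_root ι hN hm hHg (fun τ => periodic_translate hinv g τ)
      (hB.congr fun τ => (hpow (g • τ)).symm)
    exact ⟨A, hA⟩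
  obtain ⟨A₁, hA₁⟩ := hroot 1
  have hA₁' : HasQExpK ι N A₁ H := hA₁.congr fun τ => by rw [one_smul]
  obtain ⟨ζ, -, hζ⟩ := exists_unit_map_eq_exp ι hN
  have hper1 : ∀ τ : ℍ, H ((1 : ℝ) +ᵥ τ) = H τ := by
    intro τ
    rw [← UpperHalfPlane.modular_T_smul, hinv _ (T_mem_Gamma0' N)]
  obtain ⟨x, hxA, hx⟩ := hA₁'.exists_qExpand_of_periodic ζ hζ hper1
  refine ⟨x, ?_, ?_, hx⟩
  · rw [mem_good_iff]
    exact ⟨H, hxA ▸ hA₁', hinv, hroot⟩
  · exact (hx.pow m).unique one_ne_zero (hfφ.congr fun τ => (hpow τ).symm)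

section Kernel

open Fermat.Agent.S24.Theta Fermat.Agent.S24.Modular Fermat.Agent.S24.HolH

/-- **Kernel of the Kummer character (over `ℚ̄`).** If `θ x = H ^ m` for a holomorphic
`Γ₀(N)`-invariant `H`, then `x` is an `m`-th power in the function field of `X₀(N)`. -/
theorem exists_pow_eq_of_invariant (ι : Kbar →+* ℂ) (N : ℕ) [NeZero N] {m : ℕ} (hm : m ≠ 0)
    (x : A0 N) (H : HolH) (hH : H ^ m = theta ι N x)
    (hinv : ∀ γ ∈ Gamma0 N, compSL γ H = H) : ∃ y : FN N, y ^ m = (x : FN N) := by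
  have hfφ : HasQExpK ι 1 ((x : FN N) : LaurentSeries Kbar) (theta ι N x : ℍ → ℂ) :=
    (hasQExpK_one_iff ι _ _).mpr (hasQ_theta ι N x)
  have hf : ((x : FN N) : LaurentSeries Kbar) ∈ (sysOf ι N).goodSubalgebra :=
    Algebra.adjoin_le (gens_subset_good ι N) (mem_A0.mp x.2)
  obtain ⟨y0, hy0, hy0m, -⟩ := root_good ι N hm hfφ hf H.2
    (fun γ hγ τ => by
      have h := congrArg (fun φ : HolH => (φ : ℍ → ℂ) τ) (hinv γ hγ)
      simpa using h)
    (fun τ => by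
      have h := congrArg (fun φ : HolH => (φ : ℍ → ℂ) τ) hH
      simpa using h)
  have hmem := good_mem_modularFunctionFieldBar ι N y0 hy0
  exact ⟨⟨y0, hmem⟩, Subtype.ext hy0m⟩

/-- Fraction form: if `H ^ m = θ a · θ b ^ (m - 1)` (i.e. `H / θ b` is an `m`-th root of
`θ (a / b)`) and `H` is `Γ₀(N)`-invariant, then `a / b` is an `m`-th power in `FN N`. -/
theorem exists_pow_eq_div_of_invariant (ι : Kbar →+* ℂ) (N : ℕ) [NeZero N] {m : ℕ} (hm : m ≠ 0)
    (a b : A0 N) (hb : b ≠ 0) (H : HolH)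
    (hH : H ^ m = theta ι N a * theta ι N b ^ (m - 1))
    (hinv : ∀ γ ∈ Gamma0 N, compSL γ H = H) :
    ∃ y : FN N, y ^ m = (a : FN N) / (b : FN N) := by
  obtain ⟨y, hy⟩ := exists_pow_eq_of_invariant ι N hm (a * b ^ (m - 1)) H
    (by rw [hH, map_mul, map_pow]) hinv
  have hb' : (b : FN N) ≠ 0 := fun h => hb (Subtype.ext h)
  refine ⟨y / (b : FN N), ?_⟩
  have hm1 : 1 ≤ m := Nat.one_le_iff_ne_zero.mpr hm
  rw [div_pow, hy]
  have h1 : (((a * b ^ (m - 1) : A0 N) : FN N)) = (a : FN N) * (b : FN N) ^ (m - 1) := by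
    push_cast
    rfl
  rw [h1, eq_div_iff hb', div_mul_eq_mul_div, div_eq_iff (pow_ne_zero _ hb'), mul_assoc,
    ← pow_succ, Nat.sub_add_cancel hm1]

end Kernel

end Fermat.Agent.S30.RootGood

end
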