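import Fermat.Agent.S30.KummerChar.Root
import Fermat.Agent.S30.RootGood
import Fermat.Agent.Lib.HolRootH

set_option autoImplicit false
set_option linter.dupNamespace false

/-!
# Existence of Kummer roots and the kernel of the Kummer character

In the vocabulary of `Fermat.Agent.S30.KummerChar` (`IsKummerRoot`, `mult`):

* `exists_isKummerRoot` : if `m ∣ v.ord a - v.ord b` for all places `v` of `FN N`, a holomorphic
  `m`-th root `H` of `θ a * θ b ^ (m - 1)` exists on `ℍ`.
* `exists_pow_eq_of_mult_eq_one` : if the multipliers of `H` under all of `Γ₀(N)` are `1`, then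
  `a / b` is an `m`-th power in `FN N` (injectivity of `f ↦ χ_f`, directly over `ℚ̄`).
-/

noncomputable section

open scoped MatrixGroups Topology
open AlgebraicCurve UpperHalfPlane ModularCurve CongruenceSubgroup Filter
open Fermat.Agent.S24.HolH Fermat.Agent.S24.Theta Fermat.Agent.S24.Modular
open Fermat.Agent.S30.KummerChar Fermat.Agent.Lib

namespace Fermat.Agent.S30.KummerKernel

variable {ι : Kbar →+* ℂ} {N : ℕ} {m : ℕ}

/-- Point form of the divisibility of the divisor: `m ∣ ord_τ (θ a) - ord_τ (θ b)`. -/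
theorem dvd_ordZ_sub {a b : A0 N} (ha : a ≠ 0) (hb : b ≠ 0)
    (hdiv : ∀ v : Place Kbar (FN N), (m : ℤ) ∣ v.ord (a : FN N) - v.ord (b : FN N)) (τ : ℍ) :
    (m : ℤ) ∣ ordZ τ (theta ι N a) - ordZ τ (theta ι N b) := by
  let o : A0 N → ℤ := fun x => ordZ τ (theta ι N x)
  have hmul : ∀ x y : A0 N, x ≠ 0 → y ≠ 0 → o (x * y) = o x + o y := by
    intro x y hx hy
    show ordZ τ (theta ι N (x * y)) = _
    rw [map_mul, ordZ_mul τ (theta_ne_zero hx) (theta_ne_zero hy)]
  have hadd : ∀ x y : A0 N, x ≠ 0 → y ≠ 0 → x + y ≠ 0 → min (o x) (o y) ≤ o (x + y) := by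
    intro x y hx hy hxy
    show _ ≤ ordZ τ (theta ι N (x + y))
    rw [map_add]
    refine min_le_ordZ_add τ (theta_ne_zero hx) (theta_ne_zero hy) ?_
    rw [← map_add]
    exact theta_ne_zero hxy
  have hK : ∀ c : Kbar, c ≠ 0 → o (algebraMap Kbar (A0 N) c) = 0 := by
    intro c hc
    show ordZ τ (theta ι N (algebraMap Kbar (A0 N) c)) = 0
    rw [theta_algebraMap]
    exact ordZ_algebraMap ((map_ne_zero ι).mpr hc)
  obtain ⟨t, -, ht⟩ := exists_eq_mul_of_dvd_ord (K := Kbar) (F := FN N) o hmul hadd hK ⊤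
    (fun _ _ => AddSubgroup.mem_top _) m a b ha hb hdiv
  exact ⟨t, ht⟩

/-- **Existence of the Kummer root.** -/
theorem exists_isKummerRoot (hm : 0 < m) {a b : A0 N} (ha : a ≠ 0) (hb : b ≠ 0)
    (hdiv : ∀ v : Place Kbar (FN N), (m : ℤ) ∣ v.ord (a : FN N) - v.ord (b : FN N)) :
    ∃ H : HolH, IsKummerRoot ι m a b H := by
  obtain ⟨H, -, hH, -⟩ := HolRootH.exists_root_frac m hm.ne' _ _ (theta_ne_zero (ι := ι) ha)
    (theta_ne_zero (ι := ι) hb) (dvd_ordZ_sub ha hb hdiv)
  exact ⟨H, hH⟩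

/-- **Kernel of the Kummer character**: trivial multipliers on `Γ₀(N)` force `a / b` to be an
`m`-th power in the function field. -/
theorem exists_pow_eq_of_mult_eq_one [NeZero N] (hm : 0 < m) {a b : A0 N}
    (hb : b ≠ 0) {H : HolH} (hH : IsKummerRoot ι m a b H)
    (hχ : ∀ γ ∈ Gamma0 N, mult γ H = 1) : ∃ y : FN N, y ^ m = (a : FN N) / (b : FN N) := by
  refine RootGood.exists_pow_eq_div_of_invariant ι N hm.ne' a b hb H hH fun γ hγ => ?_
  have h := (hH.isEig hm hγ).compSL_eq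
  rw [hχ γ hγ, map_one, one_mul] at h
  exact h

/-- Conversely an `m`-th power has trivial multipliers (for any of its roots). -/
theorem mult_eq_one_of_pow [NeZero N] (hm : 0 < m) {a b : A0 N} (ha : a ≠ 0) (hb : b ≠ 0)
    {H : HolH} (hH : IsKummerRoot ι m a b H) (c : A0 N) (hc : c ≠ 0) (hab : a = c ^ m * b)
    {γ : SL(2, ℤ)} (hγ : γ ∈ Gamma0 N) : mult γ H = 1 := by
  have h1 : IsKummerRoot ι m (c ^ m) 1 (theta ι N c) := isKummerRoot_pow c
  have h2 := hH.mult_eq h1 hm ha hb (pow_ne_zero _ hc) one_ne_zero (by rw [mul_one, hab]) hγ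
  rw [h2]
  exact mult_eq_one_of_compSL_eq (theta_ne_zero hc) (compSL_theta_of_mem_Gamma0 hγ c)

end Fermat.Agent.S30.KummerKernel

end
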