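import Fermat.Agent.S30.Producer.Bricks
import Fermat.Agent.S30.KummerKernel

set_option autoImplicit false
set_option linter.dupNamespace false

/-!
# The producer bricks `Root` and `Inj`

* `root N : Producer.Bricks.Root N` : every Kummer function has a holomorphic `m`-th root on `ℍ`.
* `inj N : Producer.Bricks.Inj N` : a `Γ₀(N)`-invariant holomorphic `m`-th root of an element of `A0 N`
  lies in `FN N`.
-/

noncomputable section

open scoped MatrixGroups
open CongruenceSubgroup ModularCurve AlgebraicCurve UpperHalfPlane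
open Fermat.Agent.S24.HolH Fermat.Agent.S24.Theta Fermat.Agent.S24.Modular
open Fermat.Agent.S30.KummerChar

namespace Fermat.Agent.S30.BrickRootInj

/-- (E5.Root) -/
theorem root (N : ℕ) : Producer.Bricks.Root N := by
  intro m hm f hf hdiv
  obtain ⟨a, b, hb, hfab⟩ := exists_mul_eq (N := N) f
  have hb0 : b ≠ 0 := by
    rintro rfl
    exact hb rfl
  have ha : a ≠ 0 := by
    rintro rfl
    have h0 : f * (b : FN N) = 0 := hfab
    rcases mul_eq_zero.mp h0 with h | h
    · exact hf h
    · exact hb h
  have hdiv' : ∀ v : Place Kbar (FN N), (m : ℤ) ∣ v.ord (a : FN N) - v.ord (b : FN N) := by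
    intro v
    have h1 : v.ord (a : FN N) = v.ord f + v.ord (b : FN N) := by
      rw [← hfab]
      exact v.ord_mul hf hb
    rw [h1, add_sub_cancel_right]
    exact hdiv v
  obtain ⟨H, hH⟩ := KummerKernel.exists_isKummerRoot (ι := iotaBar) hm ha hb0 hdiv'
  exact ⟨a, b, H, ha, hb0, hfab, hH⟩

/-- (E5.Inj) -/
theorem inj (N : ℕ) [NeZero N] : Producer.Bricks.Inj N := by
  intro m hm x H hH hinv
  exact RootGood.exists_pow_eq_of_invariant iotaBar N hm.ne' x H hH hinv

end Fermat.Agent.S30.BrickRootInj

end
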