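import Mathlib

/-!
# S30 engine: the Clifford lemma

Let `ρ : G → End_k(U)` be a representation of a group on a finite-dimensional vector space over a
field `k` with `2 ≠ 0`, whose image spans `End_k(U)` (Burnside form of absolute irreducibility).
If every `ρ g` satisfies a quadratic relation `ρ(g)² - t(g) ρ(g) + e(g) = 0` with `e` multiplicative
and nowhere zero, then `dim U ≤ 2`, and if `dim U = 2` then `tr ρ(g) = t(g)`, `det ρ(g) = e(g)` and
the characteristic polynomial of `ρ g` is `X² - t(g) X + e(g)` for every `g`.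
-/

set_option autoImplicit false

open Polynomial

namespace Fermat.Agent.S30.Clifford

variable {k : Type*} [Field k] {G : Type*} [Group G] {U : Type*} [AddCommGroup U] [Module k U]

/-- The inverse formula `e(g) ρ(g⁻¹) = t(g) - ρ(g)`. -/
theorem smul_inv_eq (ρ : G →* Module.End k U) (t e : G → k)
    (hrel : ∀ g, ρ g * ρ g - t g • ρ g + e g • (1 : Module.End k U) = 0) (g : G) :
    e g • ρ g⁻¹ = t g • (1 : Module.End k U) - ρ g := by
  have h3 : ρ g * ρ g⁻¹ = 1 := by rw [← map_mul, mul_inv_cancel, map_one]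
  have h2 : (ρ g * ρ g - t g • ρ g + e g • (1 : Module.End k U)) * ρ g⁻¹ = 0 := by
    rw [hrel g, zero_mul]
  rw [add_mul, sub_mul, mul_assoc, h3, mul_one, smul_mul_assoc, h3, smul_mul_assoc, one_mul] at h2
  have h4 : e g • ρ g⁻¹ = -(ρ g - t g • (1 : Module.End k U)) := eq_neg_of_add_eq_zero_right h2
  rw [h4, neg_sub]

/-- The polarised relation: `gh + hg - t(g) h - t(h) g = t(gh) - t(g) t(h)`. -/
theorem anticomm (ρ : G →* Module.End k U) (t e : G → k) (he : ∀ g h, e (g * h) = e g * e h)
    (hrel : ∀ g, ρ g * ρ g - t g • ρ g + e g • (1 : Module.End k U) = 0) (g h : G) :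
    ρ g * ρ h + ρ h * ρ g - t g • ρ h - t h • ρ g
      = (t (g * h) - t g * t h) • (1 : Module.End k U) := by
  have h1 := smul_inv_eq ρ t e hrel (g * h)
  have h2 := smul_inv_eq ρ t e hrel g
  have h3 := smul_inv_eq ρ t e hrel h
  have h4 : e (g * h) • ρ (g * h)⁻¹ = (e h • ρ h⁻¹) * (e g • ρ g⁻¹) := by
    rw [mul_inv_rev, map_mul, he, smul_mul_assoc, mul_smul_comm, smul_smul, mul_comm]
  rw [h1, h2, h3, map_mul] at h4
  -- h4 : t (g*h) • 1 - ρ g * ρ h = (t h • 1 - ρ h) * (t g • 1 - ρ g)
  have h5 : (t h • (1 : Module.End k U) - ρ h) * (t g • (1 : Module.End k U) - ρ g)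
      = (t g * t h) • (1 : Module.End k U) - t h • ρ g - t g • ρ h + ρ h * ρ g := by
    simp only [sub_mul, mul_sub, smul_mul_assoc, mul_smul_comm, one_mul, mul_one, smul_sub,
      smul_smul]
    module
  rw [h5] at h4
  have h6 : ρ g * ρ h + ρ h * ρ g - t g • ρ h - t h • ρ g
      = t (g * h) • (1 : Module.End k U) - (t g * t h) • (1 : Module.End k U) := by
    rw [sub_eq_iff_eq_add] at h4
    rw [h4]
    module
  rw [h6, sub_smul]

/-- The "traceless part" `ρ(g) - t(g)/2`. -/
noncomputable def x0 (ρ : G →* Module.End k U) (t : G → k) (g : G) : Module.End k U :=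
  ρ g - (t g / 2) • (1 : Module.End k U)

/-- The span of the traceless parts. -/
noncomputable def V (ρ : G →* Module.End k U) (t : G → k) : Submodule k (Module.End k U) :=
  Submodule.span k (Set.range (x0 ρ t))

theorem x0_anticomm (h2 : (2 : k) ≠ 0) (ρ : G →* Module.End k U) (t e : G → k)
    (he : ∀ g h, e (g * h) = e g * e h)
    (hrel : ∀ g, ρ g * ρ g - t g • ρ g + e g • (1 : Module.End k U) = 0) (g h : G) :
    x0 ρ t g * x0 ρ t h + x0 ρ t h * x0 ρ t g
      = (t (g * h) - t g * t h / 2) • (1 : Module.End k U) := by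
  have h1 := anticomm ρ t e he hrel g h
  have h3 : x0 ρ t g * x0 ρ t h + x0 ρ t h * x0 ρ t g
      = (ρ g * ρ h + ρ h * ρ g - t g • ρ h - t h • ρ g)
        + (t g * t h / 2) • (1 : Module.End k U) := by
    unfold x0
    simp only [sub_mul, mul_sub, smul_mul_assoc, mul_smul_comm, one_mul, mul_one, smul_sub,
      smul_smul]
    match_scalars <;> field_simp <;> ring
  rw [h3, h1, ← add_smul]
  congr 1
  field_simp
  ring

theorem V_anticomm (h2 : (2 : k) ≠ 0) (ρ : G →* Module.End k U) (t e : G → k)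
    (he : ∀ g h, e (g * h) = e g * e h)
    (hrel : ∀ g, ρ g * ρ g - t g • ρ g + e g • (1 : Module.End k U) = 0) :
    ∀ x ∈ V ρ t, ∀ y ∈ V ρ t, ∃ c : k, x * y + y * x = c • (1 : Module.End k U) := by
  intro x hx
  induction hx using Submodule.span_induction with
  | mem x hx =>
    obtain ⟨g, rfl⟩ := hx
    intro y hy
    induction hy using Submodule.span_induction with
    | mem y hy =>
      obtain ⟨h, rfl⟩ := hy
      exact ⟨_, x0_anticomm h2 ρ t e he hrel g h⟩
    | zero => exact ⟨0, by simp⟩
    | add y z _ _ hy hz =>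
      obtain ⟨c, hc⟩ := hy
      obtain ⟨d, hd⟩ := hz
      exact ⟨c + d, by rw [mul_add, add_mul, add_smul, ← hc, ← hd]; abel⟩
    | smul a y _ hy =>
      obtain ⟨c, hc⟩ := hy
      exact ⟨a * c, by rw [mul_smul_comm, smul_mul_assoc, ← smul_add, hc, smul_smul]⟩
  | zero => intro y _; exact ⟨0, by simp⟩
  | add x z _ _ hx hz =>
    intro y hy
    obtain ⟨c, hc⟩ := hx y hy
    obtain ⟨d, hd⟩ := hz y hy
    exact ⟨c + d, by rw [mul_add, add_mul, add_smul, ← hc, ← hd]; abel⟩
  | smul a x _ hx =>
    intro y hy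
    obtain ⟨c, hc⟩ := hx y hy
    exact ⟨a * c, by rw [mul_smul_comm, smul_mul_assoc, ← smul_add, hc, smul_smul]⟩

theorem V_sq (h2 : (2 : k) ≠ 0) (ρ : G →* Module.End k U) (t e : G → k)
    (he : ∀ g h, e (g * h) = e g * e h)
    (hrel : ∀ g, ρ g * ρ g - t g • ρ g + e g • (1 : Module.End k U) = 0) :
    ∀ x ∈ V ρ t, ∃ c : k, x * x = c • (1 : Module.End k U) := by
  intro x hx
  obtain ⟨c, hc⟩ := V_anticomm h2 ρ t e he hrel x hx x hx
  refine ⟨c / 2, ?_⟩
  have h3 : (2 : k) • (x * x) = c • (1 : Module.End k U) := by rw [two_smul, hc]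
  have h4 : x * x = (2 : k)⁻¹ • ((2 : k) • (x * x)) := by rw [smul_smul, inv_mul_cancel₀ h2, one_smul]
  rw [h4, h3, smul_smul]
  congr 1
  field_simp

theorem exists_decomp (ρ : G →* Module.End k U) (t : G → k)
    (hspan : Submodule.span k (Set.range ρ) = ⊤) (f : Module.End k U) :
    ∃ s : k, ∃ x ∈ V ρ t, f = s • (1 : Module.End k U) + x := by
  have hf : f ∈ Submodule.span k (Set.range ρ) := by rw [hspan]; exact Submodule.mem_top
  induction hf using Submodule.span_induction with
  | mem f hf =>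
    obtain ⟨g, rfl⟩ := hf
    exact ⟨t g / 2, x0 ρ t g, Submodule.subset_span ⟨g, rfl⟩, by unfold x0; abel⟩
  | zero => exact ⟨0, 0, Submodule.zero_mem _, by simp⟩
  | add f g _ _ hf hg =>
    obtain ⟨s, x, hx, rfl⟩ := hf
    obtain ⟨s', y, hy, rfl⟩ := hg
    exact ⟨s + s', x + y, Submodule.add_mem _ hx hy, by rw [add_smul]; abel⟩
  | smul a f _ hf =>
    obtain ⟨s, x, hx, rfl⟩ := hf
    exact ⟨a * s, a • x, Submodule.smul_mem _ a hx, by rw [smul_add, smul_smul]⟩

/-- Every endomorphism satisfies a quadratic relation. -/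
theorem quadratic (h2 : (2 : k) ≠ 0) (ρ : G →* Module.End k U) (t e : G → k)
    (he : ∀ g h, e (g * h) = e g * e h)
    (hrel : ∀ g, ρ g * ρ g - t g • ρ g + e g • (1 : Module.End k U) = 0)
    (hspan : Submodule.span k (Set.range ρ) = ⊤) (f : Module.End k U) :
    ∃ a b : k, f * f = a • f + b • (1 : Module.End k U) := by
  obtain ⟨s, x, hx, rfl⟩ := exists_decomp ρ t hspan f
  obtain ⟨c, hc⟩ := V_sq h2 ρ t e he hrel x hx
  refine ⟨2 * s, c - s * s, ?_⟩
  have h3 : (s • (1 : Module.End k U) + x) * (s • (1 : Module.End k U) + x)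
      = (s * s) • (1 : Module.End k U) + (2 * s) • x + x * x := by
    simp only [add_mul, mul_add, smul_mul_assoc, mul_smul_comm, one_mul, mul_one]
    module
  rw [h3, hc]
  module

/-- If every endomorphism of `U` is quadratic over `k`, then `dim U ≤ 2`. -/
theorem finrank_le_two_of_quadratic [FiniteDimensional k U]
    (hq : ∀ f : Module.End k U, ∃ a b : k, f * f = a • f + b • (1 : Module.End k U)) :
    Module.finrank k U ≤ 2 := by
  by_contra hlt
  rw [not_le] at hlt
  let b := Module.finBasis k U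
  let i0 : Fin (Module.finrank k U) := ⟨0, by omega⟩
  let i1 : Fin (Module.finrank k U) := ⟨1, by omega⟩
  let i2 : Fin (Module.finrank k U) := ⟨2, by omega⟩
  have h10 : i1 ≠ i0 := by simp [i0, i1, Fin.ext_iff]
  have h20 : i2 ≠ i0 := by simp [i0, i2, Fin.ext_iff]
  have h21 : i2 ≠ i1 := by simp [i1, i2, Fin.ext_iff]
  let f : Module.End k U := b.constr k (fun i => if i = i0 then b i1 else if i = i1 then b i2 else 0)
  have hf0 : f (b i0) = b i1 := by
    show (b.constr k _) (b i0) = _
    rw [Module.Basis.constr_basis]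
    simp
  have hf1 : f (b i1) = b i2 := by
    show (b.constr k _) (b i1) = _
    rw [Module.Basis.constr_basis]
    simp [h10]
  obtain ⟨a, c, hac⟩ := hq f
  have h3 := congrArg (fun φ : Module.End k U => b.repr (φ (b i0)) i2) hac
  simp only [Module.End.mul_apply, hf0, hf1, LinearMap.add_apply, LinearMap.smul_apply,
    Module.End.one_apply, map_add, map_smul, Module.Basis.repr_self, Finsupp.add_apply,
    Finsupp.smul_apply, Finsupp.single_eq_same, smul_eq_mul] at h3
  rw [Finsupp.single_eq_of_ne h21, Finsupp.single_eq_of_ne h20] at h3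
  simp at h3

/-- The characteristic polynomial of an endomorphism of a 2-dimensional space. -/
theorem charpoly_eq_of_finrank_two [FiniteDimensional k U] (hU : Module.finrank k U = 2)
    (f : Module.End k U) :
    f.charpoly = X ^ 2 - C (LinearMap.trace k U f) * X + C (LinearMap.det f) := by
  let b : Module.Basis (Fin 2) k U := Module.finBasisOfFinrankEq k U hU
  rw [← LinearMap.charpoly_toMatrix f b, Matrix.charpoly_fin_two,
    ← LinearMap.trace_eq_matrix_trace k b f, LinearMap.det_toMatrix b f]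

/-- Cayley–Hamilton in dimension 2. -/
theorem cayley_two [FiniteDimensional k U] (hU : Module.finrank k U = 2) (f : Module.End k U) :
    f * f - LinearMap.trace k U f • f + LinearMap.det f • (1 : Module.End k U) = 0 := by
  have h := LinearMap.aeval_self_charpoly f
  rw [charpoly_eq_of_finrank_two hU f] at h
  simp only [map_add, map_sub, map_mul, map_pow, aeval_X, aeval_C, Algebra.algebraMap_eq_smul_one,
    smul_mul_assoc, one_mul] at h
  rw [← h, pow_two]

/-- A 2-dimensional space has a non-scalar endomorphism. -/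
theorem exists_ne_smul_one [FiniteDimensional k U] (hU : Module.finrank k U = 2) :
    ∃ f : Module.End k U, ∀ s : k, f ≠ s • (1 : Module.End k U) := by
  let b : Module.Basis (Fin 2) k U := Module.finBasisOfFinrankEq k U hU
  refine ⟨b.constr k (fun i => if i = 0 then b 1 else 0), fun s hs => ?_⟩
  have h3 := congrArg (fun φ : Module.End k U => b.repr (φ (b 0)) 1) hs
  simp only [Module.Basis.constr_basis, if_true, LinearMap.smul_apply, Module.End.one_apply,
    map_smul, Module.Basis.repr_self, Finsupp.smul_apply, Finsupp.single_eq_same, smul_eq_mul] at h3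
  rw [Finsupp.single_eq_of_ne (by decide)] at h3
  simp at h3

/-- In dimension 2, the elements of `V` have trace zero. -/
theorem trace_eq_zero_of_mem_V [FiniteDimensional k U] (h2 : (2 : k) ≠ 0)
    (ρ : G →* Module.End k U) (t e : G → k) (he : ∀ g h, e (g * h) = e g * e h)
    (hrel : ∀ g, ρ g * ρ g - t g • ρ g + e g • (1 : Module.End k U) = 0)
    (hspan : Submodule.span k (Set.range ρ) = ⊤) (hU : Module.finrank k U = 2) :
    ∀ x ∈ V ρ t, LinearMap.trace k U x = 0 := by
  intro x hx
  by_contra htr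
  obtain ⟨c, hc⟩ := V_sq h2 ρ t e he hrel x hx
  have hCH := cayley_two hU x
  rw [hc] at hCH
  -- `x` is a scalar
  have hxs : x = ((c + LinearMap.det x) / LinearMap.trace k U x) • (1 : Module.End k U) := by
    have h3 : LinearMap.trace k U x • x = (c + LinearMap.det x) • (1 : Module.End k U) := by
      rw [add_smul]
      have h4 : c • (1 : Module.End k U) - LinearMap.trace k U x • x
          + LinearMap.det x • (1 : Module.End k U) = 0 := hCH
      rw [sub_add_eq_add_sub, sub_eq_zero] at h4
      exact h4.symm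
    rw [div_eq_inv_mul, ← smul_smul, ← h3, smul_smul, inv_mul_cancel₀ htr, one_smul]
  set s := (c + LinearMap.det x) / LinearMap.trace k U x with hs
  have hs0 : s ≠ 0 := by
    rintro h0
    apply htr
    rw [hxs, h0, zero_smul, map_zero]
  -- then every element of `V` is a scalar
  have hV : ∀ y ∈ V ρ t, ∃ r : k, y = r • (1 : Module.End k U) := by
    intro y hy
    obtain ⟨d, hd⟩ := V_anticomm h2 ρ t e he hrel x hx y hy
    rw [hxs, smul_mul_assoc, mul_smul_comm, one_mul, mul_one, ← two_smul k, smul_smul] at hd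
    refine ⟨(2 * s)⁻¹ * d, ?_⟩
    rw [← smul_smul, ← hd, smul_smul, inv_mul_cancel₀ (mul_ne_zero h2 hs0), one_smul]
  obtain ⟨f, hf⟩ := exists_ne_smul_one (k := k) hU
  obtain ⟨r, y, hy, hfy⟩ := exists_decomp ρ t hspan f
  obtain ⟨r', hr'⟩ := hV y hy
  exact hf (r + r') (by rw [hfy, hr', add_smul])

/-- **Clifford lemma.** -/
theorem clifford [FiniteDimensional k U] (h2 : (2 : k) ≠ 0) (ρ : G →* Module.End k U)
    (hspan : Submodule.span k (Set.range ρ) = ⊤) (t e : G → k)
    (he : ∀ g h, e (g * h) = e g * e h)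
    (hrel : ∀ g, ρ g * ρ g - t g • ρ g + e g • (1 : Module.End k U) = 0) :
    Module.finrank k U ≤ 2 ∧ (Module.finrank k U = 2 → ∀ g,
      LinearMap.trace k U (ρ g) = t g ∧ LinearMap.det (ρ g) = e g ∧
        (ρ g).charpoly = X ^ 2 - C (t g) * X + C (e g)) := by
  refine ⟨finrank_le_two_of_quadratic (quadratic h2 ρ t e he hrel hspan), fun hU g => ?_⟩
  have htr : LinearMap.trace k U (ρ g) = t g := by
    have h3 : ρ g = x0 ρ t g + (t g / 2) • (1 : Module.End k U) := by unfold x0; abel
    rw [h3, map_add, trace_eq_zero_of_mem_V h2 ρ t e he hrel hspan hU _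
      (Submodule.subset_span ⟨g, rfl⟩), zero_add, map_smul, LinearMap.trace_one, hU, smul_eq_mul]
    push_cast
    field_simp
  have hdet : LinearMap.det (ρ g) = e g := by
    have hCH := cayley_two hU (ρ g)
    rw [htr] at hCH
    have h3 : (LinearMap.det (ρ g) - e g) • (1 : Module.End k U) = 0 := by
      rw [sub_smul, ← sub_eq_zero.2 (hCH.trans (hrel g).symm)]
      abel
    have h1 : (1 : Module.End k U) ≠ 0 := by
      have : Nontrivial U := Module.nontrivial_of_finrank_pos (R := k) (by omega)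
      exact one_ne_zero
    exact sub_eq_zero.1 ((smul_eq_zero.1 h3).resolve_right h1)
  exact ⟨htr, hdet, by rw [charpoly_eq_of_finrank_two hU, htr, hdet]⟩

end Fermat.Agent.S30.Clifford
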