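import Fermat.Agent.Lib.FormalRoot
import Fermat.Agent.Lib.HolRoot
import Fermat.Agent.S24.QB.QExpK
import Fermat.Agent.S24.CuspMer

set_option autoImplicit false

/-!
# `q^(1/N)`-expansions of holomorphic `m`-th roots

If `φ` is holomorphic on `ℍ`, `N`-periodic, and `φ ^ m` has a `K`-rational expansion `B` in
`s = exp(2πiτ/N)` (`K` algebraically closed, embedded in `ℂ`), then `φ` has a `K`-rational
expansion `A` with `A ^ m = B` (`hasQExpK_root`).
-/

open UpperHalfPlane Complex Filter Topology Function HahnSeries Metric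
open scoped Real Manifold

noncomputable section

namespace Fermat.Agent.S30.RootQExp

open Fermat.Agent.S24.QB Fermat.Agent.S24.Puiseux Fermat.Agent.S24 Fermat.Agent.Lib

local notation "𝕢" => Function.Periodic.qParam

variable {K : Type*} [Field K]

/-- Evaluation of `s^k · P(s)`, `P` a power series, `k` any integer. -/
theorem hasLExp_single_mul_iff (ι : K →+* ℂ) {x : ℂ} (hx : x ≠ 0) (k : ℤ) (P : PowerSeries K)
    (v : ℂ) :
    HasLExp ι x (HahnSeries.single k (1 : K) * HahnSeries.ofPowerSeries ℤ K P) v ↔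
      HasPExp ι x P (x ^ (-k) * v) := by
  have hinj : Function.Injective (fun n : ℕ => (n : ℤ) + k) := by
    intro a b h
    simpa using h
  have hcoeff : ∀ n : ℕ,
      (HahnSeries.single k (1 : K) * HahnSeries.ofPowerSeries ℤ K P).coeff ((n : ℤ) + k)
        = PowerSeries.coeff n P := by
    intro n
    rw [HahnSeries.coeff_single_mul, one_mul, add_sub_cancel_right,
      HahnSeries.ofPowerSeries_apply_coeff]
  have hsupp : ∀ j : ℤ, j ∉ Set.range (fun n : ℕ => (n : ℤ) + k) →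
      ι ((HahnSeries.single k (1 : K) * HahnSeries.ofPowerSeries ℤ K P).coeff j) * x ^ j = 0 := by
    intro j hj
    have hlt : j - k < 0 := by
      by_contra hcon
      apply hj
      refine ⟨(j - k).toNat, ?_⟩
      have := Int.toNat_of_nonneg (show 0 ≤ j - k by omega)
      simp only
      omega
    rw [HahnSeries.coeff_single_mul, one_mul, ModularCurve.ofPowerSeries_coeff_of_neg _ hlt,
      map_zero, zero_mul]
  rw [hasLExp_def, ← hinj.hasSum_iff hsupp]
  unfold HasPExp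
  rw [← hasSum_mul_left_iff (a₂ := x ^ (-k)) (zpow_ne_zero _ hx)]
  refine Iff.of_eq ?_
  congr 1
  funext n
  simp only [Function.comp_apply]
  rw [hcoeff, zpow_add₀ hx, zpow_natCast, zpow_neg]
  have hxk : x ^ k ≠ 0 := zpow_ne_zero _ hx
  field_simp

/-- `exp(2πiτ/N)` for `τ : ℍ` in terms of `qParam`. -/
theorem hasQExpK_iff_hasLExp (ι : K →+* ℂ) (N : ℕ) (A : LaurentSeries K) (φ : ℍ → ℂ) :
    HasQExpK ι N A φ ↔ ∀ τ : ℍ, HasLExp ι (𝕢 (N : ℝ) (τ : ℂ)) A (φ τ) := by
  rw [hasQExpK_iff_qParam]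
  rfl

/-- **`q^(1/N)`-expansion of a holomorphic `m`-th root.** -/
theorem hasQExpK_root [IsAlgClosed K] [CharZero K] (ι : K →+* ℂ) {N : ℕ} (hN : N ≠ 0) {m : ℕ}
    (hm : m ≠ 0) {B : LaurentSeries K} {φ : ℍ → ℂ} (hφ : MDifferentiable 𝓘(ℂ) 𝓘(ℂ) φ)
    (hper : ∀ τ : ℍ, φ ((N : ℝ) +ᵥ τ) = φ τ) (hB : HasQExpK ι N B (fun τ => φ τ ^ m)) :
    ∃ A : LaurentSeries K, HasQExpK ι N A φ ∧ A ^ m = B := by
  classical
  by_cases hB0 : B = 0
  · subst hB0
    have hφ0 : ∀ τ, φ τ = 0 := by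
      intro τ
      have h1 : φ τ ^ m = 0 := (hB τ).unique ((hasQExpK_zero ι N) τ)
      exact (pow_eq_zero_iff hm).mp h1
    exact ⟨0, (hasQExpK_zero ι N).congr (fun τ => (hφ0 τ).symm), zero_pow hm⟩
  have hNpos : (0 : ℝ) < N := by exact_mod_cast Nat.pos_of_ne_zero hN
  have hNC : (N : ℂ) ≠ 0 := Nat.cast_ne_zero.mpr hN
  have hmC : (m : ℂ) ≠ 0 := Nat.cast_ne_zero.mpr hm
  set k : ℤ := B.order with hk
  set U : PowerSeries K := LaurentSeries.powerSeriesPart B with hU
  have hBU : HahnSeries.single k (1 : K) * HahnSeries.ofPowerSeries ℤ K U = B :=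
    LaurentSeries.single_order_mul_powerSeriesPart B
  have hU0 : PowerSeries.coeff 0 U ≠ 0 := by
    rw [hU, LaurentSeries.powerSeriesPart_coeff]
    simpa using (HahnSeries.coeff_order_eq_zero (x := B)).not.mpr hB0
  have hs0 : ∀ z : ℂ, 𝕢 (N : ℝ) z ≠ 0 := fun z => Function.Periodic.qParam_ne_zero z
  have hs1 : ∀ τ : ℍ, ‖𝕢 (N : ℝ) (τ : ℂ)‖ < 1 := fun τ =>
    Function.Periodic.norm_qParam_lt_one hNpos τ.im_pos
  have hsurj : ∀ q : ℂ, q ≠ 0 → ‖q‖ < 1 → ∃ τ : ℍ, 𝕢 (N : ℝ) (τ : ℂ) = q := by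
    intro q hq0 hq
    obtain ⟨τ, hτ⟩ := exists_upper_exp_eq hN hq0 hq
    exact ⟨τ, by rw [← exp_eq_qParam]; exact hτ⟩
  have hB' := (hasQExpK_iff_hasLExp ι N B _).mp hB
  -- the power series part of `B` as a function on the unit disc
  set c : ℕ → ℂ := fun n => ι (PowerSeries.coeff n U) with hc
  set u : ℂ → ℂ := fun q => ∑' n : ℕ, c n * q ^ n with hu
  have hBτ : ∀ τ : ℍ, HasSum (fun n : ℕ => c n * 𝕢 (N : ℝ) (τ : ℂ) ^ n)
      (𝕢 (N : ℝ) (τ : ℂ) ^ (-k) * φ τ ^ m) := by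
    intro τ
    have h1 := hB' τ
    rw [← hBU] at h1
    exact (hasLExp_single_mul_iff ι (hs0 τ) k U _).mp h1
  have hfun0 : (fun n : ℕ => c n * (0 : ℂ) ^ n) = fun n => if n = 0 then c 0 else 0 := by
    funext j
    by_cases hj : j = 0
    · subst hj
      simp
    · rw [if_neg hj, zero_pow hj, mul_zero]
  have hQu : QBridge.HasQExp (PowerSeries.mk c) u := by
    intro q hq
    simp only [PowerSeries.coeff_mk]
    by_cases hq0 : q = 0
    · subst hq0
      have h0 := hasSum_ite_eq (0 : ℕ) (c 0)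
      rw [hfun0]
      have hg0 : u 0 = c 0 := by
        simp only [hu]
        rw [hfun0]
        exact h0.tsum_eq
      rw [hg0]
      exact h0
    · obtain ⟨τ, hτ⟩ := hsurj q hq0 hq
      have h2 := hBτ τ
      rw [hτ] at h2
      exact h2.summable.hasSum
  have hudiff : DifferentiableOn ℂ u (ball 0 1) := by
    have h5 := hQu.hasFPowerSeriesOnBall.differentiableOn
    rw [← ENNReal.coe_one, Metric.eball_coe, NNReal.coe_one] at h5
    exact h5
  have huτ : ∀ τ : ℍ, u (𝕢 (N : ℝ) (τ : ℂ)) = 𝕢 (N : ℝ) (τ : ℂ) ^ (-k) * φ τ ^ m :=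
    fun τ => (hBτ τ).tsum_eq
  have hu0 : u 0 = ι (PowerSeries.coeff 0 U) := by
    simp only [hu]
    rw [hfun0]
    exact (hasSum_ite_eq (0 : ℕ) (c 0)).tsum_eq
  have hu0ne : u 0 ≠ 0 := by
    rw [hu0]
    exact (map_ne_zero ι).mpr hU0
  -- a small disc on which `u` has no zero, and a root `v` of `u` there
  obtain ⟨r, hr0, hr1, hrne⟩ : ∃ r : ℝ, 0 < r ∧ r ≤ 1 ∧ ∀ q ∈ ball (0 : ℂ) r, u q ≠ 0 := by
    have hcont : ContinuousAt u 0 :=
      (hudiff.differentiableAt (ball_mem_nhds 0 one_pos)).continuousAt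
    obtain ⟨ε, hε, hball⟩ := Metric.eventually_nhds_iff_ball.mp (hcont.eventually_ne hu0ne)
    exact ⟨min ε 1, lt_min hε one_pos, min_le_right _ _, fun q hq =>
      hball q (ball_subset_ball (min_le_left _ _) hq)⟩
  obtain ⟨v, hvdiff, hvu⟩ := HolRoot.exists_root_of_ne_zero_on_ball m hm
    (hudiff.mono (ball_subset_ball hr1)) hrne
  have hvne : ∀ q ∈ ball (0 : ℂ) r, v q ≠ 0 := by
    intro q hq h0
    have h1 := hvu q hq
    rw [h0, zero_pow hm] at h1
    exact hrne q hq h1.symm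
  -- the half plane `Y < im z` is the preimage of the small disc
  set Y : ℝ := -(N : ℝ) * Real.log r / (2 * π) with hY
  have hexpY : Real.exp (-2 * π * Y / N) = r := by
    have h1 : -2 * π * Y / N = Real.log r := by
      rw [hY]
      field_simp
    rw [h1, Real.exp_log hr0]
  have hlt_iff : ∀ z : ℂ, ‖𝕢 (N : ℝ) z‖ < r ↔ Y < z.im := by
    intro z
    have h := Function.Periodic.norm_qParam_lt_iff hNpos Y z
    rw [hexpY] at h
    exact h
  have hY0 : 0 ≤ Y := by
    have hlog : Real.log r ≤ 0 := Real.log_nonpos hr0.le hr1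
    rw [hY]
    apply div_nonneg _ (by positivity)
    nlinarith
  -- two `m`-th roots of `s ^ k` on the half plane
  set R : Set ℂ := {z : ℂ | Y < z.im} with hR
  have hRopen : IsOpen R := isOpen_lt continuous_const Complex.continuous_im
  have hRconn : IsPreconnected R := (convex_halfSpace_im_gt Y).isPreconnected
  have hRpos : ∀ z ∈ R, 0 < z.im := fun z hz => lt_of_le_of_lt hY0 hz
  have hsR : ∀ z ∈ R, 𝕢 (N : ℝ) z ∈ ball (0 : ℂ) r := fun z hz => by
    rw [mem_ball_zero_iff]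
    exact (hlt_iff z).mpr hz
  have hqdiff : Differentiable ℂ (𝕢 (N : ℝ)) := Function.Periodic.differentiable_qParam
  have hHopen : IsOpen {z : ℂ | 0 < z.im} := isOpen_lt continuous_const Complex.continuous_im
  have hφC : DifferentiableOn ℂ (φ ∘ ofComplex) {z : ℂ | 0 < z.im} :=
    UpperHalfPlane.mdifferentiable_iff.mp hφ
  set f₁ : ℂ → ℂ := fun z => φ (ofComplex z) / v (𝕢 (N : ℝ) z) with hf₁
  set f₂ : ℂ → ℂ := fun z => Complex.exp (2 * π * Complex.I * k * z / (N * m)) with hf₂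
  have hf₁d : DifferentiableOn ℂ f₁ R :=
    DifferentiableOn.div (hφC.mono fun z hz => hRpos z hz)
      (hvdiff.comp hqdiff.differentiableOn hsR) (fun z hz => hvne _ (hsR z hz))
  have hf₂d : DifferentiableOn ℂ f₂ R := by
    apply Differentiable.differentiableOn
    simp only [hf₂]
    fun_prop
  have hf₂pow : ∀ z : ℂ, f₂ z ^ m = 𝕢 (N : ℝ) z ^ k := by
    intro z
    simp only [hf₂]
    rw [← Complex.exp_nat_mul, Function.Periodic.qParam, ← Complex.exp_int_mul]
    congr 1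
    push_cast
    field_simp
  have hf₁pow : ∀ z ∈ R, f₁ z ^ m = 𝕢 (N : ℝ) z ^ k := by
    intro z hz
    have hzpos := hRpos z hz
    have h1 : u (𝕢 (N : ℝ) z) = 𝕢 (N : ℝ) z ^ (-k) * φ ⟨z, hzpos⟩ ^ m := huτ ⟨z, hzpos⟩
    have h2 := hvu _ (hsR z hz)
    have hφne : φ ⟨z, hzpos⟩ ^ m ≠ 0 := by
      intro h0
      rw [h0, mul_zero] at h1
      exact hrne _ (hsR z hz) h1
    have hzk : 𝕢 (N : ℝ) z ^ k ≠ 0 := zpow_ne_zero _ (hs0 z)
    simp only [hf₁]
    rw [div_pow, h2, ofComplex_apply_of_im_pos hzpos, h1, zpow_neg]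
    field_simp
  set b : ℂ := ((Y + 1 : ℝ) : ℂ) * Complex.I with hb
  have hbR : b ∈ R := by
    simp [hR, hb]
  obtain ⟨ζ, hζ, hζf⟩ := HolRoot.exists_rootOfUnity_of_pow_eq hRopen hRconn hf₁d hf₂d m hm
    (fun z hz => by rw [hf₁pow z hz, hf₂pow z]) hbR (Complex.exp_ne_zero _)
  have hζ0 : ζ ≠ 0 := by
    rintro rfl
    rw [zero_pow hm] at hζ
    exact zero_ne_one hζ
  -- periodicity gives `m ∣ k`
  have hperC : Function.Periodic (φ ∘ ofComplex) ((N : ℝ) : ℂ) :=
    CuspMer.periodic_comp_ofComplex hper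
  have hqper : ∀ z : ℂ, 𝕢 (N : ℝ) (z + ((N : ℝ) : ℂ)) = 𝕢 (N : ℝ) z := by
    intro z
    unfold Function.Periodic.qParam
    have h1 : 2 * (π : ℂ) * Complex.I * (z + ((N : ℝ) : ℂ)) / ((N : ℝ) : ℂ)
        = 2 * π * Complex.I * z / ((N : ℝ) : ℂ) + 2 * π * Complex.I := by
      have hN' : ((N : ℝ) : ℂ) ≠ 0 := by exact_mod_cast hNC
      field_simp
    rw [h1, Complex.exp_periodic _]
  have hf₁per : ∀ z : ℂ, f₁ (z + ((N : ℝ) : ℂ)) = f₁ z := by
    intro z
    simp only [hf₁]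
    rw [hqper z]
    have h := hperC z
    simp only [Function.comp_apply] at h
    rw [h]
  have hRadd : ∀ z ∈ R, z + ((N : ℝ) : ℂ) ∈ R := by
    intro z hz
    have hz' : Y < z.im := hz
    show Y < (z + ((N : ℝ) : ℂ)).im
    simpa using hz'
  obtain ⟨k', hk'⟩ : ∃ k' : ℤ, k = m * k' := by
    have h1 := hζf (b + ((N : ℝ) : ℂ)) (hRadd b hbR)
    have h2 := hζf b hbR
    rw [hf₁per b, h2] at h1
    have h3 : f₂ (b + ((N : ℝ) : ℂ)) = f₂ b := (mul_left_cancel₀ hζ0 h1).symm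
    have h4 : f₂ (b + ((N : ℝ) : ℂ)) = f₂ b * Complex.exp (2 * π * Complex.I * k / m) := by
      simp only [hf₂]
      rw [← Complex.exp_add]
      congr 1
      push_cast
      field_simp
    rw [h4] at h3
    have h5 : Complex.exp (2 * π * Complex.I * k / m) = 1 :=
      mul_left_cancel₀ (Complex.exp_ne_zero _ : f₂ b ≠ 0) (h3.trans (mul_one _).symm)
    obtain ⟨n, hn⟩ := Complex.exp_eq_one_iff.mp h5
    refine ⟨n, ?_⟩
    have h6 : (k : ℂ) = (m : ℂ) * n := by
      have h2pi : (2 * π * Complex.I : ℂ) ≠ 0 := Complex.two_pi_I_ne_zero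
      rw [div_eq_iff hmC] at hn
      apply mul_left_cancel₀ h2pi
      linear_combination hn
    exact_mod_cast h6
  have hf₂k' : ∀ z : ℂ, f₂ z = 𝕢 (N : ℝ) z ^ k' := by
    intro z
    simp only [hf₂]
    rw [Function.Periodic.qParam, ← Complex.exp_int_mul, hk']
    congr 1
    push_cast
    field_simp
  have hφR : ∀ τ : ℍ, Y < τ.im →
      φ τ = ζ * 𝕢 (N : ℝ) (τ : ℂ) ^ k' * v (𝕢 (N : ℝ) (τ : ℂ)) := by
    intro τ hτ
    have hτR : (τ : ℂ) ∈ R := hτ
    have h1 := hζf (τ : ℂ) hτR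
    rw [hf₂k'] at h1
    simp only [hf₁] at h1
    rw [ofComplex_apply] at h1
    have hv := hvne _ (hsR _ hτR)
    rw [div_eq_iff hv] at h1
    exact h1
  -- the cusp function of `φ` and the candidate function on the disc
  set cf : ℂ → ℂ := Function.Periodic.cuspFunction (N : ℝ) (φ ∘ ofComplex) with hcfdef
  have hcf : ∀ τ : ℍ, cf (𝕢 (N : ℝ) (τ : ℂ)) = φ τ := by
    intro τ
    have h := Function.Periodic.eq_cuspFunction hNpos.ne' hperC (τ : ℂ)
    simpa [Function.comp_apply, ofComplex_apply] using h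
  set p : ℂ → ℂ := fun q => if ‖q‖ < r then ζ * v q else q ^ (-k') * cf q with hp
  have hp_punct : ∀ q : ℂ, q ≠ 0 → ‖q‖ < 1 → p q = q ^ (-k') * cf q := by
    intro q hq0 hq
    by_cases hqr : ‖q‖ < r
    · obtain ⟨τ, hτ⟩ := hsurj q hq0 hq
      have hτY : Y < τ.im := by
        rw [← hτ] at hqr
        exact (hlt_iff _).mp hqr
      simp only [hp, if_pos hqr]
      rw [← hτ, hcf τ, hφR τ hτY, zpow_neg]
      have hne := zpow_ne_zero k' (hs0 (τ : ℂ))
      field_simp
    · simp only [hp, if_neg hqr]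
  have hp_diff : DifferentiableOn ℂ p (ball 0 1) := by
    intro q hq
    rw [mem_ball_zero_iff] at hq
    apply DifferentiableAt.differentiableWithinAt
    by_cases hqr : ‖q‖ < r
    · have hev : p =ᶠ[𝓝 q] fun q => ζ * v q := by
        filter_upwards [isOpen_ball.mem_nhds (mem_ball_zero_iff.mpr hqr)] with w hw
        simp only [hp, if_pos (mem_ball_zero_iff.mp hw)]
      exact ((hvdiff.differentiableAt (isOpen_ball.mem_nhds
        (mem_ball_zero_iff.mpr hqr))).const_mul ζ).congr_of_eventuallyEq hev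
    · have hq0 : q ≠ 0 := by
        rintro rfl
        apply hqr
        simpa using hr0
      have hev : p =ᶠ[𝓝 q] fun q => q ^ (-k') * cf q := by
        have hopen : IsOpen (ball (0 : ℂ) 1 \ {0}) := isOpen_ball.sdiff isClosed_singleton
        filter_upwards [hopen.mem_nhds ⟨mem_ball_zero_iff.mpr hq, hq0⟩] with w hw
        exact hp_punct w hw.2 (mem_ball_zero_iff.mp hw.1)
      have hz : 0 < (Function.Periodic.invQParam (N : ℝ) q).im :=
        Function.Periodic.im_invQParam_pos_of_norm_lt_one hNpos hq hq0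
      have hcfd : DifferentiableAt ℂ cf q := by
        have h := Function.Periodic.differentiableAt_cuspFunction hNpos.ne' hperC
          (hφC.differentiableAt (hHopen.mem_nhds hz))
        rwa [Function.Periodic.qParam_right_inv hNpos.ne' hq0] at h
      exact ((differentiableAt_zpow.mpr (Or.inl hq0)).mul hcfd).congr_of_eventuallyEq hev
  have hQp := QBridge.HasQExp.of_differentiableOn hp_diff
  set a : PowerSeries ℂ := PowerSeries.mk fun n => ((n.factorial : ℂ))⁻¹ * iteratedDeriv n p 0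
    with ha
  have hpm : ∀ q : ℂ, ‖q‖ < 1 → p q ^ m = u q := by
    intro q hq
    by_cases hq0 : q = 0
    · subst hq0
      have h0r : ‖(0 : ℂ)‖ < r := by simpa using hr0
      simp only [hp, if_pos h0r]
      rw [mul_pow, hζ, one_mul]
      exact hvu 0 (mem_ball_self hr0)
    · obtain ⟨τ, hτ⟩ := hsurj q hq0 hq
      rw [hp_punct q hq0 hq, ← hτ, hcf τ, huτ τ, mul_pow, ← zpow_natCast (_ ^ (-k')) m,
        ← zpow_mul, hk']
      congr 2
      ring
  have ham : a ^ m = PowerSeries.mk c := ((hQp.pow m).congr hpm).unique hQu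
  have hcmap : PowerSeries.mk c = PowerSeries.map ι U := by
    ext n
    simp [hc]
  have ha0m : PowerSeries.constantCoeff a ^ m = ι (PowerSeries.coeff 0 U) := by
    have h := congrArg (PowerSeries.coeff 0) ham
    rw [hcmap, PowerSeries.coeff_map, PowerSeries.coeff_zero_eq_constantCoeff_apply, map_pow] at h
    exact h
  have ha0ne : PowerSeries.constantCoeff a ≠ 0 := by
    intro h
    rw [h, zero_pow hm] at ha0m
    exact hU0 ((map_eq_zero ι).mp ha0m.symm)
  obtain ⟨r0, hr0m⟩ := IsAlgClosed.exists_pow_nat_eq (PowerSeries.coeff 0 U)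
    (Nat.pos_of_ne_zero hm)
  have hιU0 : ι (PowerSeries.coeff 0 U) ≠ 0 := (map_ne_zero ι).mpr hU0
  have hr0ne : r0 ≠ 0 := by
    rintro rfl
    rw [zero_pow hm] at hr0m
    exact hU0 hr0m.symm
  have hιr0 : ι r0 ≠ 0 := (map_ne_zero ι).mpr hr0ne
  have hξ : (PowerSeries.constantCoeff a / ι r0) ^ m = 1 := by
    rw [div_pow, ha0m, ← map_pow, hr0m, div_self hιU0]
  have : NeZero m := ⟨hm⟩
  obtain ⟨ζK, -, hζK⟩ := exists_unit_map_eq_exp ι hm
  obtain ⟨i, -, hi⟩ := (Complex.isPrimitiveRoot_exp m hm).eq_pow_of_pow_eq_one hξ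
  have ha0 : PowerSeries.constantCoeff a ∈ ι.range := by
    refine ⟨r0 * (ζK : K) ^ i, ?_⟩
    rw [map_mul, map_pow, hζK, hi]
    field_simp
  obtain ⟨Q, hQ⟩ := FormalRoot.exists_map_eq_of_pow_eq ι hm a U (by rw [ham, hcmap]) ha0 ha0ne
  have hA : HasQExpK ι N (HahnSeries.single k' (1 : K) * HahnSeries.ofPowerSeries ℤ K Q) φ := by
    rw [hasQExpK_iff_hasLExp]
    intro τ
    rw [hasLExp_single_mul_iff ι (hs0 _) k' Q]
    have h1 := hQp (𝕢 (N : ℝ) (τ : ℂ)) (hs1 τ)
    rw [hp_punct _ (hs0 _) (hs1 τ), hcf τ] at h1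
    unfold HasPExp
    convert h1 using 2 with n
    rw [← hQ, PowerSeries.coeff_map]
  exact ⟨_, hA, (hA.pow m).unique hN hB⟩

end Fermat.Agent.S30.RootQExp

end
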