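import Mathlib
import Fermat.Agent.Lib.EisChar
import Fermat.Agent.S24.QB.Conv
import Fermat.Agent.S24.CuspMer

/-!
# The Eisenstein series with character gives a "good" `Γ₀(N)`-invariant function

For a character `φ : Γ₀(N) →* ℂˣ` with `φ^m = 1`, trivial on the stabiliser of `∞`, and `E = E_φ`
the weight-4 Eisenstein series of `Lib.EisChar`, the function

  `g = E^m · E₄^(2m) / Δ^m  ( = (E/E₄)^m · j^m )`

is holomorphic on `ℍ`, `Γ₀(N)`-invariant, and every `SL(2,ℤ)`-translate `g ∘ γ` has a Laurent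
expansion in `q^(1/N)` (in the sense of `S24.QB.HasQExpK (RingHom.id ℂ) N`).  This is exactly the
hypothesis `Good` of the "invariant ⇒ rational" theorem, so `g`, hence `(E/E₄)^m`, lies in
`ℂ(j, j_N)`; its `m`-th root `E/E₄` has multiplier `φ`.
-/

set_option autoImplicit false

open UpperHalfPlane ModularForm Complex Filter Topology Function CongruenceSubgroup
open scoped MatrixGroups Manifold

noncomputable section

namespace Fermat.Agent.S30.EisGood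

open Fermat.Agent.S24.QB Fermat.Agent.S24.JFun Fermat.Agent.S24.Puiseux

local notation "𝕢" => Periodic.qParam
local notation "Δ" => ModularForm.discriminant

/-! ### Generic expansion lemmas -/

/-- A holomorphic function on `ℍ` with period `N`, bounded at `i∞`, has a power series
expansion in `q^(1/N)`. -/
theorem exists_hasQExpK_of_bounded (N : ℕ) [NeZero N] {G : ℍ → ℂ}
    (hhol : MDiff G) (hper : ∀ τ : ℍ, G ((N : ℝ) +ᵥ τ) = G τ)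
    (hbdd : IsBoundedAtImInfty G) :
    ∃ P : PowerSeries ℂ, HasQExpK (RingHom.id ℂ) N (HahnSeries.ofPowerSeries ℤ ℂ P) G := by
  have hN : (0 : ℝ) < (N : ℝ) := by exact_mod_cast Nat.pos_of_ne_zero (NeZero.ne N)
  have hper' : Periodic (G ∘ ofComplex) ((N : ℝ) : ℂ) :=
    Fermat.Agent.S24.CuspMer.periodic_comp_ofComplex hper
  refine ⟨qExpansion (N : ℝ) G, ?_⟩
  rw [hasQExpK_iff_qParam]
  intro τ
  have h := hasSum_qExpansion hN hper' hhol hbdd τ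
  have hinj : Function.Injective (Nat.cast : ℕ → ℤ) := Nat.cast_injective
  rw [← hinj.hasSum_iff]
  · convert h using 2 with m
    simp [HahnSeries.ofPowerSeries_apply_coeff]
  · intro n hn
    have hneg : n < 0 := by
      by_contra h0
      exact hn ⟨n.toNat, Int.toNat_of_nonneg (not_lt.mp h0)⟩
    rw [ModularCurve.ofPowerSeries_coeff_of_neg _ hneg]
    simp

/-- `τ ↦ q⁻¹` has the expansion `s^(-N)`. -/
theorem hasQExpK_qInv (N : ℕ) [NeZero N] :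
    HasQExpK (RingHom.id ℂ) N (HahnSeries.single (-(N : ℤ)) (1 : ℂ))
      (fun τ : ℍ => (𝕢 1 (τ : ℂ))⁻¹) := by
  intro τ
  have hN : (N : ℂ) ≠ 0 := by exact_mod_cast NeZero.ne N
  set x := Complex.exp (2 * Real.pi * Complex.I * (τ : ℂ) / N) with hx
  have hval : (𝕢 1 (τ : ℂ))⁻¹ = x ^ (-(N : ℤ)) := by
    rw [zpow_neg, zpow_natCast, hx, ← Complex.exp_nat_mul]
    congr 2
    simp only [Periodic.qParam, ofReal_one, div_one]
    field_simp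
  show HasSum (evalTerm (RingHom.id ℂ) (HahnSeries.single (-(N : ℤ)) (1 : ℂ)) x)
    ((𝕢 1 (τ : ℂ))⁻¹)
  rw [hval]
  have hfun : evalTerm (RingHom.id ℂ) (HahnSeries.single (-(N : ℤ)) (1 : ℂ)) x
      = fun n : ℤ => if n = -(N : ℤ) then x ^ (-(N : ℤ)) else 0 := by
    funext n
    rw [evalTerm_def]
    by_cases hn : n = -(N : ℤ)
    · subst hn
      simp
    · rw [if_neg hn, HahnSeries.coeff_single_of_ne hn]
      simp
  rw [hfun]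
  exact hasSum_ite_eq _ _

/-! ### Translation by `N` -/

theorem T_zpow_smul_eq (N : ℕ) (τ : ℍ) : (ModularGroup.T ^ (N : ℤ)) • τ = (N : ℝ) +ᵥ τ := by
  rw [modular_T_zpow_smul]
  simp

theorem denom_T_zpow (n : ℤ) (τ : ℍ) : denom (ModularGroup.T ^ n : SL(2, ℤ)) τ = 1 := by
  rw [ModularGroup.denom_apply]
  simp [ModularGroup.coe_T_zpow]

theorem E4_vadd (N : ℕ) (τ : ℍ) : E₄ ((N : ℝ) +ᵥ τ) = E₄ τ := by
  rw [← T_zpow_smul_eq, E4_smul, denom_T_zpow]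
  simp

theorem disc_vadd (N : ℕ) (τ : ℍ) : Δ ((N : ℝ) +ᵥ τ) = Δ τ := by
  rw [← T_zpow_smul_eq, disc_smul, denom_T_zpow]
  simp

theorem qParam_vadd (N : ℕ) (τ : ℍ) : 𝕢 1 (((N : ℝ) +ᵥ τ : ℍ) : ℂ) = 𝕢 1 (τ : ℂ) := by
  rw [UpperHalfPlane.coe_vadd]
  simp only [Periodic.qParam, ofReal_one, div_one]
  rw [show 2 * (Real.pi : ℂ) * Complex.I * (((N : ℝ) : ℂ) + (τ : ℂ))
      = 2 * Real.pi * Complex.I * τ + (N : ℂ) * (2 * Real.pi * Complex.I) by push_cast; ring,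
    Complex.exp_add, Complex.exp_nat_mul_two_pi_mul_I, mul_one]

/-! ### Expansions of `E₄` and `1/Δ` -/

theorem exists_hasQExpK_E4 (N : ℕ) [NeZero N] :
    ∃ B : LaurentSeries ℂ, HasQExpK (RingHom.id ℂ) N B (fun τ : ℍ => E₄ τ) := by
  obtain ⟨P, hP⟩ := exists_hasQExpK_of_bounded N (G := fun τ : ℍ => E₄ τ)
    (ModularFormClass.holo E₄) (E4_vadd N) (ModularFormClass.bdd_at_infty E₄)
  exact ⟨_, hP⟩

theorem qParam_div_disc (τ : ℍ) :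
    𝕢 1 (τ : ℂ) / Δ τ = (∏' n : ℕ, (1 - eta_q n (τ : ℂ)) ^ 24)⁻¹ := by
  have hq : 𝕢 1 (τ : ℂ) ≠ 0 := Periodic.qParam_ne_zero _
  have hΔ := discriminant_ne_zero τ
  have hprod := discriminant_eq_q_prod τ
  have hP : (∏' n : ℕ, (1 - eta_q n (τ : ℂ)) ^ 24) ≠ 0 := by
    intro h0
    rw [h0, mul_zero] at hprod
    exact hΔ hprod
  rw [hprod]
  field_simp

theorem mdiff_qParam : MDiff (fun τ : ℍ => 𝕢 1 (τ : ℂ)) := by
  rw [UpperHalfPlane.mdifferentiable_iff]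
  have h : DifferentiableOn ℂ (𝕢 1) {z : ℂ | 0 < z.im} :=
    (Periodic.differentiable_qParam (h := 1)).differentiableOn
  refine h.congr fun z hz => ?_
  simp [ofComplex_apply_of_im_pos hz]

theorem exists_hasQExpK_disc_inv (N : ℕ) [NeZero N] :
    ∃ B : LaurentSeries ℂ, HasQExpK (RingHom.id ℂ) N B (fun τ : ℍ => (Δ τ)⁻¹) := by
  have hhol : MDiff (fun τ : ℍ => 𝕢 1 (τ : ℂ) / Δ τ) :=
    mdiff_qParam.div CuspForm.discriminant.holo' discriminant_ne_zero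
  have hper : ∀ τ : ℍ, 𝕢 1 (((N : ℝ) +ᵥ τ : ℍ) : ℂ) / Δ ((N : ℝ) +ᵥ τ) = 𝕢 1 (τ : ℂ) / Δ τ := by
    intro τ
    rw [qParam_vadd, disc_vadd]
  have hbdd : IsBoundedAtImInfty (fun τ : ℍ => 𝕢 1 (τ : ℂ) / Δ τ) := by
    have h1 : Tendsto (fun τ : ℍ => (∏' n : ℕ, (1 - eta_q n (τ : ℂ)) ^ 24)⁻¹) atImInfty (𝓝 1⁻¹) :=
      tendsto_atImInfty_tprod_one_sub_eta_q_pow.inv₀ one_ne_zero
    have h2 : Tendsto (fun τ : ℍ => 𝕢 1 (τ : ℂ) / Δ τ) atImInfty (𝓝 1⁻¹) :=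
      h1.congr fun τ => (qParam_div_disc τ).symm
    exact h2.isBigO_one ℝ
  obtain ⟨P, hP⟩ := exists_hasQExpK_of_bounded N hhol hper hbdd
  refine ⟨_, ((hasQExpK_qInv N).mul hP).congr fun τ => ?_⟩
  have hq : 𝕢 1 (τ : ℂ) ≠ 0 := Periodic.qParam_ne_zero _
  have hΔ := discriminant_ne_zero τ
  simp only [Pi.mul_apply]
  field_simp

/-! ### The slashes of `E_φ` -/

open Fermat.Agent.Lib.EisChar

variable {N : ℕ} (φ : Gamma0 N →* ℂˣ)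

theorem slash_Gamma0
    (hpar : ∀ γ : Gamma0 N, ((γ : SL(2, ℤ)) : Matrix (Fin 2) (Fin 2) ℤ) 1 0 = 0 → φ γ = 1)
    (δ : Gamma0 N) : eisK φ 4 ∣[(4 : ℤ)] (δ : SL(2, ℤ)) = (φ δ : ℂ) • eisK φ 4 := by
  ext τ
  have hd : denom (δ : SL(2, ℤ)) τ ≠ 0 := denom_ne_zero _ τ
  rw [SL_slash_apply, eisK_smul φ hpar, zpow_neg, Pi.smul_apply, smul_eq_mul]
  field_simp

theorem conj_T_mem (N : ℕ) (γ : SL(2, ℤ)) :
    γ * ModularGroup.T ^ (N : ℤ) * γ⁻¹ ∈ Gamma0 N := by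
  have h1 : ModularGroup.T ^ (N : ℤ) ∈ CongruenceSubgroup.Gamma N := by
    simpa using ModularGroup_T_pow_mem_Gamma (N : ℤ) (N : ℤ) dvd_rfl
  have h2 : γ * ModularGroup.T ^ (N : ℤ) * γ⁻¹ ∈ CongruenceSubgroup.Gamma N :=
    (Gamma_normal N).conj_mem _ h1 γ
  rw [Gamma0_mem]
  exact (Gamma_mem.mp h2).2.2.1

theorem slash_vadd
    (hpar : ∀ γ : Gamma0 N, ((γ : SL(2, ℤ)) : Matrix (Fin 2) (Fin 2) ℤ) 1 0 = 0 → φ γ = 1)
    (γ : SL(2, ℤ)) (τ : ℍ) :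
    (eisK φ 4 ∣[(4 : ℤ)] γ) ((N : ℝ) +ᵥ τ)
      = (φ ⟨γ * ModularGroup.T ^ (N : ℤ) * γ⁻¹, conj_T_mem N γ⟩ : ℂ)
        * (eisK φ 4 ∣[(4 : ℤ)] γ) τ := by
  set δ : Gamma0 N := ⟨γ * ModularGroup.T ^ (N : ℤ) * γ⁻¹, conj_T_mem N γ⟩ with hδ
  have h1 : (eisK φ 4 ∣[(4 : ℤ)] γ) ∣[(4 : ℤ)] (ModularGroup.T ^ (N : ℤ))
      = (φ δ : ℂ) • (eisK φ 4 ∣[(4 : ℤ)] γ) := by
    rw [← SlashAction.slash_mul,
      show γ * ModularGroup.T ^ (N : ℤ) = (δ : SL(2, ℤ)) * γ by rw [hδ]; group,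
      SlashAction.slash_mul, slash_Gamma0 φ hpar δ, SL_smul_slash]
  have h2 := congrFun h1 τ
  rw [SL_slash_apply, denom_T_zpow, T_zpow_smul_eq] at h2
  simpa using h2

/-! ### The good function `g = E^m E₄^(2m) / Δ^m` -/

theorem norm_phi_eq_one {m : ℕ} (hm : 0 < m) (hφm : ∀ γ, φ γ ^ m = 1) (γ : Gamma0 N) :
    ‖(φ γ : ℂ)‖ = 1 := by
  have h : ((φ γ : ℂ)) ^ m = 1 := by
    have h1 := congrArg (fun u : ℂˣ => (u : ℂ)) (hφm γ)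
    simpa using h1
  exact Complex.norm_eq_one_of_pow_eq_one h hm.ne'

theorem phi_pow_eq_one {m : ℕ} (hφm : ∀ γ, φ γ ^ m = 1) (γ : Gamma0 N) :
    ((φ γ : ℂ)) ^ m = 1 := by
  have h1 := congrArg (fun u : ℂˣ => (u : ℂ)) (hφm γ)
  simpa using h1

/-- the function `g = E_φ^m E₄^(2m) / Δ^m` (`= (E_φ/E₄)^m j^m`) -/
def gFun (m : ℕ) (τ : ℍ) : ℂ := eisK φ 4 τ ^ m * E₄ τ ^ (2 * m) / Δ τ ^ m

theorem gFun_smul (m : ℕ) (γ : SL(2, ℤ)) (τ : ℍ) :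
    gFun φ m (γ • τ)
      = (eisK φ 4 ∣[(4 : ℤ)] γ) τ ^ m * E₄ τ ^ (2 * m) * ((Δ τ)⁻¹) ^ m := by
  have hd : denom γ τ ≠ 0 := denom_ne_zero γ τ
  have hΔ := discriminant_ne_zero τ
  have hE : eisK φ 4 (γ • τ) = (eisK φ 4 ∣[(4 : ℤ)] γ) τ * denom γ τ ^ 4 := by
    rw [SL_slash_apply, zpow_neg]
    have : denom γ τ ^ (4 : ℤ) = denom γ τ ^ 4 := by norm_cast
    rw [this]
    field_simp
  have h4 : denom γ τ ^ (4 : ℤ) = denom γ τ ^ 4 := by norm_cast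
  have h12 : denom γ τ ^ (12 : ℤ) = denom γ τ ^ 12 := by norm_cast
  unfold gFun
  rw [hE, E4_smul, disc_smul, h4, h12]
  have hdm : (denom γ τ ^ 12 * Δ τ) ^ m ≠ 0 := pow_ne_zero _ (mul_ne_zero (pow_ne_zero _ hd) hΔ)
  rw [div_eq_iff hdm, inv_pow]
  have hΔm : Δ τ ^ m ≠ 0 := pow_ne_zero _ hΔ
  field_simp
  ring

theorem gFun_invariant
    (hpar : ∀ γ : Gamma0 N, ((γ : SL(2, ℤ)) : Matrix (Fin 2) (Fin 2) ℤ) 1 0 = 0 → φ γ = 1)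
    {m : ℕ} (hφm : ∀ γ, φ γ ^ m = 1) (γ : SL(2, ℤ)) (hγ : γ ∈ Gamma0 N) (τ : ℍ) :
    gFun φ m (γ • τ) = gFun φ m τ := by
  have h := slash_Gamma0 φ hpar ⟨γ, hγ⟩
  simp only at h
  rw [gFun_smul, h]
  simp only [Pi.smul_apply, smul_eq_mul, mul_pow]
  rw [phi_pow_eq_one φ hφm, one_mul]
  unfold gFun
  rw [inv_pow, div_eq_mul_inv]

theorem exists_hasQExpK_gFun_smul [NeZero N]
    (hpar : ∀ γ : Gamma0 N, ((γ : SL(2, ℤ)) : Matrix (Fin 2) (Fin 2) ℤ) 1 0 = 0 → φ γ = 1)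
    {m : ℕ} (hm : 0 < m) (hφm : ∀ γ, φ γ ^ m = 1) (γ : SL(2, ℤ)) :
    ∃ B : LaurentSeries ℂ, HasQExpK (RingHom.id ℂ) N B (fun τ => gFun φ m (γ • τ)) := by
  have hunit := norm_phi_eq_one φ hm hφm
  have hFhol : MDiff (eisK φ 4 ∣[(4 : ℤ)] γ) := by
    rw [SL_slash]
    exact (mdifferentiable_eisK φ hunit (by norm_num)).slash 4 _
  have hFm_hol : MDiff (fun τ => (eisK φ 4 ∣[(4 : ℤ)] γ) τ ^ m) := hFhol.pow m
  have hFm_per : ∀ τ : ℍ, (eisK φ 4 ∣[(4 : ℤ)] γ) ((N : ℝ) +ᵥ τ) ^ m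
      = (eisK φ 4 ∣[(4 : ℤ)] γ) τ ^ m := by
    intro τ
    rw [slash_vadd φ hpar γ τ, mul_pow, phi_pow_eq_one φ hφm, one_mul]
  have hFm_bdd : IsBoundedAtImInfty (fun τ => (eisK φ 4 ∣[(4 : ℤ)] γ) τ ^ m) := by
    have hb := isBoundedAtImInfty_slash φ hunit (k := 4) (by norm_num) γ
    rw [UpperHalfPlane.isBoundedAtImInfty_iff] at hb ⊢
    obtain ⟨M, A, hMA⟩ := hb
    exact ⟨M ^ m, A, fun z hz => by
      rw [norm_pow]
      exact pow_le_pow_left₀ (norm_nonneg _) (hMA z hz) m⟩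
  obtain ⟨P, hP⟩ := exists_hasQExpK_of_bounded N hFm_hol hFm_per hFm_bdd
  obtain ⟨B4, hB4⟩ := exists_hasQExpK_E4 N
  obtain ⟨BΔ, hBΔ⟩ := exists_hasQExpK_disc_inv N
  refine ⟨_, ((hP.mul (hB4.pow (2 * m))).mul (hBΔ.pow m)).congr fun τ => ?_⟩
  rw [gFun_smul]
  rfl

theorem gFun_vadd_one
    (hpar : ∀ γ : Gamma0 N, ((γ : SL(2, ℤ)) : Matrix (Fin 2) (Fin 2) ℤ) 1 0 = 0 → φ γ = 1)
    {m : ℕ} (hφm : ∀ γ, φ γ ^ m = 1) (τ : ℍ) : gFun φ m ((1 : ℝ) +ᵥ τ) = gFun φ m τ := by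
  have hT : ModularGroup.T ∈ Gamma0 N := by
    rw [Gamma0_mem]
    simp [ModularGroup.T]
  have h := gFun_invariant φ hpar hφm ModularGroup.T hT τ
  rwa [modular_T_smul] at h

theorem exists_qExpand_gFun [NeZero N]
    (hpar : ∀ γ : Gamma0 N, ((γ : SL(2, ℤ)) : Matrix (Fin 2) (Fin 2) ℤ) 1 0 = 0 → φ γ = 1)
    {m : ℕ} (hm : 0 < m) (hφm : ∀ γ, φ γ ^ m = 1) :
    ∃ f : LaurentSeries ℂ,
      HasQExpK (RingHom.id ℂ) N (ModularCurve.qExpand ℂ N f) (gFun φ m) := by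
  obtain ⟨B, hB⟩ := exists_hasQExpK_gFun_smul φ hpar hm hφm 1
  have hB' : HasQExpK (RingHom.id ℂ) N B (gFun φ m) := hB.congr (fun τ => by rw [one_smul])
  let ζ : ℂˣ := Units.mk0 (Complex.exp (2 * Real.pi * Complex.I / N)) (Complex.exp_ne_zero _)
  obtain ⟨A', hA', -⟩ := hB'.exists_qExpand_of_periodic ζ rfl (gFun_vadd_one φ hpar hφm)
  exact ⟨A', hA' ▸ hB'⟩

/-- **(B2), assembled.** For a character `φ` of `Γ₀(N)` with `φ^m = 1`, trivial on the stabiliser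
of `∞`: there are a holomorphic `E` with `E(γτ) = φ(γ)(cτ+d)⁴E(τ)`, `E → 1` at `i∞`, and a
Laurent series `f ∈ ℂ((q))` which is the `q`-expansion of `g = E^m E₄^(2m)/Δ^m`, such that `g` is
`Γ₀(N)`-invariant and all `SL(2,ℤ)`-translates of `g` have `q^(1/N)`-expansions.  (The last three
conjuncts say that `f` is `Good` for the `q^(1/N)`-expansion system over `ℂ`.) -/
theorem exists_good_of_char (N : ℕ) [NeZero N] (m : ℕ) (hm : 0 < m) (φ : Gamma0 N →* ℂˣ)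
    (hφm : ∀ γ, φ γ ^ m = 1)
    (hpar : ∀ γ : Gamma0 N, ((γ : SL(2, ℤ)) : Matrix (Fin 2) (Fin 2) ℤ) 1 0 = 0 → φ γ = 1) :
    ∃ (E g : ℍ → ℂ) (f : LaurentSeries ℂ),
      MDifferentiable 𝓘(ℂ) 𝓘(ℂ) E ∧
      (∀ (γ : Gamma0 N) (τ : ℍ), E ((γ : SL(2, ℤ)) • τ)
        = (φ γ : ℂ) * denom (γ : SL(2, ℤ)) τ ^ (4 : ℤ) * E τ) ∧
      Tendsto E atImInfty (𝓝 1) ∧
      (∀ τ, g τ = E τ ^ m * E₄ τ ^ (2 * m) / Δ τ ^ m) ∧
      HasQExpK (RingHom.id ℂ) N (ModularCurve.qExpand ℂ N f) g ∧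
      (∀ γ ∈ Gamma0 N, ∀ τ : ℍ, g (γ • τ) = g τ) ∧
      (∀ γ : SL(2, ℤ), ∃ B : LaurentSeries ℂ,
        HasQExpK (RingHom.id ℂ) N B (fun τ => g (γ • τ))) := by
  have hunit := norm_phi_eq_one φ hm hφm
  obtain ⟨f, hf⟩ := exists_qExpand_gFun φ hpar hm hφm
  exact ⟨eisK φ 4, gFun φ m, f, mdifferentiable_eisK φ hunit (by norm_num), eisK_smul φ hpar 4,
    tendsto_eis φ hunit hpar, fun _ => rfl, hf, fun γ hγ τ => gFun_invariant φ hpar hφm γ hγ τ,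
    fun γ => exists_hasQExpK_gFun_smul φ hpar hm hφm γ⟩

end Fermat.Agent.S30.EisGood

end
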