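import Mathlib
import Fermat.Agent.S30.EisGood
import Fermat.Agent.S24.PolyJQExpK

/-!
# The formal `m`-th root `x_φ = E_φ / E₄ ∈ ℂ((q))` of the good series `f_φ / j^m`

With `E = E_φ` (`Lib.EisChar.eisK φ 4`), `eisQ φ ∈ ℂ[[q]]` its `q`-expansion (constant term `1`),
and `f` the `q`-expansion of the good function `g = E^m E₄^(2m)/Δ^m` of `S30.EisGood`:

  `x := eisQ φ / e₄`  satisfies  `x ≠ 0`  and  `x^m * j^m = f`   in `ℂ((q))`.

So `x` is the `q`-expansion of the `m`-th root `h = E/E₄` (multiplier `φ`) of `f / j^m ∈ ℂ(j, j_N)`.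
-/

set_option autoImplicit false

open UpperHalfPlane ModularForm Complex Filter Topology Function CongruenceSubgroup
open scoped MatrixGroups Manifold

noncomputable section

namespace Fermat.Agent.S30.EisRoot

open Fermat.Agent.S24.QB Fermat.Agent.S24.JFun Fermat.Agent.S24.Puiseux
open Fermat.Agent.Lib.EisChar Fermat.Agent.S30.EisGood ModularCurve

local notation "Δ" => ModularForm.discriminant

/-- A holomorphic function on `ℍ` with period `1`, bounded at `i∞`, is the sum of its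
`q`-expansion (in the `HasQExpK` sense, level `1`). -/
theorem hasQExpK_qExpansion_one {G : ℍ → ℂ}
    (hhol : MDiff G) (hper : ∀ τ : ℍ, G ((1 : ℝ) +ᵥ τ) = G τ)
    (hbdd : IsBoundedAtImInfty G) :
    HasQExpK (RingHom.id ℂ) 1 (HahnSeries.ofPowerSeries ℤ ℂ (qExpansion 1 G)) G := by
  have hper' : Periodic (G ∘ ofComplex) ((1 : ℝ) : ℂ) :=
    Fermat.Agent.S24.CuspMer.periodic_comp_ofComplex hper
  rw [hasQExpK_iff_qParam]
  intro τ
  have h := hasSum_qExpansion one_pos hper' hhol hbdd τ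
  have hinj : Function.Injective (Nat.cast : ℕ → ℤ) := Nat.cast_injective
  rw [← hinj.hasSum_iff]
  · convert h using 2 with m
    simp [HahnSeries.ofPowerSeries_apply_coeff]
  · intro n hn
    have hneg : n < 0 := by
      by_contra h0
      exact hn ⟨n.toNat, Int.toNat_of_nonneg (not_lt.mp h0)⟩
    rw [ModularCurve.ofPowerSeries_coeff_of_neg _ hneg]
    simp

theorem coeff_zero_qExpansion_of_tendsto {G : ℍ → ℂ}
    (hhol : MDiff G) (hper : ∀ τ : ℍ, G ((1 : ℝ) +ᵥ τ) = G τ) {c : ℂ}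
    (hlim : Tendsto G atImInfty (𝓝 c)) : (qExpansion 1 G).coeff 0 = c := by
  have hper' : Periodic (G ∘ ofComplex) ((1 : ℝ) : ℂ) :=
    Fermat.Agent.S24.CuspMer.periodic_comp_ofComplex hper
  have hbdd : IsBoundedAtImInfty G := hlim.isBigO_one ℝ
  have han := analyticAt_cuspFunction_zero one_pos hper' hhol hbdd
  rw [UpperHalfPlane.qExpansion_coeff_zero one_pos han hper']
  exact hlim.limUnder_eq

variable {N : ℕ} (φ : Gamma0 N →* ℂˣ)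

/-- the `q`-expansion of `E_φ` -/
def eisQ : PowerSeries ℂ := qExpansion 1 (eisK φ 4)

theorem T_mem_Gamma0 (N : ℕ) : ModularGroup.T ∈ Gamma0 N := by
  rw [Gamma0_mem]
  simp [ModularGroup.T]

theorem eisK_vadd_one
    (hpar : ∀ γ : Gamma0 N, ((γ : SL(2, ℤ)) : Matrix (Fin 2) (Fin 2) ℤ) 1 0 = 0 → φ γ = 1)
    (τ : ℍ) : eisK φ 4 ((1 : ℝ) +ᵥ τ) = eisK φ 4 τ := by
  have h := eisK_smul φ hpar 4 ⟨ModularGroup.T, T_mem_Gamma0 N⟩ τ
  have h1 : φ ⟨ModularGroup.T, T_mem_Gamma0 N⟩ = 1 := hpar _ (by simp [ModularGroup.T])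
  have h2 : denom (ModularGroup.T : SL(2, ℤ)) τ = 1 := by
    rw [ModularGroup.denom_apply]
    simp [ModularGroup.T]
  rw [h1, h2] at h
  simp only [Units.val_one, one_zpow, mul_one, one_mul] at h
  rwa [modular_T_smul] at h

theorem hasQExpK_eisQ (hunit : ∀ γ, ‖(φ γ : ℂ)‖ = 1)
    (hpar : ∀ γ : Gamma0 N, ((γ : SL(2, ℤ)) : Matrix (Fin 2) (Fin 2) ℤ) 1 0 = 0 → φ γ = 1) :
    HasQExpK (RingHom.id ℂ) 1 (HahnSeries.ofPowerSeries ℤ ℂ (eisQ φ)) (eisK φ 4) :=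
  hasQExpK_qExpansion_one (mdifferentiable_eisK φ hunit (by norm_num)) (eisK_vadd_one φ hpar)
    ((tendsto_eis φ hunit hpar).isBigO_one ℝ)

theorem eisQ_coeff_zero (hunit : ∀ γ, ‖(φ γ : ℂ)‖ = 1)
    (hpar : ∀ γ : Gamma0 N, ((γ : SL(2, ℤ)) : Matrix (Fin 2) (Fin 2) ℤ) 1 0 = 0 → φ γ = 1) :
    (eisQ φ).coeff 0 = 1 :=
  coeff_zero_qExpansion_of_tendsto (mdifferentiable_eisK φ hunit (by norm_num))
    (eisK_vadd_one φ hpar) (tendsto_eis φ hunit hpar)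

theorem eisQ_ne_zero (hunit : ∀ γ, ‖(φ γ : ℂ)‖ = 1)
    (hpar : ∀ γ : Gamma0 N, ((γ : SL(2, ℤ)) : Matrix (Fin 2) (Fin 2) ℤ) 1 0 = 0 → φ γ = 1) :
    eisQ φ ≠ 0 := by
  intro h
  have h1 := eisQ_coeff_zero φ hunit hpar
  rw [h] at h1
  simp at h1

/-- the `q`-expansion of `E₄` (level one, `HasQExpK` form) -/
theorem hasQExpK_E4 :
    HasQExpK (RingHom.id ℂ) 1 (HahnSeries.ofPowerSeries ℤ ℂ (qExpansion 1 E₄)) (fun τ : ℍ => E₄ τ) :=
  hasQExpK_qExpansion_one (G := fun τ : ℍ => E₄ τ) (ModularFormClass.holo E₄)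
    (fun τ => by simpa using E4_vadd 1 τ) (ModularFormClass.bdd_at_infty E₄)

theorem qExpansion_E4_ne_zero : qExpansion 1 E₄ ≠ 0 := by
  intro h
  have h1 : (qExpansion 1 E₄).coeff 0 = 1 :=
    coeff_zero_qExpansion_of_tendsto (G := fun τ : ℍ => E₄ τ) (ModularFormClass.holo E₄)
      (fun τ => by simpa using E4_vadd 1 τ) tendsto_E4
  rw [h] at h1
  simp at h1

/-- the formal root `x_φ = eisQ φ / e₄ ∈ ℂ((q))`, the `q`-expansion of `E_φ / E₄` -/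
def xRoot : LaurentSeries ℂ :=
  HahnSeries.ofPowerSeries ℤ ℂ (eisQ φ) * (HahnSeries.ofPowerSeries ℤ ℂ (qExpansion 1 E₄))⁻¹

theorem xRoot_ne_zero (hunit : ∀ γ, ‖(φ γ : ℂ)‖ = 1)
    (hpar : ∀ γ : Gamma0 N, ((γ : SL(2, ℤ)) : Matrix (Fin 2) (Fin 2) ℤ) 1 0 = 0 → φ γ = 1) :
    xRoot φ ≠ 0 := by
  unfold xRoot
  refine mul_ne_zero ?_ (inv_ne_zero ?_)
  · exact (map_ne_zero_iff _ HahnSeries.ofPowerSeries_injective).mpr (eisQ_ne_zero φ hunit hpar)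
  · exact (map_ne_zero_iff _ HahnSeries.ofPowerSeries_injective).mpr qExpansion_E4_ne_zero

theorem xRoot_mul_E4 :
    xRoot φ * HahnSeries.ofPowerSeries ℤ ℂ (qExpansion 1 E₄)
      = HahnSeries.ofPowerSeries ℤ ℂ (eisQ φ) := by
  have hB0 : HahnSeries.ofPowerSeries ℤ ℂ (qExpansion 1 E₄) ≠ 0 :=
    (map_ne_zero_iff _ HahnSeries.ofPowerSeries_injective).mpr qExpansion_E4_ne_zero
  unfold xRoot
  field_simp

/-- `x_φ^m · j^m = f`, for the `q`-expansion `f` of the good function `g = E^m E₄^(2m)/Δ^m`. -/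
theorem xRoot_pow_mul [NeZero N]
    (hpar : ∀ γ : Gamma0 N, ((γ : SL(2, ℤ)) : Matrix (Fin 2) (Fin 2) ℤ) 1 0 = 0 → φ γ = 1)
    {m : ℕ} (hm : 0 < m) (hφm : ∀ γ, φ γ ^ m = 1) (f : LaurentSeries ℂ)
    (hf : HasQExpK (RingHom.id ℂ) N (qExpand ℂ N f) (gFun φ m)) :
    xRoot φ ^ m * (coeffEmb ℂ jq) ^ m = f := by
  have hunit := norm_phi_eq_one φ hm hφm
  have hA : HasQExpK (RingHom.id ℂ) (1 * N)
      (qExpand ℂ N (HahnSeries.ofPowerSeries ℤ ℂ (eisQ φ))) (eisK φ 4) :=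
    (hasQExpK_eisQ φ hunit hpar).qExpand one_ne_zero N
  have hB : HasQExpK (RingHom.id ℂ) (1 * N)
      (qExpand ℂ N (HahnSeries.ofPowerSeries ℤ ℂ (qExpansion 1 E₄))) (fun τ : ℍ => E₄ τ) :=
    hasQExpK_E4.qExpand one_ne_zero N
  have hJ : HasQExpK (RingHom.id ℂ) N (qExpand ℂ N (coeffEmb ℂ jq)) jFun :=
    Fermat.Agent.S24.PolyJQExpK.hasQExpK_jFun (RingHom.id ℂ) N
  rw [one_mul] at hA hB
  have h1 : HasQExpK (RingHom.id ℂ) N
      (qExpand ℂ N (f * HahnSeries.ofPowerSeries ℤ ℂ (qExpansion 1 E₄) ^ m))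
      (gFun φ m * (fun τ : ℍ => E₄ τ) ^ m) := by
    rw [map_mul, map_pow]
    exact hf.mul (hB.pow m)
  have h2 : HasQExpK (RingHom.id ℂ) N
      (qExpand ℂ N (HahnSeries.ofPowerSeries ℤ ℂ (eisQ φ) ^ m * coeffEmb ℂ jq ^ m))
      (eisK φ 4 ^ m * jFun ^ m) := by
    rw [map_mul, map_pow, map_pow]
    exact (hA.pow m).mul (hJ.pow m)
  have hfun : gFun φ m * (fun τ : ℍ => E₄ τ) ^ m = eisK φ 4 ^ m * jFun ^ m := by
    funext τ
    have hΔ := discriminant_ne_zero τ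
    have hΔm : Δ τ ^ m ≠ 0 := pow_ne_zero _ hΔ
    simp only [Pi.mul_apply, Pi.pow_apply, gFun, jFun_def]
    rw [div_pow, ← pow_mul, div_mul_eq_mul_div, mul_div_assoc', div_left_inj' hΔm, mul_assoc,
      ← pow_add]
    congr 2
    ring
  rw [hfun] at h1
  have h3 := h1.unique (NeZero.ne N) h2
  have h4 : f * HahnSeries.ofPowerSeries ℤ ℂ (qExpansion 1 E₄) ^ m
      = HahnSeries.ofPowerSeries ℤ ℂ (eisQ φ) ^ m * coeffEmb ℂ jq ^ m :=
    (qExpand ℂ N).injective h3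
  have hB0 : HahnSeries.ofPowerSeries ℤ ℂ (qExpansion 1 E₄) ≠ 0 :=
    (map_ne_zero_iff _ HahnSeries.ofPowerSeries_injective).mpr qExpansion_E4_ne_zero
  have hBm : HahnSeries.ofPowerSeries ℤ ℂ (qExpansion 1 E₄) ^ m ≠ 0 := pow_ne_zero _ hB0
  apply mul_right_cancel₀ hBm
  rw [h4, mul_right_comm, ← mul_pow, xRoot_mul_E4]

/-- **The formal root, packaged.**  For `φ` with `φ^m = 1`, trivial on the stabiliser of `∞`:
the good series `f` (the `q`-expansion of `g = E_φ^m E₄^(2m)/Δ^m`) equals `x^m j^m` with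
`x = xRoot φ = eisQ φ / e₄ ≠ 0`, and `eisQ φ` has constant term `1`. -/
theorem exists_root_series (N : ℕ) [NeZero N] (m : ℕ) (hm : 0 < m) (φ : Gamma0 N →* ℂˣ)
    (hφm : ∀ γ, φ γ ^ m = 1)
    (hpar : ∀ γ : Gamma0 N, ((γ : SL(2, ℤ)) : Matrix (Fin 2) (Fin 2) ℤ) 1 0 = 0 → φ γ = 1) :
    ∃ f : LaurentSeries ℂ,
      HasQExpK (RingHom.id ℂ) N (qExpand ℂ N f) (gFun φ m) ∧
      (∀ γ ∈ Gamma0 N, ∀ τ : ℍ, gFun φ m (γ • τ) = gFun φ m τ) ∧
      (∀ γ : SL(2, ℤ), ∃ B : LaurentSeries ℂ,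
        HasQExpK (RingHom.id ℂ) N B (fun τ => gFun φ m (γ • τ))) ∧
      xRoot φ ≠ 0 ∧ xRoot φ ^ m * (coeffEmb ℂ jq) ^ m = f ∧
      (eisQ φ).coeff 0 = 1 ∧
      HasQExpK (RingHom.id ℂ) 1 (HahnSeries.ofPowerSeries ℤ ℂ (eisQ φ)) (eisK φ 4) := by
  have hunit := norm_phi_eq_one φ hm hφm
  obtain ⟨f, hf⟩ := exists_qExpand_gFun φ hpar hm hφm
  exact ⟨f, hf, fun γ hγ τ => gFun_invariant φ hpar hφm γ hγ τ,
    fun γ => exists_hasQExpK_gFun_smul φ hpar hm hφm γ, xRoot_ne_zero φ hunit hpar,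
    xRoot_pow_mul φ hpar hm hφm f hf, eisQ_coeff_zero φ hunit hpar, hasQExpK_eisQ φ hunit hpar⟩

end Fermat.Agent.S30.EisRoot

end
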