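import Fermat.Agent.S30.Rational
import Fermat.Agent.S30.Congr
import Fermat.Agent.S22.HeckePerm
import Fermat.Agent.S24.QB.Conv

set_option autoImplicit false

/-!
# The multiplicative Hecke operator preserves the function field of `X₀(N)`

For a prime `ℓ ∤ N`, the multiplicative Hecke operator
`T_ℓ f (q) = f (q ^ ℓ) · ∏_{i < ℓ} f (zⁱ q^{1/ℓ})` (`Congr.heckeMul`) maps the good subalgebra of
level `N` (holomorphic `Γ₀(N)`-invariant functions with rational expansions at all cusps) into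
itself, hence maps the function field `L(j(q^d) : d ∣ N)` into itself.

The analytic avatar of `T_ℓ f` is `τ ↦ ∏_x φ (t_x • τ)`, the product over the `ℓ + 1` Hecke
representatives `tRep ℓ x` (`x : OnePoint (ZMod ℓ)`).
-/

noncomputable section

open UpperHalfPlane ModularForm Complex HahnSeries ModularCurve
open scoped MatrixGroups

namespace Fermat.Agent.S30.HeckeGood

open Fermat.Agent.S24.Puiseux Fermat.Agent.S24.QB Fermat.Agent.S24.Cusp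
open Fermat.Agent.S30.Rational Fermat.Agent.S22.HeckePerm

/-! ### Formal bridges between `Congr` and the `S24` operators -/

section Formal

variable {L : Type*} [Field L]

theorem expand_eq_qExpand (ℓ : ℕ) [NeZero ℓ] (hℓ : 0 < ℓ) (f : LaurentSeries L) :
    Congr.expand ℓ hℓ f = qExpand L ℓ f := by
  ext n
  by_cases hn : (ℓ : ℤ) ∣ n
  · obtain ⟨m, rfl⟩ := hn
    rw [Congr.coeff_expand_mul, qExpand_coeff_mul]
  · rw [Congr.coeff_expand_of_not_dvd ℓ hℓ f hn, qExpand_coeff_of_not_dvd ℓ f hn]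

theorem rescale_eq_scale (z : Lˣ) (f : LaurentSeries L) : Congr.rescale z f = scale z f := by
  ext n
  rw [Congr.coeff_rescale, scale_coeff]

theorem conjProd_eq_prod_scale (ℓ : ℕ) (z : Lˣ) (f : LaurentSeries L) :
    Congr.conjProd ℓ z f = ∏ i ∈ Finset.range ℓ, scale (z ^ i) f := by
  unfold Congr.conjProd
  exact Finset.prod_congr rfl fun i _ => rescale_eq_scale _ _

/-- The product `∏_{i < ℓ} f (zⁱ q)` does not depend on the primitive `ℓ`-th root of unity. -/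
theorem conjProd_eq_of_isPrimitiveRoot {ℓ : ℕ} (hℓ : 0 < ℓ) {z w : Lˣ}
    (hz : IsPrimitiveRoot z ℓ) (hw : IsPrimitiveRoot w ℓ) (f : LaurentSeries L) :
    Congr.conjProd ℓ z f = Congr.conjProd ℓ w f := by
  classical
  have : NeZero ℓ := ⟨hℓ.ne'⟩
  unfold Congr.conjProd
  have key : ∀ {u : Lˣ}, IsPrimitiveRoot u ℓ →
      ∏ i ∈ Finset.range ℓ, Congr.rescale (u ^ i) f
        = ∏ v ∈ (Finset.range ℓ).image (fun i => u ^ i), Congr.rescale v f := fun hu =>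
    (Finset.prod_image (f := fun v => Congr.rescale v f)
      (fun i hi j hj h => hu.injOn_pow hi hj h)).symm
  rw [key hz, key hw]
  have hcard : ∀ {u : Lˣ}, IsPrimitiveRoot u ℓ →
      ((Finset.range ℓ).image (fun i => u ^ i)).card = ℓ := fun hu => by
    rw [Finset.card_image_of_injOn hu.injOn_pow, Finset.card_range]
  have hsub : (Finset.range ℓ).image (fun i => z ^ i) ⊆ (Finset.range ℓ).image (fun i => w ^ i) := by
    intro v hv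
    rw [Finset.mem_image] at hv ⊢
    obtain ⟨i, -, rfl⟩ := hv
    have hw' : IsPrimitiveRoot (w : L) ℓ := IsPrimitiveRoot.coe_units_iff.mpr hw
    have h1 : ((z ^ i : Lˣ) : L) ^ ℓ = 1 := by
      rw [← Units.val_pow_eq_pow_val, ← pow_mul, mul_comm, pow_mul, hz.pow_eq_one, one_pow,
        Units.val_one]
    obtain ⟨j, hj, hj2⟩ := hw'.eq_pow_of_pow_eq_one h1
    refine ⟨j, Finset.mem_range.mpr hj, Units.ext ?_⟩
    rw [Units.val_pow_eq_pow_val]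
    exact hj2
  rw [Finset.eq_of_subset_of_card_le hsub (by rw [hcard hz, hcard hw])]

/-- The defining relation of `heckeMul`, in terms of the `S24` operators. -/
theorem qExpand_heckeMul {ℓ : ℕ} [NeZero ℓ] (hℓ : 0 < ℓ) {z : Lˣ} (hz : IsPrimitiveRoot z ℓ)
    (f : LaurentSeries L) :
    qExpand L ℓ (Congr.heckeMul ℓ hℓ z f)
      = qExpand L ℓ (qExpand L ℓ f) * ∏ i ∈ Finset.range ℓ, scale (z ^ i) f := by
  unfold Congr.heckeMul
  rw [map_mul, ← expand_eq_qExpand ℓ hℓ (Congr.normL ℓ hℓ z f), Congr.expand_normL ℓ hℓ z hz,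
    conjProd_eq_prod_scale, expand_eq_qExpand]

end Formal

/-! ### Analytic lemmas on `q^(1/N)`-expansions -/

section Analytic

variable {K : Type*} [Field K] {ι : K →+* ℂ}

/-- finite products of expansions -/
theorem hasQExpK_finset_prod {σ : Type*} {N : ℕ} (s : Finset σ) (A : σ → LaurentSeries K)
    (φ : σ → ℍ → ℂ) (h : ∀ i ∈ s, HasQExpK ι N (A i) (φ i)) :
    HasQExpK ι N (∏ i ∈ s, A i) (fun τ => ∏ i ∈ s, φ i τ) := by
  classical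
  induction s using Finset.induction_on with
  | empty =>
    simp only [Finset.prod_empty]
    exact hasQExpK_one ι N
  | insert a s ha ih =>
    rw [Finset.prod_insert ha]
    have h1 := (h a (Finset.mem_insert_self a s)).mul
      (ih fun i hi => h i (Finset.mem_insert_of_mem hi))
    refine h1.congr fun τ => ?_
    rw [Finset.prod_insert ha]
    rfl

/-- `(e^(2πi τ/(N ℓ)))^(ℓ ℓ) = e^(2πi (ℓ τ)/N)`. -/
theorem exp_pow_sq_eq {N ℓ : ℕ} (hN : N ≠ 0) (hℓ : ℓ ≠ 0) (τ : ℂ) :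
    Complex.exp (2 * Real.pi * Complex.I * τ / ((N * ℓ : ℕ) : ℂ)) ^ (ℓ * ℓ)
      = Complex.exp (2 * Real.pi * Complex.I * ((ℓ : ℂ) * τ) / N) := by
  have hN' : (N : ℂ) ≠ 0 := by exact_mod_cast hN
  have hℓ' : (ℓ : ℂ) ≠ 0 := by exact_mod_cast hℓ
  rw [← Complex.exp_nat_mul]
  congr 1
  push_cast
  field_simp

/-- `e^(2πi/(N ℓ))^j · e^(2πi τ/(N ℓ)) = e^(2πi ((τ+j)/ℓ)/N)`. -/
theorem exp_pow_mul_eq {N ℓ : ℕ} (hN : N ≠ 0) (hℓ : ℓ ≠ 0) (j : ℕ) (τ : ℂ) :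
    Complex.exp (2 * Real.pi * Complex.I / ((N * ℓ : ℕ) : ℂ)) ^ j
        * Complex.exp (2 * Real.pi * Complex.I * τ / ((N * ℓ : ℕ) : ℂ))
      = Complex.exp (2 * Real.pi * Complex.I * ((τ + j) / ℓ) / N) := by
  have hN' : (N : ℂ) ≠ 0 := by exact_mod_cast hN
  have hℓ' : (ℓ : ℂ) ≠ 0 := by exact_mod_cast hℓ
  rw [← Complex.exp_nat_mul, ← Complex.exp_add]
  congr 1
  push_cast
  field_simp
  ring

/-- `(e^(2πi τ/(N ℓ)))^ℓ = e^(2πi τ/N)`. -/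
theorem exp_pow_eq {N ℓ : ℕ} (hN : N ≠ 0) (hℓ : ℓ ≠ 0) (τ : ℂ) :
    Complex.exp (2 * Real.pi * Complex.I * τ / ((N * ℓ : ℕ) : ℂ)) ^ ℓ
      = Complex.exp (2 * Real.pi * Complex.I * τ / N) := by
  have hN' : (N : ℂ) ≠ 0 := by exact_mod_cast hN
  have hℓ' : (ℓ : ℂ) ≠ 0 := by exact_mod_cast hℓ
  rw [← Complex.exp_nat_mul]
  congr 1
  push_cast
  field_simp

/-- Substitution `τ ↦ ℓ τ`: an expansion in `q^(1/N)` becomes one in `q^(1/(N ℓ))`. -/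
theorem hasQExpK_diag {N ℓ : ℕ} (hN : N ≠ 0) [NeZero ℓ] {B : LaurentSeries K} {ψ : ℍ → ℂ}
    (h : HasQExpK ι N B ψ) :
    HasQExpK ι (N * ℓ) (qExpand K ℓ (qExpand K ℓ B)) (fun τ => ψ (heckeDiagMatrix ℓ • τ)) := by
  intro τ
  rw [hasSum_qExpand_iff, hasSum_qExpand_iff, ← pow_mul, exp_pow_sq_eq hN (NeZero.ne ℓ)]
  have h1 := h (heckeDiagMatrix ℓ • τ)
  rw [coe_heckeDiagMatrix_smul (NeZero.ne ℓ)] at h1
  exact h1

/-- Substitution `τ ↦ (τ + j)/ℓ`: an expansion in `q^(1/N)` becomes one in `q^(1/(N ℓ))`. -/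
theorem hasQExpK_heckeMatrix {N ℓ : ℕ} (hN : N ≠ 0) [NeZero ℓ] (ζ : Kˣ)
    (hζ : ι (ζ : K) = Complex.exp (2 * Real.pi * Complex.I / ((N * ℓ : ℕ) : ℂ))) (j : ℕ)
    {B : LaurentSeries K} {ψ : ℍ → ℂ} (h : HasQExpK ι N B ψ) :
    HasQExpK ι (N * ℓ) (scale (ζ ^ j) B) (fun τ => ψ (heckeMatrix ℓ j • τ)) := by
  intro τ
  rw [hasSum_scale_iff, Units.val_pow_eq_pow_val, map_pow, hζ, exp_pow_mul_eq hN (NeZero.ne ℓ)]
  have h1 := h (heckeMatrix ℓ j • τ)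
  rw [coe_heckeMatrix_smul (NeZero.ne ℓ)] at h1
  exact h1

/-- Translation `τ ↦ τ + m`. -/
theorem hasQExpK_vadd {M : ℕ} (ζ : Kˣ)
    (hζ : ι (ζ : K) = Complex.exp (2 * Real.pi * Complex.I / (M : ℂ))) (m : ℕ)
    {A : LaurentSeries K} {ψ : ℍ → ℂ} (h : HasQExpK ι M A ψ) :
    HasQExpK ι M (scale (ζ ^ m) A) (fun τ => ψ ((m : ℝ) +ᵥ τ)) := by
  intro τ
  rw [hasSum_scale_iff, Units.val_pow_eq_pow_val, map_pow, hζ]
  have h1 := h ((m : ℝ) +ᵥ τ)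
  rw [UpperHalfPlane.coe_vadd] at h1
  have e : Complex.exp (2 * Real.pi * Complex.I / (M : ℂ)) ^ m
      * Complex.exp (2 * Real.pi * Complex.I * (τ : ℂ) / M)
      = Complex.exp (2 * Real.pi * Complex.I * (((m : ℝ) : ℂ) + (τ : ℂ)) / M) := by
    rw [← Complex.exp_nat_mul, ← Complex.exp_add]
    congr 1
    push_cast
    ring
  rw [e]
  exact h1

/-- **Periodic descent**: a function with an expansion in `q^(1/(N ℓ))` which is invariant under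
`τ ↦ τ + N` has an expansion in `q^(1/N)`. -/
theorem exists_hasQExpK_of_periodic {N ℓ : ℕ} (hN : N ≠ 0) [NeZero ℓ] (ζ : Kˣ)
    (hζ : ι (ζ : K) = Complex.exp (2 * Real.pi * Complex.I / ((N * ℓ : ℕ) : ℂ)))
    {A : LaurentSeries K} {ψ : ℍ → ℂ} (h : HasQExpK ι (N * ℓ) A ψ)
    (hper : ∀ τ : ℍ, ψ ((N : ℝ) +ᵥ τ) = ψ τ) :
    ∃ A' : LaurentSeries K, A = qExpand K ℓ A' ∧ HasQExpK ι N A' ψ := by
  have hℓ := NeZero.ne ℓ
  have hNℓ : N * ℓ ≠ 0 := Nat.mul_ne_zero hN hℓ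
  have hsc : scale (ζ ^ N) A = A := ((hasQExpK_vadd ζ hζ N h).congr hper).unique hNℓ h
  have hvan : ∀ n : ℤ, ¬ (ℓ : ℤ) ∣ n → A.coeff n = 0 := by
    intro n hn
    by_contra hne
    have h1 : (((ζ ^ N) ^ n : Kˣ) : K) * A.coeff n = A.coeff n := by
      rw [← scale_coeff, hsc]
    have h2 : (((ζ ^ N) ^ n : Kˣ) : K) = 1 :=
      mul_right_cancel₀ hne (h1.trans (one_mul _).symm)
    have h3 : ι (((ζ ^ N) ^ n : Kˣ) : K) = 1 := by rw [h2, map_one]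
    rw [map_units_zpow, Units.val_pow_eq_pow_val, map_pow, hζ] at h3
    have h4 : Complex.exp (2 * Real.pi * Complex.I / ((N * ℓ : ℕ) : ℂ)) ^ N
        = Complex.exp (2 * Real.pi * Complex.I / (ℓ : ℂ)) := by
      have hN' : (N : ℂ) ≠ 0 := by exact_mod_cast hN
      have hℓ' : (ℓ : ℂ) ≠ 0 := by exact_mod_cast hℓ
      rw [← Complex.exp_nat_mul]
      congr 1
      push_cast
      field_simp
    rw [h4] at h3
    exact hn (((Complex.isPrimitiveRoot_exp ℓ hℓ).zpow_eq_one_iff_dvd n).mp h3)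
  refine ⟨unExpand ℓ A, (qExpand_unExpand ℓ A hvan).symm, ?_⟩
  intro τ
  have h1 := h τ
  rw [← qExpand_unExpand ℓ A hvan, hasSum_qExpand_iff, exp_pow_eq hN hℓ] at h1
  exact h1

/-- expansions of `τ ↦ ∏_x ψ_x (t_x • τ)`, the product over the Hecke representatives -/
theorem hasQExpK_prod_tRep {N ℓ : ℕ} (hN : N ≠ 0) [NeZero ℓ] (ζ : Kˣ)
    (hζ : ι (ζ : K) = Complex.exp (2 * Real.pi * Complex.I / ((N * ℓ : ℕ) : ℂ)))
    (B : OnePoint (ZMod ℓ) → LaurentSeries K) (ψ : OnePoint (ZMod ℓ) → ℍ → ℂ)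
    (h : ∀ x, HasQExpK ι N (B x) (ψ x)) :
    HasQExpK ι (N * ℓ)
      (qExpand K ℓ (qExpand K ℓ (B OnePoint.infty))
        * ∏ j : ZMod ℓ, scale (ζ ^ j.val) (B (j : OnePoint (ZMod ℓ))))
      (fun τ => ∏ x : OnePoint (ZMod ℓ), ψ x (tRep ℓ x • τ)) := by
  have h1 := (hasQExpK_diag (ℓ := ℓ) hN (h OnePoint.infty)).mul
    (hasQExpK_finset_prod Finset.univ
      (fun j : ZMod ℓ => scale (ζ ^ j.val) (B (j : OnePoint (ZMod ℓ))))
      (fun (j : ZMod ℓ) τ => ψ (j : OnePoint (ZMod ℓ)) (heckeMatrix ℓ j.val • τ))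
      (fun j _ => hasQExpK_heckeMatrix hN ζ hζ j.val (h j)))
  refine h1.congr fun τ => ?_
  exact (Fintype.prod_option (fun x : OnePoint (ZMod ℓ) => ψ x (tRep ℓ x • τ))).symm

end Analytic

/-! ### The analytic avatar of the multiplicative Hecke operator -/

section Avatar

theorem prod_zmod_val_eq_prod_range {M : Type*} [CommMonoid M] (ℓ : ℕ) [NeZero ℓ] (G : ℕ → M) :
    ∏ j : ZMod ℓ, G j.val = ∏ i ∈ Finset.range ℓ, G i := by
  obtain ⟨n, rfl⟩ : ∃ n, ℓ = n + 1 := ⟨ℓ - 1, by have := NeZero.pos ℓ; omega⟩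
  exact Fin.prod_univ_eq_prod_range G (n + 1)

/-- The analytic avatar of the multiplicative Hecke operator: `τ ↦ ∏_x φ (t_x • τ)`, the product
over the `ℓ + 1` Hecke representatives. -/
def heckeFun (ℓ : ℕ) [NeZero ℓ] (φ : ℍ → ℂ) (τ : ℍ) : ℂ :=
  ∏ x : OnePoint (ZMod ℓ), φ (tRep ℓ x • τ)

theorem heckeFun_def (ℓ : ℕ) [NeZero ℓ] (φ : ℍ → ℂ) (τ : ℍ) :
    heckeFun ℓ φ τ = ∏ x : OnePoint (ZMod ℓ), φ (tRep ℓ x • τ) := rfl

/-- `T_ℓ φ (τ) = φ (ℓ τ) · ∏_{j < ℓ} φ ((τ + j)/ℓ)`. -/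
theorem heckeFun_eq (ℓ : ℕ) [NeZero ℓ] (φ : ℍ → ℂ) (τ : ℍ) :
    heckeFun ℓ φ τ
      = φ (heckeDiagMatrix ℓ • τ) * ∏ j ∈ Finset.range ℓ, φ (heckeMatrix ℓ j • τ) := by
  unfold heckeFun
  rw [← prod_zmod_val_eq_prod_range ℓ (fun j => φ (heckeMatrix ℓ j • τ))]
  exact Fintype.prod_option (fun x : OnePoint (ZMod ℓ) => φ (tRep ℓ x • τ))

/-- `Γ₀(N)`-invariance of the avatar (`ℓ ∤ N`): the coset permutation. -/
theorem heckeFun_smul_of_mem_Gamma0 {N ℓ : ℕ} [NeZero ℓ] (hℓ : ℓ.Prime) (hℓN : ¬ ℓ ∣ N)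
    {φ : ℍ → ℂ} (hφ : ∀ γ ∈ CongruenceSubgroup.Gamma0 N, ∀ τ : ℍ, φ (γ • τ) = φ τ)
    (γ : SL(2, ℤ)) (hγ : γ ∈ CongruenceSubgroup.Gamma0 N) (τ : ℍ) :
    heckeFun ℓ φ (γ • τ) = heckeFun ℓ φ τ := by
  obtain ⟨σ, g', hg', hmul⟩ := exists_perm_T hℓ hℓN γ hγ
  unfold heckeFun
  rw [← Equiv.prod_comp σ (fun x => φ (tRep ℓ x • τ))]
  refine Finset.prod_congr rfl fun x _ => ?_
  have h1 : tRep ℓ x • γ • τ = g' x • tRep ℓ (σ x) • τ := by
    show tRep ℓ x • (Matrix.SpecialLinearGroup.mapGL ℝ γ) • τ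
      = (Matrix.SpecialLinearGroup.mapGL ℝ (g' x)) • tRep ℓ (σ x) • τ
    rw [← mul_smul, ← mul_smul, hmul x]
  rw [h1, hφ _ (hg' x)]

/-- Every `SL(2,ℤ)`-translate of the avatar is again a product over the Hecke representatives,
of `SL(2,ℤ)`-translates of `φ`. -/
theorem heckeFun_smul {ℓ : ℕ} [NeZero ℓ] (hℓ : ℓ.Prime) (φ : ℍ → ℂ) (γ : SL(2, ℤ)) :
    ∃ g : OnePoint (ZMod ℓ) → SL(2, ℤ), ∀ τ : ℍ,
      heckeFun ℓ φ (γ • τ) = ∏ y : OnePoint (ZMod ℓ), φ (g y • tRep ℓ y • τ) := by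
  have hγ : γ ∈ CongruenceSubgroup.Gamma0 1 := by
    rw [CongruenceSubgroup.Gamma0_mem]
    exact Subsingleton.elim _ _
  obtain ⟨σ, g', -, hmul⟩ := exists_perm_T (N := 1) hℓ hℓ.not_dvd_one γ hγ
  refine ⟨fun y => g' (σ.symm y), fun τ => ?_⟩
  unfold heckeFun
  rw [← Equiv.prod_comp σ (fun y => φ (g' (σ.symm y) • tRep ℓ y • τ))]
  refine Finset.prod_congr rfl fun x _ => ?_
  rw [Equiv.symm_apply_apply]
  have h1 : tRep ℓ x • γ • τ = g' x • tRep ℓ (σ x) • τ := by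
    show tRep ℓ x • (Matrix.SpecialLinearGroup.mapGL ℝ γ) • τ
      = (Matrix.SpecialLinearGroup.mapGL ℝ (g' x)) • tRep ℓ (σ x) • τ
    rw [← mul_smul, ← mul_smul, hmul x]
  rw [h1]

theorem T_mem_Gamma0 (N : ℕ) : ModularGroup.T ∈ CongruenceSubgroup.Gamma0 N := by
  rw [CongruenceSubgroup.Gamma0_mem]
  simp [ModularGroup.T]

theorem conj_T_pow_mem_Gamma0 (N : ℕ) (γ : SL(2, ℤ)) :
    γ * ModularGroup.T ^ (N : ℤ) * γ⁻¹ ∈ CongruenceSubgroup.Gamma0 N := by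
  have h1 : ModularGroup.T ^ (N : ℤ) ∈ CongruenceSubgroup.Gamma N := by
    simpa using CongruenceSubgroup.ModularGroup_T_pow_mem_Gamma (N : ℤ) (N : ℤ) dvd_rfl
  have h2 := (CongruenceSubgroup.Gamma_normal N).conj_mem _ h1 γ
  rw [CongruenceSubgroup.Gamma0_mem]
  exact (CongruenceSubgroup.Gamma_mem.mp h2).2.2.1

/-- A `Γ₀(N)`-invariant function has all its `SL(2,ℤ)`-translates `N`-periodic. -/
theorem smul_vadd_of_invariant {N : ℕ} {Φ : ℍ → ℂ}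
    (hΦ : ∀ γ ∈ CongruenceSubgroup.Gamma0 N, ∀ τ : ℍ, Φ (γ • τ) = Φ τ) (γ : SL(2, ℤ)) (τ : ℍ) :
    Φ (γ • ((N : ℝ) +ᵥ τ)) = Φ (γ • τ) := by
  have h1 : ((N : ℝ) +ᵥ τ : ℍ) = ModularGroup.T ^ (N : ℤ) • τ := by
    rw [UpperHalfPlane.modular_T_zpow_smul, Int.cast_natCast]
  have h2 : γ • ModularGroup.T ^ (N : ℤ) • τ
      = (γ * ModularGroup.T ^ (N : ℤ) * γ⁻¹) • γ • τ := by
    rw [mul_smul, mul_smul, inv_smul_smul]
  rw [h1, h2]
  exact hΦ _ (conj_T_pow_mem_Gamma0 N γ) _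

end Avatar

/-! ### The main theorems -/

section Main

variable {L : Type} [Field L] [Algebra ℚ L] [IsAlgClosed L] [CharZero L] (ι : L →+* ℂ)
  (N : ℕ) [NeZero N]

omit [Algebra ℚ L] [IsAlgClosed L] [CharZero L] in
theorem heckeMul_eq_of_isPrimitiveRoot {ℓ : ℕ} (hℓ : 0 < ℓ) {z w : Lˣ}
    (hz : IsPrimitiveRoot z ℓ) (hw : IsPrimitiveRoot w ℓ) (f : LaurentSeries L) :
    Congr.heckeMul ℓ hℓ z f = Congr.heckeMul ℓ hℓ w f := by
  unfold Congr.heckeMul Congr.normL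
  rw [conjProd_eq_of_isPrimitiveRoot hℓ hz hw]

omit [Algebra ℚ L] in
/-- **The avatar of `T_ℓ f`**: if `φ` is `1`-periodic with `q`-expansion `f`, then
`τ ↦ ∏_x φ (t_x • τ)` has `q`-expansion `heckeMul ℓ z f`, provided it is `1`-periodic. -/
theorem hasQExpK_heckeMul {ℓ : ℕ} [NeZero ℓ] (hℓ : 0 < ℓ) {z : Lˣ} (hz : IsPrimitiveRoot z ℓ)
    {f : LaurentSeries L} {φ : ℍ → ℂ} (h : HasQExpK ι 1 f φ)
    (hper : ∀ τ : ℍ, heckeFun ℓ φ ((1 : ℝ) +ᵥ τ) = heckeFun ℓ φ τ) :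
    HasQExpK ι 1 (Congr.heckeMul ℓ hℓ z f) (heckeFun ℓ φ) := by
  obtain ⟨ζ, hζprim, hζ⟩ := exists_unit_map_eq_exp ι (NeZero.ne ℓ)
  have hζ' : ι (ζ : L) = Complex.exp (2 * Real.pi * Complex.I / ((1 * ℓ : ℕ) : ℂ)) := by
    rw [one_mul]
    exact hζ
  have h1 := hasQExpK_prod_tRep (ℓ := ℓ) one_ne_zero ζ hζ' (fun _ => f) (fun _ => φ) (fun _ => h)
  rw [prod_zmod_val_eq_prod_range ℓ (fun i => scale (ζ ^ i) f), ← qExpand_heckeMul hℓ hζprim,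
    one_mul] at h1
  obtain ⟨A', hA', hA'1⟩ := HasQExpK.exists_qExpand_of_periodic ζ hζ h1 hper
  have e : Congr.heckeMul ℓ hℓ ζ f = A' := qExpand_injective ℓ hA'
  rw [heckeMul_eq_of_isPrimitiveRoot hℓ hz hζprim, e]
  exact hA'1

/-- **Hecke preserves the good subalgebra**: for a prime `ℓ ∤ N`, the multiplicative Hecke
operator maps good series of level `N` to good series of level `N`. -/
theorem heckeMul_good {ℓ : ℕ} (hℓ : ℓ.Prime) (hℓN : ¬ ℓ ∣ N) {z : Lˣ} (hz : IsPrimitiveRoot z ℓ)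
    {f : LaurentSeries L} (hf : f ∈ (sysOf ι N).goodSubalgebra) :
    Congr.heckeMul ℓ hℓ.pos z f ∈ (sysOf ι N).goodSubalgebra := by
  have : NeZero ℓ := ⟨hℓ.ne_zero⟩
  obtain ⟨φ, hφ, hinv, htr⟩ := hf
  have hφ' : HasQExpK ι N (qExpand L N f) φ := hφ
  obtain ⟨ζN, -, hζN⟩ := exists_unit_map_eq_exp ι (NeZero.ne N)
  obtain ⟨ζ, -, hζ⟩ := exists_unit_map_eq_exp ι (Nat.mul_ne_zero (NeZero.ne N) (NeZero.ne ℓ))
  -- the level-one expansion of `φ`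
  have hper : ∀ τ : ℍ, φ ((1 : ℝ) +ᵥ τ) = φ τ := fun τ => by
    rw [← UpperHalfPlane.modular_T_smul]
    exact hinv _ (T_mem_Gamma0 N) τ
  obtain ⟨A', hA', hA'1⟩ := HasQExpK.exists_qExpand_of_periodic ζN hζN hφ' hper
  have hfA : f = A' := qExpand_injective N hA'
  rw [← hfA] at hA'1
  -- invariance of the avatar
  have hΦinv : ∀ γ ∈ CongruenceSubgroup.Gamma0 N, ∀ τ : ℍ,
      heckeFun ℓ φ (γ • τ) = heckeFun ℓ φ τ :=
    fun γ hγ τ => heckeFun_smul_of_mem_Gamma0 hℓ hℓN hinv γ hγ τ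
  have hΦper : ∀ τ : ℍ, heckeFun ℓ φ ((1 : ℝ) +ᵥ τ) = heckeFun ℓ φ τ := fun τ => by
    rw [← UpperHalfPlane.modular_T_smul]
    exact hΦinv _ (T_mem_Gamma0 N) τ
  refine ⟨heckeFun ℓ φ, ?_, hΦinv, ?_⟩
  · exact (hasQExpK_heckeMul ι hℓ.pos hz hA'1 hΦper).qExpand_one N
  · intro γ
    obtain ⟨g, hg⟩ := heckeFun_smul hℓ φ γ
    choose B hB using fun y => htr (g y)
    have h1 := hasQExpK_prod_tRep (ℓ := ℓ) (NeZero.ne N) ζ hζ B
      (fun y τ => φ (g y • τ)) (fun y => hB y)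
    have h2 : HasQExpK ι (N * ℓ) _ (fun τ => heckeFun ℓ φ (γ • τ)) :=
      h1.congr fun τ => (hg τ).symm
    obtain ⟨A'', -, hA''⟩ := exists_hasQExpK_of_periodic (NeZero.ne N) ζ hζ h2
      (fun τ => smul_vadd_of_invariant hΦinv γ τ)
    exact ⟨A'', hA''⟩

/-- The avatar of `heckeMul ℓ z f` is `heckeFun ℓ` of the avatar of `f`. -/
theorem funOf_heckeMul {ℓ : ℕ} [NeZero ℓ] (hℓ : ℓ.Prime) (hℓN : ¬ ℓ ∣ N) {z : Lˣ}
    (hz : IsPrimitiveRoot z ℓ) (f : (sysOf ι N).goodSubalgebra) :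
    (sysOf ι N).funOf ⟨Congr.heckeMul ℓ hℓ.pos z (f : LaurentSeries L),
        heckeMul_good ι N hℓ hℓN hz f.2⟩
      = heckeFun ℓ ((sysOf ι N).funOf f) := by
  apply (sysOf ι N).funOf_eq
  have hφ' : HasQExpK ι N (qExpand L N (f : LaurentSeries L)) ((sysOf ι N).funOf f) :=
    (sysOf ι N).has_funOf f
  have hinv := fun γ hγ τ => (sysOf ι N).funOf_Gamma0 f γ hγ τ
  obtain ⟨ζN, -, hζN⟩ := exists_unit_map_eq_exp ι (NeZero.ne N)
  have hper : ∀ τ : ℍ, (sysOf ι N).funOf f ((1 : ℝ) +ᵥ τ) = (sysOf ι N).funOf f τ := fun τ => by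
    rw [← UpperHalfPlane.modular_T_smul]
    exact hinv _ (T_mem_Gamma0 N) τ
  obtain ⟨A', hA', hA'1⟩ := HasQExpK.exists_qExpand_of_periodic ζN hζN hφ' hper
  have hfA : (f : LaurentSeries L) = A' := qExpand_injective N hA'
  rw [← hfA] at hA'1
  have hΦper : ∀ τ : ℍ, heckeFun ℓ ((sysOf ι N).funOf f) ((1 : ℝ) +ᵥ τ)
      = heckeFun ℓ ((sysOf ι N).funOf f) τ := fun τ => by
    rw [← UpperHalfPlane.modular_T_smul]
    exact heckeFun_smul_of_mem_Gamma0 hℓ hℓN hinv _ (T_mem_Gamma0 N) τ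
  exact (hasQExpK_heckeMul ι hℓ.pos hz hA'1 hΦper).qExpand_one N

omit [Algebra ℚ L] [IsAlgClosed L] [CharZero L] in
theorem heckeMul_div {ℓ : ℕ} (hℓ : 0 < ℓ) {z : Lˣ} (hz : IsPrimitiveRoot z ℓ)
    (r s : LaurentSeries L) :
    Congr.heckeMul ℓ hℓ z (r / s) = Congr.heckeMul ℓ hℓ z r / Congr.heckeMul ℓ hℓ z s := by
  have h0 : Congr.heckeMul ℓ hℓ z (0 : LaurentSeries L) = 0 := by
    unfold Congr.heckeMul
    rw [map_zero, zero_mul]
  by_cases hs : s = 0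
  · subst hs
    rw [div_zero, h0, div_zero]
  · have h1 : Congr.heckeMul ℓ hℓ z s * Congr.heckeMul ℓ hℓ z s⁻¹ = 1 := by
      rw [← Congr.heckeMul_mul ℓ hℓ z hz, mul_inv_cancel₀ hs]
      exact map_one (Congr.heckeMulHom ℓ hℓ z hz)
    rw [div_eq_mul_inv, Congr.heckeMul_mul ℓ hℓ z hz, div_eq_mul_inv,
      eq_inv_of_mul_eq_one_right h1]

include ι in
/-- **Hecke preserves the function field**: for a prime `ℓ ∤ N`, the multiplicative Hecke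
operator maps `L(j(q^d) : d ∣ N)` into itself. -/
theorem heckeMul_mem_adjoin {ℓ : ℕ} (hℓ : ℓ.Prime) (hℓN : ¬ ℓ ∣ N) {z : Lˣ}
    (hz : IsPrimitiveRoot z ℓ) {f : LaurentSeries L}
    (hf : f ∈ IntermediateField.adjoin L (Fermat.Agent.S24.DegreeGen.gens L N)) :
    Congr.heckeMul ℓ hℓ.pos z f
      ∈ IntermediateField.adjoin L (Fermat.Agent.S24.DegreeGen.gens L N) := by
  rw [IntermediateField.mem_adjoin_iff_div] at hf
  obtain ⟨r, hr, s, hs, rfl⟩ := hf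
  have hle : Algebra.adjoin L (Fermat.Agent.S24.DegreeGen.gens L N)
      ≤ (sysOf ι N).goodSubalgebra := Algebra.adjoin_le (gens_subset_good ι N)
  have h1 := good_mem_adjoin ι N _ (heckeMul_good ι N hℓ hℓN hz (hle hr))
  have h2 := good_mem_adjoin ι N _ (heckeMul_good ι N hℓ hℓN hz (hle hs))
  rw [heckeMul_div hℓ.pos hz]
  exact div_mem h1 h2

end Main

/-! ### The case `L = ℚ̄` -/

/-- Over `ℚ̄`: the multiplicative Hecke operator `T_ℓ` (`ℓ ∤ N` prime) preserves the function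
field of `X₀(N)` of the prelude. -/
theorem heckeMul_mem_modularFunctionFieldBar (N : ℕ) [NeZero N] {ℓ : ℕ} (hℓ : ℓ.Prime)
    (hℓN : ¬ ℓ ∣ N) {z : (AlgebraicClosure ℚ)ˣ} (hz : IsPrimitiveRoot z ℓ)
    {f : LaurentSeries (AlgebraicClosure ℚ)} (hf : f ∈ modularFunctionFieldBar N) :
    Congr.heckeMul ℓ hℓ.pos z f ∈ modularFunctionFieldBar N := by
  have e : modularFunctionFieldBar N
      = IntermediateField.adjoin (AlgebraicClosure ℚ)
        (Fermat.Agent.S24.DegreeGen.gens (AlgebraicClosure ℚ) N) :=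
    Fermat.Agent.S24.DegreeGen.laurentBaseChange_full_eq_adjoin (AlgebraicClosure ℚ) N
  rw [e] at hf ⊢
  exact heckeMul_mem_adjoin Fermat.Agent.S24.IotaRoot.embQbar N hℓ hℓN hz hf

end Fermat.Agent.S30.HeckeGood
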