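import Fermat.Agent.S30.HeckeGood
import Fermat.Agent.S30.KummerChar.Root
import Fermat.Agent.S30.BettiHecke.Hom

set_option autoImplicit false
set_option linter.dupNamespace false

/-!
# The Kummer character of `T_ℓ f`

Setting of `KummerChar.Root`: `a b : A0 N` nonzero, `H` a holomorphic `m`-th root of
`θ a * θ b ^ (m - 1)` (so `H / θ b` is an `m`-th root of `f = a / b` on `ℍ`).  For a prime
`ℓ ∤ N` the function `T_ℓ f = Congr.heckeMul ℓ z f` is again in `F_N`; we exhibit a representation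
`T_ℓ f = a' / b'` and a Kummer root `H'` of `(a', b')`, namely
`H' = (∏_x H ∘ t_x) · θ (b₁ b₂)`, and compute its multipliers:
`mult γ H' = ∏_x mult (coc γ x) H` — the Kummer character of `T_ℓ f` is the transfer of the
Kummer character of `f`.
-/

noncomputable section

open scoped MatrixGroups Manifold
open UpperHalfPlane ModularForm ModularCurve CongruenceSubgroup HahnSeries
open Fermat.Agent.S24.HolH Fermat.Agent.S24.Theta Fermat.Agent.S24.Modular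
open Fermat.Agent.S22.HeckePerm

namespace Fermat.Agent.S30.KummerHecke

open Fermat.Agent.S30.KummerChar Fermat.Agent.S30.HeckeGood Fermat.Agent.S30.BettiHecke

/-! ### The multiplicative Hecke operator on holomorphic functions -/

theorem tRep_det_pos (ℓ : ℕ) (x : OnePoint (ZMod ℓ)) : 0 < ((tRep ℓ x).det : ℝ) := by
  induction x using OnePoint.rec with
  | infty => exact det_heckeDiagMatrix_pos ℓ
  | coe j => exact det_heckeMatrix_pos ℓ j.val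

/-- Precomposition with the Hecke representative `t_x`. -/
def compRep (ℓ : ℕ) (x : OnePoint (ZMod ℓ)) : HolH →* HolH where
  toFun H := ⟨fun τ => (H : ℍ → ℂ) (tRep ℓ x • τ),
    (H.2 : MDifferentiable 𝓘(ℂ) 𝓘(ℂ) (H : ℍ → ℂ)).comp (mdifferentiable_smul (tRep_det_pos ℓ x))⟩
  map_one' := rfl
  map_mul' _ _ := rfl

@[simp]
theorem compRep_apply (ℓ : ℕ) (x : OnePoint (ZMod ℓ)) (H : HolH) (τ : ℍ) :
    (compRep ℓ x H : ℍ → ℂ) τ = (H : ℍ → ℂ) (tRep ℓ x • τ) := rfl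

/-- The multiplicative Hecke operator on holomorphic functions:
`H ↦ (τ ↦ ∏_x H (t_x • τ))`. -/
def heckeHol (ℓ : ℕ) [NeZero ℓ] : HolH →* HolH where
  toFun H := ∏ x : OnePoint (ZMod ℓ), compRep ℓ x H
  map_one' := by simp
  map_mul' H₁ H₂ := by simp [Finset.prod_mul_distrib]

theorem heckeHol_apply (ℓ : ℕ) [NeZero ℓ] (H : HolH) (τ : ℍ) :
    (heckeHol ℓ H : ℍ → ℂ) τ = heckeFun ℓ (H : ℍ → ℂ) τ := by
  show ((∏ x : OnePoint (ZMod ℓ), compRep ℓ x H : HolH) : ℍ → ℂ) τ = _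
  rw [SubmonoidClass.coe_finsetProd, Finset.prod_apply]
  rfl

theorem coe_heckeHol (ℓ : ℕ) [NeZero ℓ] (H : HolH) :
    (heckeHol ℓ H : ℍ → ℂ) = heckeFun ℓ (H : ℍ → ℂ) :=
  funext (heckeHol_apply ℓ H)

/-- **Multiplier lemma** on `HolH`: if `H` is an eigenfunction of all of `Γ₀(N)`, then so is
`heckeHol ℓ H`, with multiplier the transfer `∏_x mult (coc γ x) H`. -/
theorem compSL_heckeHol {N ℓ : ℕ} [NeZero ℓ] (hℓ : ℓ.Prime) (hℓN : ¬ ℓ ∣ N) {H : HolH}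
    (heig : ∀ γ ∈ Gamma0 N, IsEig γ H) (γ : Gamma0 N) :
    compSL (γ : SL(2, ℤ)) (heckeHol ℓ H)
      = algebraMap ℂ HolH (∏ x : OnePoint (ZMod ℓ), mult (coc hℓ hℓN γ x : SL(2, ℤ)) H)
        * heckeHol ℓ H := by
  apply Subtype.ext
  funext τ
  have hφ : ∀ (γ' : Gamma0 N) (τ' : ℍ),
      (H : ℍ → ℂ) ((γ' : SL(2, ℤ)) • τ') = mult (γ' : SL(2, ℤ)) H * (H : ℍ → ℂ) τ' := by
    intro γ' τ'
    have h1 := congrArg (fun F : HolH => (F : ℍ → ℂ) τ') (heig γ' γ'.2).compSL_eq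
    exact h1
  have h2 := heckeProd_smul hℓ hℓN (H : ℍ → ℂ) (fun γ' => mult (γ' : SL(2, ℤ)) H) hφ γ τ
  show (heckeHol ℓ H : ℍ → ℂ) ((γ : SL(2, ℤ)) • τ) = _ * (heckeHol ℓ H : ℍ → ℂ) τ
  rw [heckeHol_apply, heckeHol_apply]
  exact h2

/-! ### `q`-expansions -/

section QExp

variable {ι : Kbar →+* ℂ} {N : ℕ} [NeZero N]

omit [NeZero N] in
/-- `heckeHol ℓ (θ a)` has `q`-expansion `heckeMul ℓ z a`. -/
theorem hasQ_heckeHol_theta {ℓ : ℕ} [NeZero ℓ] (hℓ : ℓ.Prime) (hℓN : ¬ ℓ ∣ N) {z : Kbarˣ}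
    (hz : IsPrimitiveRoot z ℓ) (a : A0 N) :
    HasQ ι (Congr.heckeMul ℓ hℓ.pos z ((a : FN N) : LaurentSeries Kbar))
      (heckeHol ℓ (theta ι N a) : ℍ → ℂ) := by
  rw [hasQ_iff_hasQExpK]
  have h1 : Fermat.Agent.S24.QB.HasQExpK ι 1 ((a : FN N) : LaurentSeries Kbar)
      (theta ι N a : ℍ → ℂ) := hasQ_iff_hasQExpK.mp (hasQ_theta ι N a)
  have hinv : ∀ γ ∈ Gamma0 N, ∀ τ : ℍ,
      (theta ι N a : ℍ → ℂ) (γ • τ) = (theta ι N a : ℍ → ℂ) τ :=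
    fun γ hγ τ => theta_smul_of_mem_Gamma0 hγ a τ
  have hper : ∀ τ : ℍ, heckeFun ℓ (theta ι N a : ℍ → ℂ) ((1 : ℝ) +ᵥ τ)
      = heckeFun ℓ (theta ι N a : ℍ → ℂ) τ := fun τ => by
    rw [← UpperHalfPlane.modular_T_smul]
    exact heckeFun_smul_of_mem_Gamma0 hℓ hℓN hinv _ (T_mem_Gamma0 N) τ
  rw [coe_heckeHol]
  exact hasQExpK_heckeMul ι hℓ.pos hz h1 hper

omit [NeZero N] in
/-- If `T_ℓ a * b₁ = a₁` as Laurent series (`a, a₁, b₁ ∈ A0 N`), then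
`θ a₁ = heckeHol ℓ (θ a) * θ b₁`. -/
theorem theta_eq_heckeHol_mul {ℓ : ℕ} [NeZero ℓ] (hℓ : ℓ.Prime) (hℓN : ¬ ℓ ∣ N) {z : Kbarˣ}
    (hz : IsPrimitiveRoot z ℓ) {a a₁ b₁ : A0 N}
    (h : ((a₁ : FN N) : LaurentSeries Kbar)
      = Congr.heckeMul ℓ hℓ.pos z ((a : FN N) : LaurentSeries Kbar)
        * ((b₁ : FN N) : LaurentSeries Kbar)) :
    theta ι N a₁ = heckeHol ℓ (theta ι N a) * theta ι N b₁ := by
  apply theta_eq_of_hasQ
  rw [h]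
  exact (hasQ_heckeHol_theta hℓ hℓN hz a).mul (hasQ_theta ι N b₁)

end QExp

/-! ### The Kummer root of `T_ℓ f` -/

section Main

variable {ι : Kbar →+* ℂ} {N : ℕ} [NeZero N] {m : ℕ}

theorem heckeMul_ne_zero {ℓ : ℕ} (hℓ : 0 < ℓ) {z : Kbarˣ} (hz : IsPrimitiveRoot z ℓ)
    {s : LaurentSeries Kbar} (hs : s ≠ 0) : Congr.heckeMul ℓ hℓ z s ≠ 0 := by
  intro h0
  have h1 : Congr.heckeMul ℓ hℓ z s * Congr.heckeMul ℓ hℓ z s⁻¹ = 1 := by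
    rw [← Congr.heckeMul_mul ℓ hℓ z hz, mul_inv_cancel₀ hs]
    exact map_one (Congr.heckeMulHom ℓ hℓ z hz)
  rw [h0, zero_mul] at h1
  exact zero_ne_one h1

/-- `T_ℓ x` as an element of `F_N`. -/
def heckeFN {ℓ : ℕ} (hℓ : ℓ.Prime) (hℓN : ¬ ℓ ∣ N) {z : Kbarˣ} (hz : IsPrimitiveRoot z ℓ)
    (f : FN N) : FN N :=
  ⟨Congr.heckeMul ℓ hℓ.pos z (f : LaurentSeries Kbar),
    heckeMul_mem_modularFunctionFieldBar N hℓ hℓN hz f.2⟩

@[simp]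
theorem coe_heckeFN {ℓ : ℕ} (hℓ : ℓ.Prime) (hℓN : ¬ ℓ ∣ N) {z : Kbarˣ} (hz : IsPrimitiveRoot z ℓ)
    (f : FN N) :
    ((heckeFN hℓ hℓN hz f : FN N) : LaurentSeries Kbar)
      = Congr.heckeMul ℓ hℓ.pos z (f : LaurentSeries Kbar) := rfl

theorem heckeFN_mul {ℓ : ℕ} (hℓ : ℓ.Prime) (hℓN : ¬ ℓ ∣ N) {z : Kbarˣ} (hz : IsPrimitiveRoot z ℓ)
    (f g : FN N) : heckeFN hℓ hℓN hz (f * g) = heckeFN hℓ hℓN hz f * heckeFN hℓ hℓN hz g :=
  Subtype.ext (Congr.heckeMul_mul ℓ hℓ.pos z hz _ _)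

theorem heckeFN_one {ℓ : ℕ} (hℓ : ℓ.Prime) (hℓN : ¬ ℓ ∣ N) {z : Kbarˣ} (hz : IsPrimitiveRoot z ℓ) :
    heckeFN hℓ hℓN hz (1 : FN N) = 1 :=
  Subtype.ext (map_one (Congr.heckeMulHom ℓ hℓ.pos z hz))

theorem heckeFN_ne_zero {ℓ : ℕ} (hℓ : ℓ.Prime) (hℓN : ¬ ℓ ∣ N) {z : Kbarˣ}
    (hz : IsPrimitiveRoot z ℓ) {f : FN N} (hf : f ≠ 0) : heckeFN hℓ hℓN hz f ≠ 0 := by
  intro h0
  have h1 := congrArg (fun x : FN N => (x : LaurentSeries Kbar)) h0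
  exact heckeMul_ne_zero hℓ.pos hz (fun h => hf (Subtype.ext h)) h1

theorem heckeFN_div {ℓ : ℕ} (hℓ : ℓ.Prime) (hℓN : ¬ ℓ ∣ N) {z : Kbarˣ} (hz : IsPrimitiveRoot z ℓ)
    (f g : FN N) : heckeFN hℓ hℓN hz (f / g) = heckeFN hℓ hℓN hz f / heckeFN hℓ hℓN hz g :=
  Subtype.ext (heckeMul_div hℓ.pos hz _ _)

/-- **Kummer root of `T_ℓ f`**: if `H` is a Kummer root of `(a, b)` then `T_ℓ (a / b) = a' / b'`
has the Kummer root `H' = heckeHol ℓ H * θ b₁ * θ b₂`, whose multipliers on `Γ₀(N)` are the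
transfer of the multipliers of `H`. -/
theorem exists_isKummerRoot_heckeFN (hm : 0 < m) {ℓ : ℕ} [NeZero ℓ] (hℓ : ℓ.Prime)
    (hℓN : ¬ ℓ ∣ N) {z : Kbarˣ} (hz : IsPrimitiveRoot z ℓ) {a b : A0 N} (ha : a ≠ 0) (hb : b ≠ 0)
    {H : HolH} (h : IsKummerRoot ι m a b H) :
    ∃ (a' b' : A0 N) (H' : HolH), a' ≠ 0 ∧ b' ≠ 0 ∧
      heckeFN hℓ hℓN hz ((a : FN N) / (b : FN N)) * (b' : FN N) = (a' : FN N) ∧
      IsKummerRoot ι m a' b' H' ∧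
      ∀ γ : Gamma0 N, mult (γ : SL(2, ℤ)) H'
        = ∏ x : OnePoint (ZMod ℓ), mult (coc hℓ hℓN γ x : SL(2, ℤ)) H := by
  have ha' : (a : FN N) ≠ 0 := fun h0 => ha (Subtype.ext h0)
  have hb' : (b : FN N) ≠ 0 := fun h0 => hb (Subtype.ext h0)
  obtain ⟨a₁, b₁, hb₁, e₁⟩ := exists_mul_eq (heckeFN hℓ hℓN hz (a : FN N))
  obtain ⟨a₂, b₂, hb₂, e₂⟩ := exists_mul_eq (heckeFN hℓ hℓN hz (b : FN N))
  have hTa := heckeFN_ne_zero hℓ hℓN hz ha'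
  have hTb := heckeFN_ne_zero hℓ hℓN hz hb'
  have ha₁ : (a₁ : FN N) ≠ 0 := by rw [← e₁]; exact mul_ne_zero hTa hb₁
  have ha₂ : (a₂ : FN N) ≠ 0 := by rw [← e₂]; exact mul_ne_zero hTb hb₂
  have t₁ : theta ι N a₁ = heckeHol ℓ (theta ι N a) * theta ι N b₁ :=
    theta_eq_heckeHol_mul hℓ hℓN hz (congrArg (fun x : FN N => (x : LaurentSeries Kbar)) e₁).symm
  have t₂ : theta ι N a₂ = heckeHol ℓ (theta ι N b) * theta ι N b₂ :=
    theta_eq_heckeHol_mul hℓ hℓN hz (congrArg (fun x : FN N => (x : LaurentSeries Kbar)) e₂).symm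
  have hne1 : a₁ * b₂ ≠ 0 := by
    intro h0
    have h1 := congrArg (fun x : A0 N => (x : FN N)) h0
    exact mul_ne_zero ha₁ hb₂ h1
  have hne2 : b₁ * a₂ ≠ 0 := by
    intro h0
    have h1 := congrArg (fun x : A0 N => (x : FN N)) h0
    exact mul_ne_zero hb₁ ha₂ h1
  have hroot : IsKummerRoot ι m (a₁ * b₂) (b₁ * a₂)
      (heckeHol ℓ H * theta ι N b₁ * theta ι N b₂) := by
    unfold IsKummerRoot at h ⊢
    have hX : heckeHol ℓ H ^ m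
        = heckeHol ℓ (theta ι N a) * heckeHol ℓ (theta ι N b) ^ (m - 1) := by
      rw [← map_pow, h, map_mul, map_pow]
    obtain ⟨k, rfl⟩ : ∃ k, m = k + 1 := ⟨m - 1, (Nat.sub_add_cancel hm).symm⟩
    rw [Nat.add_sub_cancel] at hX ⊢
    rw [map_mul, map_mul, t₁, t₂]
    linear_combination (theta ι N b₁ * theta ι N b₂) ^ (k + 1) * hX
  refine ⟨a₁ * b₂, b₁ * a₂, heckeHol ℓ H * theta ι N b₁ * theta ι N b₂, hne1, hne2, ?_, hroot, ?_⟩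
  · rw [heckeFN_div]
    have e₁' : (a₁ : FN N) = heckeFN hℓ hℓN hz (a : FN N) * (b₁ : FN N) := e₁.symm
    have e₂' : (a₂ : FN N) = heckeFN hℓ hℓN hz (b : FN N) * (b₂ : FN N) := e₂.symm
    show heckeFN hℓ hℓN hz (a : FN N) / heckeFN hℓ hℓN hz (b : FN N) * ((b₁ : FN N) * (a₂ : FN N))
      = (a₁ : FN N) * (b₂ : FN N)
    rw [e₁', e₂']
    field_simp
  · intro γ
    have hH' : heckeHol ℓ H * theta ι N b₁ * theta ι N b₂ ≠ 0 := hroot.ne_zero hm hne1 hne2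
    apply mult_eq_of_eq hH'
    rw [map_mul, map_mul, compSL_theta_of_mem_Gamma0 γ.2, compSL_theta_of_mem_Gamma0 γ.2,
      compSL_heckeHol hℓ hℓN (fun γ' hγ' => h.isEig hm hγ') γ]
    ring

/-- Character form: the Kummer character of `T_ℓ (a / b)` is the transfer of the Kummer character
of `a / b`. -/
theorem exists_kummerChar_heckeFN (hm : 0 < m) {ℓ : ℕ} [NeZero ℓ] (hℓ : ℓ.Prime)
    (hℓN : ¬ ℓ ∣ N) {z : Kbarˣ} (hz : IsPrimitiveRoot z ℓ) {a b : A0 N} (ha : a ≠ 0) (hb : b ≠ 0)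
    {H : HolH} (h : IsKummerRoot ι m a b H) :
    ∃ (a' b' : A0 N) (H' : HolH) (ha' : a' ≠ 0) (hb' : b' ≠ 0) (h' : IsKummerRoot ι m a' b' H'),
      heckeFN hℓ hℓN hz ((a : FN N) / (b : FN N)) * (b' : FN N) = (a' : FN N) ∧
      ∀ γ : Gamma0 N, kummerChar h' hm ha' hb' γ
        = ∏ x : OnePoint (ZMod ℓ), kummerChar h hm ha hb (coc hℓ hℓN γ x) := by
  obtain ⟨a', b', H', ha', hb', e, h', hmult⟩ := exists_isKummerRoot_heckeFN hm hℓ hℓN hz ha hb h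
  refine ⟨a', b', H', ha', hb', h', e, fun γ => Units.ext ?_⟩
  rw [kummerChar_apply, hmult γ, Units.coe_prod]
  rfl

end Main

end Fermat.Agent.S30.KummerHecke
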