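import Fermat.Agent.S30.HeckeGood
import Fermat.Agent.S30.KummerChar.Elliptic
import Fermat.Agent.S30.PlacePoint.Finite
import Fermat.Agent.S30.PlacePoint.Cusp
import Fermat.Agent.S30.RootQExp
import Fermat.Agent.S30.E4.Defs

set_option autoImplicit false
set_option linter.dupNamespace false

/-!
# The Kummer converse: a root with trivial elliptic and parabolic multipliers gives `m ∣ div`

Setting of `KummerChar.Root` with the embedding `Theta.iotaBar`: `a b : A0 N` nonzero and `H` a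
holomorphic `m`-th root of `θ a * θ b ^ (m - 1)`.  If the multipliers of `H` are trivial on the
elements of `Γ₀(N)` having a fixed point in `ℍ` and on the parabolic elements `g T^n g⁻¹`, then
`m ∣ ord_v a - ord_v b` at every place `v` of `F_N`, i.e. `m ∣ div (a / b)`.

This is the converse of `KummerChar.exists_kummerChar`.  The finite places are handled by
`PlacePoint.exists_point_of_place`, the cusps by `PlacePoint.exists_cusp_of_place` together with
the `q^(1/N)`-expansion of the root (`RootQExp.hasQExpK_root`).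
-/

noncomputable section

open scoped MatrixGroups Manifold
open AlgebraicCurve UpperHalfPlane ModularCurve CongruenceSubgroup HahnSeries
open Fermat.Agent.S24.HolH Fermat.Agent.S24.Theta Fermat.Agent.S24.Modular
open Fermat.Agent.S24.Puiseux Fermat.Agent.S24.QB

namespace Fermat.Agent.S30.KummerConverse

open Fermat.Agent.S30.KummerChar Fermat.Agent.S30.HeckeGood Fermat.Agent.S30.Rational
open Fermat.Agent.S24

/-- the arithmetic step common to points and cusps -/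
theorem dvd_sub_of_mul_eq {m κ : ℕ} (hm : 0 < m) (hκ : 0 < κ) {o va vb : ℤ}
    (hdiv : (κ : ℤ) ∣ o)
    (h : (m : ℤ) * o = κ * va + ((m - 1 : ℕ) : ℤ) * (κ * vb)) : (m : ℤ) ∣ va - vb := by
  obtain ⟨t, rfl⟩ := hdiv
  have hκ' : (κ : ℤ) ≠ 0 := by exact_mod_cast hκ.ne'
  have hm1 : ((m - 1 : ℕ) : ℤ) = (m : ℤ) - 1 := by
    rw [Nat.cast_sub hm, Nat.cast_one]
  rw [hm1] at h
  have h2 : (m : ℤ) * t = va + ((m : ℤ) - 1) * vb := by
    apply mul_left_cancel₀ hκ'
    linear_combination h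
  exact ⟨t - vb, by linear_combination (-1 : ℤ) * h2⟩

variable {N : ℕ} [NeZero N] {m : ℕ}

/-- **Finite places.** -/
theorem dvd_ord_sub_of_finite (hm : 0 < m) {a b : A0 N} (ha : a ≠ 0) (hb : b ≠ 0) {H : HolH}
    (h : IsKummerRoot Theta.iotaBar m a b H)
    (hell : ∀ γ ∈ Gamma0 N, (∃ τ : ℍ, γ • τ = τ) → mult γ H = 1)
    (v : Place Kbar (FN N)) (hv : 0 ≤ v.ord (jF N)) :
    (m : ℤ) ∣ v.ord (a : FN N) - v.ord (b : FN N) := by
  obtain ⟨a0, τ, κ, σ, -, -, hκ, hσ, hστ, hf, hHdiv, -⟩ :=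
    PlacePoint.exists_point_of_place N v hv
  have hH0 : H ≠ 0 := h.ne_zero hm ha hb
  have hinv : compSL σ H = H := by
    have h1 := (h.isEig hm hσ).compSL_eq
    rw [hell σ hσ ⟨τ, hστ⟩, map_one, one_mul] at h1
    exact h1
  have hord : (m : ℤ) * ordZ τ H
      = ordZ τ (theta Theta.iotaBar N a)
        + ((m - 1 : ℕ) : ℤ) * ordZ τ (theta Theta.iotaBar N b) := by
    have h1 := congrArg (ordZ τ) h
    rw [ordZ_pow τ hH0, ordZ_mul τ (theta_ne_zero ha) (pow_ne_zero _ (theta_ne_zero hb)),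
      ordZ_pow τ (theta_ne_zero hb)] at h1
    exact h1
  rw [hf a ha, hf b hb] at hord
  exact dvd_sub_of_mul_eq hm hκ (hHdiv H hH0 hinv) hord

/-- **Cusps.** -/
theorem dvd_ord_sub_of_cusp (hm : 0 < m) {a b : A0 N} (ha : a ≠ 0) (hb : b ≠ 0) {H : HolH}
    (h : IsKummerRoot Theta.iotaBar m a b H)
    (hpar : ∀ γ ∈ Gamma0 N, ∀ (g : SL(2, ℤ)) (n : ℤ),
      γ = g * ModularGroup.T ^ n * g⁻¹ → mult γ H = 1)
    (v : Place Kbar (FN N)) (hv : v.ord (jF N) < 0) :
    (m : ℤ) ∣ v.ord (a : FN N) - v.ord (b : FN N) := by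
  have hN := NeZero.ne N
  set Q : Cusp.QExpSys Kbar N := sysOf Theta.iotaBar N with hQ
  obtain ⟨x, κ, hκ, hκw, -, hord⟩ := PlacePoint.exists_cusp_of_place Q v hv
  set w : ℕ := Function.minimalPeriod (fun i : SL(2, ℤ) ⧸ Gamma0 N => ModularGroup.T • i) x
    with hw
  have hw0 : w ≠ 0 := by
    rintro h0
    rw [h0, mul_zero] at hκw
    exact hN hκw.symm
  set g : SL(2, ℤ) := Quotient.out x with hg
  have hH0 : H ≠ 0 := h.ne_zero hm ha hb
  -- `a`, `b` as good elements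
  have hgood : ∀ c : A0 N, ((c : FN N) : LaurentSeries Kbar) ∈ Q.goodSubalgebra := fun c =>
    Algebra.adjoin_le (gens_subset_good Theta.iotaBar N) c.2
  let a' : Q.F₀ := ⟨(a : FN N), hgood a⟩
  let b' : Q.F₀ := ⟨(b : FN N), hgood b⟩
  have ha' : a' ≠ 0 := fun h0 => ha (Subtype.ext (congrArg (fun y : Q.F₀ => (y : FN N)) h0))
  have hb' : b' ≠ 0 := fun h0 => hb (Subtype.ext (congrArg (fun y : Q.F₀ => (y : FN N)) h0))
  -- the avatars
  have hfun : ∀ c : A0 N, Q.funOf (⟨((c : FN N) : LaurentSeries Kbar), hgood c⟩ : Q.goodSubalgebra)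
      = (theta Theta.iotaBar N c : ℍ → ℂ) := fun c =>
    Q.funOf_eq ((hasQ_iff_hasQExpK.mp (hasQ_theta Theta.iotaBar N c)).qExpand_one N)
  -- cusp expansions of `θ a`, `θ b`
  have hexp : ∀ c : A0 N, HasQExpK Theta.iotaBar N
      (Q.cuspHom g (⟨((c : FN N) : LaurentSeries Kbar), hgood c⟩ : Q.goodSubalgebra))
      (fun τ => (theta Theta.iotaBar N c : ℍ → ℂ) (g⁻¹ • τ)) := fun c => by
    have h1 := Q.has_cuspHom g (⟨((c : FN N) : LaurentSeries Kbar), hgood c⟩ : Q.goodSubalgebra)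
    rw [hfun c] at h1
    exact h1
  have hρa : Q.rho x a' = Q.cuspHom g (⟨((a : FN N) : LaurentSeries Kbar), hgood a⟩ :
      Q.goodSubalgebra) := rfl
  have hρb : Q.rho x b' = Q.cuspHom g (⟨((b : FN N) : LaurentSeries Kbar), hgood b⟩ :
      Q.goodSubalgebra) := rfl
  -- the translate of the root
  set φ : ℍ → ℂ := fun τ => (H : ℍ → ℂ) (g⁻¹ • τ) with hφ
  have hφdiff : MDifferentiable 𝓘(ℂ) 𝓘(ℂ) φ := (compSL g⁻¹ H).2
  have hφpow : HasQExpK Theta.iotaBar N (Q.rho x a' * Q.rho x b' ^ (m - 1))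
      (fun τ => φ τ ^ m) := by
    rw [hρa, hρb]
    refine ((hexp a).mul ((hexp b).pow (m - 1))).congr fun τ => ?_
    have h1 := congrArg (fun F : HolH => (F : ℍ → ℂ) (g⁻¹ • τ)) h
    exact h1.symm
  -- periodicity from parabolic triviality
  have hperk : ∀ k : ℕ, g⁻¹ * ModularGroup.T ^ (k : ℤ) * g ∈ Gamma0 N →
      ∀ τ : ℍ, φ ((k : ℝ) +ᵥ τ) = φ τ := by
    intro k hk τ
    have h1 : ((k : ℝ) +ᵥ τ : ℍ) = ModularGroup.T ^ (k : ℤ) • τ := by
      rw [UpperHalfPlane.modular_T_zpow_smul, Int.cast_natCast]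
    have h2 : g⁻¹ • ModularGroup.T ^ (k : ℤ) • τ
        = (g⁻¹ * ModularGroup.T ^ (k : ℤ) * g) • g⁻¹ • τ := by
      rw [mul_smul, mul_smul, smul_inv_smul]
    have h3 : mult (g⁻¹ * ModularGroup.T ^ (k : ℤ) * g) H = 1 :=
      hpar _ hk g⁻¹ k (by rw [inv_inv])
    have h4 := (h.isEig hm hk).compSL_eq
    rw [h3, map_one, one_mul] at h4
    have h5 := congrArg (fun F : HolH => (F : ℍ → ℂ) (g⁻¹ • τ)) h4
    show (H : ℍ → ℂ) (g⁻¹ • ((k : ℝ) +ᵥ τ)) = (H : ℍ → ℂ) (g⁻¹ • τ)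
    rw [h1, h2]
    exact h5
  have hmemN : g⁻¹ * ModularGroup.T ^ (N : ℤ) * g ∈ Gamma0 N := by
    have h1 := conj_T_pow_mem_Gamma0 N g⁻¹
    rwa [inv_inv] at h1
  have hmemw : g⁻¹ * ModularGroup.T ^ (w : ℤ) * g ∈ Gamma0 N := by
    have h1 : (fun i : SL(2, ℤ) ⧸ Gamma0 N => ModularGroup.T • i)^[w] x = x :=
      Function.isPeriodicPt_minimalPeriod _ x
    rw [smul_iterate] at h1
    have hx : (g : SL(2, ℤ) ⧸ Gamma0 N) = x := Quotient.out_eq x
    rw [← hx] at h1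
    have h2 : ((ModularGroup.T ^ w * g : SL(2, ℤ)) : SL(2, ℤ) ⧸ Gamma0 N)
        = (g : SL(2, ℤ) ⧸ Gamma0 N) := h1
    have h3 := QuotientGroup.eq.mp h2.symm
    rw [zpow_natCast, mul_assoc]
    exact h3
  -- the expansion of the translate of the root
  obtain ⟨A, hA, hAm⟩ := RootQExp.hasQExpK_root Theta.iotaBar hN hm.ne' hφdiff
    (hperk N hmemN) hφpow
  obtain ⟨ζ, hζprim, hζ⟩ := exists_unit_map_eq_exp Theta.iotaBar hN
  have hsc : scale (ζ ^ w) A = A :=
    ((hasQExpK_vadd ζ hζ w hA).congr (hperk w hmemw)).unique hN hA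
  have hdvd : (N : ℤ) ∣ (w : ℤ) * A.order := dvd_mul_order_of_scale_pow_eq hζprim w hsc
  have hκdvd : (κ : ℤ) ∣ A.order := by
    have hw0' : (w : ℤ) ≠ 0 := by exact_mod_cast hw0
    have h1 : ((κ * w : ℕ) : ℤ) ∣ (w : ℤ) * A.order := by rw [hκw]; exact hdvd
    rw [Nat.cast_mul, mul_comm (κ : ℤ) (w : ℤ)] at h1
    exact (mul_dvd_mul_iff_left hw0').mp h1
  -- orders
  have hρa0 : Q.rho x a' ≠ 0 := by
    intro h0
    apply ha'
    have hinj : Function.Injective (Q.rho x) :=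
      (Q.cuspQ_apply_injective x).comp Q.incl_injective
    exact hinj (h0.trans (map_zero _).symm)
  have hρb0 : Q.rho x b' ≠ 0 := by
    intro h0
    apply hb'
    have hinj : Function.Injective (Q.rho x) :=
      (Q.cuspQ_apply_injective x).comp Q.incl_injective
    exact hinj (h0.trans (map_zero _).symm)
  have hordA : (m : ℤ) * A.order
      = κ * v.ord (a : FN N) + ((m - 1 : ℕ) : ℤ) * (κ * v.ord (b : FN N)) := by
    have h1 := congrArg HahnSeries.order hAm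
    rw [HahnSeries.order_pow, HahnSeries.order_mul hρa0 (pow_ne_zero _ hρb0),
      HahnSeries.order_pow, hord a' ha', hord b' hb'] at h1
    simpa using h1
  exact dvd_sub_of_mul_eq hm hκ hκdvd hordA

/-- **Kummer converse**: a Kummer root of `(a, b)` whose multipliers are trivial on the elements
of `Γ₀(N)` with a fixed point in `ℍ` and on the parabolic elements `g T^n g⁻¹` forces
`m ∣ div (a / b)`. -/
theorem dvd_ord_sub_of_isKummerRoot (hm : 0 < m) {a b : A0 N} (ha : a ≠ 0) (hb : b ≠ 0)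
    {H : HolH} (h : IsKummerRoot Theta.iotaBar m a b H)
    (hell : ∀ γ ∈ Gamma0 N, (∃ τ : ℍ, γ • τ = τ) → mult γ H = 1)
    (hpar : ∀ γ ∈ Gamma0 N, ∀ (g : SL(2, ℤ)) (n : ℤ),
      γ = g * ModularGroup.T ^ n * g⁻¹ → mult γ H = 1)
    (v : Place Kbar (FN N)) : (m : ℤ) ∣ v.ord (a : FN N) - v.ord (b : FN N) := by
  rcases lt_or_ge (v.ord (jF N)) 0 with hv | hv
  · exact dvd_ord_sub_of_cusp hm ha hb h hpar v hv
  · exact dvd_ord_sub_of_finite hm ha hb h hell v hv

/-- `E4.DivBy` form of the Kummer converse, for `f = a / b`. -/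
theorem divBy_of_isKummerRoot (hm : 0 < m) {a b : A0 N} (ha : a ≠ 0) (hb : b ≠ 0)
    {H : HolH} (h : IsKummerRoot Theta.iotaBar m a b H)
    (hell : ∀ γ ∈ Gamma0 N, (∃ τ : ℍ, γ • τ = τ) → mult γ H = 1)
    (hpar : ∀ γ ∈ Gamma0 N, ∀ (g : SL(2, ℤ)) (n : ℤ),
      γ = g * ModularGroup.T ^ n * g⁻¹ → mult γ H = 1)
    (f : FN N) (hab : f * (b : FN N) = (a : FN N)) : E4.DivBy N m f := by
  intro v
  have hb' : (b : FN N) ≠ 0 := fun h0 => hb (Subtype.ext h0)
  have ha' : (a : FN N) ≠ 0 := fun h0 => ha (Subtype.ext h0)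
  have hf : f ≠ 0 := by
    rintro rfl
    rw [zero_mul] at hab
    exact ha' hab.symm
  have h1 := dvd_ord_sub_of_isKummerRoot hm ha hb h hell hpar v
  rw [← hab, v.ord_mul hf hb', add_sub_cancel_right] at h1
  exact h1

end Fermat.Agent.S30.KummerConverse
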