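/-
S30, brick (B3), structural half: DESCENT OF KUMMER CLASSES from an algebraically closed field
`Ω` (e.g. `ℂ`) to an algebraically closed subfield `K` (e.g. `ℚ̄`), by a canonical generator.
(helper34)

Setting.  `S` a set of Laurent series over `K` (generators of a function field `F_K = K(S)`),
`F_Ω = Ω(ι S)` inside `Ω((q))`, `J ∈ S` with a pole at `q = 0`, `F_Ω` finite over `Ω(J)`.
For `x₀ ∈ Ω((q))` with `x₀ ^ m ∈ F_Ω` (a Kummer generator: an `m`-th root of a function whose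
divisor is divisible by `m`), the line `F_Ω · x₀` depends only on the class of `x₀ ^ m` modulo
`m`-th powers.

Main results.
* `order_le_of_isIntegral`: a nonzero `z`, integral over `Ω[J]`, with `z J⁻ᵏ` integral over
  `Ω[J⁻¹]`, has `q`-order at most `(d - 1) k |ord J|`, `d = [Ω(J)(z) : Ω(J)]`.
* `exists_canonical`: the line contains a canonical element (integral over `Ω[J]`, bounded at
  infinity, maximal `q`-order, leading coefficient `1`).
* `exists_generator_finite_orbit`: if the line has finitely many conjugates under the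
  coefficientwise action of `Aut(Ω)`, the canonical element has coefficients with finite orbits.
* `mem_adjoin_of_coeffMap_mem`: linear disjointness, `K((q)) ∩ Ω(ι S) = K(S)`.
* `exists_descent`: the line contains a nonzero series `ι y` with `y ∈ K((q))`, `y ^ m ∈ K(S)`.

No Riemann–Roch, no places, no analysis.
-/
import Mathlib
import Fermat.Prelude.Def_ModularCurve_LaurentCoeff
import Fermat.Agent.Lib.FiniteOrbitAlg

set_option autoImplicit false
set_option linter.style.haveILetI false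

namespace Fermat.Agent.S30.KummerDescent

open HahnSeries Polynomial ModularCurve IntermediateField

noncomputable section

section Canonical

variable {Ω : Type*} [Field Ω]

/-! ### Part 1: valuation lemmas -/

theorem addVal_algebraMap {c : Ω} (hc : c ≠ 0) :
    addVal ℤ Ω (algebraMap Ω (LaurentSeries Ω) c) = 0 := by
  rw [algebraMap_laurentSeries_eq_single, addVal_apply, orderTop_single hc]
  rfl

theorem addVal_algebraMap_nonneg (c : Ω) :
    0 ≤ addVal ℤ Ω (algebraMap Ω (LaurentSeries Ω) c) := by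
  rcases eq_or_ne c 0 with rfl | hc
  · simp
  · rw [addVal_algebraMap hc]

/-- an element integral over a ring of elements of non-negative order has non-negative order -/
theorem nonneg_of_isIntegral {B : Type*} [CommRing B] [Algebra B (LaurentSeries Ω)]
    (hB : ∀ b : B, 0 ≤ addVal ℤ Ω (algebraMap B (LaurentSeries Ω) b)) {w : LaurentSeries Ω}
    (hw : IsIntegral B w) : 0 ≤ addVal ℤ Ω w := by
  obtain ⟨p, hpm, hpw⟩ := hw
  by_contra hlt
  rw [not_le] at hlt
  have hw0 : w ≠ 0 := by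
    rintro rfl
    simp at hlt
  have hvw : addVal ℤ Ω w = ((w.order : ℤ) : WithTop ℤ) := addVal_apply_of_ne hw0
  have hc : w.order < 0 := by
    rw [hvw] at hlt
    exact_mod_cast hlt
  rw [hpm.as_sum, eval₂_add, eval₂_pow, eval₂_X, eval₂_finsetSum, add_eq_zero_iff_eq_neg] at hpw
  have h1 := congr_arg (addVal ℤ Ω) hpw
  rw [AddValuation.map_neg, AddValuation.map_pow] at h1
  have h2 : p.natDegree • addVal ℤ Ω w < addVal ℤ Ω (∑ i ∈ Finset.range p.natDegree,
      eval₂ (algebraMap B (LaurentSeries Ω)) w (C (p.coeff i) * X ^ i)) := by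
    apply AddValuation.map_lt_sum
    · rw [hvw, ← WithTop.coe_nsmul]
      exact WithTop.coe_ne_top
    · intro i hi
      rw [Finset.mem_range] at hi
      rw [eval₂_mul, eval₂_pow, eval₂_C, eval₂_X, AddValuation.map_mul, AddValuation.map_pow, hvw,
        ← WithTop.coe_nsmul, ← WithTop.coe_nsmul]
      have hb := hB (p.coeff i)
      revert hb
      generalize addVal ℤ Ω (algebraMap B (LaurentSeries Ω) (p.coeff i)) = t
      intro hb
      induction t using WithTop.recTopCoe with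
      | top =>
        rw [WithTop.top_add]
        exact WithTop.coe_lt_top _
      | coe a =>
        rw [← WithTop.coe_add, WithTop.coe_lt_coe]
        have ha : (0 : ℤ) ≤ a := by exact_mod_cast hb
        simp only [nsmul_eq_mul]
        have : (i : ℤ) < p.natDegree := by exact_mod_cast hi
        nlinarith
  exact absurd h1 (ne_of_lt h2)

/-- the order of a nonzero polynomial in an element `J` of negative order -/
theorem addVal_aeval {J : LaurentSeries Ω} (hJ : addVal ℤ Ω J < 0) {p : Polynomial Ω} (hp : p ≠ 0) :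
    addVal ℤ Ω (aeval J p) = p.natDegree • addVal ℤ Ω J := by
  have hJ0 : J ≠ 0 := by
    rintro rfl
    simp at hJ
  have hvJ : addVal ℤ Ω J = ((J.order : ℤ) : WithTop ℤ) := addVal_apply_of_ne hJ0
  have hc : J.order < 0 := by
    rw [hvJ] at hJ
    exact_mod_cast hJ
  have hterm : ∀ i, (i : ℕ) • addVal ℤ Ω J
      ≤ addVal ℤ Ω (algebraMap Ω (LaurentSeries Ω) (p.coeff i) * J ^ i) := by
    intro i
    rw [AddValuation.map_mul, AddValuation.map_pow]
    have := addVal_algebraMap_nonneg (p.coeff i)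
    calc i • addVal ℤ Ω J = 0 + i • addVal ℤ Ω J := by rw [zero_add]
      _ ≤ _ := by gcongr
  have hlead : addVal ℤ Ω (algebraMap Ω (LaurentSeries Ω) (p.coeff p.natDegree) * J ^ p.natDegree)
      = p.natDegree • addVal ℤ Ω J := by
    rw [AddValuation.map_mul, AddValuation.map_pow,
      addVal_algebraMap (by simpa using hp), zero_add]
  have hlt : p.natDegree • addVal ℤ Ω J
      < addVal ℤ Ω (∑ i ∈ Finset.range p.natDegree,
          algebraMap Ω (LaurentSeries Ω) (p.coeff i) * J ^ i) := by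
    apply AddValuation.map_lt_sum
    · rw [hvJ, ← WithTop.coe_nsmul]
      exact WithTop.coe_ne_top
    · intro i hi
      rw [Finset.mem_range] at hi
      refine lt_of_lt_of_le ?_ (hterm i)
      rw [hvJ, ← WithTop.coe_nsmul, ← WithTop.coe_nsmul, WithTop.coe_lt_coe]
      simp only [nsmul_eq_mul]
      have : (i : ℤ) < p.natDegree := by exact_mod_cast hi
      nlinarith
  rw [aeval_eq_sum_range]
  simp only [Algebra.smul_def]
  rw [Finset.sum_range_succ, add_comm,
    AddValuation.map_add_eq_of_lt_left _ (by rw [hlead]; exact hlt), hlead]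

theorem transcendental_of_addVal_neg {J : LaurentSeries Ω} (hJ : addVal ℤ Ω J < 0) :
    Transcendental Ω J := by
  intro h
  obtain ⟨p, hp, hpJ⟩ := h
  have h1 := addVal_aeval hJ hp
  rw [hpJ] at h1
  have hJ0 : J ≠ 0 := by
    rintro rfl
    simp at hJ
  rw [addVal_apply_of_ne hJ0, ← WithTop.coe_nsmul, AddValuation.map_zero] at h1
  exact WithTop.coe_ne_top h1.symm

theorem addVal_le_zero_of_mem_adjoin {J : LaurentSeries Ω} (hJ : addVal ℤ Ω J < 0)
    {a : LaurentSeries Ω} (ha : a ∈ Algebra.adjoin Ω {J}) (ha0 : a ≠ 0) : addVal ℤ Ω a ≤ 0 := by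
  rw [Algebra.adjoin_singleton_eq_range_aeval] at ha
  obtain ⟨p, rfl⟩ := ha
  have hp : p ≠ 0 := by
    rintro rfl
    simp at ha0
  have hJ0 : J ≠ 0 := by
    rintro rfl
    simp at hJ
  have hc : J.order < 0 := by
    rw [addVal_apply_of_ne hJ0] at hJ
    exact_mod_cast hJ
  show addVal ℤ Ω (aeval J p) ≤ 0
  rw [addVal_aeval hJ hp, addVal_apply_of_ne hJ0, ← WithTop.coe_nsmul]
  have : (p.natDegree • J.order : ℤ) ≤ 0 := by
    simp only [nsmul_eq_mul]
    have : (0 : ℤ) ≤ p.natDegree := by positivity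
    nlinarith
  exact_mod_cast this

theorem addVal_nonneg_of_mem_adjoin_inv {J : LaurentSeries Ω} (hJ : addVal ℤ Ω J < 0)
    {b : LaurentSeries Ω} (hb : b ∈ Algebra.adjoin Ω {J⁻¹}) : 0 ≤ addVal ℤ Ω b := by
  induction hb using Algebra.adjoin_induction with
  | mem x hx =>
    rw [Set.mem_singleton_iff] at hx
    subst hx
    rw [AddValuation.map_inv]
    have hJ0 : J ≠ 0 := by
      rintro rfl
      simp at hJ
    rw [addVal_apply_of_ne hJ0] at hJ ⊢
    have hc : J.order < 0 := by exact_mod_cast hJ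
    have : (0 : ℤ) ≤ - J.order := by omega
    exact_mod_cast this
  | algebraMap c => exact addVal_algebraMap_nonneg c
  | add x y _ _ hx hy => exact le_trans (le_min hx hy) (AddValuation.map_add _ x y)
  | mul x y _ _ hx hy =>
    rw [AddValuation.map_mul]
    exact add_nonneg hx hy

/-! ### Part 2: the order bound -/

/-- Coefficients of the (scaled) minimal polynomial over a field `𝕜` of an element whose
scaling is integral over a subring `B` of `𝕜` are integral over `B`. -/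
theorem isIntegral_coeff_minpoly_scale {B 𝕜 L : Type*} [CommRing B] [Field 𝕜] [Field L]
    [Algebra B 𝕜] [Algebra 𝕜 L] [Algebra B L] [IsScalarTower B 𝕜 L]
    {z : L} {s : 𝕜} (hs : s ≠ 0) (hw : IsIntegral B (algebraMap 𝕜 L s⁻¹ * z)) (i : ℕ) :
    IsIntegral B ((minpoly 𝕜 z).coeff i * s⁻¹ ^ ((minpoly 𝕜 z).natDegree - i)) := by
  have hz : IsIntegral 𝕜 z := by
    have h1 : IsIntegral 𝕜 (algebraMap 𝕜 L s⁻¹ * z) := hw.tower_top
    have h2 : IsIntegral 𝕜 (algebraMap 𝕜 L s * (algebraMap 𝕜 L s⁻¹ * z)) :=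
      isIntegral_algebraMap.mul h1
    rwa [← mul_assoc, ← map_mul, mul_inv_cancel₀ hs, map_one, one_mul] at h2
  obtain ⟨pw, hpwm, hpw⟩ := hw
  have h1 : aeval z ((pw.map (algebraMap B 𝕜)).scaleRoots s) = 0 := by
    have h := scaleRoots_aeval_eq_zero (p := pw.map (algebraMap B 𝕜))
      (a := algebraMap 𝕜 L s⁻¹ * z) (r := s)
      (by rw [aeval_map_algebraMap, aeval_def]; exact hpw)
    rwa [← mul_assoc, ← map_mul, mul_inv_cancel₀ hs, map_one, one_mul] at h
  have h2 : minpoly 𝕜 z ∣ (pw.map (algebraMap B 𝕜)).scaleRoots s := minpoly.dvd 𝕜 z h1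
  have h3 : (minpoly 𝕜 z).scaleRoots s⁻¹ ∣ pw.map (algebraMap B 𝕜) := by
    have h := scaleRoots_dvd (minpoly 𝕜 z) _ (r := s⁻¹) h2
    rwa [← scaleRoots_mul, mul_inv_cancel₀ hs, scaleRoots_one] at h
  have h4 := isIntegral_coeff_of_dvd pw ((minpoly 𝕜 z).scaleRoots s⁻¹) hpwm
    ((monic_scaleRoots_iff _).mpr (minpoly.monic hz)) h3 i
  rwa [coeff_scaleRoots] at h4

theorem adjoin_inv_le (J : LaurentSeries Ω) :
    Algebra.adjoin Ω {J⁻¹} ≤ (Ω⟮J⟯).toSubalgebra :=
  Algebra.adjoin_le (by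
    rw [Set.singleton_subset_iff]
    exact (Ω⟮J⟯).inv_mem (mem_adjoin_simple_self Ω J))

open scoped IntermediateField.algebraAdjoinAdjoin in
/-- **Order bound.** If `z ≠ 0` is integral over `Ω[J]` and `z J⁻ᵏ` is integral over `Ω[J⁻¹]`
(`J` of negative order), then the order of `z` is at most `(d - 1) k |ord J|`, `d` the degree
of `z` over `Ω(J)`. -/
theorem order_le_of_isIntegral {J z : LaurentSeries Ω} (hJ : addVal ℤ Ω J < 0) (hz : z ≠ 0)
    (k : ℕ) (hzA : IsIntegral (Algebra.adjoin Ω {J}) z)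
    (hzA' : IsIntegral (Algebra.adjoin Ω {J⁻¹}) (z * J⁻¹ ^ k)) :
    z.order ≤ -((((minpoly Ω⟮J⟯ z).natDegree - 1 : ℕ) : ℤ) * k * J.order) := by
  classical
  have hJ0 : J ≠ 0 := by
    rintro rfl
    simp at hJ
  have hvJ : addVal ℤ Ω J = ((J.order : ℤ) : WithTop ℤ) := addVal_apply_of_ne hJ0
  have hc : J.order < 0 := by
    rw [hvJ] at hJ
    exact_mod_cast hJ
  have hvz : addVal ℤ Ω z = ((z.order : ℤ) : WithTop ℤ) := addVal_apply_of_ne hz
  haveI : IsIntegrallyClosed ↥(Algebra.adjoin Ω {J}) :=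
    IsIntegrallyClosed.of_equiv
      (algEquivOfTranscendental Ω J (transcendental_of_addVal_neg hJ)).toRingEquiv
  have hz𝕜 : IsIntegral Ω⟮J⟯ z := hzA.tower_top
  set P := minpoly Ω⟮J⟯ z with hP
  set d := P.natDegree with hd
  have hPm : P.Monic := minpoly.monic hz𝕜
  have hd1 : 1 ≤ d := minpoly.natDegree_pos hz𝕜
  -- (1) the constant coefficient is a nonzero polynomial in `J`
  have h1 : IsIntegral (Algebra.adjoin Ω {J}) (P.coeff 0) := by
    have := isIntegral_coeff_minpoly_scale (B := Algebra.adjoin Ω {J}) (𝕜 := Ω⟮J⟯) (z := z)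
      (s := 1) one_ne_zero (by simpa using hzA) 0
    simpa using this
  obtain ⟨a0, ha0⟩ := IsIntegrallyClosed.isIntegral_iff.mp h1
  have hP0 : P.coeff 0 ≠ 0 := minpoly.coeff_zero_ne_zero hz𝕜 hz
  have hva0 : addVal ℤ Ω ((P.coeff 0 : Ω⟮J⟯) : LaurentSeries Ω) ≤ 0 := by
    rw [← ha0]
    refine addVal_le_zero_of_mem_adjoin hJ a0.2 ?_
    intro h
    apply hP0
    rw [← ha0]
    exact Subtype.ext h
  -- (2) lower bounds for all coefficients
  letI : Algebra ↥(Algebra.adjoin Ω {J⁻¹}) ↥(Ω⟮J⟯) :=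
    (Subalgebra.inclusion (adjoin_inv_le J)).toRingHom.toAlgebra
  haveI : IsScalarTower ↥(Algebra.adjoin Ω {J⁻¹}) ↥(Ω⟮J⟯) (LaurentSeries Ω) :=
    IsScalarTower.of_algebraMap_eq (fun x => rfl)
  let s : Ω⟮J⟯ := (AdjoinSimple.gen Ω J) ^ k
  have hs : s ≠ 0 := by
    apply pow_ne_zero
    intro h
    apply hJ0
    have := congrArg (fun x : Ω⟮J⟯ => (x : LaurentSeries Ω)) h
    simpa using this
  have hsval : ((s⁻¹ : Ω⟮J⟯) : LaurentSeries Ω) = J⁻¹ ^ k := by
    simp [s]
  have h2 : ∀ i, IsIntegral (Algebra.adjoin Ω {J⁻¹}) (P.coeff i * s⁻¹ ^ (d - i)) := by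
    intro i
    refine isIntegral_coeff_minpoly_scale hs ?_ i
    have : algebraMap (↥Ω⟮J⟯) (LaurentSeries Ω) s⁻¹ * z = z * J⁻¹ ^ k := by
      rw [mul_comm]
      congr 1
    rw [this]
    exact hzA'
  have h3 : ∀ i, 0 ≤ addVal ℤ Ω
      (algebraMap (↥Ω⟮J⟯) (LaurentSeries Ω) (P.coeff i) * (J⁻¹ ^ k) ^ (d - i)) := by
    intro i
    have := nonneg_of_isIntegral (B := Algebra.adjoin Ω {J⁻¹})
      (fun b => addVal_nonneg_of_mem_adjoin_inv hJ b.2)
      (IsIntegral.algebraMap (B := LaurentSeries Ω) (h2 i))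
    rw [← hsval]
    simpa using this
  have h4 : ∀ i, ((((d - i : ℕ) : ℤ) * k * J.order : ℤ) : WithTop ℤ)
      ≤ addVal ℤ Ω (algebraMap (↥Ω⟮J⟯) (LaurentSeries Ω) (P.coeff i)) := by
    intro i
    have e : algebraMap (↥Ω⟮J⟯) (LaurentSeries Ω) (P.coeff i)
        = (algebraMap (↥Ω⟮J⟯) (LaurentSeries Ω) (P.coeff i) * (J⁻¹ ^ k) ^ (d - i))
          * (J ^ k) ^ (d - i) := by
      rw [mul_assoc, ← mul_pow, ← mul_pow, inv_mul_cancel₀ hJ0, one_pow, one_pow, mul_one]
    rw [e, AddValuation.map_mul, AddValuation.map_pow, AddValuation.map_pow, hvJ]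
    have h3i := h3 i
    have e2 : ((((d - i : ℕ) : ℤ) * k * J.order : ℤ) : WithTop ℤ)
        = 0 + (d - i) • (k • ((J.order : ℤ) : WithTop ℤ)) := by
      rw [zero_add, ← WithTop.coe_nsmul, ← WithTop.coe_nsmul]
      congr 1
      simp only [nsmul_eq_mul]
      ring
    rw [e2]
    gcongr
  -- lower bound for `z`
  have hz1 : (k : ℤ) * J.order ≤ z.order := by
    have h0 := nonneg_of_isIntegral (B := Algebra.adjoin Ω {J⁻¹})
      (fun b => addVal_nonneg_of_mem_adjoin_inv hJ b.2) hzA'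
    have e : z = (z * J⁻¹ ^ k) * J ^ k := by
      rw [mul_assoc, ← mul_pow, inv_mul_cancel₀ hJ0, one_pow, mul_one]
    have h5 : 0 + k • ((J.order : ℤ) : WithTop ℤ) ≤ addVal ℤ Ω z := by
      conv_rhs => rw [e, AddValuation.map_mul, AddValuation.map_pow, hvJ]
      gcongr
    rw [zero_add, hvz, ← WithTop.coe_nsmul, WithTop.coe_le_coe, nsmul_eq_mul] at h5
    exact h5
  -- the relation
  have hrel : aeval z P.divX * z + algebraMap (↥Ω⟮J⟯) (LaurentSeries Ω) (P.coeff 0) = 0 := by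
    have h := minpoly.aeval Ω⟮J⟯ z
    rw [← hP] at h
    conv_lhs at h => rw [← divX_mul_X_add P]
    simpa using h
  have hWv : ((((d - 1 : ℕ) : ℤ) * k * J.order : ℤ) : WithTop ℤ)
      ≤ addVal ℤ Ω (aeval z P.divX) := by
    have hdeg : P.divX.natDegree < d := by
      rw [natDegree_divX_eq_natDegree_tsub_one]
      omega
    rw [aeval_eq_sum_range' hdeg]
    simp only [Algebra.smul_def]
    apply AddValuation.map_le_sum
    intro i hi
    rw [Finset.mem_range] at hi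
    rw [AddValuation.map_mul, AddValuation.map_pow, coeff_divX, hvz]
    have h4' := h4 (i + 1)
    revert h4'
    generalize addVal ℤ Ω (algebraMap (↥Ω⟮J⟯) (LaurentSeries Ω) (P.coeff (i + 1))) = t
    intro h4'
    induction t using WithTop.recTopCoe with
    | top =>
      rw [WithTop.top_add]
      exact le_top
    | coe a =>
      rw [← WithTop.coe_nsmul, ← WithTop.coe_add, WithTop.coe_le_coe]
      rw [WithTop.coe_le_coe] at h4'
      have e1 : ((d - (i + 1) : ℕ) : ℤ) = (d : ℤ) - (i + 1) := by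
        rw [Nat.cast_sub (by omega)]
        push_cast
        ring
      have e2 : ((d - 1 : ℕ) : ℤ) = (d : ℤ) - 1 := by
        rw [Nat.cast_sub hd1]
        push_cast
        ring
      rw [e1] at h4'
      rw [e2]
      simp only [nsmul_eq_mul]
      have hi0 : (0 : ℤ) ≤ i := by positivity
      nlinarith
  have hW0 : aeval z P.divX ≠ 0 := by
    intro h
    rw [h, zero_mul, zero_add] at hrel
    apply hP0
    exact (FaithfulSMul.algebraMap_injective (↥Ω⟮J⟯) (LaurentSeries Ω)) (by rw [hrel, map_zero])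
  have hfin : addVal ℤ Ω (aeval z P.divX) + addVal ℤ Ω z ≤ 0 := by
    rw [← AddValuation.map_mul, eq_neg_of_add_eq_zero_left hrel, AddValuation.map_neg]
    exact hva0
  rw [addVal_apply_of_ne hW0] at hWv hfin
  rw [hvz, ← WithTop.coe_add] at hfin
  have hfin' : (aeval z P.divX).order + z.order ≤ 0 := by exact_mod_cast hfin
  have hWv' : ((d - 1 : ℕ) : ℤ) * k * J.order ≤ (aeval z P.divX).order := by exact_mod_cast hWv
  linarith

/-! ### Part 3: the canonical element of a line -/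

theorem coeff_algebraMap_mul (c : Ω) (x : LaurentSeries Ω) (i : ℤ) :
    (algebraMap Ω (LaurentSeries Ω) c * x).coeff i = c * x.coeff i := by
  rw [algebraMap_laurentSeries_eq_single, coeff_single_zero_mul]

theorem isIntegral_of_mem {S : Subalgebra Ω (LaurentSeries Ω)} {b : LaurentSeries Ω}
    (hb : b ∈ S) : IsIntegral S b :=
  isIntegral_algebraMap (R := S) (x := (⟨b, hb⟩ : S))

theorem isIntegral_algebraMap_base (S : Subalgebra Ω (LaurentSeries Ω)) (c : Ω) :
    IsIntegral S (algebraMap Ω (LaurentSeries Ω) c) :=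
  isIntegral_of_mem (S.algebraMap_mem c)

/-- transport of integrality along a ring endomorphism mapping `S` into `T` -/
theorem isIntegral_map_of_mapsTo {S T : Subalgebra Ω (LaurentSeries Ω)}
    (φ : LaurentSeries Ω →+* LaurentSeries Ω) (h : ∀ a ∈ S, φ a ∈ T) {x : LaurentSeries Ω}
    (hx : IsIntegral S x) : IsIntegral T (φ x) := by
  let φ' : ↥S →+* ↥T :=
    (φ.comp (algebraMap ↥S (LaurentSeries Ω))).codRestrict T (fun a => h a a.2)
  exact IsIntegral.map_of_comp_eq φ' φ (by ext a; rfl) hx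

theorem exists_forall_isIntegral_mul_inv_pow {J : LaurentSeries Ω} (hJ0 : J ≠ 0)
    {a : LaurentSeries Ω} (ha : a ∈ Algebra.adjoin Ω {J}) :
    ∃ n₀ : ℕ, ∀ n, n₀ ≤ n → IsIntegral (Algebra.adjoin Ω {J⁻¹}) (a * J⁻¹ ^ n) := by
  have hJinv : J⁻¹ ∈ Algebra.adjoin Ω {J⁻¹} := Algebra.self_mem_adjoin_singleton Ω _
  induction ha using Algebra.adjoin_induction with
  | mem x hx =>
    rw [Set.mem_singleton_iff] at hx
    subst hx
    refine ⟨1, fun n hn => ?_⟩
    obtain ⟨k, rfl⟩ : ∃ k, n = k + 1 := ⟨n - 1, by omega⟩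
    have : x * x⁻¹ ^ (k + 1) = x⁻¹ ^ k := by
      rw [pow_succ, mul_comm (x⁻¹ ^ k), ← mul_assoc, mul_inv_cancel₀ hJ0, one_mul]
    rw [this]
    exact isIntegral_of_mem (pow_mem hJinv k)
  | algebraMap c =>
    exact ⟨0, fun n _ =>
      isIntegral_of_mem (mul_mem (Subalgebra.algebraMap_mem _ c) (pow_mem hJinv n))⟩
  | add x y _ _ hx hy =>
    obtain ⟨n1, h1⟩ := hx
    obtain ⟨n2, h2⟩ := hy
    refine ⟨max n1 n2, fun n hn => ?_⟩
    rw [add_mul]
    exact (h1 n (le_trans (le_max_left _ _) hn)).add (h2 n (le_trans (le_max_right _ _) hn))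
  | mul x y _ _ hx hy =>
    obtain ⟨n1, h1⟩ := hx
    obtain ⟨n2, h2⟩ := hy
    refine ⟨n1 + n2, fun n hn => ?_⟩
    have : x * y * J⁻¹ ^ n = (x * J⁻¹ ^ n1) * (y * J⁻¹ ^ (n - n1)) := by
      rw [mul_mul_mul_comm, ← _root_.pow_add]
      congr 2
      omega
    rw [this]
    exact (h1 n1 le_rfl).mul (h2 (n - n1) (by omega))

/-- an element integral over `Ω[J]` becomes integral over `Ω[J⁻¹]` after division by a power
of `J` -/
theorem exists_isIntegral_mul_inv_pow {J : LaurentSeries Ω} (hJ0 : J ≠ 0) {x : LaurentSeries Ω}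
    (hx : IsIntegral (Algebra.adjoin Ω {J}) x) :
    ∃ n : ℕ, IsIntegral (Algebra.adjoin Ω {J⁻¹}) (x * J⁻¹ ^ n) := by
  classical
  obtain ⟨p, hpm, hpx⟩ := hx
  have hJinv : J⁻¹ ∈ Algebra.adjoin Ω {J⁻¹} := Algebra.self_mem_adjoin_singleton Ω _
  have hd : p.natDegree ≠ 0 := by
    intro h0
    have h1 : p = 1 := by
      rw [← hpm.natDegree_eq_zero]
      exact h0
    rw [h1] at hpx
    simp at hpx
  choose n₀ hn₀ using fun i : ℕ => exists_forall_isIntegral_mul_inv_pow hJ0 (p.coeff i).2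
  let N := (Finset.range p.natDegree).sup n₀
  refine ⟨N, ?_⟩
  set q : Polynomial (LaurentSeries Ω) :=
    (p.map (algebraMap _ (LaurentSeries Ω))).scaleRoots (J⁻¹ ^ N) with hq
  have hqm : q.Monic := (monic_scaleRoots_iff _).mpr (hpm.map _)
  have hqd : q.natDegree = p.natDegree := by
    rw [hq, natDegree_scaleRoots, hpm.natDegree_map]
  have hqx : eval (x * J⁻¹ ^ N) q = 0 := by
    have h := scaleRoots_aeval_eq_zero (p := p.map (algebraMap _ (LaurentSeries Ω)))
      (a := x) (r := J⁻¹ ^ N) (by rw [aeval_map_algebraMap, aeval_def]; exact hpx)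
    rw [Algebra.algebraMap_self, RingHom.id_apply, mul_comm, coe_aeval_eq_eval] at h
    exact h
  refine IsIntegral.of_aeval_monic_of_isIntegral_coeff hqm (by rw [hqd]; exact hd)
    (by rw [hqx]; exact isIntegral_zero) ?_
  intro i
  rw [hq, coeff_scaleRoots, coeff_map, hpm.natDegree_map]
  rcases lt_trichotomy i p.natDegree with hi | hi | hi
  · have h1 := hn₀ i N (Finset.le_sup (Finset.mem_range.mpr hi))
    have h2 : algebraMap _ (LaurentSeries Ω) (p.coeff i) * (J⁻¹ ^ N) ^ (p.natDegree - i)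
        = ((p.coeff i : LaurentSeries Ω) * J⁻¹ ^ N) * (J⁻¹ ^ N) ^ (p.natDegree - i - 1) := by
      rw [mul_assoc, ← pow_succ']
      congr 2
      omega
    rw [h2]
    exact h1.mul (isIntegral_of_mem (pow_mem (pow_mem hJinv N) _))
  · subst hi
    rw [hpm.coeff_natDegree, map_one, one_mul]
    exact isIntegral_of_mem (pow_mem (pow_mem hJinv N) _)
  · rw [coeff_eq_zero_of_natDegree_lt hi, map_zero, zero_mul]
    exact isIntegral_zero

/-- the line `F · x₀` -/
def line (F : IntermediateField Ω (LaurentSeries Ω)) (x₀ : LaurentSeries Ω) :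
    Set (LaurentSeries Ω) := {x | ∃ u ∈ F, x = u * x₀}

/-- elements of the line which are integral over `Ω[J]` with `x J⁻ⁿ` integral over `Ω[J⁻¹]` -/
def Vset (J : LaurentSeries Ω) (F : IntermediateField Ω (LaurentSeries Ω))
    (x₀ : LaurentSeries Ω) (n : ℕ) : Set (LaurentSeries Ω) :=
  {x | x ∈ line F x₀ ∧ IsIntegral (Algebra.adjoin Ω {J}) x ∧
    IsIntegral (Algebra.adjoin Ω {J⁻¹}) (x * J⁻¹ ^ n)}

variable {J : LaurentSeries Ω} {F : IntermediateField Ω (LaurentSeries Ω)}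
  {x₀ : LaurentSeries Ω} {n : ℕ}

theorem Vset_sub {x y : LaurentSeries Ω} (hx : x ∈ Vset J F x₀ n) (hy : y ∈ Vset J F x₀ n) :
    x - y ∈ Vset J F x₀ n := by
  obtain ⟨⟨u, hu, rfl⟩, hx1, hx2⟩ := hx
  obtain ⟨⟨u', hu', rfl⟩, hy1, hy2⟩ := hy
  refine ⟨⟨u - u', F.sub_mem hu hu', by ring⟩, hx1.sub hy1, ?_⟩
  rw [sub_mul]
  exact hx2.sub hy2

theorem Vset_smul (c : Ω) {x : LaurentSeries Ω} (hx : x ∈ Vset J F x₀ n) :
    algebraMap Ω (LaurentSeries Ω) c * x ∈ Vset J F x₀ n := by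
  obtain ⟨⟨u, hu, rfl⟩, hx1, hx2⟩ := hx
  refine ⟨⟨algebraMap Ω _ c * u, F.mul_mem (F.algebraMap_mem c) hu, by ring⟩,
    (isIntegral_algebraMap_base _ c).mul hx1, ?_⟩
  rw [mul_assoc]
  exact (isIntegral_algebraMap_base _ c).mul hx2

open scoped IntermediateField.algebraAdjoinAdjoin in
theorem exists_mem_Vset_ne_zero (hJ : addVal ℤ Ω J < 0) (hJF : J ∈ F)
    (hF : ∀ z ∈ F, IsIntegral Ω⟮J⟯ z) {m : ℕ} (hm : 0 < m) (hx₀ : x₀ ≠ 0) (hx₀m : x₀ ^ m ∈ F) :
    ∃ n, ∃ x ∈ Vset J F x₀ n, x ≠ 0 := by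
  have hJ0 : J ≠ 0 := by
    rintro rfl
    simp at hJ
  have h1 : IsIntegral Ω⟮J⟯ x₀ := IsIntegral.of_pow hm (hF _ hx₀m)
  have h2 : IsAlgebraic (Algebra.adjoin Ω {J}) x₀ :=
    (IsFractionRing.isAlgebraic_iff (Algebra.adjoin Ω {J}) Ω⟮J⟯ (LaurentSeries Ω)).mpr
      h1.isAlgebraic
  obtain ⟨y, hy0, hy⟩ := h2.exists_integral_multiple
  obtain ⟨n, hn⟩ := exists_isIntegral_mul_inv_pow hJ0 hy
  have hle : Algebra.adjoin Ω {J} ≤ F.toSubalgebra :=
    Algebra.adjoin_le (by rw [Set.singleton_subset_iff]; exact hJF)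
  refine ⟨n, y • x₀, ⟨⟨(y : LaurentSeries Ω), hle y.2, rfl⟩, hy, hn⟩, ?_⟩
  intro h
  have h3 : (y : LaurentSeries Ω) * x₀ = 0 := h
  rcases mul_eq_zero.mp h3 with h4 | h4
  · exact hy0 (Subtype.ext h4)
  · exact hx₀ h4

theorem order_le_of_mem_Vset (hJ : addVal ℤ Ω J < 0) {D : ℕ}
    (hD : ∀ z ∈ F, (minpoly Ω⟮J⟯ z).natDegree ≤ D) {m : ℕ} (hm : 0 < m) (hx₀m : x₀ ^ m ∈ F)
    {x : LaurentSeries Ω} (hx : x ∈ Vset J F x₀ n) (hx0 : x ≠ 0) :
    x.order ≤ -(((D - 1 : ℕ) : ℤ) * n * J.order) := by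
  have hJ0 : J ≠ 0 := by
    rintro rfl
    simp at hJ
  have hc : J.order < 0 := by
    rw [addVal_apply_of_ne hJ0] at hJ
    exact_mod_cast hJ
  obtain ⟨⟨u, hu, hxu⟩, hx1, hx2⟩ := hx
  have hz : x ^ m ∈ F := by
    rw [hxu, mul_pow]
    exact F.mul_mem (F.pow_mem hu m) hx₀m
  have hz0 : x ^ m ≠ 0 := pow_ne_zero m hx0
  have h1 := order_le_of_isIntegral hJ hz0 (n * m) (hx1.pow m) (by
    have : x ^ m * J⁻¹ ^ (n * m) = (x * J⁻¹ ^ n) ^ m := by rw [mul_pow, ← pow_mul]
    rw [this]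
    exact hx2.pow m)
  rw [order_pow] at h1
  have h2 := hD _ hz
  simp only [nsmul_eq_mul] at h1
  have hd : (((minpoly Ω⟮J⟯ (x ^ m)).natDegree - 1 : ℕ) : ℤ) ≤ ((D - 1 : ℕ) : ℤ) := by
    exact_mod_cast Nat.sub_le_sub_right h2 1
  have hm' : (0 : ℤ) < m := by exact_mod_cast hm
  have hn0 : (0 : ℤ) ≤ (n : ℤ) * m := by positivity
  have h3 : (m : ℤ) * x.order ≤ m * (-(((D - 1 : ℕ) : ℤ) * n * J.order)) := by
    push_cast at h1
    have h4 := mul_nonneg (mul_nonneg (sub_nonneg.mpr hd) hn0) (by omega : (0 : ℤ) ≤ -J.order)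
    nlinarith
  exact le_of_mul_le_mul_left h3 hm'

/-- **The canonical element.** -/
theorem exists_canonical (hJ : addVal ℤ Ω J < 0) (hJF : J ∈ F)
    (hF : ∀ z ∈ F, IsIntegral Ω⟮J⟯ z) {D : ℕ}
    (hD : ∀ z ∈ F, (minpoly Ω⟮J⟯ z).natDegree ≤ D) {m : ℕ} (hm : 0 < m) (hx₀ : x₀ ≠ 0)
    (hx₀m : x₀ ^ m ∈ F) :
    ∃ (n : ℕ) (k₀ : ℤ) (xc : LaurentSeries Ω), xc ∈ Vset J F x₀ n ∧ xc ≠ 0 ∧
      (∀ i < k₀, xc.coeff i = 0) ∧ xc.coeff k₀ = 1 ∧
      ∀ y ∈ Vset J F x₀ n, (∀ i < k₀, y.coeff i = 0) → y.coeff k₀ = 1 → y = xc := by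
  obtain ⟨n, x, hx, hx0⟩ := exists_mem_Vset_ne_zero hJ hJF hF hm hx₀ hx₀m
  obtain ⟨k₀, ⟨x1, hx1, hx10, hx1k⟩, hmax⟩ := Int.exists_greatest_of_bdd
    (P := fun k => ∃ x ∈ Vset J F x₀ n, x ≠ 0 ∧ x.order = k)
    ⟨_, fun k ⟨x, hx, hx0, hk⟩ => hk ▸ order_le_of_mem_Vset hJ hD hm hx₀m hx hx0⟩
    ⟨_, x, hx, hx0, rfl⟩
  have hlc : x1.coeff k₀ ≠ 0 := by
    rw [← hx1k]
    exact fun h => hx10 (coeff_order_eq_zero.mp h)
  let xc := algebraMap Ω (LaurentSeries Ω) (x1.coeff k₀)⁻¹ * x1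
  have hxc : xc ∈ Vset J F x₀ n := Vset_smul _ hx1
  have hxck : xc.coeff k₀ = 1 := by
    rw [coeff_algebraMap_mul, inv_mul_cancel₀ hlc]
  have hxclt : ∀ i < k₀, xc.coeff i = 0 := fun i hi => by
    have h0 : x1.coeff i = 0 := coeff_eq_zero_of_lt_order (by rw [hx1k]; exact hi)
    rw [coeff_algebraMap_mul, h0, mul_zero]
  refine ⟨n, k₀, xc, hxc, ?_, hxclt, hxck, ?_⟩
  · intro h
    rw [h] at hxck
    simp at hxck
  · intro y hy hylt hyk
    by_contra hne
    have hw : y - xc ∈ Vset J F x₀ n := Vset_sub hy hxc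
    have hw0 : y - xc ≠ 0 := sub_ne_zero.mpr hne
    have hle := hmax _ ⟨y - xc, hw, hw0, rfl⟩
    have hcoef : (y - xc).coeff (y - xc).order = 0 := by
      rw [HahnSeries.coeff_sub]
      rcases lt_or_eq_of_le hle with h | h
      · rw [hylt _ h, hxclt _ h, sub_zero]
      · rw [h, hyk, hxck, sub_self]
    exact hw0 (coeff_order_eq_zero.mp hcoef)

theorem coeffMap_mem_adjoin {J : LaurentSeries Ω} (σ : Ω →+* Ω) (hσJ : coeffMap σ J = J)
    {a : LaurentSeries Ω} (ha : a ∈ Algebra.adjoin Ω {J}) :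
    coeffMap σ a ∈ Algebra.adjoin Ω {J} := by
  induction ha using Algebra.adjoin_induction with
  | mem x hx =>
    rw [Set.mem_singleton_iff] at hx
    subst hx
    rw [hσJ]
    exact Algebra.self_mem_adjoin_singleton Ω _
  | algebraMap c =>
    rw [coeffMap_algebraMap]
    exact Subalgebra.algebraMap_mem _ _
  | add x y _ _ hx hy =>
    rw [map_add]
    exact add_mem hx hy
  | mul x y _ _ hx hy =>
    rw [map_mul]
    exact mul_mem hx hy

theorem coeffMap_mem_Vset (σ : Ω →+* Ω) (hσJ : coeffMap σ J = J)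
    (hσF : ∀ x ∈ F, coeffMap σ x ∈ F) (hσx₀ : coeffMap σ x₀ ∈ line F x₀)
    {x : LaurentSeries Ω} (hx : x ∈ Vset J F x₀ n) : coeffMap σ x ∈ Vset J F x₀ n := by
  obtain ⟨⟨u, hu, rfl⟩, hx1, hx2⟩ := hx
  obtain ⟨u', hu', hu'x⟩ := hσx₀
  have hσJinv : coeffMap σ J⁻¹ = J⁻¹ := by rw [map_inv₀, hσJ]
  refine ⟨⟨coeffMap σ u * u', F.mul_mem (hσF u hu) hu', by rw [map_mul, hu'x, mul_assoc]⟩,
    isIntegral_map_of_mapsTo (coeffMap σ) (fun a ha => coeffMap_mem_adjoin σ hσJ ha) hx1, ?_⟩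
  have := isIntegral_map_of_mapsTo (coeffMap σ)
    (fun a ha => coeffMap_mem_adjoin σ hσJinv ha) hx2
  rwa [map_mul, map_pow, hσJinv] at this

end Canonical

section Orbit

variable {Ω : Type*} [Field Ω]

variable {J : LaurentSeries Ω} {F : IntermediateField Ω (LaurentSeries Ω)}
  {x₀ : LaurentSeries Ω}

/-- **Canonical generator with finite orbit.** If the line `F · x₀` has finitely many
conjugates under coefficientwise automorphisms, it contains a nonzero element all of whose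
coefficients have finitely many conjugates. -/
theorem exists_generator_finite_orbit (hJ : addVal ℤ Ω J < 0) (hJF : J ∈ F)
    (hF : ∀ z ∈ F, IsIntegral Ω⟮J⟯ z) {D : ℕ}
    (hD : ∀ z ∈ F, (minpoly Ω⟮J⟯ z).natDegree ≤ D) {m : ℕ} (hm : 0 < m) (hx₀ : x₀ ≠ 0)
    (hx₀m : x₀ ^ m ∈ F)
    (hσJ : ∀ σ : Ω ≃+* Ω, coeffMap (σ : Ω →+* Ω) J = J)
    (hσF : ∀ σ : Ω ≃+* Ω, ∀ x ∈ F, coeffMap (σ : Ω →+* Ω) x ∈ F)
    (horb : ∃ T : Finset (LaurentSeries Ω), ∀ σ : Ω ≃+* Ω, ∃ t ∈ T, ∃ u ∈ F, u ≠ 0 ∧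
      coeffMap (σ : Ω →+* Ω) x₀ = u * t) :
    ∃ xc : LaurentSeries Ω, xc ≠ 0 ∧ xc ∈ line F x₀ ∧
      (Set.range fun σ : Ω ≃+* Ω => fun i : ℤ => σ (xc.coeff i)).Finite := by
  classical
  obtain ⟨n, k₀, xc, hxc, hxc0, hlt, hk, huniq⟩ := exists_canonical hJ hJF hF hD hm hx₀ hx₀m
  -- automorphisms preserving the line fix `xc`
  have hfix : ∀ ρ : Ω ≃+* Ω, coeffMap (ρ : Ω →+* Ω) x₀ ∈ line F x₀ →
      coeffMap (ρ : Ω →+* Ω) xc = xc := by
    intro ρ hρ
    apply huniq _ (coeffMap_mem_Vset _ (hσJ ρ) (hσF ρ) hρ hxc)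
    · intro i hi
      rw [coeffMap_coeff, hlt i hi, map_zero]
    · rw [coeffMap_coeff, hk, map_one]
  obtain ⟨T, hT⟩ := horb
  choose τ hτT u hu hu0 hτ using hT
  have hkey : ∀ σ σ' : Ω ≃+* Ω, τ σ = τ σ' →
      coeffMap (σ : Ω →+* Ω) xc = coeffMap (σ' : Ω →+* Ω) xc := by
    intro σ σ' hσσ'
    have hcomp : ∀ x : LaurentSeries Ω, coeffMap (σ : Ω →+* Ω)
        (coeffMap ((σ'.trans σ.symm : Ω ≃+* Ω) : Ω →+* Ω) x) = coeffMap (σ' : Ω →+* Ω) x := by
      intro x
      rw [coeffMap_coeffMap]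
      apply coeffMap_congr
      ext a
      simp
    have hcomp' : ∀ x : LaurentSeries Ω,
        coeffMap ((σ'.trans σ.symm : Ω ≃+* Ω) : Ω →+* Ω) x
          = coeffMap (σ.symm : Ω →+* Ω) (coeffMap (σ' : Ω →+* Ω) x) := by
      intro x
      rw [coeffMap_coeffMap]
      apply coeffMap_congr
      ext a
      simp
    have hsymm : ∀ x : LaurentSeries Ω,
        coeffMap (σ.symm : Ω →+* Ω) (coeffMap (σ : Ω →+* Ω) x) = x := by
      intro x
      rw [coeffMap_coeffMap]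
      ext i
      simp
    have hline : coeffMap ((σ'.trans σ.symm : Ω ≃+* Ω) : Ω →+* Ω) x₀ ∈ line F x₀ := by
      refine ⟨coeffMap (σ.symm : Ω →+* Ω) (u σ' * (u σ)⁻¹),
        hσF σ.symm _ (F.mul_mem (hu σ') (F.inv_mem (hu σ))), ?_⟩
      have h1 : τ σ' = (u σ)⁻¹ * coeffMap (σ : Ω →+* Ω) x₀ := by
        rw [← hσσ', hτ σ, ← mul_assoc, inv_mul_cancel₀ (hu0 σ), one_mul]
      rw [hcomp', hτ σ', h1, ← mul_assoc, map_mul, hsymm]
    rw [← hcomp xc, hfix _ hline]
  refine ⟨xc, hxc0, hxc.1, ?_⟩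
  let g : LaurentSeries Ω → (ℤ → Ω) := fun t =>
    if h : ∃ σ : Ω ≃+* Ω, τ σ = t then
      fun i => (coeffMap ((Classical.choose h : Ω ≃+* Ω) : Ω →+* Ω) xc).coeff i
    else 0
  refine ((T : Set (LaurentSeries Ω)).toFinite.image g).subset ?_
  rintro _ ⟨σ, rfl⟩
  refine ⟨τ σ, hτT σ, ?_⟩
  have hex : ∃ σ' : Ω ≃+* Ω, τ σ' = τ σ := ⟨σ, rfl⟩
  simp only [g, dif_pos hex]
  funext i
  rw [hkey _ σ (Classical.choose_spec hex)]
  rfl

end Orbit

/-! ### Part 4: linear disjointness -/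

section LD

variable {K Ω : Type*} [Field K] [Field Ω] [Algebra K Ω]

/-- coefficientwise application of a `K`-linear functional -/
def dualCoeff (φ : Module.Dual K Ω) (x : LaurentSeries Ω) : LaurentSeries K :=
  x.map (φ : Ω →+ K)

@[simp] theorem dualCoeff_coeff (φ : Module.Dual K Ω) (x : LaurentSeries Ω) (i : ℤ) :
    (dualCoeff φ x).coeff i = φ (x.coeff i) := rfl

theorem dualCoeff_add (φ : Module.Dual K Ω) (x y : LaurentSeries Ω) :
    dualCoeff φ (x + y) = dualCoeff φ x + dualCoeff φ y := by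
  ext i
  simp

theorem dualCoeff_zero (φ : Module.Dual K Ω) : dualCoeff φ (0 : LaurentSeries Ω) = 0 := by
  ext i
  simp

theorem dualCoeff_coeffMap (φ : Module.Dual K Ω) (v : LaurentSeries K) :
    dualCoeff φ (coeffMap (algebraMap K Ω) v) = algebraMap K (LaurentSeries K) (φ 1) * v := by
  ext i
  rw [dualCoeff_coeff, coeffMap_coeff, coeff_algebraMap_mul, Algebra.algebraMap_eq_smul_one,
    map_smul, smul_eq_mul, mul_comm]

theorem dualCoeff_smul (φ : Module.Dual K Ω) (c : Ω) (x : LaurentSeries Ω) :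
    dualCoeff φ (algebraMap Ω (LaurentSeries Ω) c * x)
      = dualCoeff (φ.comp (LinearMap.mulLeft K c)) x := by
  ext i
  rw [dualCoeff_coeff, dualCoeff_coeff, coeff_algebraMap_mul]
  rfl

variable (S : Set (LaurentSeries K))

/-- the key property, proved by induction on the `Ω`-span -/
theorem exists_dual_of_mem_adjoin {b : LaurentSeries Ω}
    (hb : b ∈ Algebra.adjoin Ω (coeffMap (algebraMap K Ω) '' S)) (φ : Module.Dual K Ω) :
    ∃ bφ ∈ Algebra.adjoin K S, ∀ w : LaurentSeries K,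
      dualCoeff φ (coeffMap (algebraMap K Ω) w * b) = w * bφ := by
  have hb' : b ∈ Subalgebra.toSubmodule
      (Algebra.adjoin Ω (coeffMap (algebraMap K Ω) '' S)) := hb
  rw [Algebra.adjoin_eq_span] at hb'
  clear hb
  induction hb' using Submodule.span_induction generalizing φ with
  | mem x hx =>
    have hx' : x ∈ (Submonoid.closure S).map
        ((coeffMap (algebraMap K Ω) : LaurentSeries K →+* LaurentSeries Ω) :
          LaurentSeries K →* LaurentSeries Ω) := by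
      rw [MonoidHom.map_mclosure]
      exact hx
    obtain ⟨r, hr, rfl⟩ := hx'
    have hr' : r ∈ Algebra.adjoin K S := by
      have hle : Submonoid.closure S ≤ (Algebra.adjoin K S).toSubmonoid :=
        Submonoid.closure_le.mpr Algebra.subset_adjoin
      exact hle hr
    refine ⟨algebraMap K (LaurentSeries K) (φ 1) * r,
      mul_mem (Subalgebra.algebraMap_mem _ _) hr', fun w => ?_⟩
    show dualCoeff φ (coeffMap (algebraMap K Ω) w * coeffMap (algebraMap K Ω) r) = _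
    rw [← map_mul, dualCoeff_coeffMap]
    ring
  | zero =>
    exact ⟨0, zero_mem _, fun w => by rw [mul_zero, mul_zero, dualCoeff_zero]⟩
  | add x y _ _ hx hy =>
    obtain ⟨bx, hbx, hx'⟩ := hx φ
    obtain ⟨by', hby, hy'⟩ := hy φ
    exact ⟨bx + by', add_mem hbx hby, fun w => by
      rw [mul_add, dualCoeff_add, hx', hy', mul_add]⟩
  | smul c x _ hx =>
    obtain ⟨bx, hbx, hx'⟩ := hx (φ.comp (LinearMap.mulLeft K c))
    refine ⟨bx, hbx, fun w => ?_⟩
    rw [Algebra.smul_def, mul_left_comm, dualCoeff_smul, hx']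

/-- **Linear disjointness.** A Laurent series over `K` whose base change lies in the field
generated over `Ω` by the base change of `S` lies in the field generated over `K` by `S`. -/
theorem mem_adjoin_of_coeffMap_mem {z : LaurentSeries K}
    (hz : coeffMap (algebraMap K Ω) z ∈
      IntermediateField.adjoin Ω (coeffMap (algebraMap K Ω) '' S)) :
    z ∈ IntermediateField.adjoin K S := by
  obtain ⟨a, ha, b, hb, hab⟩ := IntermediateField.mem_adjoin_iff_div.mp hz
  rcases eq_or_ne b 0 with rfl | hb0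
  · rw [div_zero] at hab
    have hz0 : z = 0 := by
      ext i
      have := congrArg (fun x : LaurentSeries Ω => x.coeff i) hab
      simp only [coeffMap_coeff, HahnSeries.coeff_zero] at this
      simpa using this
    rw [hz0]
    exact zero_mem _
  have hab' : coeffMap (algebraMap K Ω) z * b = a := by
    rw [hab, div_mul_cancel₀ _ hb0]
  -- choose a functional not killing `b`
  obtain ⟨k, hk⟩ : ∃ k, b.coeff k ≠ 0 := by
    by_contra h
    exact hb0 (HahnSeries.ext (funext fun i => not_not.mp fun hi => h ⟨i, hi⟩))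
  obtain ⟨φ, hφ⟩ : ∃ φ : Module.Dual K Ω, φ (b.coeff k) ≠ 0 := by
    by_contra h
    exact hk ((Module.forall_dual_apply_eq_zero_iff K (b.coeff k)).mp
      fun φ => not_not.mp fun hφ => h ⟨φ, hφ⟩)
  obtain ⟨bφ, hbφ, hb2⟩ := exists_dual_of_mem_adjoin S hb φ
  obtain ⟨aφ, haφ, ha2⟩ := exists_dual_of_mem_adjoin S ha φ
  have h1 : z * bφ = aφ := by
    rw [← hb2 z, hab', ← one_mul aφ, ← ha2 1, map_one, one_mul]
  have hbφ0 : bφ ≠ 0 := by
    intro h0
    have h2 := hb2 1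
    rw [map_one, one_mul, one_mul, h0] at h2
    have h3 := congrArg (fun x : LaurentSeries K => x.coeff k) h2
    simp only [dualCoeff_coeff, HahnSeries.coeff_zero] at h3
    exact hφ h3
  have hz' : z = aφ / bφ := by
    rw [← h1, mul_div_assoc, div_self hbφ0, mul_one]
  rw [hz']
  exact div_mem (IntermediateField.algebra_adjoin_le_adjoin K S haφ)
    (IntermediateField.algebra_adjoin_le_adjoin K S hbφ)

end LD

section Main

variable {K Ω : Type*} [Field K] [Field Ω]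

theorem coeffMap_mem_adjoin_of_fix (ι : K →+* Ω) (S : Set (LaurentSeries K)) (σ : Ω →+* Ω)
    (hfix : ∀ s ∈ S, coeffMap σ (coeffMap ι s) = coeffMap ι s) {x : LaurentSeries Ω}
    (hx : x ∈ IntermediateField.adjoin Ω (coeffMap ι '' S)) :
    coeffMap σ x ∈ IntermediateField.adjoin Ω (coeffMap ι '' S) := by
  induction hx using IntermediateField.adjoin_induction with
  | mem x hx =>
    obtain ⟨s, hs, rfl⟩ := hx
    rw [hfix s hs]
    exact IntermediateField.subset_adjoin Ω _ ⟨s, hs, rfl⟩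
  | algebraMap c =>
    rw [coeffMap_algebraMap]
    exact IntermediateField.algebraMap_mem _ _
  | add x y _ _ hx hy =>
    rw [map_add]
    exact add_mem hx hy
  | inv x _ hx =>
    rw [map_inv₀]
    exact inv_mem hx
  | mul x y _ _ hx hy =>
    rw [map_mul]
    exact mul_mem hx hy

variable [CharZero K] [CharZero Ω] [IsAlgClosed K] [IsAlgClosed Ω]

/-- **Descent of Kummer classes from `Ω` to `K`** (e.g. from `ℂ` to `ℚ̄`).

`S` is a set of Laurent series over `K` (generators of a function field), `J ∈ S` has a pole,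
all elements of `S` have coefficients fixed by every automorphism of `Ω` (e.g. rational
coefficients), and the field `F_Ω` generated over `Ω` by `S` is finite over `Ω(J)` (every
element is a root of a monic polynomial of degree `≤ D`).  Let `x₀ ≠ 0` be a Laurent series
over `Ω` with `x₀ ^ m ∈ F_Ω`, such that the lines `F_Ω · σ(x₀)` (`σ` ranging over the
automorphisms of `Ω`, acting coefficientwise) take finitely many values.  Then the line
`F_Ω · x₀` contains a nonzero series `y` with coefficients in `K`, and `y ^ m` lies in the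
field generated over `K` by `S`. -/
theorem exists_descent (ι : K →+* Ω) (S : Set (LaurentSeries K)) (J : LaurentSeries K)
    (hJS : J ∈ S) (hJord : ∃ i < 0, J.coeff i ≠ 0)
    (hfix : ∀ (σ : Ω ≃+* Ω), ∀ s ∈ S,
      coeffMap (σ : Ω →+* Ω) (coeffMap ι s) = coeffMap ι s)
    (D : ℕ) (hfin : ∀ z ∈ IntermediateField.adjoin Ω (coeffMap ι '' S),
      ∃ p : Polynomial ↥(Ω⟮coeffMap ι J⟯), p.Monic ∧ p.natDegree ≤ D ∧ Polynomial.aeval z p = 0)
    (m : ℕ) (hm : 0 < m) (x₀ : LaurentSeries Ω) (hx₀ : x₀ ≠ 0)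
    (hx₀m : x₀ ^ m ∈ IntermediateField.adjoin Ω (coeffMap ι '' S))
    (horb : ∃ T : Finset (LaurentSeries Ω), ∀ σ : Ω ≃+* Ω, ∃ t ∈ T,
      ∃ u ∈ IntermediateField.adjoin Ω (coeffMap ι '' S), u ≠ 0 ∧
        coeffMap (σ : Ω →+* Ω) x₀ = u * t) :
    ∃ y : LaurentSeries K, y ≠ 0 ∧ y ^ m ∈ IntermediateField.adjoin K S ∧
      ∃ u ∈ IntermediateField.adjoin Ω (coeffMap ι '' S), u ≠ 0 ∧ coeffMap ι y = u * x₀ := by
  letI : Algebra K Ω := ι.toAlgebra
  set F := IntermediateField.adjoin Ω (coeffMap ι '' S) with hFdef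
  have hJ : addVal ℤ Ω (coeffMap ι J) < 0 := by
    obtain ⟨i, hi, hJi⟩ := hJord
    have h1 : (coeffMap ι J).coeff i ≠ 0 := by
      rw [coeffMap_coeff]
      exact (map_ne_zero ι).mpr hJi
    exact lt_of_le_of_lt (addVal_le_of_coeff_ne_zero h1) (by exact_mod_cast hi)
  have hJF : coeffMap ι J ∈ F := IntermediateField.subset_adjoin Ω _ ⟨J, hJS, rfl⟩
  have hF : ∀ z ∈ F, IsIntegral Ω⟮coeffMap ι J⟯ z := by
    intro z hz
    obtain ⟨p, hpm, -, hpz⟩ := hfin z hz
    exact ⟨p, hpm, by rw [← aeval_def]; exact hpz⟩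
  have hD : ∀ z ∈ F, (minpoly Ω⟮coeffMap ι J⟯ z).natDegree ≤ D := by
    intro z hz
    obtain ⟨p, hpm, hpD, hpz⟩ := hfin z hz
    exact le_trans (natDegree_le_of_dvd (minpoly.dvd _ z hpz) hpm.ne_zero) hpD
  have hσJ : ∀ σ : Ω ≃+* Ω, coeffMap (σ : Ω →+* Ω) (coeffMap ι J) = coeffMap ι J :=
    fun σ => hfix σ J hJS
  have hσF : ∀ σ : Ω ≃+* Ω, ∀ x ∈ F, coeffMap (σ : Ω →+* Ω) x ∈ F :=
    fun σ x hx => coeffMap_mem_adjoin_of_fix ι S _ (hfix σ) hx
  obtain ⟨xc, hxc0, ⟨u, hu, hxcu⟩, hfinite⟩ :=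
    exists_generator_finite_orbit hJ hJF hF hD hm hx₀ hx₀m hσJ hσF horb
  obtain ⟨y, hy⟩ := Fermat.Agent.Lib.FiniteOrbitAlg.exists_laurentSeries_of_finite_orbit ι xc
    hfinite
  have hy' : coeffMap ι y = xc := hy
  refine ⟨y, ?_, ?_, u, hu, ?_, ?_⟩
  · rintro rfl
    rw [map_zero] at hy'
    exact hxc0 hy'.symm
  · apply mem_adjoin_of_coeffMap_mem (Ω := Ω) S
    show coeffMap ι (y ^ m) ∈ F
    rw [map_pow, hy', hxcu, mul_pow]
    exact F.mul_mem (F.pow_mem hu m) hx₀m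
  · rintro rfl
    rw [zero_mul] at hxcu
    exact hxc0 hxcu
  · rw [hy', hxcu]

end Main

end

end Fermat.Agent.S30.KummerDescent
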