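/-
S30, brick (B3): consumer-side corollaries of `S30/KummerDescent.lean` (helper34).

* `hfin_of_finite`: the finiteness hypothesis of `exists_descent` from `Module.Finite Ω⟮J'⟯ F`
  (`J' : F`, the shape produced by the S24 degree library).
* `exists_descent_rat`: `exists_descent` for function fields generated by series with RATIONAL
  coefficients (`S = coeffEmb '' S₀`, e.g. `S₀ = divisorExpansions N`, for which
  `IntermediateField.adjoin L (coeffEmb L '' S₀) = IntermediateField.adjoin L (DegreeGen.gens L N)`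
  by `rfl`, or `S₀ =` a subfield `F₀`, for which it is `laurentBaseChange L F₀`).
* `exists_root_descent`: an `m`-th root in `Ω((q))` of a series with coefficients in `K` has
  coefficients in `K`; `exists_root_mem_adjoin`: hence an element of `K(S)` which is an `m`-th
  power in `Ω(ι S)` is an `m`-th power in `K(S)` (injectivity of Kummer classes under base change).
-/
import Mathlib
import Fermat.Agent.S30.KummerDescent

set_option autoImplicit false
set_option linter.style.haveILetI false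

namespace Fermat.Agent.S30.KummerDescent

open HahnSeries Polynomial ModularCurve IntermediateField

noncomputable section

section Finite

variable {Ω Q : Type*} [Field Ω] [Field Q] [Algebra Ω Q]

/-- elements of `Ω⟮J'⟯ ⊆ F` (`J' : F`) lie in `Ω⟮J⟯ ⊆ Q` -/
theorem coe_mem_adjoin_simple (F : IntermediateField Ω Q) (J : Q) (hJ : J ∈ F)
    (x : F) (hx : x ∈ Ω⟮(⟨J, hJ⟩ : F)⟯) : (x : Q) ∈ Ω⟮J⟯ := by
  induction hx using IntermediateField.adjoin_induction with
  | mem x hx =>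
    rw [Set.mem_singleton_iff] at hx
    subst hx
    exact mem_adjoin_simple_self Ω J
  | algebraMap c => exact IntermediateField.algebraMap_mem _ c
  | add x y _ _ hx hy => exact add_mem hx hy
  | inv x _ hx => exact inv_mem hx
  | mul x y _ _ hx hy => exact mul_mem hx hy

/-- the inclusion `Ω⟮J'⟯ → Ω⟮J⟯` -/
def adjoinSimpleIncl (F : IntermediateField Ω Q) (J : Q) (hJ : J ∈ F) :
    ↥(Ω⟮(⟨J, hJ⟩ : F)⟯) →+* ↥(Ω⟮J⟯) where
  toFun x := ⟨((x : F) : Q), coe_mem_adjoin_simple F J hJ x x.2⟩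
  map_one' := rfl
  map_mul' _ _ := rfl
  map_zero' := rfl
  map_add' _ _ := rfl

/-- The finiteness hypothesis of `exists_descent`, from finiteness of `F` over `Ω⟮J'⟯`. -/
theorem hfin_of_finite (F : IntermediateField Ω Q) (J : Q) (hJ : J ∈ F)
    [Module.Finite ↥(Ω⟮(⟨J, hJ⟩ : F)⟯) ↥F] :
    ∀ z ∈ F, ∃ p : Polynomial ↥(Ω⟮J⟯), p.Monic ∧
      p.natDegree ≤ Module.finrank ↥(Ω⟮(⟨J, hJ⟩ : F)⟯) ↥F ∧ Polynomial.aeval z p = 0 := by
  intro z hz
  have hint : IsIntegral ↥(Ω⟮(⟨J, hJ⟩ : F)⟯) (⟨z, hz⟩ : F) := IsIntegral.of_finite _ _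
  refine ⟨(minpoly ↥(Ω⟮(⟨J, hJ⟩ : F)⟯) (⟨z, hz⟩ : F)).map (adjoinSimpleIncl F J hJ),
    (minpoly.monic hint).map _, ?_, ?_⟩
  · rw [(minpoly.monic hint).natDegree_map]
    exact minpoly.natDegree_le _
  · have h := minpoly.aeval ↥(Ω⟮(⟨J, hJ⟩ : F)⟯) (⟨z, hz⟩ : F)
    have h2 := congrArg (fun x : F => (x : Q)) h
    simp only [ZeroMemClass.coe_zero] at h2
    rw [← h2, aeval_def, eval₂_map, aeval_def]
    have h3 : ∀ (p : Polynomial ↥(Ω⟮(⟨J, hJ⟩ : F)⟯)),
        ((eval₂ (algebraMap ↥(Ω⟮(⟨J, hJ⟩ : F)⟯) ↥F) (⟨z, hz⟩ : F) p : F) : Q)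
          = eval₂ ((algebraMap ↥(Ω⟮J⟯) Q).comp (adjoinSimpleIncl F J hJ)) z p := by
      intro p
      have := Polynomial.hom_eval₂ p (algebraMap ↥(Ω⟮(⟨J, hJ⟩ : F)⟯) ↥F)
        (algebraMap ↥F Q) (⟨z, hz⟩ : F)
      rw [show ((eval₂ (algebraMap ↥(Ω⟮(⟨J, hJ⟩ : F)⟯) ↥F) (⟨z, hz⟩ : F) p : F) : Q)
        = algebraMap ↥F Q (eval₂ (algebraMap ↥(Ω⟮(⟨J, hJ⟩ : F)⟯) ↥F) (⟨z, hz⟩ : F) p) from rfl,
        this]
      rfl
    exact (h3 _).symm

end Finite

section Rat

variable {K Ω : Type*} [Field K] [Field Ω] [Algebra ℚ K] [Algebra ℚ Ω]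

theorem coeffMap_coeffEmb_hom (ι : K →+* Ω) (x : LaurentSeries ℚ) :
    coeffMap ι (coeffEmb K x) = coeffEmb Ω x := by
  ext i
  rw [coeffMap_coeff, coeffEmb_coeff, coeffEmb_coeff]
  exact RingHom.map_rat_algebraMap ι _

theorem coeffMap_image_coeffEmb (ι : K →+* Ω) (S₀ : Set (LaurentSeries ℚ)) :
    coeffMap ι '' (coeffEmb K '' S₀) = coeffEmb Ω '' S₀ := by
  rw [Set.image_image]
  exact Set.image_congr fun x _ => coeffMap_coeffEmb_hom ι x

variable [CharZero K] [CharZero Ω] [IsAlgClosed K] [IsAlgClosed Ω]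

/-- **Descent for function fields generated by rational `q`-series.** -/
theorem exists_descent_rat (ι : K →+* Ω) (S₀ : Set (LaurentSeries ℚ)) (J₀ : LaurentSeries ℚ)
    (hJ₀ : J₀ ∈ S₀) (hJord : ∃ i < 0, J₀.coeff i ≠ 0)
    (D : ℕ) (hfin : ∀ z ∈ IntermediateField.adjoin Ω (coeffEmb Ω '' S₀),
      ∃ p : Polynomial ↥(Ω⟮coeffEmb Ω J₀⟯), p.Monic ∧ p.natDegree ≤ D ∧ Polynomial.aeval z p = 0)
    (m : ℕ) (hm : 0 < m) (x₀ : LaurentSeries Ω) (hx₀ : x₀ ≠ 0)
    (hx₀m : x₀ ^ m ∈ IntermediateField.adjoin Ω (coeffEmb Ω '' S₀))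
    (horb : ∃ T : Finset (LaurentSeries Ω), ∀ σ : Ω ≃+* Ω, ∃ t ∈ T,
      ∃ u ∈ IntermediateField.adjoin Ω (coeffEmb Ω '' S₀), u ≠ 0 ∧
        coeffMap (σ : Ω →+* Ω) x₀ = u * t) :
    ∃ y : LaurentSeries K, y ≠ 0 ∧ y ^ m ∈ IntermediateField.adjoin K (coeffEmb K '' S₀) ∧
      ∃ u ∈ IntermediateField.adjoin Ω (coeffEmb Ω '' S₀), u ≠ 0 ∧ coeffMap ι y = u * x₀ := by
  have himg := coeffMap_image_coeffEmb ι S₀
  have hJ : coeffMap ι (coeffEmb K J₀) = coeffEmb Ω J₀ := coeffMap_coeffEmb_hom ι J₀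
  have key := exists_descent ι (coeffEmb K '' S₀) (coeffEmb K J₀) ⟨J₀, hJ₀, rfl⟩
    (by
      obtain ⟨i, hi, hJi⟩ := hJord
      refine ⟨i, hi, ?_⟩
      rw [coeffEmb_coeff]
      exact (map_ne_zero (algebraMap ℚ K)).mpr hJi)
    (by
      rintro σ _ ⟨s, -, rfl⟩
      rw [coeffMap_coeffEmb_hom ι s]
      exact coeffMap_coeffEmb_hom (σ : Ω →+* Ω) s)
    D (by rw [himg, hJ]; exact hfin) m hm x₀ hx₀ (by rw [himg]; exact hx₀m)
    (by rw [himg]; exact horb)
  rw [himg] at key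
  exact key

end Rat

section Root

variable {K Ω : Type*} [Field K] [Field Ω] [CharZero Ω] [IsAlgClosed K] [IsAlgClosed Ω]

/-- **Root descent.** An `m`-th root in `Ω((q))` of a series with coefficients in `K` has
coefficients in `K` (`K ⊆ Ω` algebraically closed). -/
theorem exists_root_descent (ι : K →+* Ω) {m : ℕ} (hm : 0 < m) (f : LaurentSeries K)
    (g : LaurentSeries Ω) (hg : g ^ m = coeffMap ι f) :
    ∃ g₀ : LaurentSeries K, coeffMap ι g₀ = g ∧ g₀ ^ m = f := by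
  classical
  letI : Algebra K Ω := ι.toAlgebra
  have hinj : Function.Injective (coeffMap ι) := by
    intro a b hab
    ext i
    have := congrArg (fun x : LaurentSeries Ω => x.coeff i) hab
    simp only [coeffMap_coeff] at this
    exact ι.injective this
  -- every `K`-automorphism multiplies `g` by an `m`-th root of unity
  have hσ : ∀ σ : Ω ≃ₐ[K] Ω, coeffMap (σ : Ω →+* Ω) g ∈
      (fun ζ : LaurentSeries Ω => ζ * g) '' (↑(Polynomial.nthRootsFinset m (1 : LaurentSeries Ω))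
        : Set (LaurentSeries Ω)) := by
    intro σ
    rcases eq_or_ne g 0 with rfl | hg0
    · refine ⟨1, ?_, by simp⟩
      rw [Finset.mem_coe, Polynomial.mem_nthRootsFinset hm]
      exact one_pow m
    · have h1 : coeffMap (σ : Ω →+* Ω) g ^ m = g ^ m := by
        rw [← map_pow, hg, coeffMap_coeffMap]
        apply coeffMap_congr
        ext a
        exact σ.commutes a
      refine ⟨coeffMap (σ : Ω →+* Ω) g / g, ?_, div_mul_cancel₀ _ hg0⟩
      rw [Finset.mem_coe, Polynomial.mem_nthRootsFinset hm, div_pow, h1,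
        div_self (pow_ne_zero m hg0)]
  have hfin : (Set.range fun σ : Ω ≃ₐ[K] Ω => fun i : ℤ => σ (g.coeff i)).Finite := by
    refine (((Polynomial.nthRootsFinset m (1 : LaurentSeries Ω)).finite_toSet.image
      (fun ζ : LaurentSeries Ω => ζ * g)).image
        (fun x : LaurentSeries Ω => fun i : ℤ => x.coeff i)).subset ?_
    rintro _ ⟨σ, rfl⟩
    exact ⟨coeffMap (σ : Ω →+* Ω) g, hσ σ, rfl⟩
  have hmem : ∀ i : ℤ, g.coeff i ∈ Set.range ι := by
    intro i
    have halg := Fermat.Agent.Lib.FiniteOrbitAlg.isAlgebraic_of_finite_orbit_family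
      (k := K) (fun i : ℤ => g.coeff i) hfin i
    obtain ⟨y, hy⟩ := Fermat.Agent.Lib.FiniteOrbitAlg.mem_range_of_isAlgebraic
      (Algebra.ofId K Ω) halg
    exact ⟨y, hy⟩
  let s : ZeroHom Ω K :=
    ⟨Function.invFun ι, by
      have := Function.leftInverse_invFun ι.injective (0 : K)
      rwa [map_zero] at this⟩
  have hg₀ : coeffMap ι (g.map s) = g := by
    ext i
    obtain ⟨y, hy⟩ := hmem i
    rw [coeffMap_coeff]
    show ι (Function.invFun ι (g.coeff i)) = g.coeff i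
    rw [← hy, Function.leftInverse_invFun ι.injective y]
  refine ⟨g.map s, hg₀, hinj ?_⟩
  rw [map_pow, hg₀, hg]

/-- **Injectivity of Kummer classes under base change.** An element of `K(S)` which becomes
an `m`-th power in `Ω(ι S)` is an `m`-th power in `K(S)`. -/
theorem exists_root_mem_adjoin (ι : K →+* Ω) (S : Set (LaurentSeries K)) {m : ℕ} (hm : 0 < m)
    {f : LaurentSeries K} {g : LaurentSeries Ω}
    (hgF : g ∈ IntermediateField.adjoin Ω (coeffMap ι '' S)) (hg : g ^ m = coeffMap ι f) :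
    ∃ g₀ ∈ IntermediateField.adjoin K S, g₀ ^ m = f ∧ coeffMap ι g₀ = g := by
  obtain ⟨g₀, hg₀, hg₀m⟩ := exists_root_descent ι hm f g hg
  letI : Algebra K Ω := ι.toAlgebra
  refine ⟨g₀, mem_adjoin_of_coeffMap_mem (Ω := Ω) S ?_, hg₀m, hg₀⟩
  show coeffMap ι g₀ ∈ IntermediateField.adjoin Ω (coeffMap ι '' S)
  rw [hg₀]
  exact hgF

end Root

end

end Fermat.Agent.S30.KummerDescent
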