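/-
S30, brick (B3): the descent `ℂ → ℚ̄` of Kummer classes for the function field of `X₀(N)`
(helper34).  Instance of `S30/KummerDescentFN.exists_descent_rat` with the finiteness of
`F_ℂ = ℂ(j(q^d) : d ∣ N)` over `ℂ(j)` supplied by `S30/CSide/Degree` (helper300).
The only hypothesis left is the finiteness of the orbit (`horb`).
-/
import Mathlib
import Fermat.Agent.S30.KummerDescentFN
import Fermat.Agent.S30.CSide.Degree

set_option autoImplicit false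
set_option linter.style.haveILetI false

namespace Fermat.Agent.S30.KummerDescent

open HahnSeries ModularCurve IntermediateField
open Fermat.Agent.S30.CSide

/-- Finiteness of `F_ℂ` over `ℂ(j)`, in the shape of `exists_descent_rat`. -/
theorem hfin_FC (N : ℕ) [NeZero N] :
    ∀ z ∈ laurentBaseChange ℂ (modularFunctionFieldFull N),
      ∃ p : Polynomial ↥(ℂ⟮coeffEmb ℂ jq⟯), p.Monic ∧ p.natDegree ≤ dedekindPsi N ∧
        Polynomial.aeval z p = 0 := by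
  have hJ : coeffEmb ℂ jq ∈ laurentBaseChange ℂ (modularFunctionFieldFull N) := (jL ℂ N).2
  have hfinI : Module.Finite
      ↥(ℂ⟮(⟨coeffEmb ℂ jq, hJ⟩ : ↥(laurentBaseChange ℂ (modularFunctionFieldFull N)))⟯)
      ↥(laurentBaseChange ℂ (modularFunctionFieldFull N)) := finite_jL (RingHom.id ℂ) N
  have hrank : Module.finrank
      ↥(ℂ⟮(⟨coeffEmb ℂ jq, hJ⟩ : ↥(laurentBaseChange ℂ (modularFunctionFieldFull N)))⟯)
      ↥(laurentBaseChange ℂ (modularFunctionFieldFull N)) = dedekindPsi N :=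
    finrank_jL (RingHom.id ℂ) N
  haveI := hfinI
  have h := hfin_of_finite (laurentBaseChange ℂ (modularFunctionFieldFull N)) (coeffEmb ℂ jq) hJ
  intro z hz
  obtain ⟨p, hpm, hpd, hpz⟩ := h z hz
  exact ⟨p, hpm, hrank ▸ hpd, hpz⟩

/-- **Descent `ℂ → ℚ̄` of Kummer generators for `X₀(N)`**, `laurentBaseChange` form.
If `x₀ ∈ ℂ((q))` has `x₀ ^ m ∈ F_ℂ` and the lines `F_ℂ · σ(x₀)` (`σ ∈ Aut ℂ`) take finitely
many values, then `F_ℂ · x₀` contains `ι y` with `y ∈ ℚ̄((q))`, `y ≠ 0`, and `y ^ m` lies in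
the function field of `X₀(N)` over `ℚ̄`. -/
theorem exists_descent_FN (N : ℕ) [NeZero N] (ι : AlgebraicClosure ℚ →+* ℂ) (m : ℕ) (hm : 0 < m)
    (x₀ : LaurentSeries ℂ) (hx₀ : x₀ ≠ 0)
    (hx₀m : x₀ ^ m ∈ laurentBaseChange ℂ (modularFunctionFieldFull N))
    (horb : ∃ T : Finset (LaurentSeries ℂ), ∀ σ : ℂ ≃+* ℂ, ∃ t ∈ T,
      ∃ u ∈ laurentBaseChange ℂ (modularFunctionFieldFull N), u ≠ 0 ∧
        coeffMap (σ : ℂ →+* ℂ) x₀ = u * t) :
    ∃ y : LaurentSeries (AlgebraicClosure ℚ), y ≠ 0 ∧ y ^ m ∈ modularFunctionFieldBar N ∧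
      ∃ u ∈ laurentBaseChange ℂ (modularFunctionFieldFull N), u ≠ 0 ∧ coeffMap ι y = u * x₀ :=
  exists_descent_rat ι (modularFunctionFieldFull N : Set (LaurentSeries ℚ)) jq
    (by have h := jqd_mem_full N (one_dvd N); rwa [qExpand_one_apply] at h)
    ⟨-1, by norm_num, by rw [coeff_jq_neg_one]; exact one_ne_zero⟩
    (dedekindPsi N) (hfin_FC N) m hm x₀ hx₀ hx₀m horb

/-- The same with `F_ℂ` written as `IntermediateField.adjoin ℂ (DegreeGen.gens ℂ N)`. -/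
theorem exists_descent_gens (N : ℕ) [NeZero N] (ι : AlgebraicClosure ℚ →+* ℂ) (m : ℕ)
    (hm : 0 < m) (x₀ : LaurentSeries ℂ) (hx₀ : x₀ ≠ 0)
    (hx₀m : x₀ ^ m ∈ IntermediateField.adjoin ℂ (Fermat.Agent.S24.DegreeGen.gens ℂ N))
    (horb : ∃ T : Finset (LaurentSeries ℂ), ∀ σ : ℂ ≃+* ℂ, ∃ t ∈ T,
      ∃ u ∈ IntermediateField.adjoin ℂ (Fermat.Agent.S24.DegreeGen.gens ℂ N), u ≠ 0 ∧
        coeffMap (σ : ℂ →+* ℂ) x₀ = u * t) :
    ∃ y : LaurentSeries (AlgebraicClosure ℚ), y ≠ 0 ∧ y ^ m ∈ modularFunctionFieldBar N ∧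
      ∃ u ∈ IntermediateField.adjoin ℂ (Fermat.Agent.S24.DegreeGen.gens ℂ N), u ≠ 0 ∧
        coeffMap ι y = u * x₀ := by
  rw [← Fermat.Agent.S24.DegreeGen.laurentBaseChange_full_eq_adjoin] at hx₀m horb ⊢
  exact exists_descent_FN N ι m hm x₀ hx₀ hx₀m horb

end Fermat.Agent.S30.KummerDescent
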