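import Mathlib

/-!
# Eisenstein series with a (possibly non-congruence) character of `Γ₀(N)`

Brick (B2)-core of the S30 route: for a character `φ : Γ₀(N) →* ℂˣ` of finite order `m`,
trivial on the upper triangular elements, the series
`E(τ) = (1/2) ∑_{γ ∈ Γ∞ \ Γ₀(N)} φ(γ)⁻¹ (cτ + d)⁻⁴` is holomorphic on `ℍ`, satisfies
`E(γ τ) = φ(γ) (cτ+d)⁴ E(τ)`, tends to `1` at `i∞`, stays bounded at `i∞` after every
`SL(2, ℤ)`-slash, and `E ^ m` is a modular form of weight `4 m` and level `Γ₀(N)`.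

Everything is derived from the general coefficient-weighted sums
`eisC c k τ = ∑_v c(v) (v₀ τ + v₁)^(-k)` over `v : Fin 2 → ℤ` with bounded coefficients.
-/

set_option autoImplicit false

open scoped Manifold MatrixGroups ModularForm Topology
open UpperHalfPlane EisensteinSeries Matrix CongruenceSubgroup Filter

noncomputable section

namespace Fermat.Agent.S30.EisChar

/-! ### Coefficient-weighted Eisenstein sums -/

/-- The coefficient-weighted Eisenstein sum `∑_v c(v) (v₀ z + v₁)^(-k)`. -/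
def eisC (c : (Fin 2 → ℤ) → ℂ) (k : ℤ) (z : ℍ) : ℂ :=
  ∑' v : Fin 2 → ℤ, c v * eisSummand k v z

variable {c : (Fin 2 → ℤ) → ℂ} {k : ℤ}

theorem norm_term_le (hc : ∀ v, ‖c v‖ ≤ 1) (v : Fin 2 → ℤ) (z : ℍ) :
    ‖c v * eisSummand k v z‖ ≤ ‖eisSummand k v z‖ := by
  rw [norm_mul]
  calc ‖c v‖ * ‖eisSummand k v z‖ ≤ 1 * ‖eisSummand k v z‖ :=
        mul_le_mul_of_nonneg_right (hc v) (norm_nonneg _)
    _ = _ := one_mul _

theorem summable_norm_term (hc : ∀ v, ‖c v‖ ≤ 1) (hk : 3 ≤ k) (z : ℍ) :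
    Summable fun v : Fin 2 → ℤ => ‖c v * eisSummand k v z‖ :=
  (summable_norm_eisSummand hk z).of_nonneg_of_le (fun _ => norm_nonneg _)
    (fun v => norm_term_le hc v z)

theorem summable_term (hc : ∀ v, ‖c v‖ ≤ 1) (hk : 3 ≤ k) (z : ℍ) :
    Summable fun v : Fin 2 → ℤ => c v * eisSummand k v z :=
  (summable_norm_term hc hk z).of_norm

/-- The sum of the norms of all Eisenstein summands. -/
def eisG (k : ℤ) (z : ℍ) : ℝ := ∑' v : Fin 2 → ℤ, ‖eisSummand k v z‖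

theorem norm_eisC_le (hc : ∀ v, ‖c v‖ ≤ 1) (hk : 3 ≤ k) (z : ℍ) :
    ‖eisC c k z‖ ≤ eisG k z := by
  refine (norm_tsum_le_tsum_norm (summable_norm_term hc hk z)).trans ?_
  exact (summable_norm_term hc hk z).tsum_le_tsum (fun v => norm_term_le hc v z)
    (summable_norm_eisSummand hk z)

/-- Right multiplication by `A : SL(2, ℤ)` as a permutation of `Fin 2 → ℤ`. -/
def vecMulEquiv (A : SL(2, ℤ)) : (Fin 2 → ℤ) ≃ (Fin 2 → ℤ) where
  toFun v := v ᵥ* (A : Matrix (Fin 2) (Fin 2) ℤ)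
  invFun v := v ᵥ* ((A⁻¹ : SL(2, ℤ)) : Matrix (Fin 2) (Fin 2) ℤ)
  left_inv v := by
    simp_rw [vecMul_vecMul, ← Matrix.SpecialLinearGroup.coe_mul, mul_inv_cancel,
      Matrix.SpecialLinearGroup.coe_one, vecMul_one]
  right_inv v := by
    simp_rw [vecMul_vecMul, ← Matrix.SpecialLinearGroup.coe_mul, inv_mul_cancel,
      Matrix.SpecialLinearGroup.coe_one, vecMul_one]

@[simp] theorem vecMulEquiv_apply (A : SL(2, ℤ)) (v : Fin 2 → ℤ) :
    vecMulEquiv A v = v ᵥ* (A : Matrix (Fin 2) (Fin 2) ℤ) := rfl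

@[simp] theorem vecMulEquiv_symm_apply (A : SL(2, ℤ)) (v : Fin 2 → ℤ) :
    (vecMulEquiv A).symm v = v ᵥ* ((A⁻¹ : SL(2, ℤ)) : Matrix (Fin 2) (Fin 2) ℤ) := rfl

/-- The slash action on coefficient-weighted Eisenstein sums is a reindexing of the
coefficients. -/
theorem eisC_slash (c : (Fin 2 → ℤ) → ℂ) (k : ℤ) (A : SL(2, ℤ)) :
    eisC c k ∣[k] A
      = eisC (fun w => c (w ᵥ* ((A⁻¹ : SL(2, ℤ)) : Matrix (Fin 2) (Fin 2) ℤ))) k := by
  ext1 z
  simp_rw [ModularForm.SL_slash_apply, _root_.zpow_neg,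
    mul_inv_eq_iff_eq_mul₀ (zpow_ne_zero _ <| denom_ne_zero _ z),
    eisC, eisSummand_SL2_apply, ← tsum_mul_right]
  refine Eq.trans ?_ ((vecMulEquiv A).tsum_eq
    (fun w => c (w ᵥ* ((A⁻¹ : SL(2, ℤ)) : Matrix (Fin 2) (Fin 2) ℤ)) * eisSummand k w z
      * denom A z ^ k))
  refine tsum_congr fun v => ?_
  have h : (vecMulEquiv A v) ᵥ* ((A⁻¹ : SL(2, ℤ)) : Matrix (Fin 2) (Fin 2) ℤ) = v :=
    (vecMulEquiv A).left_inv v
  rw [h, vecMulEquiv_apply]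
  ring

theorem eisG_smul (k : ℤ) (A : SL(2, ℤ)) (z : ℍ) :
    eisG k (A • z) = ‖denom A z‖ ^ k * eisG k z := by
  simp_rw [eisG, eisSummand_SL2_apply, norm_mul, norm_zpow, tsum_mul_left]
  congr 1
  exact (vecMulEquiv A).tsum_eq (fun v => ‖eisSummand k v z‖)

/-! ### Holomorphy -/

theorem eisC_tendstoLocallyUniformly (hc : ∀ v, ‖c v‖ ≤ 1) (hk : 3 ≤ k) :
    TendstoLocallyUniformly
      (fun (s : Finset (Fin 2 → ℤ)) ↦ (fun z : ℍ => ∑ x ∈ s, c x * eisSummand k x z))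
      (fun z => eisC c k z) Filter.atTop := by
  have hk' : (2 : ℝ) < k := by norm_cast
  have p_sum : Summable fun x : Fin 2 → ℤ ↦ ‖x‖ ^ (-k) :=
    mod_cast (summable_one_div_norm_rpow hk')
  simp only [tendstoLocallyUniformly_iff_forall_isCompact, eisC]
  intro K hK
  obtain ⟨A, B, hB, HABK⟩ := subset_verticalStrip_of_isCompact hK
  refine (tendstoUniformlyOn_tsum (hu := p_sum.mul_left <| r ⟨⟨A, B⟩, hB⟩ ^ (-k : ℝ))
    (fun p z hz ↦ ?_)).mono HABK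
  refine (norm_term_le hc p z).trans ?_
  simpa only [eisSummand, one_div, ← _root_.zpow_neg, norm_zpow, ← Real.rpow_intCast,
    Int.cast_neg] using summand_bound_of_mem_verticalStrip (by positivity) p hB hz

theorem eisC_differentiableOn (hc : ∀ v, ‖c v‖ ≤ 1) (hk : 3 ≤ k) :
    DifferentiableOn ℂ (eisC c k ∘ ofComplex) {z : ℂ | 0 < z.im} := by
  have hloc : TendstoLocallyUniformlyOn
      (fun (s : Finset (Fin 2 → ℤ)) ↦
        (fun z : ℍ => ∑ x ∈ s, c x * eisSummand k x z) ∘ ofComplex)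
      ((fun z => eisC c k z) ∘ ofComplex) Filter.atTop {z : ℂ | 0 < z.im} := by
    rw [← upperHalfPlaneSet, ← range_coe, ← Set.image_univ]
    apply TendstoLocallyUniformlyOn.comp (s := ⊤) _ _ _
      (OpenPartialHomeomorph.continuousOn_symm _)
    · simp only [Set.top_eq_univ, tendstoLocallyUniformlyOn_univ]
      exact eisC_tendstoLocallyUniformly hc hk
    · simp only [Topology.IsOpenEmbedding.toOpenPartialHomeomorph_target, Set.top_eq_univ,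
        Set.mapsTo_range_iff, Set.mem_univ, forall_const]
  refine hloc.differentiableOn (Eventually.of_forall fun s ↦ ?_) isOpen_upperHalfPlaneSet
  have h1 : ∀ x ∈ s, DifferentiableOn ℂ
      (fun z : ℂ => c x * (eisSummand k x ∘ ofComplex) z) {z : ℂ | 0 < z.im} :=
    fun x _ => (eisSummand_extension_differentiableOn k x).const_mul (c x)
  have h2 := DifferentiableOn.fun_sum h1
  refine h2.congr fun z _ => ?_
  simp [Function.comp]

/-- Coefficient-weighted Eisenstein sums with bounded coefficients are holomorphic on `ℍ`. -/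
theorem eisC_mdifferentiable (hc : ∀ v, ‖c v‖ ≤ 1) (hk : 3 ≤ k) :
    MDifferentiable 𝓘(ℂ) 𝓘(ℂ) (eisC c k) :=
  UpperHalfPlane.mdifferentiable_iff.mpr (eisC_differentiableOn hc hk)

/-! ### Boundedness at `i∞` -/

theorem denom_T_zpow (n : ℤ) (z : ℍ) : denom (ModularGroup.T ^ n : SL(2, ℤ)) z = 1 := by
  rw [ModularGroup.denom_apply, ModularGroup.coe_T_zpow]
  simp

theorem eisG_T_zpow_smul (k : ℤ) (n : ℤ) (z : ℍ) :
    eisG k ((ModularGroup.T ^ n : SL(2, ℤ)) • z) = eisG k z := by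
  rw [eisG_smul, denom_T_zpow, norm_one, _root_.one_zpow, one_mul]

theorem eisG_nonneg (k : ℤ) (z : ℍ) : 0 ≤ eisG k z := tsum_nonneg fun _ => norm_nonneg _

/-- The full sum of norms is uniformly bounded on `{2 ≤ im z}`. -/
theorem exists_eisG_le (hk : 3 ≤ k) : ∃ M : ℝ, ∀ z : ℍ, 2 ≤ z.im → eisG k z ≤ M := by
  have hk' : (2 : ℝ) < k := by norm_cast
  refine ⟨∑' (x : Fin 2 → ℤ), r ⟨⟨1, 2⟩, Nat.ofNat_pos⟩ ^ (-k) * ‖x‖ ^ (-k), fun z hz => ?_⟩
  obtain ⟨n, hn⟩ := ModularGroup_T_zpow_mem_verticalStrip z (N := 1) one_pos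
  rw [← eisG_T_zpow_smul k ((1 : ℕ) * n) z]
  have hn' : (ModularGroup.T ^ (((1 : ℕ) : ℤ) * n) : SL(2, ℤ)) • z ∈ verticalStrip 1 2 := by
    have := verticalStrip_anti_right (1 : ℕ) hz hn
    simpa using this
  apply (summable_norm_eisSummand hk _).tsum_le_tsum _
  · exact_mod_cast (summable_one_div_norm_rpow hk').mul_left <| r ⟨⟨1, 2⟩, Nat.ofNat_pos⟩ ^ (-k)
  · intro x
    simp_rw [eisSummand, norm_zpow]
    exact_mod_cast
      summand_bound_of_mem_verticalStrip (lt_trans two_pos hk').le x two_pos hn'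

/-- Coefficient-weighted Eisenstein sums with bounded coefficients are bounded at `i∞`. -/
theorem isBoundedAtImInfty_eisC (hc : ∀ v, ‖c v‖ ≤ 1) (hk : 3 ≤ k) :
    IsBoundedAtImInfty (eisC c k) := by
  obtain ⟨M, hM⟩ := exists_eisG_le hk
  rw [UpperHalfPlane.isBoundedAtImInfty_iff]
  exact ⟨M, 2, fun z hz => (norm_eisC_le hc hk z).trans (hM z hz)⟩

/-- ... and so are all their `SL(2, ℤ)`-slashes. -/
theorem isBoundedAtImInfty_eisC_slash (hc : ∀ v, ‖c v‖ ≤ 1) (hk : 3 ≤ k) (A : SL(2, ℤ)) :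
    IsBoundedAtImInfty (eisC c k ∣[k] A) := by
  rw [eisC_slash]
  exact isBoundedAtImInfty_eisC (fun w => hc _) hk

/-! ### The limit at `i∞` -/

/-- The sum of the norms of the summands with `v 0 ≠ 0`. -/
def eisG0 (k : ℤ) (z : ℍ) : ℝ :=
  ∑' v : Fin 2 → ℤ, if v 0 = 0 then 0 else ‖eisSummand k v z‖

theorem summable_eisG0_term (hk : 3 ≤ k) (z : ℍ) :
    Summable fun v : Fin 2 → ℤ => if v 0 = 0 then 0 else ‖eisSummand k v z‖ := by
  refine (summable_norm_eisSummand hk z).of_nonneg_of_le (fun v => ?_) (fun v => ?_)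
  · split_ifs
    · exact le_rfl
    · exact norm_nonneg _
  · split_ifs
    · exact norm_nonneg _
    · exact le_rfl

theorem vecMul_T_zpow_zero (n : ℤ) (v : Fin 2 → ℤ) :
    (v ᵥ* ((ModularGroup.T ^ n : SL(2, ℤ)) : Matrix (Fin 2) (Fin 2) ℤ)) 0 = v 0 := by
  rw [ModularGroup.coe_T_zpow]
  simp [vecMul, dotProduct, Fin.sum_univ_two]

theorem eisG0_T_zpow_smul (k : ℤ) (n : ℤ) (z : ℍ) :
    eisG0 k ((ModularGroup.T ^ n : SL(2, ℤ)) • z) = eisG0 k z := by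
  simp_rw [eisG0, eisSummand_SL2_apply, denom_T_zpow, _root_.one_zpow, one_mul]
  refine Eq.trans ?_ ((vecMulEquiv (ModularGroup.T ^ n)).tsum_eq
    (fun w => if w 0 = 0 then 0 else ‖eisSummand k w z‖))
  refine tsum_congr fun v => ?_
  simp only [vecMulEquiv_apply, vecMul_T_zpow_zero]

/-- The part of the sum of norms with `v 0 ≠ 0` is `O(1 / im z)`. -/
theorem exists_eisG0_le (hk : 4 ≤ k) : ∃ C : ℝ, ∀ z : ℍ, 2 ≤ z.im → eisG0 k z ≤ C / z.im := by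
  have hk3 : 3 ≤ k := by omega
  have hk' : (2 : ℝ) < ((k - 1 : ℤ) : ℝ) := by
    have : (3 : ℤ) ≤ k - 1 := by omega
    have h3 : ((3 : ℤ) : ℝ) ≤ ((k - 1 : ℤ) : ℝ) := Int.cast_le.mpr this
    have : ((3 : ℤ) : ℝ) = 3 := by norm_num
    linarith
  set r0 : ℝ := r ⟨⟨1, 2⟩, Nat.ofNat_pos⟩ with hr0
  have hsum : Summable fun x : Fin 2 → ℤ =>
      r0 ^ (-((k - 1 : ℤ) : ℝ)) * ‖x‖ ^ (-((k - 1 : ℤ) : ℝ)) :=
    (summable_one_div_norm_rpow hk').mul_left _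
  refine ⟨∑' x : Fin 2 → ℤ, r0 ^ (-((k - 1 : ℤ) : ℝ)) * ‖x‖ ^ (-((k - 1 : ℤ) : ℝ)),
    fun z hz => ?_⟩
  obtain ⟨n, hn⟩ := ModularGroup_T_zpow_mem_verticalStrip z (N := 1) one_pos
  rw [← eisG0_T_zpow_smul k (((1 : ℕ) : ℤ) * n) z]
  set z' : ℍ := (ModularGroup.T ^ (((1 : ℕ) : ℤ) * n) : SL(2, ℤ)) • z with hz'
  have hn' : z' ∈ verticalStrip 1 2 := by
    have := verticalStrip_anti_right (1 : ℕ) hz hn
    simpa using this
  have him : z'.im = z.im := ModularGroup.im_T_zpow_smul z _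
  have hzpos : 0 < z.im := z.im_pos
  have hterm : ∀ v : Fin 2 → ℤ, (if v 0 = 0 then 0 else ‖eisSummand k v z'‖) ≤
      (r0 ^ (-((k - 1 : ℤ) : ℝ)) * ‖v‖ ^ (-((k - 1 : ℤ) : ℝ))) / z.im := by
    intro v
    have hnn : 0 ≤ (r0 ^ (-((k - 1 : ℤ) : ℝ)) * ‖v‖ ^ (-((k - 1 : ℤ) : ℝ))) / z.im := by
      have h1 : 0 ≤ r0 ^ (-((k - 1 : ℤ) : ℝ)) := Real.rpow_nonneg (r_pos _).le _
      have h2 : 0 ≤ ‖v‖ ^ (-((k - 1 : ℤ) : ℝ)) := Real.rpow_nonneg (norm_nonneg _) _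
      positivity
    split_ifs with h0
    · exact hnn
    · set w : ℝ := ‖(v 0 : ℂ) * (z' : ℂ) + v 1‖ with hw
      have hv0 : (1 : ℝ) ≤ |((v 0 : ℤ) : ℝ)| := by
        have : (1 : ℤ) ≤ |v 0| := Int.one_le_abs h0
        exact_mod_cast this
      have hwim : z.im ≤ w := by
        have h1 : |((v 0 : ℂ) * (z' : ℂ) + v 1).im| ≤ w := Complex.abs_im_le_norm _
        have h2 : ((v 0 : ℂ) * (z' : ℂ) + v 1).im = (v 0 : ℝ) * z'.im := by
          simp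
        rw [h2, abs_mul, abs_of_pos z'.im_pos, him] at h1
        have h3 : z.im ≤ |((v 0 : ℤ) : ℝ)| * z.im := le_mul_of_one_le_left hzpos.le hv0
        exact h3.trans h1
      have hwpos : 0 < w := lt_of_lt_of_le hzpos hwim
      have hsplit : ‖eisSummand k v z'‖ = w⁻¹ * w ^ (-(k - 1)) := by
        rw [eisSummand, norm_zpow, ← hw, ← _root_.zpow_neg_one, ← zpow_add₀ hwpos.ne']
        congr 1
        ring
      have hinv : w⁻¹ ≤ (z.im)⁻¹ := inv_anti₀ hzpos hwim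
      have hb := summand_bound_of_mem_verticalStrip (k := ((k - 1 : ℤ) : ℝ))
        (by linarith) v two_pos hn'
      rw [← hw, ← hr0] at hb
      have hb' : w ^ (-(k - 1)) ≤ r0 ^ (-((k - 1 : ℤ) : ℝ)) * ‖v‖ ^ (-((k - 1 : ℤ) : ℝ)) := by
        have : w ^ (-(k - 1)) = w ^ (-((k - 1 : ℤ) : ℝ)) := by
          rw [← Int.cast_neg, Real.rpow_intCast]
        rw [this]
        exact hb
      rw [hsplit, div_eq_inv_mul]
      exact mul_le_mul hinv hb' (zpow_nonneg hwpos.le _) (inv_nonneg.mpr hzpos.le)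
  calc eisG0 k z' ≤ ∑' v : Fin 2 → ℤ,
        (r0 ^ (-((k - 1 : ℤ) : ℝ)) * ‖v‖ ^ (-((k - 1 : ℤ) : ℝ))) / z.im :=
        (summable_eisG0_term hk3 z').tsum_le_tsum hterm (hsum.div_const _)
    _ = (∑' x : Fin 2 → ℤ, r0 ^ (-((k - 1 : ℤ) : ℝ)) * ‖x‖ ^ (-((k - 1 : ℤ) : ℝ))) / z.im :=
        tsum_div_const

/-- The limit at `i∞` of a coefficient-weighted Eisenstein sum whose coefficients on the
line `v 0 = 0` are supported on `(0, ±1)`. -/
theorem tendsto_eisC (hc : ∀ v, ‖c v‖ ≤ 1) (hk : 4 ≤ k)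
    (hsupp : ∀ v : Fin 2 → ℤ, v 0 = 0 → v ≠ ![0, 1] → v ≠ ![0, -1] → c v = 0) :
    Tendsto (eisC c k) atImInfty (𝓝 (c ![0, 1] + c ![0, -1] * (-1 : ℂ) ^ (-k))) := by
  have hk3 : 3 ≤ k := by omega
  obtain ⟨C, hC⟩ := exists_eisG0_le hk
  have hne : (![0, 1] : Fin 2 → ℤ) ≠ ![0, -1] := by
    intro h
    have := congrFun h 1
    simp at this
  have hsplit : ∀ z : ℍ, eisC c k z = (c ![0, 1] + c ![0, -1] * (-1 : ℂ) ^ (-k)) +
      ∑' v : Fin 2 → ℤ, if v 0 = 0 then 0 else c v * eisSummand k v z := by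
    intro z
    have hf1 : ∀ v ∉ ({![0, 1], ![0, -1]} : Finset (Fin 2 → ℤ)),
        (if v 0 = 0 then c v * eisSummand k v z else 0) = 0 := by
      intro v hv
      simp only [Finset.mem_insert, Finset.mem_singleton, not_or] at hv
      split_ifs with h0
      · rw [hsupp v h0 hv.1 hv.2, zero_mul]
      · rfl
    have hs1 : HasSum (fun v : Fin 2 → ℤ => if v 0 = 0 then c v * eisSummand k v z else 0)
        (c ![0, 1] + c ![0, -1] * (-1 : ℂ) ^ (-k)) := by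
      have : HasSum (fun v : Fin 2 → ℤ => if v 0 = 0 then c v * eisSummand k v z else 0)
          (∑ v ∈ ({![0, 1], ![0, -1]} : Finset (Fin 2 → ℤ)),
            if v 0 = 0 then c v * eisSummand k v z else 0) :=
        hasSum_sum_of_ne_finset_zero hf1
      rw [Finset.sum_pair hne] at this
      convert this using 2
      · simp [eisSummand]
      · simp [eisSummand]
    have hs2 : Summable (fun v : Fin 2 → ℤ => if v 0 = 0 then 0 else c v * eisSummand k v z) := by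
      refine Summable.of_norm_bounded (summable_norm_term hc hk3 z) (fun v => ?_)
      split_ifs
      · rw [norm_zero]; exact norm_nonneg _
      · exact le_rfl
    have hadd := hs1.add hs2.hasSum
    have hfun : (fun v : Fin 2 → ℤ => (if v 0 = 0 then c v * eisSummand k v z else 0) +
        (if v 0 = 0 then 0 else c v * eisSummand k v z)) =
        fun v => c v * eisSummand k v z := by
      funext v
      split_ifs <;> simp
    rw [hfun] at hadd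
    exact hadd.tsum_eq
  have hbound : ∀ z : ℍ, 2 ≤ z.im →
      ‖eisC c k z - (c ![0, 1] + c ![0, -1] * (-1 : ℂ) ^ (-k))‖ ≤ C / z.im := by
    intro z hz
    rw [hsplit z, add_sub_cancel_left]
    refine le_trans ?_ (hC z hz)
    have hs2 : Summable (fun v : Fin 2 → ℤ =>
        ‖if v 0 = 0 then 0 else c v * eisSummand k v z‖) := by
      refine (summable_norm_term hc hk3 z).of_nonneg_of_le (fun _ => norm_nonneg _) (fun v => ?_)
      split_ifs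
      · rw [norm_zero]; exact norm_nonneg _
      · exact le_rfl
    refine (norm_tsum_le_tsum_norm hs2).trans ?_
    refine hs2.tsum_le_tsum (fun v => ?_) (summable_eisG0_term hk3 z)
    split_ifs
    · rw [norm_zero]
    · exact norm_term_le hc v z
  rw [tendsto_iff_norm_sub_tendsto_zero]
  refine squeeze_zero' (g := fun z : ℍ => C / z.im)
    (Eventually.of_forall fun _ => norm_nonneg _) ?_ ?_
  · exact (atImInfty_mem _).mpr ⟨2, hbound⟩
  · exact tendsto_const_nhds.div_atTop tendsto_comap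

/-! ### The coefficient system attached to a character of `Γ₀(N)` -/

/-- The bottom row of a matrix in `SL(2, ℤ)`. -/
def botRow (γ : SL(2, ℤ)) : Fin 2 → ℤ := (γ : Matrix (Fin 2) (Fin 2) ℤ) 1

theorem botRow_mul (γ δ : SL(2, ℤ)) :
    botRow (γ * δ) = botRow γ ᵥ* (δ : Matrix (Fin 2) (Fin 2) ℤ) := by
  rw [botRow, Matrix.SpecialLinearGroup.coe_mul, Matrix.mul_apply_eq_vecMul]
  rfl

theorem botRow_zero (γ : SL(2, ℤ)) : botRow γ 0 = γ 1 0 := rfl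

theorem botRow_one (γ : SL(2, ℤ)) : botRow γ 1 = γ 1 1 := rfl

/-- Two matrices with the same bottom row differ by an upper triangular matrix. -/
theorem mul_inv_apply_one_zero_of_botRow_eq {γ γ' : SL(2, ℤ)} (h : botRow γ' = botRow γ) :
    (γ' * γ⁻¹) 1 0 = 0 := by
  have h0 : γ' 1 0 = γ 1 0 := congrFun h 0
  have h1 : γ' 1 1 = γ 1 1 := congrFun h 1
  rw [Matrix.SpecialLinearGroup.coe_mul, Matrix.SpecialLinearGroup.coe_inv,
    Matrix.adjugate_fin_two, Matrix.mul_apply, Fin.sum_univ_two]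
  simp only [Matrix.of_apply, Matrix.cons_val_zero, Matrix.cons_val_one]
  rw [h0, h1]
  ring

variable {N : ℕ}

/-- The coefficient system of the character `φ`: `φ(γ)⁻¹` on the bottom row of `γ ∈ Γ₀(N)`,
and `0` on vectors which are not such bottom rows. -/
def charCoeff (φ : ↥(Gamma0 N) →* ℂˣ) (v : Fin 2 → ℤ) : ℂ :=
  open Classical in
  if h : ∃ γ : ↥(Gamma0 N), botRow (γ : SL(2, ℤ)) = v then (((φ h.choose)⁻¹ : ℂˣ) : ℂ) else 0

variable {φ : ↥(Gamma0 N) →* ℂˣ}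

theorem charCoeff_botRow (hT : ∀ γ : ↥(Gamma0 N), (γ : SL(2, ℤ)) 1 0 = 0 → φ γ = 1)
    (γ : ↥(Gamma0 N)) : charCoeff φ (botRow (γ : SL(2, ℤ))) = (((φ γ)⁻¹ : ℂˣ) : ℂ) := by
  have hex : ∃ γ' : ↥(Gamma0 N), botRow (γ' : SL(2, ℤ)) = botRow (γ : SL(2, ℤ)) := ⟨γ, rfl⟩
  rw [charCoeff, dif_pos hex]
  have hδ : ((hex.choose * γ⁻¹ : ↥(Gamma0 N)) : SL(2, ℤ)) 1 0 = 0 :=
    mul_inv_apply_one_zero_of_botRow_eq hex.choose_spec
  have h1 : φ (hex.choose * γ⁻¹) = 1 := hT _ hδ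
  have h2 : φ hex.choose = φ γ := by
    rw [map_mul, map_inv, mul_inv_eq_one] at h1
    exact h1
  rw [h2]

theorem charCoeff_of_not_exists {v : Fin 2 → ℤ}
    (h : ¬ ∃ γ : ↥(Gamma0 N), botRow (γ : SL(2, ℤ)) = v) : charCoeff φ v = 0 := by
  rw [charCoeff, dif_neg h]

theorem charCoeff_vecMul_inv (hT : ∀ γ : ↥(Gamma0 N), (γ : SL(2, ℤ)) 1 0 = 0 → φ γ = 1)
    (γ₀ : ↥(Gamma0 N)) (v : Fin 2 → ℤ) :
    charCoeff φ (v ᵥ* (((γ₀ : SL(2, ℤ))⁻¹ : SL(2, ℤ)) : Matrix (Fin 2) (Fin 2) ℤ))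
      = (φ γ₀ : ℂ) * charCoeff φ v := by
  by_cases h : ∃ γ : ↥(Gamma0 N), botRow (γ : SL(2, ℤ)) = v
  · obtain ⟨γ, rfl⟩ := h
    have h1 : botRow (γ : SL(2, ℤ)) ᵥ* (((γ₀ : SL(2, ℤ))⁻¹ : SL(2, ℤ)) : Matrix (Fin 2) (Fin 2) ℤ)
        = botRow ((γ * γ₀⁻¹ : ↥(Gamma0 N)) : SL(2, ℤ)) := by
      rw [Subgroup.coe_mul, Subgroup.coe_inv, botRow_mul]
    rw [h1, charCoeff_botRow hT, charCoeff_botRow hT, map_mul, map_inv, _root_.mul_inv_rev, inv_inv,
      Units.val_mul]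
  · have h' : ¬ ∃ γ : ↥(Gamma0 N), botRow (γ : SL(2, ℤ)) =
        v ᵥ* (((γ₀ : SL(2, ℤ))⁻¹ : SL(2, ℤ)) : Matrix (Fin 2) (Fin 2) ℤ) := by
      rintro ⟨γ, hγ⟩
      refine h ⟨γ * γ₀, ?_⟩
      rw [Subgroup.coe_mul, botRow_mul, hγ, vecMul_vecMul, ← Matrix.SpecialLinearGroup.coe_mul,
        inv_mul_cancel, Matrix.SpecialLinearGroup.coe_one, vecMul_one]
    rw [charCoeff_of_not_exists h, charCoeff_of_not_exists h', mul_zero]

theorem norm_charCoeff_le (hφ : ∀ γ, ‖(φ γ : ℂ)‖ = 1) (v : Fin 2 → ℤ) : ‖charCoeff φ v‖ ≤ 1 := by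
  rw [charCoeff]
  split_ifs with h
  · rw [Units.val_inv_eq_inv_val, norm_inv, hφ, inv_one]
  · rw [norm_zero]
    exact zero_le_one

theorem charCoeff_supp (v : Fin 2 → ℤ) (h0 : v 0 = 0) (h1 : v ≠ ![0, 1]) (h2 : v ≠ ![0, -1]) :
    charCoeff φ v = 0 := by
  refine charCoeff_of_not_exists ?_
  rintro ⟨γ, rfl⟩
  have hc : (γ : SL(2, ℤ)) 1 0 = 0 := h0
  have hdet := Matrix.SpecialLinearGroup.det_coe (γ : SL(2, ℤ))
  rw [Matrix.det_fin_two, hc, mul_zero, sub_zero] at hdet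
  rcases Int.eq_one_or_neg_one_of_mul_eq_one' hdet with ⟨-, hd⟩ | ⟨-, hd⟩
  · apply h1
    funext i
    fin_cases i
    · exact hc
    · exact hd
  · apply h2
    funext i
    fin_cases i
    · exact hc
    · exact hd

theorem charCoeff_zero_one (hT : ∀ γ : ↥(Gamma0 N), (γ : SL(2, ℤ)) 1 0 = 0 → φ γ = 1) :
    charCoeff φ ![0, 1] = 1 := by
  have h : (![0, 1] : Fin 2 → ℤ) = botRow (((1 : ↥(Gamma0 N)) : SL(2, ℤ))) := by
    funext i
    fin_cases i <;> simp [botRow]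
  rw [h, charCoeff_botRow hT, map_one, inv_one, Units.val_one]

theorem neg_one_mem_Gamma0 (N : ℕ) : (-1 : SL(2, ℤ)) ∈ Gamma0 N := by
  rw [Gamma0_mem]
  simp

theorem charCoeff_zero_neg_one (hT : ∀ γ : ↥(Gamma0 N), (γ : SL(2, ℤ)) 1 0 = 0 → φ γ = 1) :
    charCoeff φ ![0, -1] = 1 := by
  have h : (![0, -1] : Fin 2 → ℤ)
      = botRow (((⟨-1, neg_one_mem_Gamma0 N⟩ : ↥(Gamma0 N)) : SL(2, ℤ))) := by
    funext i
    fin_cases i <;> simp [botRow]
  have h1 : φ ⟨-1, neg_one_mem_Gamma0 N⟩ = 1 := hT _ (by simp)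
  rw [h, charCoeff_botRow hT, h1, inv_one, Units.val_one]

/-! ### The Eisenstein series with character -/

/-- The slash of a power is the power of the slash. -/
theorem pow_slash (f : ℍ → ℂ) (k : ℤ) (m : ℕ) (A : SL(2, ℤ)) :
    (fun τ => f τ ^ m) ∣[k * (m : ℤ)] A = fun τ => ((f ∣[k] A) τ) ^ m := by
  ext τ
  rw [ModularForm.SL_slash_apply, ModularForm.SL_slash_apply, mul_pow, ← zpow_natCast (_ ^ (-k)),
    ← _root_.zpow_mul, neg_mul]

theorem isBoundedAtImInfty_pow {f : ℍ → ℂ} (hf : IsBoundedAtImInfty f) (m : ℕ) :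
    IsBoundedAtImInfty (fun τ => f τ ^ m) := by
  rw [UpperHalfPlane.isBoundedAtImInfty_iff] at hf ⊢
  obtain ⟨M, A, h⟩ := hf
  refine ⟨M ^ m, A, fun z hz => ?_⟩
  rw [norm_pow]
  exact pow_le_pow_left₀ (norm_nonneg _) (h z hz) m

/-- The (unnormalised) Eisenstein series of weight `k` with character `φ`. -/
def eisChar (φ : ↥(Gamma0 N) →* ℂˣ) (k : ℤ) : ℍ → ℂ := eisC (charCoeff φ) k

theorem eisChar_slash (hT : ∀ γ : ↥(Gamma0 N), (γ : SL(2, ℤ)) 1 0 = 0 → φ γ = 1)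
    (k : ℤ) (γ : ↥(Gamma0 N)) :
    eisChar φ k ∣[k] (γ : SL(2, ℤ)) = fun τ => (φ γ : ℂ) * eisChar φ k τ := by
  rw [eisChar, eisC_slash]
  funext τ
  simp_rw [eisC, charCoeff_vecMul_inv hT, mul_assoc, tsum_mul_left]

theorem eisChar_smul (hT : ∀ γ : ↥(Gamma0 N), (γ : SL(2, ℤ)) 1 0 = 0 → φ γ = 1)
    (k : ℤ) (γ : ↥(Gamma0 N)) (τ : ℍ) :
    eisChar φ k ((γ : SL(2, ℤ)) • τ)
      = (φ γ : ℂ) * denom (γ : SL(2, ℤ)) τ ^ k * eisChar φ k τ := by
  have h := congrFun (eisChar_slash hT k γ) τ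
  rw [ModularForm.SL_slash_apply, _root_.zpow_neg,
    mul_inv_eq_iff_eq_mul₀ (zpow_ne_zero _ <| denom_ne_zero _ τ)] at h
  rw [h]
  ring

/-- **Eisenstein series with character.** For a character `φ` of `Γ₀(N)` of order dividing
`m`, trivial on the upper triangular elements of `Γ₀(N)`, there is a holomorphic function `E`
on `ℍ` with `E(γτ) = φ(γ) (cτ+d)⁴ E(τ)`, tending to `1` at `i∞`, bounded at `i∞` after every
`SL(2, ℤ)`-slash of weight `4`, and whose `m`-th power is a modular form of weight `4m` and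
level `Γ₀(N)`. -/
theorem exists_eis_char (N : ℕ) [NeZero N] (m : ℕ) (hm : 0 < m) (φ : ↥(Gamma0 N) →* ℂˣ)
    (hφm : ∀ γ, φ γ ^ m = 1)
    (hT : ∀ γ : ↥(Gamma0 N), (γ : SL(2, ℤ)) 1 0 = 0 → φ γ = 1) :
    ∃ E : ℍ → ℂ, MDifferentiable 𝓘(ℂ) 𝓘(ℂ) E ∧
      (∀ (γ : ↥(Gamma0 N)) (τ : ℍ),
        E ((γ : SL(2, ℤ)) • τ) = (φ γ : ℂ) * denom (γ : SL(2, ℤ)) τ ^ 4 * E τ) ∧
      Tendsto E atImInfty (𝓝 1) ∧
      (∀ A : SL(2, ℤ), IsBoundedAtImInfty (E ∣[(4 : ℤ)] A)) ∧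
      ∃ F : ModularForm (Gamma0 N) (4 * (m : ℤ)), ∀ τ, F τ = E τ ^ m := by
  have hnorm : ∀ γ, ‖(φ γ : ℂ)‖ = 1 := by
    intro γ
    have h1 : ((φ γ : ℂ)) ^ m = 1 := by
      have := congrArg (fun u : ℂˣ => (u : ℂ)) (hφm γ)
      simpa using this
    have h2 : ‖(φ γ : ℂ)‖ ^ m = 1 := by rw [← norm_pow, h1, norm_one]
    exact (pow_eq_one_iff_of_nonneg (norm_nonneg _) hm.ne').mp h2
  have hc : ∀ v, ‖charCoeff φ v‖ ≤ 1 := norm_charCoeff_le hnorm
  have hk3 : (3 : ℤ) ≤ 4 := by norm_num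
  set E : ℍ → ℂ := fun τ => (1 / 2 : ℂ) * eisChar φ 4 τ with hE
  have hEholo : MDifferentiable 𝓘(ℂ) 𝓘(ℂ) E :=
    mdifferentiable_const.mul (eisC_mdifferentiable hc hk3)
  have hEsmul : ∀ (γ : ↥(Gamma0 N)) (τ : ℍ),
      E ((γ : SL(2, ℤ)) • τ) = (φ γ : ℂ) * denom (γ : SL(2, ℤ)) τ ^ 4 * E τ := by
    intro γ τ
    have h := eisChar_smul hT 4 γ τ
    have h4 : denom (γ : SL(2, ℤ)) τ ^ (4 : ℤ) = denom (γ : SL(2, ℤ)) τ ^ (4 : ℕ) := by
      norm_cast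
    rw [h4] at h
    simp only [hE]
    rw [h]
    ring
  have hEslash : ∀ A : SL(2, ℤ), E ∣[(4 : ℤ)] A = fun τ => (1 / 2 : ℂ) * (eisChar φ 4 ∣[(4 : ℤ)] A) τ := by
    intro A
    funext τ
    rw [ModularForm.SL_slash_apply, ModularForm.SL_slash_apply]
    simp only [hE]
    ring
  have hEbdd : ∀ A : SL(2, ℤ), IsBoundedAtImInfty (E ∣[(4 : ℤ)] A) := by
    intro A
    rw [hEslash A]
    have hb := isBoundedAtImInfty_eisC_slash hc hk3 A
    rw [UpperHalfPlane.isBoundedAtImInfty_iff] at hb ⊢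
    obtain ⟨M, B, h⟩ := hb
    refine ⟨1 / 2 * M, B, fun z hz => ?_⟩
    rw [norm_mul]
    have h12 : ‖(1 / 2 : ℂ)‖ = 1 / 2 := by simp
    rw [h12]
    exact mul_le_mul_of_nonneg_left (h z hz) (by norm_num)
  have hElim : Tendsto E atImInfty (𝓝 1) := by
    have h := tendsto_eisC hc (le_refl (4 : ℤ)) (fun v h0 h1 h2 => charCoeff_supp v h0 h1 h2)
    rw [charCoeff_zero_one hT, charCoeff_zero_neg_one hT] at h
    have h2 : (1 : ℂ) + 1 * (-1 : ℂ) ^ (-(4 : ℤ)) = 2 := by norm_num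
    rw [h2] at h
    have h3 := h.const_mul (1 / 2 : ℂ)
    have h4 : (1 / 2 : ℂ) * 2 = 1 := by norm_num
    rw [h4] at h3
    exact h3
  refine ⟨E, hEholo, hEsmul, hElim, hEbdd, ?_⟩
  have hFslash : ∀ g ∈ Gamma0 N, (fun τ => E τ ^ m) ∣[(4 : ℤ) * (m : ℤ)] g = fun τ => E τ ^ m := by
    intro g hg
    rw [pow_slash]
    funext τ
    rw [ModularForm.SL_slash_apply]
    have h := hEsmul ⟨g, hg⟩ τ
    rw [h]
    have h1 : ((φ ⟨g, hg⟩ : ℂ)) ^ m = 1 := by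
      have := congrArg (fun u : ℂˣ => (u : ℂ)) (hφm ⟨g, hg⟩)
      simpa using this
    have hd : denom g τ ≠ 0 := denom_ne_zero _ τ
    have h4 : denom g τ ^ (-(4 : ℤ)) = (denom g τ ^ (4 : ℕ))⁻¹ := by
      rw [_root_.zpow_neg]
      norm_cast
    rw [h4]
    have h5 : (φ ⟨g, hg⟩ : ℂ) * denom g τ ^ 4 * E τ * (denom g τ ^ 4)⁻¹
        = (φ ⟨g, hg⟩ : ℂ) * E τ := by
      field_simp
    rw [h5, mul_pow, h1, one_mul]
  refine ⟨{ toFun := fun τ => E τ ^ m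
            slash_action_eq' := ?_
            holo' := hEholo.pow m
            bdd_at_cusps' := ?_ }, fun τ => rfl⟩
  · intro γ hγ
    obtain ⟨g, hg, rfl⟩ := hγ
    exact hFslash g hg
  · intro c hc'
    rw [Subgroup.IsArithmetic.isCusp_iff_isCusp_SL2Z] at hc'
    rw [OnePoint.isBoundedAt_iff_forall_SL2Z hc']
    intro A _
    rw [pow_slash]
    exact isBoundedAtImInfty_pow (hEbdd A) m

end Fermat.Agent.S30.EisChar
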