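/-
S30 ENGINE — ASSEMBLY (helper100; for row 218 `Engine.Assembly`, captain helper210).

`assemble`: the statement of S30 for one `(N, p, S, 𝒪', χ)` from `D : ESData N p`, a ring hom
`ι : ℤ_[p] →+* 𝒪'`, and the outputs of the engine rows
  * 214 `Engine.Eigen`   (`eigenLattice D S χ ≠ ⊥`),
  * 215 `Engine.QuadRel` (a quadratic relation for every `g` on the eigen-lattice, with
    `CycloChar.eps`),
  * 216 `Engine.ConjClifford` (`RankTwoStatement` = the statement of `exists_rank_two_rep`).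
`result_of_bricks`: the full statement of S30 from the row statements (in the exact shapes of
`S30/EnginePlan.lean`, with `CycloChar.eps` for `eps`); `ι` is `Lib.CycloChar.padicHom`.
Conclusion uses `𝒪'' := 𝒪'`.  This file does not import `EnginePlan`.
-/
import Mathlib
import Fermat.Agent.S30.EigenLattice
import Fermat.Agent.S30.CycloChar
import Fermat.Agent.Lib.CycloChar
import Fermat.Prelude.Def_GaloisRep_ComplexConjugation

set_option autoImplicit false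
open Polynomial

namespace Fermat.Agent.S30.EngineAssembly

open Fermat.Agent.S30

variable {N p : ℕ} [NeZero N] [Fact p.Prime]

/-- The shape of `ConjClifford.exists_rank_two_rep` (row 216), as a `Prop`. -/
def RankTwoStatement : Prop :=
  ∀ {O : Type} [CommRing O] [IsDomain O] [IsPrincipalIdealRing O]
    (_h2 : (2 : O) ≠ 0) {G : Type} [Group G] {M : Type} [AddCommGroup M] [Module O M]
    [Module.Free O M] [Module.Finite O M] (ρ : G →* Module.End O M) (N : Submodule O M)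
    (_hN : N ≠ ⊥) (_hst : ∀ g, ∀ m ∈ N, ρ g m ∈ N) (ε : G →* Oˣ)
    (_hrel : ∀ g, ∃ a : O, ∀ m ∈ N, ρ g (ρ g m) - a • ρ g m + ((ε g : Oˣ) : O) • m = 0)
    (c : G) (_hc : c * c = 1) (_hεc : ε c = -1),
    ∃ (V : Type) (_ : AddCommGroup V) (_ : Module O V) (_ : Module.Free O V)
      (_ : Module.Finite O V) (ρV : G →* Module.End O V),
      Module.finrank O V = 2 ∧
      (∀ g (a : O), (∀ m ∈ N, ρ g (ρ g m) - a • ρ g m + ((ε g : Oˣ) : O) • m = 0) →
        LinearMap.charpoly (ρV g) = X ^ 2 - C a * X + C ((ε g : Oˣ) : O)) ∧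
      (∀ g (I : Ideal O), (∀ m : M, ρ g m - m ∈ I • (⊤ : Submodule O M)) →
        ((ε g : Oˣ) : O) - 1 ∈ I → ∀ v : V, ρV g v - v ∈ I • (⊤ : Submodule O V))

/-- A vector of `R^r` all of whose coordinates lie in `I` lies in `I • ⊤`. -/
theorem mem_smul_top_of_forall {R : Type*} [CommRing R] {r : ℕ} (I : Ideal R) (v : Fin r → R)
    (h : ∀ i, v i ∈ I) : v ∈ I • (⊤ : Submodule R (Fin r → R)) := by
  have hv : v = ∑ i, v i • (Pi.single i (1 : R) : Fin r → R) := by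
    ext j
    simp [Finset.sum_apply, Pi.single_apply]
  rw [hv]
  exact Submodule.sum_mem _ fun i _ => Submodule.smul_mem_smul (h i) Submodule.mem_top

theorem ρR_sub_one_mulVec_mem (D : ESData N p) {R : Type*} [CommRing R] (ι : ℤ_[p] →+* R)
    (I : Ideal R) (σ : GQ) (h : ∀ i j, ι ((D.ρ σ - 1) i j) ∈ I) (m : Fin D.r → R) :
    D.ρEnd ι σ m - m ∈ I • (⊤ : Submodule R (Fin D.r → R)) := by
  apply mem_smul_top_of_forall
  intro i
  rw [D.ρEnd_apply, D.ρR_apply]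
  have : ((D.ρ σ).map ι).mulVec m i - m i = ∑ j, ι ((D.ρ σ - 1) i j) * m j := by
    have h1 : m i = ∑ j, (if i = j then m j else 0) := by simp
    rw [Matrix.mulVec, dotProduct]
    conv_lhs => rw [h1]
    rw [← Finset.sum_sub_distrib]
    refine Finset.sum_congr rfl fun j _ => ?_
    simp only [Matrix.map_apply, Matrix.sub_apply, Matrix.one_apply, map_sub]
    split_ifs <;> simp [sub_mul]
  rw [Pi.sub_apply, this]
  exact Ideal.sum_mem _ fun j _ => Ideal.mul_mem_right _ _ (h i j)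

/-- **Engine assembly**: the statement of S30 for `(N, p, S, 𝒪', χ)` from `ESData` and the
engine bricks. -/
theorem assemble (D : ESData N p) (S : Finset ℕ) (hpS : p ∈ S)
    (𝒪' : Type) [CommRing 𝒪'] [IsDomain 𝒪'] [IsDiscreteValuationRing 𝒪']
    [IsAdicComplete (IsLocalRing.maximalIdeal 𝒪') 𝒪'] [Finite (IsLocalRing.ResidueField 𝒪')]
    [CharZero 𝒪'] (hp𝒪' : (p : 𝒪') ∈ IsLocalRing.maximalIdeal 𝒪')
    (χ : CuspForm.heckeAlgebra N 2 (↑S : Set ℕ) →+* 𝒪')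
    (ι : ℤ_[p] →+* 𝒪')
    (hN : eigenLattice D S χ ≠ ⊥)
    (hquad : ∀ g : GQ, ∃ a : 𝒪', ∀ m ∈ eigenLattice D S χ,
      (D.ρR ι g).mulVec ((D.ρR ι g).mulVec m) - a • (D.ρR ι g).mulVec m
        + ι ((CycloChar.eps p g : ℤ_[p]ˣ) : ℤ_[p]) • m = 0)
    (hCC : RankTwoStatement) :
    ∃ (𝒪'' : Type) (_ : CommRing 𝒪'') (_ : IsDomain 𝒪'') (_ : IsDiscreteValuationRing 𝒪'')
        (_ : IsAdicComplete (IsLocalRing.maximalIdeal 𝒪'') 𝒪'')
        (_ : Finite (IsLocalRing.ResidueField 𝒪'')) (_ : CharZero 𝒪'')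
        (_ : Algebra 𝒪' 𝒪'') (_ : Module.Finite 𝒪' 𝒪'') (_ : IsLocalHom (algebraMap 𝒪' 𝒪'')),
      Function.Injective (algebraMap 𝒪' 𝒪'') ∧
      ∃ ρ : GaloisRepAdic 𝒪'',
        (∀ (ℓ : ℕ) (hℓ : ℓ.Prime) (hℓN : ¬ ℓ ∣ N) (hℓS : ℓ ∉ (↑S : Set ℕ)),
          ∀ A : ValuationSubring (AlgebraicClosure ℚ), A.LiesOverPrime ℓ →
            ∀ σ : AlgebraicClosure ℚ ≃ₐ[ℚ] AlgebraicClosure ℚ, A.IsFrobeniusAt σ ℓ →
              LinearMap.charpoly (ρ.ρ σ) =
                X ^ 2 - C (algebraMap 𝒪' 𝒪'' (χ (CuspForm.heckeAlgebra.T hℓ hℓN hℓS))) * X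
                  + C ((ℓ : 𝒪''))) ∧
        (∀ q : ℕ, q.Prime → ¬ q ∣ N → q ≠ p → ρ.IsUnramifiedAt q) := by
  classical
  -- the data for the rank-two statement
  have h2 : (2 : 𝒪') ≠ 0 := two_ne_zero
  have hst : ∀ g : GQ, ∀ m ∈ eigenLattice D S χ, D.ρEnd ι g m ∈ eigenLattice D S χ := by
    intro g m hm
    rw [D.ρEnd_apply]
    exact eigenLattice_stable D S ι χ g hm
  have hrel : ∀ g : GQ, ∃ a : 𝒪', ∀ m ∈ eigenLattice D S χ,
      D.ρEnd ι g (D.ρEnd ι g m) - a • D.ρEnd ι g m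
        + ((CycloChar.epsO p ι g : 𝒪'ˣ) : 𝒪') • m = 0 := by
    intro g
    obtain ⟨a, ha⟩ := hquad g
    refine ⟨a, fun m hm => ?_⟩
    rw [D.ρEnd_apply, D.ρEnd_apply, CycloChar.epsO_apply]
    exact ha m hm
  obtain ⟨V, iV1, iV2, iV3, iV4, ρV, hrank, hchar, hcong⟩ :=
    hCC h2 (D.ρEnd ι) (eigenLattice D S χ) hN hst (CycloChar.epsO p ι) hrel
      complexConjugation complexConjugation_mul_self (CycloChar.epsO_complexConjugation p ι)
  have hpow_le : ∀ n : ℕ, Ideal.span {(p : 𝒪') ^ n} ≤ IsLocalRing.maximalIdeal 𝒪' ^ n := by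
    intro n
    rw [Ideal.span_singleton_le_iff_mem]
    exact Ideal.pow_mem_pow hp𝒪' n
  have hmap : ∀ (n : ℕ) (x : ℤ_[p]), x ∈ Ideal.span {(p : ℤ_[p]) ^ n} →
      ι x ∈ Ideal.span {(p : 𝒪') ^ n} := by
    intro n x hx
    obtain ⟨y, rfl⟩ := Ideal.mem_span_singleton.mp hx
    rw [map_mul, map_pow, map_natCast]
    exact Ideal.mem_span_singleton.mpr (dvd_mul_right _ _)
  -- continuity
  have hcont : GaloisActionIsAdicContinuous 𝒪' ρV := by
    intro n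
    obtain ⟨L1, hL1, h1⟩ := D.cont n
    obtain ⟨L2, hL2, h2'⟩ := CycloChar.eps_cont p n
    refine ⟨L1 ⊔ L2, IntermediateField.finiteDimensional_sup L1 L2, ?_⟩
    intro σ hσ v
    have hσ1 : ∀ x ∈ L1, σ x = x := fun x hx => hσ x ((le_sup_left : L1 ≤ L1 ⊔ L2) hx)
    have hσ2 : ∀ x ∈ L2, σ x = (1 : GQ) x := fun x hx =>
      hσ x ((le_sup_right : L2 ≤ L1 ⊔ L2) hx)
    refine hcong σ (IsLocalRing.maximalIdeal 𝒪' ^ n) ?_ ?_ v
    · intro m
      refine ρR_sub_one_mulVec_mem D ι _ σ ?_ m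
      intro i j
      exact hpow_le n (hmap n _ (h1 σ hσ1 i j))
    · have h3 := hmap n _ (h2' σ 1 hσ2)
      rw [map_one, Units.val_one, map_sub, map_one] at h3
      rw [CycloChar.epsO_apply]
      exact hpow_le n h3
  let ρ : GaloisRepAdic 𝒪' :=
    { V := V
      finrank_eq := hrank
      ρ := ρV
      isAdicContinuous := hcont }
  refine ⟨𝒪', inferInstance, inferInstance, inferInstance, inferInstance, inferInstance,
    inferInstance, Algebra.id 𝒪', Module.Finite.self 𝒪', ?_, Function.injective_id, ρ, ?_, ?_⟩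
  · exact isLocalHom_id 𝒪'
  · -- Frobenius characteristic polynomials
    intro ℓ hℓ hℓN hℓS A hA σ hσ
    have hℓp : ℓ ≠ p := by
      rintro rfl
      exact hℓS (Finset.mem_coe.mpr hpS)
    have hes := D.es ℓ hℓ hℓN hℓp A hA σ hσ
    have hes' : D.ρR ι σ * D.ρR ι σ - D.tR 𝒪' ℓ * D.ρR ι σ
        + (ℓ : Matrix (Fin D.r) (Fin D.r) 𝒪') = 0 := by
      have h3 := congrArg (ι.mapMatrix : Matrix (Fin D.r) (Fin D.r) ℤ_[p] →+*
        Matrix (Fin D.r) (Fin D.r) 𝒪') hes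
      have h4 : ι.mapMatrix ((D.t ℓ).map (Int.castRingHom ℤ_[p])) = D.tR 𝒪' ℓ := by
        ext i j
        simp [ESData.tR, Matrix.map_apply]
      have h5 : ι.mapMatrix (D.ρ σ) = D.ρR ι σ := rfl
      rw [map_add, map_sub, map_mul, map_mul, map_natCast, map_zero, h4, h5] at h3
      exact h3
    have hrelσ : ∀ m ∈ eigenLattice D S χ,
        D.ρEnd ι σ (D.ρEnd ι σ m) - χ (CuspForm.heckeAlgebra.T hℓ hℓN hℓS) • D.ρEnd ι σ m
          + ((CycloChar.epsO p ι σ : 𝒪'ˣ) : 𝒪') • m = 0 := by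
      intro m hm
      rw [D.ρEnd_apply, D.ρEnd_apply, CycloChar.epsO_frobenius p ι hℓ hℓp A hA σ hσ]
      have hm' := eigenLattice_stable D S ι χ σ hm
      have h6 := hm' ℓ hℓ hℓN hℓS
      have h7 := congrArg (fun M : Matrix (Fin D.r) (Fin D.r) 𝒪' => M.mulVec m) hes'
      simp only [Matrix.add_mulVec, Matrix.sub_mulVec, Matrix.zero_mulVec,
        ← Matrix.mulVec_mulVec] at h7
      rw [h6] at h7
      rw [← h7]
      congr 1
      ext i
      simp [Matrix.mulVec, dotProduct, Matrix.natCast_apply, Pi.smul_apply]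
    have h8 := hchar σ _ hrelσ
    rw [CycloChar.epsO_frobenius p ι hℓ hℓp A hA σ hσ] at h8
    exact h8
  · -- unramified outside `N p`
    intro q hq hqN hqp P hP σ hσ
    have h1 : D.ρ σ = 1 := D.unr q hq hqN hqp P hP σ hσ
    have h9 : ∀ v : V, ρV σ v - v ∈ (⊥ : Ideal 𝒪') • (⊤ : Submodule 𝒪' V) := by
      refine hcong σ ⊥ ?_ ?_
      · intro m
        refine ρR_sub_one_mulVec_mem D ι _ σ ?_ m
        intro i j
        rw [h1, sub_self, Matrix.zero_apply, map_zero]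
        exact Ideal.zero_mem _
      · rw [CycloChar.epsO_inertia p ι hq hqp P hP σ hσ, Units.val_one, sub_self]
        exact Ideal.zero_mem _
    refine LinearMap.ext fun v => ?_
    have h10 := h9 v
    rw [Submodule.bot_smul, Submodule.mem_bot, sub_eq_zero] at h10
    exact h10

/-- The statement of row 214 `Engine.Eigen`, as a `Prop`. -/
def EigenStatement : Prop :=
  ∀ {N p : ℕ} [NeZero N] [Fact p.Prime] (D : ESData N p) (S : Finset ℕ) (_hpS : p ∈ S)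
    (_hNS : ∀ q : ℕ, q.Prime → q ∣ N → q ∈ S) {R : Type} [CommRing R] [IsDomain R] [CharZero R]
    (χ : CuspForm.heckeAlgebra N 2 (↑S : Set ℕ) →+* R), eigenLattice D S χ ≠ ⊥

/-- The statement of row 215 `Engine.QuadRel` (with `CycloChar.eps`), as a `Prop`. -/
def QuadRelStatement : Prop :=
  ∀ {N p : ℕ} [NeZero N] [Fact p.Prime] (D : ESData N p) (S : Finset ℕ) (_hpS : p ∈ S)
    (_hNS : ∀ q : ℕ, q.Prime → q ∣ N → q ∈ S)
    (𝒪' : Type) [CommRing 𝒪'] [IsDomain 𝒪'] [IsDiscreteValuationRing 𝒪']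
    [IsAdicComplete (IsLocalRing.maximalIdeal 𝒪') 𝒪'] [CharZero 𝒪']
    (_hp : (p : 𝒪') ∈ IsLocalRing.maximalIdeal 𝒪') (ι : ℤ_[p] →+* 𝒪')
    (χ : CuspForm.heckeAlgebra N 2 (↑S : Set ℕ) →+* 𝒪') (g : GQ),
    ∃ a : 𝒪', ∀ m ∈ eigenLattice D S χ,
      (D.ρR ι g).mulVec ((D.ρR ι g).mulVec m) - a • (D.ρR ι g).mulVec m
        + ι ((CycloChar.eps p g : ℤ_[p]ˣ) : ℤ_[p]) • m = 0

/-- **The statement of S30 from `ESData` and the engine rows.** -/
theorem result_of_bricks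
    (hES : ∀ (N p : ℕ) [NeZero N] [Fact p.Prime], Nonempty (ESData N p))
    (hEigen : EigenStatement) (hQuad : QuadRelStatement) (hCC : RankTwoStatement) :
    ∀ (p : ℕ) [Fact p.Prime] (N : ℕ) [NeZero N] (S : Finset ℕ)
      (_hpS : p ∈ S) (_hNS : ∀ q : ℕ, q.Prime → q ∣ N → q ∈ S)
      (𝒪' : Type) [CommRing 𝒪'] [IsDomain 𝒪'] [IsDiscreteValuationRing 𝒪']
      [IsAdicComplete (IsLocalRing.maximalIdeal 𝒪') 𝒪'] [Finite (IsLocalRing.ResidueField 𝒪')]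
      [CharZero 𝒪'] (_hp𝒪' : (p : 𝒪') ∈ IsLocalRing.maximalIdeal 𝒪')
      (χ : CuspForm.heckeAlgebra N 2 (↑S : Set ℕ) →+* 𝒪'),
      ∃ (𝒪'' : Type) (_ : CommRing 𝒪'') (_ : IsDomain 𝒪'') (_ : IsDiscreteValuationRing 𝒪'')
        (_ : IsAdicComplete (IsLocalRing.maximalIdeal 𝒪'') 𝒪'')
        (_ : Finite (IsLocalRing.ResidueField 𝒪'')) (_ : CharZero 𝒪'')
        (_ : Algebra 𝒪' 𝒪'') (_ : Module.Finite 𝒪' 𝒪'') (_ : IsLocalHom (algebraMap 𝒪' 𝒪'')),
      Function.Injective (algebraMap 𝒪' 𝒪'') ∧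
      ∃ ρ : GaloisRepAdic 𝒪'',
        (∀ (ℓ : ℕ) (hℓ : ℓ.Prime) (hℓN : ¬ ℓ ∣ N) (hℓS : ℓ ∉ (↑S : Set ℕ)),
          ∀ A : ValuationSubring (AlgebraicClosure ℚ), A.LiesOverPrime ℓ →
            ∀ σ : AlgebraicClosure ℚ ≃ₐ[ℚ] AlgebraicClosure ℚ, A.IsFrobeniusAt σ ℓ →
              LinearMap.charpoly (ρ.ρ σ) =
                X ^ 2 - C (algebraMap 𝒪' 𝒪'' (χ (CuspForm.heckeAlgebra.T hℓ hℓN hℓS))) * X
                  + C ((ℓ : 𝒪''))) ∧
        (∀ q : ℕ, q.Prime → ¬ q ∣ N → q ≠ p → ρ.IsUnramifiedAt q) := by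
  intro p _ N _ S hpS hNS 𝒪' _ _ _ _ _ _ hp𝒪' χ
  obtain ⟨D⟩ := hES N p
  let ι : ℤ_[p] →+* 𝒪' := Fermat.Agent.Lib.CycloChar.padicHom p (IsLocalRing.maximalIdeal 𝒪') hp𝒪'
  exact assemble D S hpS 𝒪' hp𝒪' χ ι (hEigen D S hpS hNS χ)
    (fun g => hQuad D S hpS hNS 𝒪' hp𝒪' ι χ g) hCC

end Fermat.Agent.S30.EngineAssembly
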