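/-
S30 ENGINE — PLAN / SKELETON (helper210, captain).  Statements only; every `sorry` here is a task
row in the team `tasks` table.  Real proofs live in their own files/namespaces (given in each
docstring) and must NOT import this file.  Never import this file from a graded `SNN.lean`.
-/
import Mathlib
import Fermat.Agent.S30.EigenLattice
import Fermat.Prelude.Def_GaloisRep_ComplexConjugation

set_option autoImplicit false
open Polynomial

namespace Fermat.Agent.S30.EnginePlan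

open Fermat.Agent.S30

variable {N p : ℕ} [NeZero N] [Fact p.Prime]

/-! ### Row Engine.PadicHom — file `Fermat/Agent/S30/PadicHom.lean`, ns `Fermat.Agent.S30.PadicHom` -/

theorem exists_padicInt_ringHom (p : ℕ) [Fact p.Prime] (𝒪' : Type) [CommRing 𝒪'] [IsDomain 𝒪']
    [IsDiscreteValuationRing 𝒪'] [IsAdicComplete (IsLocalRing.maximalIdeal 𝒪') 𝒪']
    (hp : (p : 𝒪') ∈ IsLocalRing.maximalIdeal 𝒪') : Nonempty (ℤ_[p] →+* 𝒪') := sorry

/-! ### Row Engine.CycloChar — file `Fermat/Agent/S30/CycloChar.lean`, ns `Fermat.Agent.S30.CycloChar`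
(owner helper91; stand-in statements, his report #1701 is authoritative) -/

noncomputable def eps (p : ℕ) [Fact p.Prime] : GQ →* ℤ_[p]ˣ := sorry

theorem eps_frobenius (p : ℕ) [Fact p.Prime] {ℓ : ℕ} (hℓ : ℓ.Prime) (hℓp : ℓ ≠ p)
    (A : ValuationSubring (AlgebraicClosure ℚ)) (hA : A.LiesOverPrime ℓ) (σ : GQ)
    (hσ : A.IsFrobeniusAt σ ℓ) : ((eps p σ : ℤ_[p]ˣ) : ℤ_[p]) = (ℓ : ℤ_[p]) := sorry

theorem eps_inertia (p : ℕ) [Fact p.Prime] {q : ℕ} (hq : q.Prime) (hqp : q ≠ p)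
    (P : ValuationSubring (AlgebraicClosure ℚ)) (hP : P.LiesOverPrime q) (σ : GQ)
    (hσ : σ ∈ P.inertiaSubgroupIn ℚ) : eps p σ = 1 := sorry

theorem eps_complexConjugation (p : ℕ) [Fact p.Prime] : eps p complexConjugation = -1 := sorry

theorem eps_cont (p : ℕ) [Fact p.Prime] (n : ℕ) :
    ∃ L : IntermediateField ℚ (AlgebraicClosure ℚ), FiniteDimensional ℚ L ∧
      ∀ σ τ : GQ, (∀ x ∈ L, σ x = τ x) →
        ((eps p σ : ℤ_[p]ˣ) : ℤ_[p]) - ((eps p τ : ℤ_[p]ˣ) : ℤ_[p])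
          ∈ Ideal.span {(p : ℤ_[p]) ^ n} := sorry

/-! ### Row Engine.Lucas — file `Fermat/Agent/S30/Lucas.lean`, ns `Fermat.Agent.S30.Lucas` -/

theorem lucas {A R : Type*} [CommRing A] [Ring R] [Algebra A R] (x : R) (a c : A)
    (h : x * x - a • x + c • (1 : R) = 0) (b : ℕ) :
    ∃ s : A, x ^ b * x ^ b - s • x ^ b + (c ^ b) • (1 : R) = 0 := sorry

/-! ### Row Engine.Eigen — file `Fermat/Agent/S30/Eigen.lean`, ns `Fermat.Agent.S30.Eigen`
The eigen-lattice of a character of the Hecke algebra is nonzero (uses `D.occ`, `D.t_comm`). -/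

theorem eigenLattice_ne_bot (D : ESData N p) (S : Finset ℕ) (hpS : p ∈ S)
    (hNS : ∀ q : ℕ, q.Prime → q ∣ N → q ∈ S) {R : Type} [CommRing R] [IsDomain R] [CharZero R]
    (χ : CuspForm.heckeAlgebra N 2 (↑S : Set ℕ) →+* R) : eigenLattice D S χ ≠ ⊥ := sorry

/-! ### Row Lib.FrobeniusDensity — file `Fermat/Agent/Lib/FrobeniusDensity.lean`,
ns `Fermat.Agent.Lib.FrobeniusDensity` (owners helper56 + helper269) -/

theorem exists_frobenius_pow_eq (L : IntermediateField ℚ (AlgebraicClosure ℚ))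
    [FiniteDimensional ℚ L] (S : Finset ℕ) (g : GQ) :
    ∃ (ℓ : ℕ) (A : ValuationSubring (AlgebraicClosure ℚ)) (s : GQ) (b : ℕ),
      ℓ.Prime ∧ ℓ ∉ S ∧ A.LiesOverPrime ℓ ∧ A.IsFrobeniusAt s ℓ ∧ 0 < b ∧
        ∀ x ∈ L, (s ^ b) x = g x := sorry

/-! ### Row Engine.QuadRel — file `Fermat/Agent/S30/QuadRel.lean`, ns `Fermat.Agent.S30.QuadRel`
Every `g` satisfies a quadratic relation on the eigen-lattice
(Frobenius density + `D.es` + Lucas + `D.cont` + `eps_cont` + limit/valuation argument). -/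

theorem exists_quadratic_relation (D : ESData N p) (S : Finset ℕ) (hpS : p ∈ S)
    (hNS : ∀ q : ℕ, q.Prime → q ∣ N → q ∈ S)
    (𝒪' : Type) [CommRing 𝒪'] [IsDomain 𝒪'] [IsDiscreteValuationRing 𝒪']
    [IsAdicComplete (IsLocalRing.maximalIdeal 𝒪') 𝒪'] [CharZero 𝒪']
    (hp : (p : 𝒪') ∈ IsLocalRing.maximalIdeal 𝒪') (ι : ℤ_[p] →+* 𝒪')
    (χ : CuspForm.heckeAlgebra N 2 (↑S : Set ℕ) →+* 𝒪') (g : GQ) :
    ∃ a : 𝒪', ∀ m ∈ eigenLattice D S χ,
      (D.ρR ι g).mulVec ((D.ρR ι g).mulVec m) - a • (D.ρR ι g).mulVec m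
        + ι ((eps p g : ℤ_[p]ˣ) : ℤ_[p]) • m = 0 := sorry

/-! ### Row Engine.ConjClifford — file `Fermat/Agent/S30/ConjClifford.lean`,
ns `Fermat.Agent.S30.ConjClifford` (owner helper109, report #1644) -/

theorem exists_rank_two_rep {O : Type} [CommRing O] [IsDomain O] [IsPrincipalIdealRing O]
    (h2 : (2 : O) ≠ 0) {G : Type} [Group G] {M : Type} [AddCommGroup M] [Module O M]
    [Module.Free O M] [Module.Finite O M] (ρ : G →* Module.End O M) (N : Submodule O M)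
    (hN : N ≠ ⊥) (hst : ∀ g, ∀ m ∈ N, ρ g m ∈ N) (ε : G →* Oˣ)
    (hrel : ∀ g, ∃ a : O, ∀ m ∈ N, ρ g (ρ g m) - a • ρ g m + ((ε g : Oˣ) : O) • m = 0)
    (c : G) (hc : c * c = 1) (hεc : ε c = -1) :
    ∃ (V : Type) (_ : AddCommGroup V) (_ : Module O V) (_ : Module.Free O V)
      (_ : Module.Finite O V) (ρV : G →* Module.End O V),
      Module.finrank O V = 2 ∧
      (∀ g (a : O), (∀ m ∈ N, ρ g (ρ g m) - a • ρ g m + ((ε g : Oˣ) : O) • m = 0) →
        LinearMap.charpoly (ρV g) = X ^ 2 - C a * X + C ((ε g : Oˣ) : O)) ∧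
      (∀ g (I : Ideal O), (∀ m : M, ρ g m - m ∈ I • (⊤ : Submodule O M)) →
        ((ε g : Oˣ) : O) - 1 ∈ I → ∀ v : V, ρV g v - v ∈ I • (⊤ : Submodule O V)) := sorry

/-! ### Row Engine.Assembly — file `Fermat/Agent/S30/Engine.lean` (owner helper210):
the statement of S30 from `ESData`. -/

theorem result_of_esData (hES : ∀ (N p : ℕ) [NeZero N] [Fact p.Prime], Nonempty (ESData N p)) :
    ∀ (p : ℕ) [Fact p.Prime] (N : ℕ) [NeZero N] (S : Finset ℕ)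
      (_hpS : p ∈ S) (_hNS : ∀ q : ℕ, q.Prime → q ∣ N → q ∈ S)
      (𝒪' : Type) [CommRing 𝒪'] [IsDomain 𝒪'] [IsDiscreteValuationRing 𝒪']
      [IsAdicComplete (IsLocalRing.maximalIdeal 𝒪') 𝒪'] [Finite (IsLocalRing.ResidueField 𝒪')]
      [CharZero 𝒪'] (_hp𝒪' : (p : 𝒪') ∈ IsLocalRing.maximalIdeal 𝒪')
      (χ : CuspForm.heckeAlgebra N 2 (↑S : Set ℕ) →+* 𝒪'),
      ∃ (𝒪'' : Type) (_ : CommRing 𝒪'') (_ : IsDomain 𝒪'') (_ : IsDiscreteValuationRing 𝒪'')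
        (_ : IsAdicComplete (IsLocalRing.maximalIdeal 𝒪'') 𝒪'')
        (_ : Finite (IsLocalRing.ResidueField 𝒪'')) (_ : CharZero 𝒪'')
        (_ : Algebra 𝒪' 𝒪'') (_ : Module.Finite 𝒪' 𝒪'') (_ : IsLocalHom (algebraMap 𝒪' 𝒪'')),
      Function.Injective (algebraMap 𝒪' 𝒪'') ∧
      ∃ ρ : GaloisRepAdic 𝒪'',
        (∀ (ℓ : ℕ) (hℓ : ℓ.Prime) (hℓN : ¬ ℓ ∣ N) (hℓS : ℓ ∉ (↑S : Set ℕ)),
          ∀ A : ValuationSubring (AlgebraicClosure ℚ), A.LiesOverPrime ℓ →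
            ∀ σ : AlgebraicClosure ℚ ≃ₐ[ℚ] AlgebraicClosure ℚ, A.IsFrobeniusAt σ ℓ →
              LinearMap.charpoly (ρ.ρ σ) =
                X ^ 2 - C (algebraMap 𝒪' 𝒪'' (χ (CuspForm.heckeAlgebra.T hℓ hℓN hℓS))) * X
                  + C ((ℓ : 𝒪''))) ∧
        (∀ q : ℕ, q.Prime → ¬ q ∣ N → q ≠ p → ρ.IsUnramifiedAt q) := sorry

end Fermat.Agent.S30.EnginePlan
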