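import Fermat.Agent.S30.KummerConverse
import Fermat.Agent.S30.KummerHecke
import Fermat.Agent.S30.KummerChar.Main

set_option autoImplicit false
set_option linter.dupNamespace false

/-!
# `T_ℓ` preserves `m ∣ div` (analytic route)

`m ∣ div f` gives a Kummer root `H` of `f` whose character `χ` is trivial on elliptic and
(±) parabolic elements (`KummerChar.exists_kummerChar`); `T_ℓ f` has a Kummer root with character
the transfer `γ ↦ ∏_x χ (coc γ x)` (`KummerHecke`); if the transfer is again trivial on elliptic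
and parabolic elements (the *cycle lemma*, hypothesis `TransferTrivial` below), the Kummer converse
gives `m ∣ div (T_ℓ f)`.
-/

noncomputable section

open scoped MatrixGroups
open AlgebraicCurve UpperHalfPlane ModularCurve CongruenceSubgroup HahnSeries
open Fermat.Agent.S24.HolH Fermat.Agent.S24.Theta Fermat.Agent.S24.Modular

namespace Fermat.Agent.S30.KummerHeckeDiv

open Fermat.Agent.S30.KummerChar Fermat.Agent.S30.KummerHecke Fermat.Agent.S30.KummerConverse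
open Fermat.Agent.S30.BettiHecke

/-- The **cycle lemma** for the transfer of `T_ℓ` on `Γ₀(N)`: if a character of `Γ₀(N)` is trivial
on the elements with a fixed point in `ℍ` and on the elements `± g T^n g⁻¹`, then so is its
transfer `γ ↦ ∏_x χ (coc γ x)` (on elements with a fixed point and on `g T^n g⁻¹`). -/
def TransferTrivial (N ℓ : ℕ) [NeZero ℓ] (hℓ : ℓ.Prime) (hℓN : ¬ ℓ ∣ N) : Prop :=
  ∀ χ : ↥(Gamma0 N) →* ℂˣ,
    (∀ γ : ↥(Gamma0 N), (∃ τ : ℍ, (γ : SL(2, ℤ)) • τ = τ) → χ γ = 1) →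
    (∀ (γ : ↥(Gamma0 N)) (g : SL(2, ℤ)) (n : ℤ),
      (γ : SL(2, ℤ)) = g * ModularGroup.T ^ n * g⁻¹ → χ γ = 1) →
    (∀ (γ : ↥(Gamma0 N)) (g : SL(2, ℤ)) (n : ℤ),
      (γ : SL(2, ℤ)) = -(g * ModularGroup.T ^ n * g⁻¹) → χ γ = 1) →
    ∀ γ : ↥(Gamma0 N),
      ((∃ τ : ℍ, (γ : SL(2, ℤ)) • τ = τ) ∨
        ∃ (g : SL(2, ℤ)) (n : ℤ), (γ : SL(2, ℤ)) = g * ModularGroup.T ^ n * g⁻¹) →
      ∏ x : OnePoint (ZMod ℓ), χ (coc hℓ hℓN γ x) = 1

variable {N : ℕ} [NeZero N] {m : ℕ}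

/-- **`T_ℓ` preserves `m ∣ div`** (`0 < m`), given the cycle lemma. -/
theorem divBy_heckeFN (hm : 0 < m) {ℓ : ℕ} [NeZero ℓ] (hℓ : ℓ.Prime) (hℓN : ¬ ℓ ∣ N)
    (htr : TransferTrivial N ℓ hℓ hℓN) {z : Kbarˣ} (hz : IsPrimitiveRoot z ℓ) {f : FN N}
    (hf : f ≠ 0) (hdiv : E4.DivBy N m f) : E4.DivBy N m (heckeFN hℓ hℓN hz f) := by
  obtain ⟨a, b, hb, hab⟩ := exists_mul_eq f
  have hb0 : b ≠ 0 := fun h0 => hb (congrArg (fun y : A0 N => (y : FN N)) h0)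
  have ha0 : a ≠ 0 := ne_zero_of_mul_eq hf hb0 hab
  have hdiv' := dvd_ord_sub_of_mul_eq hf hb0 hab hdiv
  obtain ⟨H, χ, hH0, hroot, hcomp, -, hell, hpar, hnpar⟩ :=
    exists_kummerChar iotaBar hm ha0 hb0 hdiv'
  have hχ : ∀ γ : ↥(Gamma0 N), mult (γ : SL(2, ℤ)) H = ((χ γ : ℂˣ) : ℂ) :=
    fun γ => mult_eq_of_eq hH0 (hcomp γ)
  obtain ⟨a', b', H', ha', hb', e, hroot', hmult⟩ :=
    exists_isKummerRoot_heckeFN hm hℓ hℓN hz ha0 hb0 hroot
  have key : ∀ γ : ↥(Gamma0 N),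
      ((∃ τ : ℍ, (γ : SL(2, ℤ)) • τ = τ) ∨
        ∃ (g : SL(2, ℤ)) (n : ℤ), (γ : SL(2, ℤ)) = g * ModularGroup.T ^ n * g⁻¹) →
      mult (γ : SL(2, ℤ)) H' = 1 := by
    intro γ hP
    have h1 := htr χ hell hpar hnpar γ hP
    rw [hmult γ]
    simp_rw [hχ]
    rw [← Units.coe_prod, h1, Units.val_one]
  have hfab : f = (a : FN N) / (b : FN N) := by rw [← hab, mul_div_cancel_right₀ _ hb]
  rw [hfab]
  exact divBy_of_isKummerRoot hm ha' hb' hroot'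
    (fun γ hγ hfix => key ⟨γ, hγ⟩ (Or.inl hfix))
    (fun γ hγ g n hg => key ⟨γ, hγ⟩ (Or.inr ⟨g, n, hg⟩)) _ e

/-- The same for every `m` (including `m = 0`). -/
theorem divBy_heckeFN' {ℓ : ℕ} [NeZero ℓ] (hℓ : ℓ.Prime) (hℓN : ¬ ℓ ∣ N)
    (htr : TransferTrivial N ℓ hℓ hℓN) {z : Kbarˣ} (hz : IsPrimitiveRoot z ℓ) (m : ℕ) {f : FN N}
    (hf : f ≠ 0) (hdiv : E4.DivBy N m f) : E4.DivBy N m (heckeFN hℓ hℓN hz f) := by
  rcases Nat.eq_zero_or_pos m with rfl | hm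
  · intro v
    -- `ord_v f = 0` everywhere, hence `k ∣ div f` for all `k > 0`
    have h0 : ∀ k : ℕ, 0 < k → E4.DivBy N k (heckeFN hℓ hℓN hz f) := by
      intro k hk
      refine divBy_heckeFN hk hℓ hℓN htr hz hf (fun w => ?_)
      have h1 := hdiv w
      rw [Nat.cast_zero, zero_dvd_iff] at h1
      rw [h1]
      exact dvd_zero _
    rw [Nat.cast_zero, zero_dvd_iff]
    set n : ℤ := v.ord (heckeFN hℓ hℓN hz f) with hn
    have h1 := h0 (n.natAbs + 1) (Nat.succ_pos _) v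
    rw [← hn] at h1
    by_contra hne
    have h2 : ((n.natAbs + 1 : ℕ) : ℤ) ≤ |n| :=
      Int.le_of_dvd (abs_pos.mpr hne) ((dvd_abs _ _).mpr h1)
    rw [Int.abs_eq_natAbs] at h2
    push_cast at h2
    omega
  · exact divBy_heckeFN hm hℓ hℓN htr hz hf hdiv

/-- **`E4.HeckeClosed`** from the cycle lemma. -/
theorem heckeClosed_of_transferTrivial {ℓ : ℕ} [NeZero ℓ] (hℓ : ℓ.Prime) (hℓN : ¬ ℓ ∣ N)
    (htr : TransferTrivial N ℓ hℓ hℓN) (z : Kbarˣ) (hz : IsPrimitiveRoot z ℓ) :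
    E4.HeckeClosed N ℓ hℓ.pos z := by
  refine ⟨fun f hf => HeckeGood.heckeMul_mem_modularFunctionFieldBar N hℓ hℓN hz hf, ?_⟩
  intro m f hf hdiv
  exact divBy_heckeFN' hℓ hℓN htr hz m hf hdiv

end Fermat.Agent.S30.KummerHeckeDiv
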