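/-
S30 ENGINE row `Engine.Lucas` (helper100): the Lucas relation in the exact shape of
`S30/EnginePlan.lean`.  The content is `CycloChar.lucas_algebra` (helper91), with the explicit
witness `s = CycloChar.lucasS a c b`.
-/
import Fermat.Agent.S30.CycloChar

set_option autoImplicit false

namespace Fermat.Agent.S30.Lucas

/-- **Lucas relation**: if `x² - a x + c = 0` in an algebra over a commutative ring `A`
(`a c : A`), then `(x^b)² - s x^b + c^b = 0` for some `s : A`. -/
theorem lucas {A R : Type*} [CommRing A] [Ring R] [Algebra A R] (x : R) (a c : A)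
    (h : x * x - a • x + c • (1 : R) = 0) (b : ℕ) :
    ∃ s : A, x ^ b * x ^ b - s • x ^ b + (c ^ b) • (1 : R) = 0 :=
  ⟨CycloChar.lucasS a c b, CycloChar.lucas_algebra x a c h b⟩

/-- The same with the explicit Lucas sequence, and compatibility with ring homomorphisms
(`CycloChar.map_lucasS`). -/
theorem lucas_explicit {A R : Type*} [CommRing A] [Ring R] [Algebra A R] (x : R) (a c : A)
    (h : x * x - a • x + c • (1 : R) = 0) (b : ℕ) :
    x ^ b * x ^ b - CycloChar.lucasS a c b • x ^ b + (c ^ b) • (1 : R) = 0 :=
  CycloChar.lucas_algebra x a c h b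

end Fermat.Agent.S30.Lucas
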