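/-
S30 producer-side algebra (helper83): the MATRIX FORM of the p-adic limit assembly.

`ModSystem N p` = a compatible system of matrix representations
`ρ n : G_ℚ →* M_r(ℤ/p^n)` with integer Hecke matrices `t ℓ`, satisfying the finite-level
versions of the `ESData` fields (Hecke hypotheses only at primes `ℓ ∤ N`, `ℓ ≠ p`).
`ModSystem.toESData` takes the entrywise `p`-adic limit.
-/
import Mathlib
import Fermat.Agent.S30.Defs
import Fermat.Agent.S30.PadicLimit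

set_option autoImplicit false

namespace Fermat.Agent.S30.ModSys

open Fermat.Agent.S30 Fermat.Agent.S30.PadicLimit

/-- A compatible system of mod `p ^ n` matrix representations with Hecke matrices. -/
structure ModSystem (N p : ℕ) [NeZero N] [Fact p.Prime] where
  /-- the rank -/
  r : ℕ
  /-- integer Hecke matrices (only the values at primes `ℓ ∤ N p` matter) -/
  t : ℕ → Matrix (Fin r) (Fin r) ℤ
  /-- the Galois action mod `p ^ n` -/
  ρ : (n : ℕ) → GQ →* Matrix (Fin r) (Fin r) (ZMod (p ^ n))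
  compat : ∀ (n : ℕ) (σ : GQ) (i j : Fin r),
    red p (Nat.le_succ n) (ρ (n + 1) σ i j) = ρ n σ i j
  t_comm : ∀ ℓ ℓ' : ℕ, ℓ.Prime → ¬ ℓ ∣ N → ℓ ≠ p → ℓ'.Prime → ¬ ℓ' ∣ N → ℓ' ≠ p →
    Commute (t ℓ) (t ℓ')
  ρ_comm : ∀ (n : ℕ) (σ : GQ) (ℓ : ℕ), ℓ.Prime → ¬ ℓ ∣ N → ℓ ≠ p →
    Commute (ρ n σ) ((t ℓ).map (Int.castRingHom (ZMod (p ^ n))))
  cont : ∀ n : ℕ, ∃ L : IntermediateField ℚ (AlgebraicClosure ℚ), FiniteDimensional ℚ L ∧
    ∀ σ : GQ, (∀ x ∈ L, σ x = x) → ρ n σ = 1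
  unr : ∀ q : ℕ, q.Prime → ¬ q ∣ N → q ≠ p →
    ∀ P : ValuationSubring (AlgebraicClosure ℚ), P.LiesOverPrime q →
      ∀ σ ∈ P.inertiaSubgroupIn ℚ, ∀ n : ℕ, ρ n σ = 1
  es : ∀ ℓ : ℕ, ℓ.Prime → ¬ ℓ ∣ N → ℓ ≠ p →
    ∀ B : ValuationSubring (AlgebraicClosure ℚ), B.LiesOverPrime ℓ →
      ∀ σ : GQ, B.IsFrobeniusAt σ ℓ → ∀ n : ℕ,
        ρ n σ * ρ n σ - (t ℓ).map (Int.castRingHom (ZMod (p ^ n))) * ρ n σ
          + (ℓ : Matrix (Fin r) (Fin r) (ZMod (p ^ n))) = 0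
  occ : ∃ Φ : CuspForm (CongruenceSubgroup.Gamma0 N) 2 →ₗ[ℂ] (Fin r → ℂ),
    Function.Injective Φ ∧
      ∀ (ℓ : ℕ) (hℓ : ℓ.Prime) (hℓN : ¬ ℓ ∣ N), ℓ ≠ p →
        ∀ f : CuspForm (CongruenceSubgroup.Gamma0 N) 2,
          Φ (CuspForm.heckeTLin 2 hℓ hℓN f) = ((t ℓ).map (Int.castRingHom ℂ)).mulVec (Φ f)

/-- Two `p`-adic matrices which agree modulo every `p ^ n` are equal. -/
theorem matrix_ext_toZModPow {p : ℕ} [Fact p.Prime] {r : ℕ}
    {M M' : Matrix (Fin r) (Fin r) ℤ_[p]}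
    (h : ∀ n : ℕ, (PadicInt.toZModPow n).mapMatrix M = (PadicInt.toZModPow n).mapMatrix M') :
    M = M' := by
  ext i j
  rw [← PadicInt.ext_of_toZModPow]
  intro n
  have := congrFun (congrFun (h n) i) j
  simpa [RingHom.mapMatrix_apply, Matrix.map_apply] using this

theorem mapMatrix_intCast_map {p : ℕ} [Fact p.Prime] {r : ℕ} (n : ℕ)
    (T : Matrix (Fin r) (Fin r) ℤ) :
    (PadicInt.toZModPow n).mapMatrix (T.map (Int.castRingHom ℤ_[p]))
      = T.map (Int.castRingHom (ZMod (p ^ n))) := by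
  ext i j
  simp [RingHom.mapMatrix_apply, Matrix.map_apply]

namespace ModSystem

variable {N p : ℕ} [NeZero N] [hp : Fact p.Prime] (S : ModSystem N p)

/-- The entries of `ρ n σ` form a compatible sequence. -/
noncomputable def entry (σ : GQ) (i j : Fin S.r) : Compat p :=
  ⟨fun n => S.ρ n σ i j, fun n => S.compat n σ i j⟩

/-- The limit matrix. -/
noncomputable def rhoMat (σ : GQ) : Matrix (Fin S.r) (Fin S.r) ℤ_[p] :=
  Matrix.of fun i j => limZp p (S.entry σ i j)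

theorem mapMatrix_rhoMat (σ : GQ) (n : ℕ) :
    (PadicInt.toZModPow n).mapMatrix (S.rhoMat σ) = S.ρ n σ := by
  ext i j
  simp [RingHom.mapMatrix_apply, Matrix.map_apply, rhoMat, entry]

/-- The limit representation. -/
noncomputable def rho : GQ →* Matrix (Fin S.r) (Fin S.r) ℤ_[p] where
  toFun := S.rhoMat
  map_one' := by
    apply matrix_ext_toZModPow
    intro n
    rw [mapMatrix_rhoMat, map_one, map_one]
  map_mul' := by
    intro σ σ'
    apply matrix_ext_toZModPow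
    intro n
    rw [map_mul, mapMatrix_rhoMat, mapMatrix_rhoMat, mapMatrix_rhoMat, map_mul]

theorem mapMatrix_rho (σ : GQ) (n : ℕ) :
    (PadicInt.toZModPow n).mapMatrix (S.rho σ) = S.ρ n σ := S.mapMatrix_rhoMat σ n

open Classical in
/-- The Hecke matrices, set to zero at the irrelevant primes. -/
noncomputable def tMat (ℓ : ℕ) : Matrix (Fin S.r) (Fin S.r) ℤ :=
  if ℓ.Prime ∧ ¬ ℓ ∣ N ∧ ℓ ≠ p then S.t ℓ else 0

theorem tMat_of {ℓ : ℕ} (h : ℓ.Prime ∧ ¬ ℓ ∣ N ∧ ℓ ≠ p) : S.tMat ℓ = S.t ℓ := by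
  simp [tMat, h]

theorem tMat_of_not {ℓ : ℕ} (h : ¬ (ℓ.Prime ∧ ¬ ℓ ∣ N ∧ ℓ ≠ p)) : S.tMat ℓ = 0 := by
  simp [tMat, h]

/-- **Matrix form of the limit assembly.** -/
noncomputable def toESData : ESData N p where
  r := S.r
  t := S.tMat
  ρ := S.rho
  t_comm := by
    intro ℓ ℓ'
    by_cases h : ℓ.Prime ∧ ¬ ℓ ∣ N ∧ ℓ ≠ p
    · by_cases h' : ℓ'.Prime ∧ ¬ ℓ' ∣ N ∧ ℓ' ≠ p
      · rw [S.tMat_of h, S.tMat_of h']
        exact S.t_comm ℓ ℓ' h.1 h.2.1 h.2.2 h'.1 h'.2.1 h'.2.2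
      · rw [S.tMat_of_not h']
        exact Commute.zero_right _
    · rw [S.tMat_of_not h]
      exact Commute.zero_left _
  ρ_comm := by
    intro σ ℓ
    by_cases h : ℓ.Prime ∧ ¬ ℓ ∣ N ∧ ℓ ≠ p
    · rw [S.tMat_of h]
      apply matrix_ext_toZModPow
      intro n
      rw [map_mul, map_mul, mapMatrix_rho, mapMatrix_intCast_map]
      exact S.ρ_comm n σ ℓ h.1 h.2.1 h.2.2
    · rw [S.tMat_of_not h, Matrix.map_zero _ (map_zero _)]
      exact Commute.zero_right _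
  cont := by
    intro n
    obtain ⟨L, hL, hσ⟩ := S.cont n
    refine ⟨L, hL, fun σ hfix i j => ?_⟩
    rw [← PadicInt.ker_toZModPow, RingHom.mem_ker]
    have h1 := S.mapMatrix_rho σ n
    rw [hσ σ hfix] at h1
    have h2 : (PadicInt.toZModPow n).mapMatrix (S.rho σ - 1) = 0 := by
      rw [map_sub, h1, map_one, sub_self]
    have h3 := congrFun (congrFun h2 i) j
    simpa [RingHom.mapMatrix_apply, Matrix.map_apply] using h3
  unr := by
    intro q hq hqN hqp P hP σ hσ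
    apply matrix_ext_toZModPow
    intro n
    rw [mapMatrix_rho, S.unr q hq hqN hqp P hP σ hσ n, map_one]
  es := by
    intro ℓ hℓ hℓN hℓp B hB σ hσ
    have h : ℓ.Prime ∧ ¬ ℓ ∣ N ∧ ℓ ≠ p := ⟨hℓ, hℓN, hℓp⟩
    rw [S.tMat_of h]
    apply matrix_ext_toZModPow
    intro n
    rw [map_add, map_sub, map_mul, map_mul, map_natCast, map_zero, mapMatrix_rho,
      mapMatrix_intCast_map]
    exact S.es ℓ hℓ hℓN hℓp B hB σ hσ n
  occ := by
    obtain ⟨Φ, hinj, hT⟩ := S.occ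
    refine ⟨Φ, hinj, fun ℓ hℓ hℓN hℓp f => ?_⟩
    have h : ℓ.Prime ∧ ¬ ℓ ∣ N ∧ ℓ ≠ p := ⟨hℓ, hℓN, hℓp⟩
    rw [S.tMat_of h]
    exact hT ℓ hℓ hℓN hℓp f

theorem nonempty_esData (S : ModSystem N p) : Nonempty (ESData N p) := ⟨S.toESData⟩

end ModSystem

end Fermat.Agent.S30.ModSys
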