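import Mathlib
import Fermat.Agent.Lib.CycloChar

/-!
# S30 engine, row `Engine.PadicHom`

A ring homomorphism `ℤ_[p] →+* 𝒪'` for a complete discrete valuation ring `𝒪'` whose maximal
ideal contains `p` (thin wrapper around `Fermat.Agent.Lib.CycloChar.padicHom`).
-/

set_option autoImplicit false

namespace Fermat.Agent.S30.PadicHom

/-- The canonical ring homomorphism `ℤ_[p] →+* 𝒪'`. -/
noncomputable def padicIntRingHom (p : ℕ) [Fact p.Prime] (𝒪' : Type) [CommRing 𝒪'] [IsDomain 𝒪']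
    [IsDiscreteValuationRing 𝒪'] [IsAdicComplete (IsLocalRing.maximalIdeal 𝒪') 𝒪']
    (hp : (p : 𝒪') ∈ IsLocalRing.maximalIdeal 𝒪') : ℤ_[p] →+* 𝒪' :=
  Fermat.Agent.Lib.CycloChar.padicHom p (IsLocalRing.maximalIdeal 𝒪') hp

/-- Row `Engine.PadicHom` (exact shape of `EnginePlan.exists_padicInt_ringHom`). -/
theorem exists_padicInt_ringHom (p : ℕ) [Fact p.Prime] (𝒪' : Type) [CommRing 𝒪'] [IsDomain 𝒪']
    [IsDiscreteValuationRing 𝒪'] [IsAdicComplete (IsLocalRing.maximalIdeal 𝒪') 𝒪']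
    (hp : (p : 𝒪') ∈ IsLocalRing.maximalIdeal 𝒪') : Nonempty (ℤ_[p] →+* 𝒪') :=
  ⟨padicIntRingHom p 𝒪' hp⟩

end Fermat.Agent.S30.PadicHom
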