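/-
S30 producer-side algebra (helper83): the p-ADIC LIMIT ASSEMBLY.

`KummerSystem N p` packages what the Kummer / Betti bricks naturally prove about the FINITE
groups `J n` (`= J_{p^n} = {f : p^n ∣ div f} / F^{× p^n}`, written additively):

* coordinates `e n : J n ≃+ (A →+ ZMod (p ^ n))` for ONE finitely generated abelian group `A`
  (`A = Γ₀(N)^ab / ⟨parabolic, elliptic⟩`; torsion in `A` is allowed), compatible with the
  transition maps `π n : J (n+1) →+ J n`,
* Hecke operators `T n ℓ` on `J n` given on coordinates by `φ ↦ φ ∘ τ ℓ` (`τ ℓ : A →+ A`),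
* a Galois action commuting with `π` and `T`, trivial on an open subgroup for every `n`,
  trivial on inertia, and satisfying `σ² - T_ℓ σ + ℓ = 0` at Frobenius elements,
* a Hecke-equivariant injection of the weight-2 cusp forms into `Hom(A, ℂ)`.

`KummerSystem.nonempty_esData` turns this into `Nonempty (ESData N p)` (the input of the S30
engine): the lattice is `Hom(A, ℤ)`, the Tate module is `lim J n = Hom(A, ℤ_p)`.
No statement about `ℤ_p` is ever needed from the producers.
-/
import Mathlib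
import Fermat.Agent.S30.Defs

set_option autoImplicit false

namespace Fermat.Agent.S30.PadicLimit

open Fermat.Agent.S30

/-! ### Part A: compatible sequences and their `p`-adic limit -/

section Compat

variable (p : ℕ) [hp : Fact p.Prime]

/-- The reduction `ZMod (p ^ n) → ZMod (p ^ m)` for `m ≤ n`. -/
abbrev red {m n : ℕ} (h : m ≤ n) : ZMod (p ^ n) →+* ZMod (p ^ m) :=
  ZMod.castHom (pow_dvd_pow p h) (ZMod (p ^ m))

/-- The ring of compatible sequences in `∏ ZMod (p ^ n)`. -/
def Compat : Subring (∀ n : ℕ, ZMod (p ^ n)) where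
  carrier := {x | ∀ n, red p (Nat.le_succ n) (x (n + 1)) = x n}
  mul_mem' := by
    intro a b ha hb n
    simp only [Set.mem_ofPred_eq] at ha hb
    simp only [Pi.mul_apply, map_mul, ha n, hb n]
  one_mem' := by
    intro n
    simp only [Pi.one_apply, map_one]
  add_mem' := by
    intro a b ha hb n
    simp only [Set.mem_ofPred_eq] at ha hb
    simp only [Pi.add_apply, map_add, ha n, hb n]
  zero_mem' := by
    intro n
    simp only [Pi.zero_apply, map_zero]
  neg_mem' := by
    intro a ha n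
    simp only [Set.mem_ofPred_eq] at ha
    simp only [Pi.neg_apply, map_neg, ha n]

omit hp in
theorem mem_compat_iff (x : ∀ n : ℕ, ZMod (p ^ n)) :
    x ∈ Compat p ↔ ∀ n, red p (Nat.le_succ n) (x (n + 1)) = x n := Iff.rfl

omit hp in
theorem compat_le (x : Compat p) {m n : ℕ} (h : m ≤ n) : red p h (x.1 n) = x.1 m := by
  induction n, h using Nat.le_induction with
  | base => simp [red]
  | succ n hmn ih =>
    have h1 := x.2 n
    rw [← ih, ← h1]
    simp only [red]
    rw [← RingHom.comp_apply, ZMod.castHom_comp]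

/-- The `p`-adic limit of a compatible sequence, as a ring hom. -/
noncomputable def limZp : Compat p →+* ℤ_[p] :=
  PadicInt.lift (f := fun k => (Pi.evalRingHom (fun n : ℕ => ZMod (p ^ n)) k).comp (Compat p).subtype)
    (by
      intro k1 k2 hk
      ext x
      simp only [RingHom.comp_apply, Pi.evalRingHom_apply, Subring.subtype_apply]
      exact compat_le p x hk)

@[simp]
theorem toZModPow_limZp (x : Compat p) (n : ℕ) : PadicInt.toZModPow n (limZp p x) = x.1 n := by
  have h := PadicInt.lift_spec (p := p)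
    (f := fun k => (Pi.evalRingHom (fun n : ℕ => ZMod (p ^ n)) k).comp (Compat p).subtype)
    (by
      intro k1 k2 hk
      ext x
      simp only [RingHom.comp_apply, Pi.evalRingHom_apply, Subring.subtype_apply]
      exact compat_le p x hk) n
  have h2 := congrArg (fun g => g x) h
  simpa [limZp] using h2

end Compat

/-! ### Part B: a dual system for a finitely generated abelian group -/

/-- A "dual system" of a (finitely generated) abelian group `A`: elements `a i` and functionals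
`b i : A →+ ℤ` with `b i (a j) = δ i j` such that `x - ∑ b i x • a i` is torsion for every `x`.
Then `b` is a `ℤ`-basis of `Hom(A, ℤ)` and every hom from `A` to a torsion-free group is
determined by its values on the `a i`. -/
structure DualSys (A : Type*) [AddCommGroup A] where
  /-- the rank -/
  r : ℕ
  /-- lifts of a basis of `A / torsion` -/
  a : Fin r → A
  /-- the dual functionals -/
  b : Fin r → (A →+ ℤ)
  b_a : ∀ i j, b i (a j) = if i = j then 1 else 0
  tors : ∀ x : A, ∃ k : ℕ, 0 < k ∧ k • (x - ∑ i, b i x • a i) = 0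

theorem nonempty_dualSys (A : Type*) [AddCommGroup A] [Module.Finite ℤ A] :
    Nonempty (DualSys A) := by
  classical
  obtain ⟨r, bas⟩ : Σ n : ℕ, Module.Basis (Fin n) ℤ (A ⧸ Submodule.torsion ℤ A) :=
    Module.basisOfFiniteTypeTorsionFree'
  have hsurj := Submodule.mkQ_surjective (Submodule.torsion ℤ A)
  choose a ha using fun i : Fin r => hsurj (bas i)
  refine ⟨⟨r, a, fun i => ((bas.coord i).comp (Submodule.torsion ℤ A).mkQ).toAddMonoidHom, ?_, ?_⟩⟩
  · intro i j
    simp only [LinearMap.toAddMonoidHom_coe, LinearMap.coe_comp, Function.comp_apply, ha,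
      Module.Basis.coord_apply, Module.Basis.repr_self, Finsupp.single_apply]
    by_cases h : i = j
    · simp [h]
    · have : ¬ j = i := fun h' => h h'.symm
      simp [h, this]
  · intro x
    have hmem : x - ∑ i, ((bas.coord i).comp (Submodule.torsion ℤ A).mkQ).toAddMonoidHom x • a i
        ∈ Submodule.torsion ℤ A := by
      rw [← Submodule.Quotient.mk_eq_zero]
      have : (Submodule.torsion ℤ A).mkQ
          (x - ∑ i, ((bas.coord i).comp (Submodule.torsion ℤ A).mkQ).toAddMonoidHom x • a i) = 0 := by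
        rw [map_sub, map_sum]
        simp only [LinearMap.toAddMonoidHom_coe, LinearMap.coe_comp, Function.comp_apply,
          map_zsmul, ha, Module.Basis.coord_apply]
        rw [Module.Basis.sum_repr, sub_self]
      exact this
    rw [Submodule.mem_torsion_iff] at hmem
    obtain ⟨⟨c, hc⟩, hcx⟩ := hmem
    have hc0 : c ≠ 0 := nonZeroDivisors.ne_zero hc
    refine ⟨c.natAbs, Int.natAbs_pos.mpr hc0, ?_⟩
    have hcx' : c • (x - ∑ i, ((bas.coord i).comp (Submodule.torsion ℤ A).mkQ).toAddMonoidHom x • a i)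
        = 0 := hcx
    rcases Int.natAbs_eq c with h | h
    · rw [h] at hcx'
      simpa using hcx'
    · rw [h] at hcx'
      simpa using hcx'

/-- Every hom from `A` to a torsion-free ring is determined by its values on the `a i`. -/
theorem DualSys.expand {A : Type*} [AddCommGroup A] (D : DualSys A) {R : Type*} [Ring R]
    [CharZero R] [NoZeroDivisors R] (ψ : A →+ R) (x : A) :
    ψ x = ∑ i, (D.b i x : R) * ψ (D.a i) := by
  obtain ⟨k, hk, hkx⟩ := D.tors x
  have h1 : ψ (k • (x - ∑ i, D.b i x • D.a i)) = 0 := by rw [hkx, map_zero]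
  rw [map_nsmul, nsmul_eq_mul, map_sub, map_sum] at h1
  have hk' : (k : R) ≠ 0 := Nat.cast_ne_zero.mpr hk.ne'
  have h2 := (mul_eq_zero.mp h1).resolve_left hk'
  rw [sub_eq_zero] at h2
  rw [h2]
  refine Finset.sum_congr rfl fun i _ => ?_
  rw [map_zsmul, zsmul_eq_mul]

/-! ### Part C: Kummer systems -/

section EndLemmas

variable {M : Type*} [AddCommGroup M]

theorem end_mul_apply (f g : AddMonoid.End M) (x : M) : (f * g) x = f (g x) := rfl

theorem end_add_apply (f g : AddMonoid.End M) (x : M) : (f + g) x = f x + g x := rfl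

theorem end_sub_apply (f g : AddMonoid.End M) (x : M) : (f - g) x = f x - g x := rfl

theorem end_neg_apply (f : AddMonoid.End M) (x : M) : (-f) x = -f x := rfl

theorem end_zero_apply (x : M) : (0 : AddMonoid.End M) x = 0 := rfl

theorem end_one_apply (x : M) : (1 : AddMonoid.End M) x = x := rfl

end EndLemmas

/-- The abstract shape of the Kummer/Betti data for level `N` and the prime `p`. All Hecke
hypotheses are only required at primes `ℓ ∤ N`, `ℓ ≠ p`. -/
structure KummerSystem (N p : ℕ) [NeZero N] [Fact p.Prime] where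
  /-- `Γ₀(N)^ab / ⟨parabolic, elliptic⟩` (any finitely generated abelian group) -/
  A : Type
  [instA : AddCommGroup A]
  [fgA : Module.Finite ℤ A]
  /-- the Hecke correspondences on `A` -/
  τ : ℕ → A →+ A
  /-- `J n = J_{p^n}`, written additively -/
  J : ℕ → Type
  [instJ : ∀ n, AddCommGroup (J n)]
  /-- the Galois action -/
  act : ∀ n, GQ →* AddMonoid.End (J n)
  /-- the Hecke operators -/
  T : ∀ n, ℕ → AddMonoid.End (J n)
  /-- the transition maps `J_{p^(n+1)} → J_{p^n}` -/
  π : ∀ n, J (n + 1) →+ J n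
  /-- the Kummer coordinates -/
  e : ∀ n, J n ≃+ (A →+ ZMod (p ^ n))
  e_π : ∀ n (x : J (n + 1)) (a : A),
    e n (π n x) a = red p (Nat.le_succ n) (e (n + 1) x a)
  e_T : ∀ n ℓ, ℓ.Prime → ¬ ℓ ∣ N → ℓ ≠ p → ∀ (x : J n) (a : A),
    e n (T n ℓ x) a = e n x (τ ℓ a)
  π_act : ∀ n (σ : GQ) (x : J (n + 1)), π n (act (n + 1) σ x) = act n σ (π n x)
  act_T : ∀ n (σ : GQ) ℓ, ℓ.Prime → ¬ ℓ ∣ N → ℓ ≠ p → ∀ x : J n,
    act n σ (T n ℓ x) = T n ℓ (act n σ x)
  T_comm : ∀ n ℓ ℓ', ℓ.Prime → ¬ ℓ ∣ N → ℓ ≠ p → ℓ'.Prime → ¬ ℓ' ∣ N → ℓ' ≠ p →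
    ∀ x : J n, T n ℓ (T n ℓ' x) = T n ℓ' (T n ℓ x)
  cont : ∀ n : ℕ, ∃ L : IntermediateField ℚ (AlgebraicClosure ℚ), FiniteDimensional ℚ L ∧
    ∀ σ : GQ, (∀ x ∈ L, σ x = x) → ∀ x : J n, act n σ x = x
  unr : ∀ q : ℕ, q.Prime → ¬ q ∣ N → q ≠ p →
    ∀ P : ValuationSubring (AlgebraicClosure ℚ), P.LiesOverPrime q →
      ∀ σ ∈ P.inertiaSubgroupIn ℚ, ∀ (n : ℕ) (x : J n), act n σ x = x
  es : ∀ ℓ : ℕ, ℓ.Prime → ¬ ℓ ∣ N → ℓ ≠ p →
    ∀ B : ValuationSubring (AlgebraicClosure ℚ), B.LiesOverPrime ℓ →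
      ∀ σ : GQ, B.IsFrobeniusAt σ ℓ → ∀ (n : ℕ) (x : J n),
        act n σ (act n σ x) - T n ℓ (act n σ x) + ℓ • x = 0
  occ : ∃ Φ : CuspForm (CongruenceSubgroup.Gamma0 N) 2 →ₗ[ℂ] (A → ℂ),
    Function.Injective Φ ∧ (∀ f x y, Φ f (x + y) = Φ f x + Φ f y) ∧
      ∀ (ℓ : ℕ) (hℓ : ℓ.Prime) (hℓN : ¬ ℓ ∣ N), ℓ ≠ p →
        ∀ (f : CuspForm (CongruenceSubgroup.Gamma0 N) 2) (x : A),
          Φ (CuspForm.heckeTLin 2 hℓ hℓN f) x = Φ f (τ ℓ x)

attribute [instance] KummerSystem.instA KummerSystem.fgA KummerSystem.instJ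

namespace KummerSystem

variable {N p : ℕ} [NeZero N] [hp : Fact p.Prime] (K : KummerSystem N p)

/-- Compatible sequences `(x n) ∈ ∏ J n` (the Tate module). -/
def TSeq : AddSubgroup (∀ n, K.J n) where
  carrier := {x | ∀ n, K.π n (x (n + 1)) = x n}
  add_mem' := by
    intro a b ha hb n
    simp only [Set.mem_ofPred_eq] at ha hb
    simp only [Pi.add_apply, map_add, ha n, hb n]
  zero_mem' := by
    intro n
    simp only [Pi.zero_apply, map_zero]
  neg_mem' := by
    intro a ha n
    simp only [Set.mem_ofPred_eq] at ha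
    simp only [Pi.neg_apply, map_neg, ha n]

/-- Compatible families of endomorphisms of the `J n`. -/
def CEnd : Subring (∀ n, AddMonoid.End (K.J n)) where
  carrier := {F | ∀ n (x : K.J (n + 1)), K.π n (F (n + 1) x) = F n (K.π n x)}
  mul_mem' := by
    intro F G hF hG n x
    simp only [Set.mem_ofPred_eq] at hF hG
    simp only [Pi.mul_apply, end_mul_apply, hF n, hG n]
  one_mem' := by
    intro n x
    simp only [Pi.one_apply, end_one_apply]
  add_mem' := by
    intro F G hF hG n x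
    simp only [Set.mem_ofPred_eq] at hF hG
    simp only [Pi.add_apply, end_add_apply, map_add, hF n, hG n]
  zero_mem' := by
    intro n x
    simp only [Pi.zero_apply, end_zero_apply, map_zero]
  neg_mem' := by
    intro F hF n x
    simp only [Set.mem_ofPred_eq] at hF
    simp only [Pi.neg_apply, end_neg_apply, map_neg, hF n]

/-- A compatible family of endomorphisms acts on compatible sequences. -/
def app (F : K.CEnd) (x : K.TSeq) : K.TSeq :=
  ⟨fun n => F.1 n (x.1 n), fun n => by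
    have h1 := F.2 n (x.1 (n + 1))
    have h2 := x.2 n
    rw [h1, h2]⟩

@[simp] theorem app_apply (F : K.CEnd) (x : K.TSeq) (n : ℕ) :
    (K.app F x).1 n = F.1 n (x.1 n) := rfl

/-- The values at `a` of the coordinates of a compatible sequence form a compatible sequence. -/
def seqAt (x : K.TSeq) (a : K.A) : Compat p :=
  ⟨fun n => K.e n (x.1 n) a, fun n => by
    have h := K.e_π n (x.1 (n + 1)) a
    rw [x.2 n] at h
    exact h.symm⟩

/-- The `p`-adic limit of the coordinates of a compatible sequence, evaluated at `a`. -/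
noncomputable def lim (x : K.TSeq) (a : K.A) : ℤ_[p] := limZp p (K.seqAt x a)

@[simp] theorem toZModPow_lim (x : K.TSeq) (a : K.A) (n : ℕ) :
    PadicInt.toZModPow n (K.lim x a) = K.e n (x.1 n) a := by
  simp [lim, seqAt]

/-- `lim x` as an additive hom `A →+ ℤ_p`. -/
noncomputable def limHom (x : K.TSeq) : K.A →+ ℤ_[p] :=
  AddMonoidHom.mk' (K.lim x) (by
    intro a b
    rw [← PadicInt.ext_of_toZModPow]
    intro n
    simp only [map_add, toZModPow_lim])

@[simp] theorem limHom_apply (x : K.TSeq) (a : K.A) : K.limHom x a = K.lim x a := rfl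

variable (D : DualSys K.A)

/-- The basis vectors of the Tate module: the sequences with coordinates `b j mod p^n`. -/
def ε (j : Fin D.r) : K.TSeq :=
  ⟨fun n => (K.e n).symm ((Int.castAddHom (ZMod (p ^ n))).comp (D.b j)), fun n => by
    apply (K.e n).injective
    ext a
    rw [K.e_π, AddEquiv.apply_symm_apply, AddEquiv.apply_symm_apply]
    simp only [AddMonoidHom.comp_apply, Int.coe_castAddHom, map_intCast]⟩

theorem e_ε (j : Fin D.r) (n : ℕ) (a : K.A) :
    K.e n ((K.ε D j).1 n) a = ((D.b j a : ℤ) : ZMod (p ^ n)) := by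
  simp [ε]

/-- The matrix of a compatible family of endomorphisms on the Tate module. -/
noncomputable def mat (F : K.CEnd) : Matrix (Fin D.r) (Fin D.r) ℤ_[p] :=
  fun i j => K.lim (K.app F (K.ε D j)) (D.a i)

theorem toZModPow_mat (F : K.CEnd) (i j : Fin D.r) (n : ℕ) :
    PadicInt.toZModPow n (K.mat D F i j) = K.e n (F.1 n ((K.ε D j).1 n)) (D.a i) := by
  simp [mat]

theorem toZModPow_one (i j : Fin D.r) (n : ℕ) :
    PadicInt.toZModPow n ((1 : Matrix (Fin D.r) (Fin D.r) ℤ_[p]) i j)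
      = K.e n ((K.ε D j).1 n) (D.a i) := by
  rw [e_ε, D.b_a, Matrix.one_apply]
  by_cases h : i = j
  · simp [h]
  · have : ¬ j = i := fun h' => h h'.symm
    simp [h, this]

theorem e_expand (x : K.TSeq) (n : ℕ) (a : K.A) :
    K.e n (x.1 n) a = ∑ j, ((D.b j a : ℤ) : ZMod (p ^ n)) * K.e n (x.1 n) (D.a j) := by
  have h := D.expand (K.limHom x) a
  have h2 := congrArg (PadicInt.toZModPow n) h
  simpa only [limHom_apply, toZModPow_lim, map_sum, map_mul, map_intCast] using h2

theorem eq_sum_ε (x : K.TSeq) (n : ℕ) :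
    x.1 n = ∑ j, (K.e n (x.1 n) (D.a j)).val • (K.ε D j).1 n := by
  apply (K.e n).injective
  ext a
  rw [map_sum, AddMonoidHom.finsetSum_apply, K.e_expand D x n a]
  refine Finset.sum_congr rfl fun j _ => ?_
  rw [map_nsmul, AddMonoidHom.nsmul_apply, e_ε, nsmul_eq_mul, ZMod.natCast_zmod_val, mul_comm]

theorem lim_app (F : K.CEnd) (x : K.TSeq) (i : Fin D.r) :
    K.lim (K.app F x) (D.a i) = ∑ j, K.mat D F i j * K.lim x (D.a j) := by
  rw [← PadicInt.ext_of_toZModPow]
  intro n
  simp only [toZModPow_lim, app_apply, map_sum, map_mul, toZModPow_mat]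
  have h : K.e n (F.1 n (x.1 n)) (D.a i)
      = K.e n (F.1 n (∑ j, (K.e n (x.1 n) (D.a j)).val • (K.ε D j).1 n)) (D.a i) :=
    congrArg (fun y => K.e n (F.1 n y) (D.a i)) (K.eq_sum_ε D x n)
  rw [h, map_sum, map_sum, AddMonoidHom.finsetSum_apply]
  refine Finset.sum_congr rfl fun j _ => ?_
  rw [map_nsmul, map_nsmul, AddMonoidHom.nsmul_apply, nsmul_eq_mul, ZMod.natCast_zmod_val,
    mul_comm]

/-- The matrix of a compatible family, as a ring hom. -/
noncomputable def matHom : K.CEnd →+* Matrix (Fin D.r) (Fin D.r) ℤ_[p] where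
  toFun := K.mat D
  map_one' := by
    ext i j
    rw [← PadicInt.ext_of_toZModPow]
    intro n
    rw [toZModPow_mat, toZModPow_one]
    simp
  map_mul' := by
    intro F G
    ext i j
    rw [Matrix.mul_apply]
    have h : K.app (F * G) (K.ε D j) = K.app F (K.app G (K.ε D j)) := by
      apply Subtype.ext
      funext n
      simp [end_mul_apply]
    change K.lim (K.app (F * G) (K.ε D j)) (D.a i) = _
    rw [h, K.lim_app D F]
    rfl
  map_zero' := by
    ext i j
    rw [← PadicInt.ext_of_toZModPow]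
    intro n
    rw [toZModPow_mat]
    simp
  map_add' := by
    intro F G
    ext i j
    rw [← PadicInt.ext_of_toZModPow]
    intro n
    rw [Matrix.add_apply, map_add, toZModPow_mat, toZModPow_mat, toZModPow_mat]
    simp [end_add_apply]

@[simp] theorem matHom_apply (F : K.CEnd) : K.matHom D F = K.mat D F := rfl

/-- The Galois action as a monoid hom into the compatible families. -/
noncomputable def actC : GQ →* K.CEnd where
  toFun σ := ⟨fun n => K.act n σ, fun n x => K.π_act n σ x⟩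
  map_one' := by
    apply Subtype.ext
    funext n
    simp
  map_mul' := by
    intro σ σ'
    apply Subtype.ext
    funext n
    simp

@[simp] theorem actC_apply (σ : GQ) (n : ℕ) : (K.actC σ).1 n = K.act n σ := rfl

open Classical in
/-- The Hecke operators as compatible families (zero at the irrelevant `ℓ`). -/
noncomputable def TC (ℓ : ℕ) : K.CEnd :=
  if h : ℓ.Prime ∧ ¬ ℓ ∣ N ∧ ℓ ≠ p then
    ⟨fun n => K.T n ℓ, fun n x => by
      apply (K.e n).injective
      ext a
      rw [K.e_π, K.e_T n ℓ h.1 h.2.1 h.2.2, K.e_T (n + 1) ℓ h.1 h.2.1 h.2.2, K.e_π]⟩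
  else 0

theorem TC_apply {ℓ : ℕ} (h1 : ℓ.Prime) (h2 : ¬ ℓ ∣ N) (h3 : ℓ ≠ p) (n : ℕ) :
    (K.TC ℓ).1 n = K.T n ℓ := by
  have h : ℓ.Prime ∧ ¬ ℓ ∣ N ∧ ℓ ≠ p := ⟨h1, h2, h3⟩
  simp [TC, h]

theorem TC_of_not {ℓ : ℕ} (h : ¬ (ℓ.Prime ∧ ¬ ℓ ∣ N ∧ ℓ ≠ p)) : K.TC ℓ = 0 := by
  simp [TC, h]

open Classical in
/-- The integer Hecke matrices on the lattice `Hom(A, ℤ)` (zero at the irrelevant `ℓ`). -/
noncomputable def tMat (ℓ : ℕ) : Matrix (Fin D.r) (Fin D.r) ℤ :=
  if ℓ.Prime ∧ ¬ ℓ ∣ N ∧ ℓ ≠ p then Matrix.of fun i j => D.b j (K.τ ℓ (D.a i)) else 0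

theorem tMat_apply {ℓ : ℕ} (h : ℓ.Prime ∧ ¬ ℓ ∣ N ∧ ℓ ≠ p) (i j : Fin D.r) :
    K.tMat D ℓ i j = D.b j (K.τ ℓ (D.a i)) := by
  simp [tMat, h]

theorem matHom_TC (ℓ : ℕ) :
    K.matHom D (K.TC ℓ) = (K.tMat D ℓ).map (Int.castRingHom ℤ_[p]) := by
  by_cases h : ℓ.Prime ∧ ¬ ℓ ∣ N ∧ ℓ ≠ p
  · ext i j
    rw [← PadicInt.ext_of_toZModPow]
    intro n
    rw [matHom_apply, toZModPow_mat, K.TC_apply h.1 h.2.1 h.2.2, K.e_T n ℓ h.1 h.2.1 h.2.2, e_ε,
      Matrix.map_apply, K.tMat_apply D h, Int.coe_castRingHom, map_intCast]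
  · rw [K.TC_of_not h, map_zero]
    simp [tMat, h]

theorem TC_comm (ℓ ℓ' : ℕ) : K.TC ℓ * K.TC ℓ' = K.TC ℓ' * K.TC ℓ := by
  by_cases h : ℓ.Prime ∧ ¬ ℓ ∣ N ∧ ℓ ≠ p
  · by_cases h' : ℓ'.Prime ∧ ¬ ℓ' ∣ N ∧ ℓ' ≠ p
    · apply Subtype.ext
      funext n
      apply AddMonoidHom.ext
      intro x
      change ((K.TC ℓ).1 n) (((K.TC ℓ').1 n) x) = ((K.TC ℓ').1 n) (((K.TC ℓ).1 n) x)
      rw [K.TC_apply h.1 h.2.1 h.2.2, K.TC_apply h'.1 h'.2.1 h'.2.2]
      exact K.T_comm n ℓ ℓ' h.1 h.2.1 h.2.2 h'.1 h'.2.1 h'.2.2 x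
    · rw [K.TC_of_not h', mul_zero, zero_mul]
  · rw [K.TC_of_not h, mul_zero, zero_mul]

theorem actC_TC_comm (σ : GQ) (ℓ : ℕ) : K.actC σ * K.TC ℓ = K.TC ℓ * K.actC σ := by
  by_cases h : ℓ.Prime ∧ ¬ ℓ ∣ N ∧ ℓ ≠ p
  · apply Subtype.ext
    funext n
    apply AddMonoidHom.ext
    intro x
    change (K.act n σ) (((K.TC ℓ).1 n) x) = ((K.TC ℓ).1 n) ((K.act n σ) x)
    rw [K.TC_apply h.1 h.2.1 h.2.2]
    exact K.act_T n σ ℓ h.1 h.2.1 h.2.2 x
  · rw [K.TC_of_not h, mul_zero, zero_mul]

theorem tMat_comm (ℓ ℓ' : ℕ) : Commute (K.tMat D ℓ) (K.tMat D ℓ') := by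
  have h := congrArg (K.matHom D) (K.TC_comm ℓ ℓ')
  rw [map_mul, map_mul, matHom_TC, matHom_TC, ← Matrix.map_mul, ← Matrix.map_mul] at h
  exact Matrix.map_injective (Int.cast_injective (α := ℤ_[p])) h

/-- The `p`-adic Galois representation on the Tate module, in the coordinates of `D`. -/
noncomputable def rho : GQ →* Matrix (Fin D.r) (Fin D.r) ℤ_[p] :=
  (K.matHom D).toMonoidHom.comp K.actC

theorem rho_apply (σ : GQ) : K.rho D σ = K.matHom D (K.actC σ) := rfl

/-- The Eichler–Shimura matrix data of a Kummer system, in the coordinates of `D`. -/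
noncomputable def toESData : ESData N p where
  r := D.r
  t := K.tMat D
  ρ := K.rho D
  t_comm := K.tMat_comm D
  ρ_comm := by
    intro σ ℓ
    change K.rho D σ * _ = _ * K.rho D σ
    rw [rho_apply, ← matHom_TC, ← map_mul, ← map_mul, K.actC_TC_comm]
  cont := by
    intro n
    obtain ⟨L, hL, hσ⟩ := K.cont n
    refine ⟨L, hL, fun σ hfix i j => ?_⟩
    rw [← PadicInt.ker_toZModPow, RingHom.mem_ker, Matrix.sub_apply, map_sub, rho_apply,
      matHom_apply, toZModPow_mat, toZModPow_one, actC_apply, hσ σ hfix, sub_self]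
  unr := by
    intro q hq hqN hqp P hP σ hσ
    have h1 : K.actC σ = 1 := by
      apply Subtype.ext
      funext n
      apply AddMonoidHom.ext
      intro x
      change (K.act n σ) x = x
      exact K.unr q hq hqN hqp P hP σ hσ n x
    rw [rho_apply, h1, map_one]
  es := by
    intro ℓ hℓ hℓN hℓp B hB σ hσ
    have h1 : K.actC σ * K.actC σ - K.TC ℓ * K.actC σ + (ℓ : K.CEnd) = 0 := by
      apply Subtype.ext
      funext n
      apply AddMonoidHom.ext
      intro x
      change (K.act n σ) ((K.act n σ) x) - ((K.TC ℓ).1 n) ((K.act n σ) x) + ℓ • x = 0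
      rw [K.TC_apply hℓ hℓN hℓp]
      exact K.es ℓ hℓ hℓN hℓp B hB σ hσ n x
    have h2 := congrArg (K.matHom D) h1
    rw [map_add, map_sub, map_mul, map_mul, map_natCast, map_zero, matHom_TC] at h2
    exact h2
  occ := by
    obtain ⟨Φ, hinj, hadd, hT⟩ := K.occ
    refine ⟨(LinearMap.pi fun i : Fin D.r => LinearMap.proj (D.a i)).comp Φ, ?_, ?_⟩
    · rw [injective_iff_map_eq_zero]
      intro f hf
      apply hinj
      rw [map_zero]
      funext x
      have hx := D.expand (AddMonoidHom.mk' (Φ f) (hadd f)) x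
      simp only [AddMonoidHom.mk'_apply] at hx
      rw [hx]
      simp only [Pi.zero_apply]
      refine Finset.sum_eq_zero fun i _ => ?_
      have hi := congrFun hf i
      simp only [LinearMap.comp_apply, LinearMap.pi_apply, LinearMap.proj_apply,
        Pi.zero_apply] at hi
      rw [hi, mul_zero]
    · intro ℓ hℓ hℓN hℓp f
      funext i
      simp only [LinearMap.comp_apply, LinearMap.pi_apply, LinearMap.proj_apply]
      rw [hT ℓ hℓ hℓN hℓp f (D.a i)]
      have hx := D.expand (AddMonoidHom.mk' (Φ f) (hadd f)) (K.τ ℓ (D.a i))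
      simp only [AddMonoidHom.mk'_apply] at hx
      rw [hx, Matrix.mulVec, dotProduct]
      refine Finset.sum_congr rfl fun j _ => ?_
      have h : ℓ.Prime ∧ ¬ ℓ ∣ N ∧ ℓ ≠ p := ⟨hℓ, hℓN, hℓp⟩
      rw [Matrix.map_apply, K.tMat_apply D h, Int.coe_castRingHom]
      rfl

/-- **The `p`-adic limit assembly**: a Kummer system yields Eichler–Shimura matrix data. -/
theorem nonempty_esData (K : KummerSystem N p) : Nonempty (ESData N p) := by
  obtain ⟨D⟩ := nonempty_dualSys K.A
  exact ⟨K.toESData D⟩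

end KummerSystem

end Fermat.Agent.S30.PadicLimit
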