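/-
S30 / E4–E5: the cycle lemma `KummerHeckeDiv.TransferTrivial` and its consequences (helper51).

`KummerHeckeDiv.lean` (helper206) reduces "`T_ℓ` preserves `m ∣ div`" (`E4.HeckeDiv`,
`E4.HeckeClosed`) to one group-theoretic statement `TransferTrivial N ℓ hℓ hℓN`: the transfer
`γ ↦ ∏ₓ χ (coc γ x)` of a character `χ` of `Γ₀(N)` which is trivial on elliptic and (±) parabolic
elements is again trivial on elliptic and parabolic elements.  This is the cycle argument of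
`BettiHecke/CycleSum.lean` (`sum_coc_eq_zero`), once one knows

* `tr(γ)² < 4`  ⇒ `γ` has a fixed point in `ℍ`   (`Producer.ParEllBrick.exists_fixed_of_trace_sq_lt`),
* `tr(γ)² = 4`  ⇒ `γ = ± g Tⁿ g⁻¹`              (`S21.exists_conj_upper`, `S21.upper_eq_T_zpow`),
* a fixed point in `ℍ` ⇒ `tr(γ)² ≤ 4`            (`trace_sq_le_of_fixed` below),
* `tr(g Tⁿ g⁻¹) = 2`                             (`trace_conj_T_zpow` below).

Main results (all unconditional):

* `transferTrivial N ℓ hℓ hℓN : KummerHeckeDiv.TransferTrivial N ℓ hℓ hℓN`;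
* `heckeDiv N ℓ : E4.HeckeDiv N ℓ` (every `ℓ`);
* `heckeClosed N hℓ hℓN z hz : E4.HeckeClosed N ℓ hℓ.pos z`;
* `closed N : Producer.Bricks.Closed N`.
-/
import Mathlib
import Fermat.Agent.S30.KummerHeckeDiv
import Fermat.Agent.S30.BettiHecke.CycleSum
import Fermat.Agent.S30.Producer.ParEllBrick
import Fermat.Agent.S30.E4.Fields

set_option autoImplicit false

noncomputable section

open scoped MatrixGroups
open CongruenceSubgroup UpperHalfPlane ModularCurve

namespace Fermat.Agent.S30.TransferTrivialProof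

/-- An element of `SL(2, ℤ)` with a fixed point in `ℍ` has `tr² ≤ 4`
(indeed `tr² = 4 - 4 c² y²`). -/
theorem trace_sq_le_of_fixed (g : SL(2, ℤ)) (τ : ℍ) (h : g • τ = τ) :
    (g : Matrix (Fin 2) (Fin 2) ℤ).trace ^ 2 ≤ 4 := by
  have hdet : g 0 0 * g 1 1 - g 0 1 * g 1 0 = 1 := by
    have := g.det_coe
    rwa [Matrix.det_fin_two] at this
  rw [Matrix.trace_fin_two]
  set A : ℝ := (g 0 0 : ℝ) with hA
  set B : ℝ := (g 0 1 : ℝ) with hB
  set C : ℝ := (g 1 0 : ℝ) with hC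
  set D : ℝ := (g 1 1 : ℝ) with hD
  have hdetR : A * D - B * C = 1 := by
    rw [hA, hB, hC, hD]
    exact_mod_cast hdet
  set x : ℝ := (τ : ℂ).re with hx
  set y : ℝ := (τ : ℂ).im with hy
  have hypos : 0 < y := τ.im_pos
  have hτ : (τ : ℂ) = ⟨x, y⟩ := rfl
  have h1 : ((g • τ : ℍ) : ℂ) = (τ : ℂ) := by rw [h]
  rw [UpperHalfPlane.coe_specialLinearGroup_apply] at h1
  have hden : ((algebraMap ℤ ℝ (g 1 0) : ℝ) : ℂ) * (τ : ℂ) + ((algebraMap ℤ ℝ (g 1 1) : ℝ) : ℂ)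
      ≠ 0 := by
    intro h0
    rw [h0, div_zero] at h1
    have him := congrArg Complex.im h1
    rw [Complex.zero_im] at him
    exact hypos.ne him
  rw [div_eq_iff hden, hτ] at h1
  have hre := congrArg Complex.re h1
  have him := congrArg Complex.im h1
  simp only [Complex.add_re, Complex.mul_re, Complex.ofReal_re, Complex.ofReal_im, zero_mul,
    sub_zero, Complex.add_im, Complex.mul_im, add_zero] at hre him
  have hre' : A * x + B = x * (C * x + D) - y * (C * y) := hre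
  have him' : A * y = x * (C * y) + y * (C * x + D) := him
  have e1 : A - D = 2 * C * x := by
    have h2 : y * (A - D - 2 * C * x) = 0 := by linear_combination him'
    rcases mul_eq_zero.mp h2 with h3 | h3
    · exact absurd h3 hypos.ne'
    · linarith
  have e2 : B = -C * x ^ 2 - C * y ^ 2 := by linear_combination hre' - x * e1
  have key : (A + D) ^ 2 = 4 - 4 * C ^ 2 * y ^ 2 := by
    linear_combination (A - D + 2 * C * x) * e1 + 4 * hdetR + 4 * C * e2
  have key2 : (A + D) ^ 2 ≤ 4 := by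
    rw [key]
    nlinarith [sq_nonneg (C * y)]
  rw [hA, hD] at key2
  exact_mod_cast key2

/-- `tr (g Tⁿ g⁻¹) = 2`. -/
theorem trace_conj_T_zpow (g : SL(2, ℤ)) (n : ℤ) :
    ((g * ModularGroup.T ^ n * g⁻¹ : SL(2, ℤ)) : Matrix (Fin 2) (Fin 2) ℤ).trace = 2 := by
  have h1 : ((g * ModularGroup.T ^ n * g⁻¹ : SL(2, ℤ)) : Matrix (Fin 2) (Fin 2) ℤ)
      = (g : Matrix (Fin 2) (Fin 2) ℤ) * ((ModularGroup.T ^ n : SL(2, ℤ)) : Matrix (Fin 2) (Fin 2) ℤ)
        * ((g⁻¹ : SL(2, ℤ)) : Matrix (Fin 2) (Fin 2) ℤ) := by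
    simp only [Matrix.SpecialLinearGroup.coe_mul]
  have h2 : ((g⁻¹ : SL(2, ℤ)) : Matrix (Fin 2) (Fin 2) ℤ) * (g : Matrix (Fin 2) (Fin 2) ℤ) = 1 := by
    rw [← Matrix.SpecialLinearGroup.coe_mul, inv_mul_cancel, Matrix.SpecialLinearGroup.coe_one]
  rw [h1, Matrix.trace_mul_cycle, h2, one_mul, ModularGroup.coe_T_zpow, Matrix.trace_fin_two]
  simp

variable (N ℓ : ℕ)

/-- **The cycle lemma** `KummerHeckeDiv.TransferTrivial`, unconditionally. -/
theorem transferTrivial [NeZero ℓ] (hℓ : ℓ.Prime) (hℓN : ¬ ℓ ∣ N) :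
    KummerHeckeDiv.TransferTrivial N ℓ hℓ hℓN := by
  intro χ hell hpar hnpar γ hγ
  have hχ : ∀ g : Gamma0 N,
      ((g : SL(2, ℤ)) : Matrix (Fin 2) (Fin 2) ℤ).trace ^ 2 ≤ 4 → χ g = 1 := by
    intro g hg
    rcases lt_or_eq_of_le hg with hlt | heq
    · exact hell g (Producer.ParEllBrick.exists_fixed_of_trace_sq_lt _ hlt)
    · obtain ⟨δ, hδ⟩ := Fermat.Agent.S21.exists_conj_upper (g : SL(2, ℤ)) heq
      obtain ⟨n, hn⟩ := Fermat.Agent.S21.upper_eq_T_zpow _ hδ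
      have hgeq : (g : SL(2, ℤ)) = δ * (δ⁻¹ * (g : SL(2, ℤ)) * δ) * δ⁻¹ := by group
      rcases hn with hn | hn
      · refine hpar g δ n ?_
        rw [← hn]
        exact hgeq
      · refine hnpar g δ n ?_
        have h2 : δ * (-ModularGroup.T ^ n) * δ⁻¹ = -(δ * ModularGroup.T ^ n * δ⁻¹) := by
          rw [mul_neg, neg_mul]
        rw [← h2, ← hn]
        exact hgeq
  have htr : ((γ : SL(2, ℤ)) : Matrix (Fin 2) (Fin 2) ℤ).trace ^ 2 ≤ 4 := by
    rcases hγ with ⟨τ, hτ⟩ | ⟨g, n, hg⟩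
    · exact trace_sq_le_of_fixed _ τ hτ
    · rw [hg, trace_conj_T_zpow]
      norm_num
  have h := BettiHecke.CycleSum.sum_coc_eq_zero hℓ hℓN (MonoidHom.toAdditive χ)
    (fun g hg => by
      show Additive.ofMul (χ g) = 0
      rw [hχ g hg]
      rfl) γ htr
  have h2 : Additive.ofMul (∏ x : OnePoint (ZMod ℓ), χ (BettiHecke.coc hℓ hℓN γ x)) = 0 := by
    rw [ofMul_prod]
    exact h
  exact h2

variable [NeZero N]

/-- **`T_ℓ` preserves `m ∣ div`** (`E4.HeckeDiv`), for every `ℓ`. -/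
theorem heckeDiv : E4.HeckeDiv N ℓ := by
  intro m f hf hdiv
  by_cases h : ℓ.Prime ∧ ¬ ℓ ∣ N
  · have : NeZero ℓ := ⟨h.1.ne_zero⟩
    have h1 := KummerHeckeDiv.divBy_heckeFN' h.1 h.2 (transferTrivial N ℓ h.1 h.2)
      (E4.zetaU_spec h.1.pos) m hf hdiv
    have h2 : E4.heckeFb N ℓ f = KummerHecke.heckeFN h.1 h.2 (E4.zetaU_spec h.1.pos) f :=
      Subtype.ext (E4.coe_heckeFb N h.1 h.2 f)
    rw [h2]
    exact h1
  · have h2 : E4.heckeFb N ℓ f = f := by
      unfold E4.heckeFb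
      rw [dif_neg h]
    rw [h2]
    exact hdiv

variable {ℓ}

/-- **`E4.HeckeClosed`** at every primitive `ℓ`-th root of unity, `ℓ ∤ N` prime. -/
theorem heckeClosed (hℓ : ℓ.Prime) (hℓN : ¬ ℓ ∣ N) (z : (AlgebraicClosure ℚ)ˣ) (hz : IsPrimitiveRoot z ℓ) :
    E4.HeckeClosed N ℓ hℓ.pos z :=
  haveI : NeZero ℓ := ⟨hℓ.ne_zero⟩
  KummerHeckeDiv.heckeClosed_of_transferTrivial hℓ hℓN (transferTrivial N ℓ hℓ hℓN) z hz

/-- **Brick `Prod.Closed`** (`E4.HeckeClosed` at the producer's root of unity `zeta ℓ`). -/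
theorem closed : Producer.Bricks.Closed N := fun _ hℓ hℓN =>
  heckeClosed N hℓ hℓN _ (Producer.zeta_spec hℓ.pos)

end Fermat.Agent.S30.TransferTrivialProof
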